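import Fermat.Agent.IdeleClassCohomology.KummerLayer

/-!
# Elements that are units times powers outside `S`

`powerElts` and their classes `powerClasses`, counted in `card_powerClasses` through the units and
the `S`-class group.
-/

set_option autoImplicit false

noncomputable section

namespace FLTAgent.IdeleClassCohomology

open FLTAgent.GalCoh FLTAgent.GlobalDuality Module NumberField

variable (p : ℕ) [hp : Fact p.Prime] (K : IntermediateField ℚ QQbar) [FiniteDimensional ℚ K]
  (S : Finset Nat.Primes)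

/-- The ideles that are units outside `S`. -/
def awayUnits : AddSubgroup (fixedPts K.fixingSubgroup Idele) where
  carrier := {x | ∀ q ∉ S, ∀ σ, x.1.at q σ ∈ unitsAt q}
  zero_mem' q _ σ := (unitsAt q).zero_mem
  add_mem' {a b} ha hb q hq σ := by
    rw [AddSubgroup.coe_add, Idele.at_add]
    exact (unitsAt q).add_mem (ha q hq σ) (hb q hq σ)
  neg_mem' {a} ha q hq σ := by
    show (Idele.atHom q σ) (-a.1) ∈ unitsAt q
    rw [map_neg]
    exact (unitsAt q).neg_mem (ha q hq σ)

/-- The `S`-class group. -/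
abbrev SClass : Type :=
  fixedPts K.fixingSubgroup Idele ⧸ ((fixedPrincipal K).range ⊔ awayUnits K S)

/-- Elements that are, outside `S`, units times `p`-th powers. -/
def powerElts : AddSubgroup (fixedPts K.fixingSubgroup GU) :=
  (((nsmulAddMonoidHom p : fixedPts K.fixingSubgroup Idele →+ _).range ⊔ awayUnits K S)).comap
    (fixedPrincipal K)

/-- Their power classes. -/
def powerClasses : AddSubgroup (PowClass p K) :=
  (powerElts p K S).map (QuotientAddGroup.mk' (powers p K))

variable {p K S}

theorem finite_sClass : Finite (SClass K S) := by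
  have : Finite (Additive (ClassGroup (𝓞 K))) := inferInstanceAs (Finite (ClassGroup (𝓞 K)))
  refine Nat.finite_of_card_ne_zero fun h0 => ?_
  have hle : (ideleClassGroup K).ker ≤ (fixedPrincipal K).range ⊔ awayUnits K S := by
    intro x hx
    obtain ⟨b, hb, hu⟩ := exists_eq_principal_add_unit K hx
    rw [show x = fixedPrincipal K ⟨b, hb⟩ + (x - fixedPrincipal K ⟨b, hb⟩) by abel]
    refine add_mem (AddSubgroup.mem_sup_left ⟨_, rfl⟩) (AddSubgroup.mem_sup_right fun q _ σ => ?_)
    exact hu q σ
  have h1 := AddSubgroup.index_dvd_of_le hle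
  rw [show ((fixedPrincipal K).range ⊔ awayUnits K S).index = 0 from h0,
    AddSubgroup.index_ker] at h1
  exact Nat.card_pos.ne' (Nat.eq_zero_of_zero_dvd h1)

omit [FiniteDimensional ℚ K] in
theorem mem_awayUnits_of_nsmul {n : ℕ} (hn : n ≠ 0) {y : fixedPts K.fixingSubgroup Idele}
    (h : n • y ∈ awayUnits K S) : y ∈ awayUnits K S := by
  intro q hq σ
  refine mem_unitsAt_of_nsmul hn ?_
  have h1 := h q hq σ
  rw [AddSubgroup.coe_nsmul, at_nsmul] at h1
  exact h1

omit hp [FiniteDimensional ℚ K] in
theorem exists_of_mem_powerElts {a : fixedPts K.fixingSubgroup GU} (ha : a ∈ powerElts p K S) :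
    ∃ y : fixedPts K.fixingSubgroup Idele, fixedPrincipal K a - p • y ∈ awayUnits K S := by
  obtain ⟨_, ⟨y, rfl⟩, j, hj, e⟩ := AddSubgroup.mem_sup.1 (AddSubgroup.mem_comap.1 ha)
  refine ⟨y, ?_⟩
  rw [← e]
  show p • y + j - p • y ∈ awayUnits K S
  rwa [add_sub_cancel_left]

omit hp [FiniteDimensional ℚ K] in
theorem mem_powerElts {a : fixedPts K.fixingSubgroup GU} {y : fixedPts K.fixingSubgroup Idele}
    (h : fixedPrincipal K a - p • y ∈ awayUnits K S) : a ∈ powerElts p K S :=
  AddSubgroup.mem_comap.2 (AddSubgroup.mem_sup.2 ⟨p • y, ⟨y, rfl⟩, _, h, by abel⟩)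

omit hp [FiniteDimensional ℚ K] in
theorem powers_le_powerElts : powers p K ≤ powerElts p K S := by
  rintro _ ⟨b, rfl⟩
  refine mem_powerElts (y := fixedPrincipal K b) ?_
  rw [show fixedPrincipal K (nsmulAddMonoidHom p b) = p • fixedPrincipal K b from
    map_nsmul _ p b, sub_self]
  exact zero_mem _

omit hp [FiniteDimensional ℚ K] in
theorem mem_powerElts_of_mk {a : fixedPts K.fixingSubgroup GU}
    (h : QuotientAddGroup.mk' (powers p K) a ∈ powerClasses p K S) : a ∈ powerElts p K S := by
  obtain ⟨b, hb, e⟩ := h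
  obtain ⟨z, hz, rfl⟩ := (QuotientAddGroup.mk'_eq_mk' _).1 e
  exact add_mem hb (powers_le_powerElts hz)

omit hp [FiniteDimensional ℚ K] in
theorem exists_norm_eq_of_powerElts {a : fixedPts K.fixingSubgroup GU} (ha : a ∈ powerElts p K S)
    {q : Nat.Primes} (hq : q ∉ S) (σ : Gam) :
    ∃ e : K, ‖placeEmb K q σ e‖ ^ p = ‖emb q (σ a.1.val)‖ := by
  obtain ⟨y, hy⟩ := exists_of_mem_powerElts ha
  obtain ⟨e, -, he⟩ := exists_norm_at_eq (q := q) (σ := σ) y.2
  refine ⟨e, ?_⟩
  have h1 := hy q hq σ
  rw [AddSubgroup.coe_sub, AddSubgroup.coe_nsmul, Idele.at_sub, at_nsmul, at_fixedPrincipal,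
    mem_unitsAt_iff] at h1
  change ‖(((principal a.1).at q σ).toMul / (p • y.1.at q σ).toMul :
    (PadicAlgCl (q : ℕ))ˣ).val‖ = 1 at h1
  rw [Units.val_div_eq_div_val, norm_div] at h1
  change ‖emb q (σ a.1.val)‖ / ‖(p • y.1.at q σ).val‖ = 1 at h1
  rw [LU.val_nsmul, norm_pow, div_eq_one_iff_eq
    (pow_ne_zero _ (norm_ne_zero_iff.2 (Units.ne_zero _)))] at h1
  rw [he, h1]

/-- The count of the power classes. -/
theorem card_powerClasses (hK : HasRoots p K) {R : Finset (Nat.Primes × Gam)} (hR : IsPlaces K R)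
    (hcov : covered K R = {j | j.1 ∈ S}) :
    Nat.card (powerClasses p K S) = p ^ (R.card + Fintype.card (InfinitePlace K)) *
      (nsmulAddMonoidHom p : SClass K S →+ SClass K S).range.index := by
  classical
  have := finite_sClass (K := K) (S := S)
  set π := QuotientAddGroup.mk' ((fixedPrincipal K).range ⊔ awayUnits K S)
  have hex : ∀ w : powerClasses p K S, ∃ a y,
      QuotientAddGroup.mk' (powers p K) a = w.1 ∧ fixedPrincipal K a - p • y ∈ awayUnits K S := by
    rintro ⟨w, a, ha, rfl⟩
    obtain ⟨y, hy⟩ := exists_of_mem_powerElts ha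
    exact ⟨a, y, rfl, hy⟩
  choose av yv hav hyv using hex
  have hwd : ∀ (w : powerClasses p K S) (a : fixedPts K.fixingSubgroup GU)
      (y : fixedPts K.fixingSubgroup Idele), QuotientAddGroup.mk' (powers p K) a = w.1 →
      fixedPrincipal K a - p • y ∈ awayUnits K S → π y = π (yv w) := by
    intro w a y haw hy
    obtain ⟨_, ⟨b, rfl⟩, e⟩ := (QuotientAddGroup.mk'_eq_mk' _).1 ((hav w).trans haw.symm)
    have h1 : p • (yv w + fixedPrincipal K b - y) ∈ awayUnits K S := by
      have h2 := sub_mem hy (hyv w)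
      rw [← e, map_add] at h2
      change fixedPrincipal K (av w) + fixedPrincipal K (p • b) - p • y -
        (fixedPrincipal K (av w) - p • yv w) ∈ _ at h2
      rw [map_nsmul] at h2
      convert h2 using 1
      rw [nsmul_sub, nsmul_add]
      abel
    symm
    refine (QuotientAddGroup.mk'_eq_mk' _).2 ⟨fixedPrincipal K b - (yv w + fixedPrincipal K b - y),
      sub_mem (AddSubgroup.mem_sup_left ⟨b, rfl⟩)
        (AddSubgroup.mem_sup_right (mem_awayUnits_of_nsmul hp.out.ne_zero h1)), by abel⟩
  let Φ : powerClasses p K S →+ SClass K S := AddMonoidHom.mk' (fun w => π (yv w)) fun w w' => by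
    rw [← map_add]
    refine (hwd (w + w') (av w + av w') (yv w + yv w')
      (by rw [map_add, hav, hav, AddSubgroup.coe_add]) ?_).symm
    rw [map_add, nsmul_add, add_sub_add_comm]
    exact add_mem (hyv w) (hyv w')
  have hrange : Φ.range = (nsmulAddMonoidHom p : SClass K S →+ SClass K S).ker := by
    ext z
    constructor
    · rintro ⟨w, rfl⟩
      show p • π (yv w) = 0
      rw [← map_nsmul]
      refine (QuotientAddGroup.eq_zero_iff _).2 ?_
      rw [show p • yv w = fixedPrincipal K (av w) - (fixedPrincipal K (av w) - p • yv w) by abel]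
      exact sub_mem (AddSubgroup.mem_sup_left ⟨_, rfl⟩) (AddSubgroup.mem_sup_right (hyv w))
    · intro hz
      obtain ⟨y, rfl⟩ := QuotientAddGroup.mk'_surjective _ z
      have hz' : π (p • y) = 0 := (map_nsmul π p y).trans hz
      obtain ⟨_, ⟨a, rfl⟩, j, hj, e⟩ :=
        AddSubgroup.mem_sup.1 ((QuotientAddGroup.eq_zero_iff _).1 hz')
      have hay : fixedPrincipal K a - p • y ∈ awayUnits K S := by
        rw [← e, sub_add_cancel_left]
        exact neg_mem hj
      exact ⟨⟨_, a, mem_powerElts hay, rfl⟩, (hwd ⟨_, a, mem_powerElts hay, rfl⟩ a y rfl hay).symm⟩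
  have hker : Φ.ker.map (powerClasses p K S).subtype =
      (placeUnits K R).map (QuotientAddGroup.mk' (powers p K)) := by
    ext z
    constructor
    · rintro ⟨w, hw, rfl⟩
      obtain ⟨_, ⟨b, rfl⟩, j, hj, e⟩ := AddSubgroup.mem_sup.1
        ((QuotientAddGroup.eq_zero_iff (yv w)).1 hw)
      refine ⟨av w - p • b, fun k hk => ?_, ?_⟩
      · have h1 : fixedPrincipal K (av w - p • b) ∈ awayUnits K S := by
          rw [map_sub, map_nsmul, show fixedPrincipal K (av w) - p • fixedPrincipal K b =
            fixedPrincipal K (av w) - p • yv w + p • j by rw [← e, nsmul_add]; abel]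
          exact add_mem (hyv w) (nsmul_mem hj p)
        exact h1 k.1 (fun hS => hk (by rw [hcov]; exact hS)) k.2
      · rw [map_sub, hav, show QuotientAddGroup.mk' (powers p K) (p • b) = 0 from
          (QuotientAddGroup.eq_zero_iff _).2 ⟨b, rfl⟩, sub_zero]
        rfl
    · rintro ⟨a, ha, rfl⟩
      have hay :
          fixedPrincipal K a - p • (0 : fixedPts K.fixingSubgroup Idele) ∈ awayUnits K S := by
        rw [nsmul_zero, sub_zero]
        intro q hq σ
        exact ha (q, σ) (fun h => hq (by rw [hcov] at h; exact h))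
      refine ⟨⟨_, a, mem_powerElts hay, rfl⟩, ?_, rfl⟩
      exact (hwd ⟨_, a, mem_powerElts hay, rfl⟩ a 0 rfl hay).symm.trans (map_zero π)
  have h1 := AddSubgroup.card_mul_index Φ.ker
  rw [AddSubgroup.index_ker, hrange, ← AddSubgroup.card_subtype (powerClasses p K S) Φ.ker, hker,
    card_placeUnits_classes hK hR] at h1
  rw [← h1]
  congr 1
  set f := (nsmulAddMonoidHom p : SClass K S →+ SClass K S)
  have h2 := AddSubgroup.card_mul_index f.ker
  rw [AddSubgroup.index_ker] at h2
  have h3 := AddSubgroup.card_mul_index f.range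
  exact Nat.eq_of_mul_eq_mul_left (Nat.card_pos (α := f.range))
    ((mul_comm _ _).trans (h2.trans h3.symm))

end FLTAgent.IdeleClassCohomology
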