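import Fermat.Agent.IdeleClassCohomology.Places
import Mathlib.NumberTheory.NumberField.Basic
import Mathlib.NumberTheory.NumberField.ClassNumber
import Mathlib.RingTheory.DedekindDomain.AdicValuation
import Mathlib.RingTheory.DedekindDomain.Factorization

/-!
# Places of a number field as primes of its ring of integers; finiteness of the class group of
ideles

`placeIdeal K q σ` is the prime of `𝓞 K` cut out by the place `(q, σ)`. Fixed ideles modulo
principal ideles and units embed into the ideal class group.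
-/

set_option autoImplicit false

noncomputable section

open IsDedekindDomain NumberField WithZero

namespace FLTAgent.IdeleClassCohomology

open FLTAgent.GalCoh FLTAgent.GlobalDuality FLTAgent.LocalDuality

instance numberField_of_finite (K : IntermediateField ℚ QQbar) [FiniteDimensional ℚ K] :
    NumberField K where

variable {K : IntermediateField ℚ QQbar} [FiniteDimensional ℚ K] {q q' : Nat.Primes}
  {σ σ' : Gam}

omit [FiniteDimensional ℚ K] in
theorem norm_placeEmb_le_one (a : 𝓞 K) : ‖placeEmb K q σ a‖ ≤ 1 :=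
  norm_emb_le_one_of_isIntegral q (((a.2).map K.val).map (σ : QQbar →ₐ[ℚ] QQbar))

/-- The norm of `q` in `PadicAlgCl q` is `q⁻¹`. -/
theorem norm_natCast_self (q : Nat.Primes) :
    ‖((q : ℕ) : PadicAlgCl (q : ℕ))‖ = ((q : ℕ) : ℝ)⁻¹ := by
  rw [← map_natCast (algebraMap ℚ_[(q : ℕ)] (PadicAlgCl (q : ℕ))), norm_algebraMap']
  exact Padic.norm_p

/-- The inverse of a prime is less than one. -/
theorem inv_prime_lt_one (q : Nat.Primes) : ((q : ℕ) : ℝ)⁻¹ < 1 :=
  inv_lt_one_of_one_lt₀ (by exact_mod_cast q.2.one_lt)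

variable (K q σ) in
/-- The prime of `𝓞 K` at the place `(q, σ)`. -/
def placeIdeal : HeightOneSpectrum (𝓞 K) where
  asIdeal :=
    { carrier := {a | ‖placeEmb K q σ a‖ < 1}
      zero_mem' := by simp
      add_mem' := fun {a b} (ha : ‖_‖ < 1) (hb : ‖_‖ < 1) => by
        show ‖_‖ < 1
        push_cast
        rw [map_add]
        exact lt_of_le_of_lt (IsUltrametricDist.norm_add_le_max _ _) (max_lt ha hb)
      smul_mem' := fun c a (ha : ‖_‖ < 1) => by
        show ‖_‖ < 1
        rw [smul_eq_mul]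
        push_cast
        rw [map_mul, norm_mul]
        exact lt_of_le_of_lt (mul_le_of_le_one_left (norm_nonneg _) (norm_placeEmb_le_one c)) ha }
  isPrime := by
    refine ⟨fun h => ?_, fun {a b} hab => ?_⟩
    · have h1 : ‖placeEmb K q σ ((1 : 𝓞 K) : K)‖ < 1 := (Ideal.eq_top_iff_one _).1 h
      simp at h1
    · by_contra hc
      rw [not_or] at hc
      change ¬ ‖_‖ < 1 ∧ ¬ ‖_‖ < 1 at hc
      change ‖placeEmb K q σ ((a * b : 𝓞 K) : K)‖ < 1 at hab
      push_cast at hab
      rw [map_mul, norm_mul, le_antisymm (norm_placeEmb_le_one a) (not_lt.1 hc.1),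
        le_antisymm (norm_placeEmb_le_one b) (not_lt.1 hc.2), one_mul] at hab
      exact lt_irrefl _ hab
  ne_bot := fun h => by
    have hq : ((q : ℕ) : 𝓞 K) ∈ (⊥ : Ideal (𝓞 K)) := by
      rw [← h]
      show ‖_‖ < 1
      simpa [norm_natCast_self] using inv_prime_lt_one q
    rw [Submodule.mem_bot, Nat.cast_eq_zero] at hq
    exact q.2.ne_zero hq

omit [FiniteDimensional ℚ K] in
theorem mem_placeIdeal {a : 𝓞 K} :
    a ∈ (placeIdeal K q σ).asIdeal ↔ ‖placeEmb K q σ a‖ < 1 := Iff.rfl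

theorem norm_placeEmb_eq_one {u : K} (hu : (placeIdeal K q σ).valuation K u = 1) :
    ‖placeEmb K q σ u‖ = 1 := by
  set v := placeIdeal K q σ
  obtain ⟨n, d, h⟩ := v.exists_primeCompl_mul_eq_of_integer u hu.le
  have hone : ∀ a : 𝓞 K, a ∉ v.asIdeal → ‖placeEmb K q σ (algebraMap _ K a)‖ = 1 := fun a ha =>
    le_antisymm (norm_placeEmb_le_one a) (not_lt.1 ha)
  have hd := hone d d.2
  have hn : n ∉ v.asIdeal := by
    intro hn
    have h1 := congrArg (v.valuation K) h
    rw [map_mul, hu, one_mul, (v.valuation_eq_one_iff_notMem).2 d.2] at h1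
    exact ((v.valuation_lt_one_iff_mem n).2 hn).ne h1.symm
  have h2 := congrArg (fun y => ‖placeEmb K q σ y‖) h
  simp only [map_mul, norm_mul, hd, hone n hn, mul_one] at h2
  exact h2

variable (K q σ) in
/-- The order at the place `(q, σ)`. -/
def placeOrd (x : K) : ℤ := -log ((placeIdeal K q σ).valuation K x)

variable (K q σ) in
theorem exists_norm_eq_zpow : ∃ c : ℝ, 0 < c ∧ c < 1 ∧
    ∀ x : K, x ≠ 0 → ‖placeEmb K q σ x‖ = c ^ placeOrd K q σ x := by
  obtain ⟨π, hπ⟩ := (placeIdeal K q σ).valuation_exists_uniformizer' K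
  have hπ0 : (π : K) ≠ 0 := by
    intro h
    have h' := (congrArg ((placeIdeal K q σ).valuation K) h).symm.trans hπ
    rw [map_zero] at h'
    exact exp_ne_zero h'.symm
  refine ⟨‖placeEmb K q σ π‖, norm_pos_iff.2 fun h => hπ0 ((map_eq_zero _).1 h), ?_,
    fun x hx => ?_⟩
  · apply (mem_placeIdeal (a := π)).1
    rw [← (placeIdeal K q σ).valuation_lt_one_iff_mem (K := K)]
    rw [hπ, ← exp_zero, exp_lt_exp]
    norm_num
  · have hv : (placeIdeal K q σ).valuation K x ≠ 0 := (Valuation.ne_zero_iff _).2 hx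
    have hu : (placeIdeal K q σ).valuation K (x * (π : K) ^ (-placeOrd K q σ x)) = 1 := by
      rw [map_mul, map_zpow₀, hπ, ← exp_zsmul, placeOrd, neg_neg, smul_neg, zsmul_one,
        Int.cast_id, exp_neg, exp_log hv, mul_inv_cancel₀ hv]
    have := norm_placeEmb_eq_one hu
    rw [map_mul, map_zpow₀, norm_mul, norm_zpow, zpow_neg] at this
    exact eq_of_mul_inv_eq_one this

theorem placeOrd_natCast_ne_zero : placeOrd K q σ ((q : ℕ) : K) ≠ 0 := by
  obtain ⟨c, -, -, h⟩ := exists_norm_eq_zpow K q σ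
  intro h0
  have h1 := h _ (Nat.cast_ne_zero.2 q.2.ne_zero)
  rw [h0, zpow_zero, map_natCast, norm_natCast_self] at h1
  exact (inv_prime_lt_one q).ne h1

omit [FiniteDimensional ℚ K] in
theorem eq_prime_of_placeIdeal_eq (h : placeIdeal K q σ = placeIdeal K q' σ') : q = q' := by
  by_contra hne
  have h1 : ((q : ℕ) : 𝓞 K) ∈ (placeIdeal K q' σ').asIdeal := by
    rw [← h, mem_placeIdeal]
    simpa [norm_natCast_self] using inv_prime_lt_one q
  rw [mem_placeIdeal] at h1
  have h2 : ¬((q' : ℕ) : ℤ) ∣ ((q : ℕ) : ℤ) := by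
    rw [Int.natCast_dvd_natCast, Nat.prime_dvd_prime_iff_eq q'.2 q.2]
    exact fun h => hne (Subtype.ext h.symm)
  have h3 := norm_intCast_eq_one h2
  simp at h1 h3
  exact h1.ne h3

theorem norm_eq_of_placeIdeal_eq (h : placeIdeal K q σ = placeIdeal K q σ') (x : K) :
    ‖placeEmb K q σ x‖ = ‖placeEmb K q σ' x‖ := by
  rcases eq_or_ne x 0 with rfl | hx
  · simp
  obtain ⟨c, hc, -, hf⟩ := exists_norm_eq_zpow K q σ
  obtain ⟨d, hd, -, hg⟩ := exists_norm_eq_zpow K q σ'
  have hord : ∀ y : K, placeOrd K q σ' y = placeOrd K q σ y := fun y => by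
    rw [placeOrd, placeOrd, h]
  have hq0 : ((q : ℕ) : K) ≠ 0 := Nat.cast_ne_zero.2 q.2.ne_zero
  have h1 := hf _ hq0
  have h2 := hg _ hq0
  rw [map_natCast, norm_natCast_self] at h1 h2
  rw [hord] at h2
  have hcd : c = d :=
    zpow_left_injOn₀ (n := placeOrd K q σ ((q : ℕ) : K)) placeOrd_natCast_ne_zero hc.le hd.le
      (h1.symm.trans h2)
  rw [hf x hx, hg x hx, hord, hcd]

theorem Idele.norm_at_eq_of_placeIdeal_eq {x : Idele} (hx : x ∈ fixedPts K.fixingSubgroup Idele)
    (h : placeIdeal K q σ = placeIdeal K q σ') : ‖(x.at q σ).val‖ = ‖(x.at q σ').val‖ := by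
  obtain ⟨τ, hτ⟩ := exists_loc_mul_eq (fun y => (norm_eq_of_placeIdeal_eq h y).symm)
  have h1 := Idele.mem_fixedPts_iff.1 hx q (loc q τ * σ) _ hτ
  rw [show loc q τ * σ * ((loc q τ * σ)⁻¹ * σ') = σ' by group] at h1
  rw [h1, Idele.at_loc_mul, norm_smul_LU]

omit [FiniteDimensional ℚ K] in
theorem exists_norm_at_eq {x : Idele} (hx : x ∈ fixedPts K.fixingSubgroup Idele) :
    ∃ a : K, a ≠ 0 ∧ ‖placeEmb K q σ a‖ = ‖(x.at q σ).val‖ :=
  exists_norm_placeEmb_eq (at_mem_locField hx) (Units.ne_zero _)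

/-- The ideles all of whose components are units. -/
def unitIdeles : AddSubgroup Idele where
  carrier := {x | ∀ q σ, x.at q σ ∈ unitsAt q}
  zero_mem' q _ := (unitsAt q).zero_mem
  add_mem' ha hb q σ := (unitsAt q).add_mem (ha q σ) (hb q σ)
  neg_mem' ha q σ := (unitsAt q).neg_mem (ha q σ)

theorem smul_mem_unitIdeles (g : Gam) {x : Idele} (hx : x ∈ unitIdeles) : g • x ∈ unitIdeles :=
  fun q σ => hx q (σ * g)

section ClassGroup

variable (K)

/-- The order of a fixed idele at a place. -/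
def ideleOrdAt (x : fixedPts K.fixingSubgroup Idele) (q : Nat.Primes) (σ : Gam) : ℤ :=
  placeOrd K q σ (exists_norm_at_eq (q := q) (σ := σ) x.2).choose

theorem placeOrd_eq_of_norm_eq {a b : K} (ha : a ≠ 0) (hb : b ≠ 0)
    (h : ‖placeEmb K q σ a‖ = ‖placeEmb K q σ b‖) : placeOrd K q σ a = placeOrd K q σ b := by
  obtain ⟨c, hc, hc1, hf⟩ := exists_norm_eq_zpow K q σ
  rw [hf a ha, hf b hb] at h
  exact zpow_right_injective₀ hc hc1.ne h

theorem ideleOrdAt_eq (x : fixedPts K.fixingSubgroup Idele) {a : K} (ha : a ≠ 0)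
    (h : ‖placeEmb K q σ a‖ = ‖(x.1.at q σ).val‖) : ideleOrdAt K x q σ = placeOrd K q σ a := by
  obtain ⟨hb, hb'⟩ := (exists_norm_at_eq (q := q) (σ := σ) x.2).choose_spec
  exact placeOrd_eq_of_norm_eq K hb ha (hb'.trans h.symm)

theorem ideleOrdAt_add (x y : fixedPts K.fixingSubgroup Idele) :
    ideleOrdAt K (x + y) q σ = ideleOrdAt K x q σ + ideleOrdAt K y q σ := by
  obtain ⟨a, ha, ha'⟩ := exists_norm_at_eq (q := q) (σ := σ) x.2
  obtain ⟨b, hb, hb'⟩ := exists_norm_at_eq (q := q) (σ := σ) y.2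
  rw [ideleOrdAt_eq K x ha ha', ideleOrdAt_eq K y hb hb',
    ideleOrdAt_eq K (x + y) (mul_ne_zero ha hb)]
  · rw [placeOrd, placeOrd, placeOrd, map_mul, log_mul ((Valuation.ne_zero_iff _).2 ha)
      ((Valuation.ne_zero_iff _).2 hb), neg_add]
  · rw [map_mul, norm_mul, ha', hb']
    show _ = ‖((x.1 + y.1).at q σ).val‖
    rw [Idele.at_add, LU.val_add, norm_mul]

theorem ideleOrdAt_eq_zero_iff (x : fixedPts K.fixingSubgroup Idele) :
    ideleOrdAt K x q σ = 0 ↔ x.1.at q σ ∈ unitsAt q := by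
  obtain ⟨a, ha, ha'⟩ := exists_norm_at_eq (q := q) (σ := σ) x.2
  obtain ⟨c, hc, hc1, hf⟩ := exists_norm_eq_zpow K q σ
  rw [ideleOrdAt_eq K x ha ha', mem_unitsAt_iff, ← ha', hf a ha]
  exact ⟨fun h => by rw [h, zpow_zero],
    fun h => zpow_right_injective₀ hc hc1.ne (h.trans (zpow_zero c).symm)⟩

open Classical in
/-- The divisor of a fixed idele. -/
def ideleDiv (x : fixedPts K.fixingSubgroup Idele) (v : HeightOneSpectrum (𝓞 K)) : ℤ :=
  if h : ∃ i : Nat.Primes × Gam, placeIdeal K i.1 i.2 = v then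
    ideleOrdAt K x h.choose.1 h.choose.2 else 0

theorem ideleDiv_placeIdeal (x : fixedPts K.fixingSubgroup Idele) :
    ideleDiv K x (placeIdeal K q σ) = ideleOrdAt K x q σ := by
  have h : ∃ i : Nat.Primes × Gam, placeIdeal K i.1 i.2 = placeIdeal K q σ := ⟨(q, σ), rfl⟩
  rw [ideleDiv, dif_pos h]
  have hs := h.choose_spec
  generalize h.choose = i at hs ⊢
  obtain ⟨r, ρ⟩ := i
  obtain rfl : r = q := eq_prime_of_placeIdeal_eq hs
  obtain ⟨a, ha, ha'⟩ := exists_norm_at_eq (q := r) (σ := ρ) x.2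
  rw [ideleOrdAt_eq K x ha ha', ideleOrdAt_eq K x ha (q := r) (σ := σ)]
  · rw [placeOrd, placeOrd, hs]
  · rw [← norm_eq_of_placeIdeal_eq hs, ha', Idele.norm_at_eq_of_placeIdeal_eq x.2 hs]

theorem finite_setOf_placeIdeal (q : Nat.Primes) :
    {v : HeightOneSpectrum (𝓞 K) | ∃ σ, placeIdeal K q σ = v}.Finite := by
  have hI : Ideal.span {((q : ℕ) : 𝓞 K)} ≠ 0 := by
    rw [Ne, Ideal.zero_eq_bot, Ideal.span_singleton_eq_bot, Nat.cast_eq_zero]
    exact q.2.ne_zero
  refine (Ideal.finite_factors hI).subset ?_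
  rintro _ ⟨σ, rfl⟩
  rw [Set.mem_ofPred_eq, Ideal.dvd_iff_le, Ideal.span_le, Set.singleton_subset_iff]
  show ((q : ℕ) : 𝓞 K) ∈ (placeIdeal K q σ).asIdeal
  rw [mem_placeIdeal]
  simpa [norm_natCast_self] using inv_prime_lt_one q

theorem ideleDiv_add (x y : fixedPts K.fixingSubgroup Idele) (v : HeightOneSpectrum (𝓞 K)) :
    ideleDiv K (x + y) v = ideleDiv K x v + ideleDiv K y v := by
  by_cases h : ∃ i : Nat.Primes × Gam, placeIdeal K i.1 i.2 = v
  · obtain ⟨⟨q, σ⟩, rfl⟩ := h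
    rw [ideleDiv_placeIdeal, ideleDiv_placeIdeal, ideleDiv_placeIdeal, ideleOrdAt_add]
  · rw [ideleDiv, dif_neg h, ideleDiv, dif_neg h, ideleDiv, dif_neg h, add_zero]

theorem eventually_ideleDiv_eq_zero (x : fixedPts K.fixingSubgroup Idele) :
    ∀ᶠ v in Filter.cofinite, ideleDiv K x v = 0 := by
  rw [Filter.eventually_cofinite]
  refine ((x.1.finite_nonunit.biUnion fun q _ => finite_setOf_placeIdeal K q).subset ?_)
  intro v (hv : ¬ ideleDiv K x v = 0)
  by_cases h : ∃ i : Nat.Primes × Gam, placeIdeal K i.1 i.2 = v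
  · obtain ⟨⟨q, σ⟩, rfl⟩ := h
    rw [ideleDiv_placeIdeal, ideleOrdAt_eq_zero_iff] at hv
    exact Set.mem_biUnion (show q ∈ {q : Nat.Primes | ∃ σ, x.1.at q σ ∉ unitsAt q} from ⟨σ, hv⟩)
      ⟨σ, rfl⟩
  · exact absurd (by rw [ideleDiv, dif_neg h]) hv

/-- The fractional ideal of a fixed idele. -/
def ideleIdeal (x : fixedPts K.fixingSubgroup Idele) :
    FractionalIdeal (nonZeroDivisors (𝓞 K)) K :=
  ∏ᶠ v : HeightOneSpectrum (𝓞 K),
    (v.asIdeal : FractionalIdeal (nonZeroDivisors (𝓞 K)) K) ^ ideleDiv K x v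

theorem ideleIdeal_ne_zero (x : fixedPts K.fixingSubgroup Idele) : ideleIdeal K x ≠ 0 := by
  classical
  rw [ideleIdeal, finprod_eq_finsetProd_of_mulSupport_subset
    (s := (Filter.eventually_cofinite.1 (eventually_ideleDiv_eq_zero K x)).toFinset)]
  · exact Finset.prod_ne_zero_iff.2 fun v _ =>
      zpow_ne_zero _ (FractionalIdeal.coeIdeal_ne_zero.mpr v.ne_bot)
  · intro v hv
    rw [Function.mem_mulSupport] at hv
    rw [Set.Finite.coe_toFinset]
    exact fun h => hv (by rw [h, zpow_zero])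

theorem ideleIdeal_add (x y : fixedPts K.fixingSubgroup Idele) :
    ideleIdeal K (x + y) = ideleIdeal K x * ideleIdeal K y := by
  have hfin : ∀ z : fixedPts K.fixingSubgroup Idele,
      (Function.HasFiniteMulSupport fun v : HeightOneSpectrum (𝓞 K) =>
        (v.asIdeal : FractionalIdeal (nonZeroDivisors (𝓞 K)) K) ^ ideleDiv K z v) := fun z =>
    (Filter.eventually_cofinite.1 (eventually_ideleDiv_eq_zero K z)).subset fun v hv h => by
      rw [Function.mem_mulSupport] at hv
      exact hv (by rw [h, zpow_zero])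
  rw [ideleIdeal, ideleIdeal, ideleIdeal, ← finprod_mul_distrib (hfin x) (hfin y)]
  refine finprod_congr fun v => ?_
  rw [ideleDiv_add, zpow_add₀ (FractionalIdeal.coeIdeal_ne_zero.mpr v.ne_bot)]

/-- The ideal class of a fixed idele. -/
def ideleClassGroup : fixedPts K.fixingSubgroup Idele →+ Additive (ClassGroup (𝓞 K)) :=
  AddMonoidHom.mk' (fun x => Additive.ofMul (ClassGroup.mk K
    (Units.mk0 (ideleIdeal K x) (ideleIdeal_ne_zero K x)))) fun x y => by
      rw [← ofMul_mul, ← map_mul]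
      refine congrArg (fun u => Additive.ofMul (ClassGroup.mk K u)) (Units.ext ?_)
      exact ideleIdeal_add K x y

theorem count_spanSingleton {a : K} (ha : a ≠ 0) (v : HeightOneSpectrum (𝓞 K)) :
    FractionalIdeal.count K v (FractionalIdeal.spanSingleton (nonZeroDivisors (𝓞 K)) a) =
      -log (v.valuation K a) := by
  classical
  obtain ⟨⟨n, d⟩, hx⟩ := IsLocalization.surj (nonZeroDivisors (𝓞 K)) a
  simp only at hx
  have hd : (d : 𝓞 K) ≠ 0 := nonZeroDivisors.ne_zero d.2
  have hdK : algebraMap (𝓞 K) K d ≠ 0 := by simp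
  have hn : n ≠ 0 := by
    rintro rfl
    rw [map_zero, mul_eq_zero] at hx
    exact hx.elim ha hdK
  have hne : ∀ r : 𝓞 K, r ≠ 0 → v.intValuation r ≠ 0 := fun r hr => v.intValuation_ne_zero r hr
  have hcoe : ∀ r : 𝓞 K, r ≠ 0 → FractionalIdeal.count K v
      (FractionalIdeal.spanSingleton (nonZeroDivisors (𝓞 K)) (algebraMap (𝓞 K) K r)) =
      -log (v.valuation K (algebraMap (𝓞 K) K r)) := by
    intro r hr
    rw [← FractionalIdeal.coeIdeal_span_singleton, FractionalIdeal.count_coe K v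
      (by rwa [Ne, Ideal.zero_eq_bot, Ideal.span_singleton_eq_bot]), v.valuation_of_algebraMap,
      v.intValuation_if_neg hr, log_exp, neg_neg]
  have h1 := hcoe n hn
  rw [← hx, ← FractionalIdeal.spanSingleton_mul_spanSingleton, map_mul,
    log_mul ((Valuation.ne_zero_iff _).2 ha) ((Valuation.ne_zero_iff _).2 hdK),
    FractionalIdeal.count_mul K v, hcoe d hd] at h1
  · linarith
  · exact FractionalIdeal.spanSingleton_ne_zero_iff.2 ha
  · exact FractionalIdeal.spanSingleton_ne_zero_iff.2 hdK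

/-- An element of `K` as a fixed global unit. -/
def fixedUnit {a : K} (ha : a ≠ 0) : fixedPts K.fixingSubgroup GU :=
  ⟨Additive.ofMul (Units.mk0 (a : QQbar) fun h => ha (Subtype.ext h)), fun s hs => GU.ext (by
    rw [GU.val_smul]
    exact (IntermediateField.mem_fixingSubgroup_iff _ _).1 hs a a.2)⟩

omit [FiniteDimensional ℚ K] in
theorem norm_at_principal_fixedUnit {a : K} (ha : a ≠ 0) :
    ‖((principal (fixedUnit K ha).1).at q σ).val‖ = ‖placeEmb K q σ a‖ := rfl

/-- The class group kills only principal ideles and units. -/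
theorem exists_eq_principal_add_unit {x : fixedPts K.fixingSubgroup Idele}
    (hx : ideleClassGroup K x = 0) :
    ∃ a ∈ fixedPts K.fixingSubgroup GU, x.1 - principal a ∈ unitIdeles := by
  have h1 : ClassGroup.mk K (Units.mk0 (ideleIdeal K x) (ideleIdeal_ne_zero K x)) = 1 :=
    congrArg Additive.toMul hx
  rw [← (ClassGroup.equiv K).injective.eq_iff, map_one, ClassGroup.equiv_mk,
    QuotientGroup.mk'_apply, QuotientGroup.eq_one_iff, MonoidHom.mem_range] at h1
  obtain ⟨u, hu⟩ := h1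
  rw [toPrincipalIdeal_eq_iff] at hu
  simp only [Units.coe_mapEquiv, Units.val_mk0, FractionalIdeal.canonicalEquiv_self] at hu
  refine ⟨(fixedUnit K u.ne_zero).1, (fixedUnit K u.ne_zero).2, fun q σ => ?_⟩
  have h2 : ideleOrdAt K x q σ = placeOrd K q σ (u : K) := by
    have h := congrArg (FractionalIdeal.count K (placeIdeal K q σ)) hu
    rw [count_spanSingleton K u.ne_zero] at h
    rw [ideleIdeal] at h
    change _ = FractionalIdeal.count K _ (∏ᶠ v : HeightOneSpectrum (𝓞 K), _) at h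
    rw [FractionalIdeal.count_finprod K _ _ (eventually_ideleDiv_eq_zero K x),
      ideleDiv_placeIdeal] at h
    exact h.symm
  obtain ⟨a, ha, ha'⟩ := exists_norm_at_eq (q := q) (σ := σ) x.2
  obtain ⟨c, -, -, hf⟩ := exists_norm_eq_zpow K q σ
  rw [mem_unitsAt_iff, Idele.at_sub]
  show ‖((x.1.at q σ).toMul / ((principal (fixedUnit K u.ne_zero).1).at q σ).toMul :
    (PadicAlgCl (q : ℕ))ˣ).val‖ = 1
  rw [Units.val_div_eq_div_val, norm_div]
  show ‖(x.1.at q σ).val‖ / ‖placeEmb K q σ (u : K)‖ = 1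
  rw [← ha', hf a ha, hf _ u.ne_zero, ← ideleOrdAt_eq K x ha ha', h2, div_self]
  rw [← hf _ u.ne_zero]
  exact norm_ne_zero_iff.2 fun h => u.ne_zero ((map_eq_zero _).1 h)

theorem isIntegral_of_forall_norm_le_one {x : QQbar}
    (h : ∀ (q : Nat.Primes) (σ : Gam), ‖emb q (σ x)‖ ≤ 1) : IsIntegral ℤ x := by
  classical
  have hx : IsIntegral ℚ x := Algebra.IsIntegral.isIntegral x
  set P := minpoly ℚ x
  have key : ∀ i, ∃ n : ℤ, (n : ℚ) = P.coeff i := by
    intro i
    suffices ∀ q : Nat.Primes, ¬ ((q : ℕ) : ℤ) ∣ ((P.coeff i).den : ℤ) by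
      have hden : (P.coeff i).den = 1 := by
        rw [Nat.eq_one_iff_not_exists_prime_dvd]
        exact fun r hr hd => this ⟨r, hr⟩ (Int.natCast_dvd_natCast.2 hd)
      exact ⟨(P.coeff i).num, Rat.coe_int_num_of_den_eq_one hden⟩
    intro q hd
    set A := padicIntegers (q : ℕ)
    have hroots : ∀ y ∈ (P.map (algebraMap ℚ QQbar)).roots, emb q y ∈ A := by
      intro y hy
      rw [Polynomial.mem_roots (Polynomial.map_ne_zero (minpoly.ne_zero hx)),
        Polynomial.IsRoot.def, Polynomial.eval_map_algebraMap] at hy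
      obtain ⟨σ, rfl⟩ := IsConjRoot.exists_algEquiv
        ((isConjRoot_iff_aeval_eq_zero hx).2 hy).symm
      exact (mem_padicIntegers_iff (q : ℕ)).2 (by exact_mod_cast h q σ)
    have hlift : P.map (algebraMap ℚ (PadicAlgCl (q : ℕ))) ∈
        Polynomial.lifts A.subtype := by
      rw [← (emb q).comp_algebraMap, ← Polynomial.map_map,
        (IsAlgClosed.splits (P.map (algebraMap ℚ QQbar))).eq_prod_roots,
        ((minpoly.monic hx).map _).leadingCoeff, map_one, one_mul, Polynomial.map_multiset_prod,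
        Multiset.map_map]
      refine multiset_prod_mem _ fun y hy => ?_
      obtain ⟨z, hz, rfl⟩ := Multiset.mem_map.1 hy
      show Polynomial.map _ (Polynomial.X - Polynomial.C z) ∈ _
      rw [Polynomial.map_sub, Polynomial.map_X, Polynomial.map_C]
      refine (Polynomial.mem_lifts _).2 ⟨Polynomial.X - Polynomial.C ⟨_, hroots z hz⟩, ?_⟩
      rw [Polynomial.map_sub, Polynomial.map_X, Polynomial.map_C]
      rfl
    obtain ⟨⟨z, hz⟩, hz'⟩ := (Polynomial.lifts_iff_coeff_lifts _).1 hlift i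
    rw [Polynomial.coeff_map] at hz'
    change z = _ at hz'
    rw [hz', eq_ratCast, mem_padicIntegers_iff, ← map_ratCast
      (algebraMap ℚ_[(q : ℕ)] (PadicAlgCl (q : ℕ))), ← NNReal.coe_le_coe, coe_nnnorm,
      norm_algebraMap'] at hz
    have h1 : ¬((q : ℕ) : ℤ) ∣ ((P.coeff i).num : ℤ) := fun hn => by
      have := Int.natAbs_dvd_natAbs.2 hn
      rw [Int.natAbs_natCast] at this
      exact q.2.not_dvd_one ((P.coeff i).reduced ▸ Nat.dvd_gcd this
        (Int.natCast_dvd_natCast.1 hd))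
    rw [Rat.cast_def, norm_div] at hz
    have e1 : ‖((P.coeff i).num : ℚ_[(q : ℕ)])‖ = 1 := Padic.norm_intCast_eq_one_iff.2
      ((Nat.prime_iff_prime_int.1 q.2).coprime_iff_not_dvd.2 h1).symm
    rw [e1, div_le_iff₀ (norm_pos_iff.2 (Nat.cast_ne_zero.2 (P.coeff i).den_nz)),
      NNReal.coe_one, one_mul] at hz
    have e2 : ‖((((P.coeff i).den : ℤ)) : ℚ_[(q : ℕ)])‖ < 1 := (Padic.norm_intCast_lt_one_iff).2 hd
    rw [Int.cast_natCast] at e2
    exact absurd hz (not_le.2 e2)
  choose n hn using key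
  refine ⟨∑ i ∈ Finset.range (P.natDegree + 1), Polynomial.C (n i) * Polynomial.X ^ i, ?_, ?_⟩
  · refine Polynomial.monic_of_natDegree_le_of_coeff_eq_one P.natDegree ?_ ?_
    · refine Polynomial.natDegree_sum_le_of_forall_le _ _ fun i hi => ?_
      exact (Polynomial.natDegree_C_mul_X_pow_le _ _).trans
        (Nat.lt_succ_iff.1 (Finset.mem_range.1 hi))
    · have e : (n P.natDegree : ℚ) = 1 := (hn _).trans (minpoly.monic hx).coeff_natDegree
      simp [Polynomial.finsetSum_coeff, Int.cast_eq_one.1 e]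
  · rw [← Polynomial.aeval_def, map_sum]
    simp only [map_mul, Polynomial.aeval_C, map_pow, Polynomial.aeval_X]
    conv_rhs => rw [← minpoly.aeval ℚ x, Polynomial.aeval_eq_sum_range]
    refine Finset.sum_congr rfl fun i _ => ?_
    rw [Algebra.smul_def, ← hn i, map_intCast, eq_intCast]

end ClassGroup

theorem at_nsmul (n : ℕ) (x : Idele) (q : Nat.Primes) (σ : Gam) :
    (n • x).at q σ = n • x.at q σ :=
  map_nsmul (Idele.atHom q σ) n x

end FLTAgent.IdeleClassCohomology
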