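import Fermat.Agent.IdeleClassCohomology.KummerField
import Fermat.Agent.Density.Inertia

/-!
# Adjoining roots of elements that are powers up to units is unramified away from the exponent

`exists_rootLayer`: the roots of the conjugates of such an element lie in a larger `S`-layer.
-/

set_option autoImplicit false

noncomputable section

open scoped Pointwise

namespace FLTAgent.IdeleClassCohomology

open FLTAgent.GalCoh FLTAgent.GlobalDuality FLTAgent.LocalDuality

theorem eq_one_of_norm_sub_one_lt {q : Nat.Primes} {n : ℕ} (hn : ¬ (q : ℕ) ∣ n)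
    {t : PadicAlgCl (q : ℕ)} (ht : t ^ n = 1) (h : ‖t - 1‖ < 1) : t = 1 := by
  by_contra hne
  have hsum : (∑ i ∈ Finset.range n, t ^ i) = 0 := by
    have h1 := geom_sum_mul t n
    rw [ht, sub_self, mul_eq_zero] at h1
    exact h1.resolve_right (sub_ne_zero.2 hne)
  have hti : ∀ i : ℕ, ‖t ^ i - 1‖ < 1 := by
    intro i
    induction i with
    | zero => simp
    | succ i ih =>
      rw [show t ^ (i + 1) - 1 = (t ^ i - 1) * t + (t - 1) by ring]
      refine lt_of_le_of_lt (IsUltrametricDist.norm_add_le_max _ _) (max_lt ?_ h)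
      rw [norm_mul]
      refine lt_of_le_of_lt (mul_le_of_le_one_right (norm_nonneg _) ?_) ih
      rw [show t = (t - 1) + 1 by ring]
      exact (IsUltrametricDist.norm_add_le_max _ _).trans (max_le h.le norm_one.le)
  have hnorm : ‖(n : PadicAlgCl (q : ℕ))‖ = 1 := by
    rw [← map_natCast (algebraMap ℚ_[(q : ℕ)] (PadicAlgCl (q : ℕ))), norm_algebraMap']
    exact Padic.norm_natCast_eq_one_iff.2 ((Nat.Prime.coprime_iff_not_dvd q.2).2 hn)
  have hlt : ‖∑ i ∈ Finset.range n, (t ^ i - 1)‖ < 1 := by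
    rcases Nat.eq_zero_or_pos n with h0 | h0
    · rw [h0]; simp
    obtain ⟨i, -, hi⟩ := IsUltrametricDist.exists_norm_finsetSum_le_of_nonempty
      (Finset.nonempty_range_iff.2 h0.ne') (fun i => t ^ i - 1)
    exact lt_of_le_of_lt hi (hti i)
  rw [Finset.sum_sub_distrib, hsum, Finset.sum_const, Finset.card_range, nsmul_one, zero_sub,
    norm_neg, hnorm] at hlt
  exact lt_irrefl _ hlt

/-- An inertia element fixes a root whose norms are attained by fixed elements. -/
theorem apply_eq_of_inertia {q : Nat.Primes} {n : ℕ} (hn : ¬ (q : ℕ) ∣ n)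
    {A : ValuationSubring QQbar} (hA : A.LiesOverPrime (q : ℕ)) {σ : Gam}
    (hσ : σ ∈ A.inertiaSubgroupIn ℚ) {z : QQbar} (hfix : σ (z ^ n) = z ^ n)
    (he : ∀ δ : Gam, ∃ e : QQbar, σ e = e ∧ ‖emb q (δ e)‖ = ‖emb q (δ z)‖) : σ z = z := by
  rcases eq_or_ne z 0 with rfl | hz
  · exact map_zero σ
  have hP : (padicPlace (q : ℕ)).LiesOverPrime (q : ℕ) := by
    show ((q : ℕ) : QQbar) ∈ (padicPlace (q : ℕ)).nonunits
    rw [ValuationSubring.mem_nonunits_iff_or]
    refine Or.inr fun hmem => ?_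
    rw [mem_padicPlace_iff, map_inv₀, map_natCast, ← NNReal.coe_le_coe, coe_nnnorm, norm_inv,
      NNReal.coe_one,
      show ((q : ℕ) : PadicAlgCl (q : ℕ)) = algebraMap ℚ_[(q : ℕ)] _ ((q : ℕ) : ℚ_[(q : ℕ)])
        by rw [map_natCast], norm_algebraMap', Padic.norm_p, inv_inv] at hmem
    exact absurd hmem (not_le.2 (by exact_mod_cast q.2.one_lt))
  obtain ⟨γ, hγ⟩ := Density.exists_smul_eq_of_liesOverPrime q.2 hA hP
  obtain ⟨e, hfe, hen⟩ := he γ
  have hγ0 : ∀ x : QQbar, emb q (γ x) = 0 → x = 0 := fun x h =>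
    γ.injective (((emb q).injective (h.trans (map_zero _).symm)).trans (map_zero γ).symm)
  have hz' : ‖emb q (γ z)‖ ≠ 0 := norm_ne_zero_iff.2 fun h => hz (hγ0 _ h)
  have he0 : emb q (γ e) ≠ 0 := norm_ne_zero_iff.1 (by rw [hen]; exact hz')
  have he0' : e ≠ 0 := fun h => he0 (by rw [h, map_zero, map_zero])
  -- the unit `w = z / e`
  set w := z / e with hw
  have hw1 : ‖emb q (γ w)‖ = 1 := by
    rw [hw, map_div₀, map_div₀, norm_div, hen, div_self hz']
  have hwA : w ∈ A := by
    have h1 : γ w ∈ γ • A := by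
      rw [hγ, mem_padicPlace_iff]
      exact_mod_cast hw1.le
    exact ValuationSubring.smul_mem_pointwise_smul_iff.1 h1
  have hnon := (Density.mem_inertiaSubgroupIn_iff.1 hσ).2 w hwA
  have hlt : ‖emb q (γ (σ w)) - emb q (γ w)‖ < 1 := by
    rw [← map_sub, ← map_sub]
    have h2 := (Density.apply_mem_smul_nonunits_iff γ (σ w - w)).2 hnon
    rw [hγ, ValuationSubring.mem_nonunits_iff_or] at h2
    rcases h2 with h2 | h2
    · rw [h2, map_zero, norm_zero]; norm_num
    rw [mem_padicPlace_iff, map_inv₀, ← NNReal.coe_le_coe, coe_nnnorm, norm_inv, NNReal.coe_one,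
      not_le] at h2
    exact (one_lt_inv_iff₀.1 h2).2
  have hw0 : emb q (γ w) ≠ 0 := norm_ne_zero_iff.1 (by rw [hw1]; norm_num)
  set t := emb q (γ (σ w)) / emb q (γ w)
  have ht : t ^ n = 1 := by
    have hwn : σ (w ^ n) = w ^ n := by rw [hw, div_pow, map_div₀, hfix, map_pow, hfe]
    rw [div_pow, ← map_pow, ← map_pow, ← map_pow, hwn, map_pow, map_pow]
    exact div_self (pow_ne_zero _ hw0)
  have htlt : ‖t - 1‖ < 1 := by
    rw [show t - 1 = (emb q (γ (σ w)) - emb q (γ w)) / emb q (γ w) by rw [sub_div, div_self hw0],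
      norm_div, hw1, div_one]
    exact hlt
  have heq : σ w = w :=
    γ.injective ((emb q).injective
      ((div_eq_one_iff_eq hw0).1 (eq_one_of_norm_sub_one_lt hn ht htlt)))
  have h3 : z = w * e := by rw [hw, div_mul_cancel₀ _ he0']
  rw [h3, map_mul, heq, hfe]

/-- Adjoining all `n`-th roots of the conjugates of `b` to an `S`-layer. -/
theorem exists_rootLayer {L : Layer} {S : Finset Nat.Primes} (hL : L.IsS S) {n : ℕ} (hn0 : n ≠ 0)
    (hn : ∀ q : Nat.Primes, q ∉ S → ¬ (q : ℕ) ∣ n) (B : Finset QQbar)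
    (hB : ∀ b ∈ B, b ∈ L.field)
    (hnorm : ∀ b ∈ B, ∀ q : Nat.Primes, q ∉ S → ∀ δ : Gam,
      ∃ e ∈ L.field, ‖emb q (δ e)‖ ^ n = ‖emb q (δ b)‖) :
    ∃ L' : Layer, L ≤ L' ∧ L'.IsS S ∧ ∀ b ∈ B, ∀ z : QQbar, z ^ n = b → z ∈ L'.field := by
  classical
  have := L.finite
  have := L.normal
  set Z : Set QQbar := {z | ∃ b ∈ B, ∃ g : Gam, z ^ n = g b}
  have hstab : ∀ g : Gam, ∀ z ∈ Z, g z ∈ Z := by
    rintro g z ⟨b, hb, h, hz⟩
    exact ⟨b, hb, g * h, by rw [← map_pow, hz]; rfl⟩
  have hconj : ∀ (g : Gam) (b : QQbar), b ∈ L.field → g b ∈ L.field := fun g b hb => by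
    have := AlgEquiv.restrictNormal_commutes g L.field ⟨b, hb⟩
    exact this ▸ SetLike.coe_mem _
  have hfin : Z.Finite := by
    have : ∀ b ∈ B, {z : QQbar | ∃ g : Gam, z ^ n = g b}.Finite := by
      intro b _
      have hfin' : {c : QQbar | ∃ g : Gam, g b = c}.Finite := by
        refine ((minpoly ℚ b).rootSet_finite QQbar).subset ?_
        rintro _ ⟨g, rfl⟩
        rw [Polynomial.mem_rootSet]
        exact ⟨minpoly.ne_zero (Algebra.IsIntegral.isIntegral _),
          by rw [Polynomial.aeval_algHom_apply, minpoly.aeval, map_zero]⟩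
      refine (hfin'.biUnion fun c _ => (Multiset.finite_toSet (Polynomial.nthRoots n c))).subset ?_
      rintro z ⟨g, hz⟩
      exact Set.mem_biUnion (x := g b) ⟨g, rfl⟩
        ((Polynomial.mem_nthRoots (Nat.pos_of_ne_zero hn0)).2 hz)
    refine (B.finite_toSet.biUnion this).subset ?_
    rintro z ⟨b, hb, hz⟩
    exact Set.mem_biUnion (Finset.mem_coe.2 hb) hz
  have : FiniteDimensional ℚ (IntermediateField.adjoin ℚ Z) := by
    have := hfin.to_subtype
    exact IntermediateField.finiteDimensional_adjoin fun x _ => Algebra.IsIntegral.isIntegral x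
  have := IntermediateField.finiteDimensional_sup L.field (IntermediateField.adjoin ℚ Z)
  have hnormal : @Normal ℚ (IntermediateField.adjoin ℚ Z) _ _
      (IntermediateField.algebra' _) := by
    rw [IntermediateField.normal_iff_forall_map_le']
    intro g
    rw [IntermediateField.adjoin_map, IntermediateField.adjoin_le_iff]
    rintro _ ⟨z, hz, rfl⟩
    exact IntermediateField.subset_adjoin ℚ _ (hstab g z hz)
  refine ⟨⟨L.field ⊔ IntermediateField.adjoin ℚ Z, inferInstance,
    @IntermediateField.normal_sup ℚ QQbar _ _ _ L.field (IntermediateField.adjoin ℚ Z)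
      L.normal hnormal⟩, le_sup_left (α := IntermediateField ℚ QQbar),
    ⟨inferInstance, fun q hq A hA σ hσ => ?_⟩, fun b hb z hz =>
      (le_sup_right (α := IntermediateField ℚ QQbar) (a := L.field))
        (IntermediateField.subset_adjoin ℚ _ ⟨b, hb, 1, hz⟩)⟩
  show σ ∈ (L.field ⊔ IntermediateField.adjoin ℚ Z).fixingSubgroup
  rw [IntermediateField.fixingSubgroup_sup]
  have hσL : σ ∈ L.field.fixingSubgroup := hL.2 q hq A hA hσ
  have hfixL := (IntermediateField.mem_fixingSubgroup_iff _ _).1 hσL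
  refine ⟨hσL, (IntermediateField.mem_fixingSubgroup_iff _ _).2 fun x hx => ?_⟩
  induction hx using IntermediateField.adjoin_induction with
  | mem z hz =>
    obtain ⟨b, hb, g, hzb⟩ := hz
    refine apply_eq_of_inertia (hn q hq) hA hσ (by rw [hzb]; exact hfixL _ (hconj g b (hB b hb)))
      fun δ => ?_
    obtain ⟨e, heL, he⟩ := hnorm b hb q hq (δ * g)
    refine ⟨g e, hfixL _ (hconj g e heL), ?_⟩
    rw [← AlgEquiv.mul_apply δ g e]
    refine (pow_left_inj₀ (norm_nonneg _) (norm_nonneg _) hn0).1 (he.trans ?_)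
    rw [← norm_pow, ← map_pow, ← map_pow, hzb, AlgEquiv.mul_apply]
  | algebraMap r => exact σ.commutes r
  | add x y _ _ hx hy => rw [map_add, hx, hy]
  | inv x _ hx => rw [map_inv₀, hx]
  | mul x y _ _ hx hy => rw [map_mul, hx, hy]

end FLTAgent.IdeleClassCohomology
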