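import Fermat.Agent.IdeleClassCohomology.NormCriterion
import Fermat.Agent.GlobalDuality.Unram

/-!
# Kummer steps over a field containing the roots of unity

Over a field with `HasRoots`: the pairing `kummer`, the step `exists_kummerStep` cut out by a
Kummer character, and the criterion `exists_norm_eq_of_kummer` for it to be unramified.
-/

set_option autoImplicit false

noncomputable section

open scoped Polynomial

namespace FLTAgent.IdeleClassCohomology

open FLTAgent.GalCoh FLTAgent.GlobalDuality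

variable (p : ℕ) [hp : Fact p.Prime]

/-- The field contains the `p`-th roots of unity. -/
def HasRoots (K : IntermediateField ℚ QQbar) : Prop := ∀ z : QQbar, z ^ p = 1 → z ∈ K

/-- The value of a multiple is a power. -/
theorem GU.val_nsmul (n : ℕ) (a : GU) : (n • a).val = a.val ^ n := by
  induction n with
  | zero => simp [GU.val]
  | succ n ih => rw [succ_nsmul, GU.val_add, ih, pow_succ]

theorem LU.val_nsmul {q : Nat.Primes} (n : ℕ) (a : LU q) : (n • a).val = a.val ^ n := by
  induction n with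
  | zero => simp [LU.val]
  | succ n ih => rw [succ_nsmul, LU.val_add, ih, pow_succ]

theorem exists_root (a : GU) : ∃ r : GU, p • r = a := by
  obtain ⟨z, hz⟩ := IsAlgClosed.exists_pow_nat_eq a.val hp.out.pos
  have hz0 : z ≠ 0 := fun h => a.val_ne_zero (by rw [← hz, h, zero_pow hp.out.ne_zero])
  exact ⟨Additive.ofMul (Units.mk0 z hz0), GU.ext (by rw [GU.val_nsmul]; exact hz)⟩

/-- A chosen `p`-th root. -/
def root (a : GU) : GU := (exists_root p a).choose

theorem nsmul_root (a : GU) : p • root p a = a := (exists_root p a).choose_spec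

/-- A chosen primitive `p`-th root of unity. -/
def zetaU : GU :=
  Additive.ofMul (Units.mk0 (cycRoot ⟨p, hp.out⟩)
    ((cycRoot_spec ⟨p, hp.out⟩).ne_zero hp.out.ne_zero))

theorem nsmul_zetaU : p • zetaU p = 0 :=
  GU.ext (by rw [GU.val_nsmul]; exact (cycRoot_spec ⟨p, hp.out⟩).pow_eq_one)

theorem exists_eq_nsmul_zetaU {r : GU} (h : p • r = 0) : ∃ i : ℕ, i • zetaU p = r := by
  have h1 : r.val ^ p = 1 := by rw [← GU.val_nsmul, h]; rfl
  obtain ⟨i, -, hi⟩ := (cycRoot_spec ⟨p, hp.out⟩).eq_pow_of_pow_eq_one h1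
  exact ⟨i, GU.ext (by rw [GU.val_nsmul]; exact hi)⟩

theorem nsmul_zetaU_eq_zero_iff {i : ℕ} : i • zetaU p = 0 ↔ p ∣ i := by
  refine ⟨fun h => ?_, fun ⟨k, hk⟩ => by rw [hk, mul_nsmul, nsmul_zetaU, nsmul_zero]⟩
  have h1 : (zetaU p).val ^ i = 1 := by rw [← GU.val_nsmul, h]; rfl
  exact (cycRoot_spec ⟨p, hp.out⟩).dvd_of_pow_eq_one i h1

/-- `ZMod p` as the `p`-torsion of the multiplicative group. -/
def torsionHom : ZMod p →+ GU :=
  ZMod.lift p ⟨zmultiplesHom GU (zetaU p), by
    rw [zmultiplesHom_apply, natCast_zsmul, nsmul_zetaU]⟩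

theorem torsionHom_natCast (i : ℕ) : torsionHom p (i : ZMod p) = i • zetaU p := by
  rw [show (i : ZMod p) = ((i : ℤ) : ZMod p) from (Int.cast_natCast i).symm, torsionHom,
    ZMod.lift_coe, zmultiplesHom_apply, natCast_zsmul]

/-- The map onto the roots of unity of order `p` is injective. -/
theorem torsionHom_injective : Function.Injective (torsionHom p) := by
  rw [injective_iff_map_eq_zero]
  intro c hc
  obtain ⟨i, rfl⟩ := ZMod.natCast_zmod_surjective c
  rw [torsionHom_natCast, nsmul_zetaU_eq_zero_iff] at hc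
  exact (CharP.cast_eq_zero_iff (ZMod p) p i).2 hc

/-- Every element killed by `p` is a root of unity of order `p`. -/
theorem exists_torsionHom_eq {r : GU} (h : p • r = 0) : ∃ c, torsionHom p c = r := by
  obtain ⟨i, rfl⟩ := exists_eq_nsmul_zetaU p h
  exact ⟨i, torsionHom_natCast p i⟩

variable {p} {K : IntermediateField ℚ QQbar}

omit hp in
theorem HasRoots.smul_torsion (hK : HasRoots p K) {g : Gam} (hg : g ∈ K.fixingSubgroup) {r : GU}
    (h : p • r = 0) : g • r = r :=
  GU.ext ((IntermediateField.mem_fixingSubgroup_iff _ _).1 hg _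
    (hK _ (by rw [← GU.val_nsmul, h]; rfl)))

theorem nsmul_smul_root_sub {g : Gam} (hg : g ∈ K.fixingSubgroup)
    (a : fixedPts K.fixingSubgroup GU) :
    p • (g • root p a.1 - root p a.1) = 0 := by
  rw [nsmul_sub, smul_comm, nsmul_root, a.2 g hg, sub_self]

/-- The Kummer character of a root. -/
def kummerVal (a : fixedPts K.fixingSubgroup GU) (g : K.fixingSubgroup) : ZMod p :=
  (exists_torsionHom_eq p (nsmul_smul_root_sub g.2 a)).choose

theorem torsionHom_kummerVal (a : fixedPts K.fixingSubgroup GU) (g : K.fixingSubgroup) :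
    torsionHom p (kummerVal a g) = (g : Gam) • root p a.1 - root p a.1 :=
  (exists_torsionHom_eq p (nsmul_smul_root_sub g.2 a)).choose_spec

theorem HasRoots.kummerVal_mul (hK : HasRoots p K) (a : fixedPts K.fixingSubgroup GU)
    (g h : K.fixingSubgroup) : kummerVal a (g * h) = kummerVal a g + kummerVal (p := p) a h := by
  refine torsionHom_injective p ?_
  rw [map_add, torsionHom_kummerVal, torsionHom_kummerVal, torsionHom_kummerVal,
    Subgroup.coe_mul, mul_smul]
  have h1 := hK.smul_torsion g.2 (nsmul_smul_root_sub h.2 a)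
  rw [smul_sub] at h1
  rw [← h1]
  abel

theorem HasRoots.kummerVal_add (hK : HasRoots p K) (a b : fixedPts K.fixingSubgroup GU)
    (g : K.fixingSubgroup) :
    kummerVal (a + b) g = kummerVal a g + kummerVal (p := p) b g := by
  refine torsionHom_injective p ?_
  rw [map_add, torsionHom_kummerVal, torsionHom_kummerVal, torsionHom_kummerVal]
  set u := root p (a + b).1 - (root p a.1 + root p b.1)
  have hu : p • u = 0 := by
    simp only [u, nsmul_sub, nsmul_add, nsmul_root, AddSubgroup.coe_add, sub_self]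
  have h1 := hK.smul_torsion g.2 hu
  simp only [u, smul_sub, smul_add] at h1
  have h2 : (g : Gam) • root p (a + b).1 =
      (g : Gam) • root p a.1 + (g : Gam) • root p b.1 +
        (root p (a + b).1 - (root p a.1 + root p b.1)) := by
    rw [← h1]; abel
  rw [h2]
  abel

/-- The Kummer pairing. -/
def kummer (hK : HasRoots p K) :
    fixedPts K.fixingSubgroup GU →+ (Additive K.fixingSubgroup →+ ZMod p) :=
  AddMonoidHom.mk'
    (fun a => AddMonoidHom.mk' (fun g => kummerVal a g.toMul)
      fun g h => hK.kummerVal_mul a g.toMul h.toMul)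
    fun a b => AddMonoidHom.ext fun g => hK.kummerVal_add a b g.toMul

theorem torsionHom_kummer (hK : HasRoots p K) (a : fixedPts K.fixingSubgroup GU)
    (g : K.fixingSubgroup) :
    torsionHom p (kummer hK a (Additive.ofMul g)) = (g : Gam) • root p a.1 - root p a.1 :=
  torsionHom_kummerVal a g

theorem kummer_apply_eq_zero_iff (hK : HasRoots p K) (a : fixedPts K.fixingSubgroup GU)
    {r : GU} (hr : p • r = a.1) (g : K.fixingSubgroup) :
    kummer hK a (Additive.ofMul g) = 0 ↔ (g : Gam) • r = r := by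
  rw [← (torsionHom_injective p).eq_iff, torsionHom_kummer, map_zero, sub_eq_zero]
  have h1 := hK.smul_torsion g.2 (r := root p a.1 - r) (by rw [nsmul_sub, nsmul_root, hr, sub_self])
  rw [smul_sub, sub_eq_sub_iff_sub_eq_sub] at h1
  rw [← sub_eq_zero, h1, sub_eq_zero]

/-- The `p`-th multiples in the fixed global units. -/
abbrev powers (p : ℕ) (K : IntermediateField ℚ QQbar) :
    AddSubgroup (fixedPts K.fixingSubgroup GU) :=
  (nsmulAddMonoidHom p).range

theorem kummer_eq_zero_iff (hK : HasRoots p K) (a : fixedPts K.fixingSubgroup GU) :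
    kummer hK a = 0 ↔ a ∈ powers p K := by
  constructor
  · intro h
    refine ⟨⟨root p a.1, fun g hg => ?_⟩, Subtype.ext (nsmul_root p a.1)⟩
    exact (kummer_apply_eq_zero_iff hK a (nsmul_root p a.1) ⟨g, hg⟩).1 (by rw [h]; rfl)
  · rintro ⟨b, rfl⟩
    exact AddMonoidHom.ext fun g =>
      (kummer_apply_eq_zero_iff hK _ (r := b.1) rfl g.toMul).2 (b.2 _ g.toMul.2)

theorem exists_kummer_eq_one (hK : HasRoots p K) {a : fixedPts K.fixingSubgroup GU}
    (ha : a ∉ powers p K) : ∃ g, kummer hK a g = 1 := by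
  obtain ⟨g, hg⟩ : ∃ g, kummer hK a g ≠ 0 := by
    by_contra h
    push Not at h
    exact ha ((kummer_eq_zero_iff hK a).1 (AddMonoidHom.ext h))
  refine ⟨((kummer hK a g)⁻¹).val • g, ?_⟩
  rw [map_nsmul, nsmul_eq_mul, ZMod.natCast_zmod_val, inv_mul_cancel₀ hg]

variable [FiniteDimensional ℚ K]

/-- A layer over `K` containing a given root. -/
theorem exists_layer_root (r : GU) :
    ∃ M : Layer, K ≤ M.field ∧ r.val ∈ M.field ∧ M.sub ≤ K.fixingSubgroup := by
  have : FiniteDimensional ℚ (IntermediateField.adjoin ℚ {r.val}) :=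
    IntermediateField.adjoin.finiteDimensional (Algebra.IsIntegral.isIntegral _)
  have := IntermediateField.finiteDimensional_sup K (IntermediateField.adjoin ℚ {r.val})
  obtain ⟨M, hM⟩ := Layer.exists_ge (K ⊔ IntermediateField.adjoin ℚ {r.val})
  exact ⟨M, le_sup_left.trans hM,
    (le_sup_right.trans hM) (IntermediateField.mem_adjoin_simple_self ℚ _),
    IntermediateField.fixingSubgroup_antitone (le_sup_left.trans hM)⟩

/-- The step cut out by a Kummer character. -/
theorem exists_kummerStep (hK : HasRoots p K) {a : fixedPts K.fixingSubgroup GU}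
    (ha : a ∉ powers p K) :
    ∃ D : CyclicStep p, D.K = K ∧
      ∀ g : K.fixingSubgroup, (g : Gam) ∈ D.top ↔ kummer hK a (Additive.ofMul g) = 0 := by
  classical
  let φ : K.fixingSubgroup →* Multiplicative (ZMod p) :=
    AddMonoidHom.toMultiplicativeRight (kummer hK a)
  have hφ : ∀ g : K.fixingSubgroup, φ g = Multiplicative.ofAdd (kummer hK a (Additive.ofMul g)) :=
    fun g => rfl
  set N' : Subgroup Gam := φ.ker.map K.fixingSubgroup.subtype
  have hle : N' ≤ K.fixingSubgroup := Subgroup.map_subtype_le _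
  have hsub : N'.subgroupOf K.fixingSubgroup = φ.ker :=
    Subgroup.comap_map_eq_self_of_injective (Subgroup.subtype_injective _) _
  have hker : ∀ g : K.fixingSubgroup, (g : Gam) ∈ N' ↔ kummer hK a (Additive.ofMul g) = 0 := by
    intro g
    rw [← Subgroup.mem_subgroupOf, hsub, MonoidHom.mem_ker, hφ]
    rfl
  obtain ⟨g₀, hg₀⟩ := exists_kummer_eq_one hK ha
  have hsurj : Function.Surjective φ := fun c => by
    refine ⟨g₀.toMul ^ (Multiplicative.toAdd c).val, ?_⟩
    rw [map_pow, hφ]
    show Multiplicative.ofAdd _ ^ _ = _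
    rw [← ofAdd_nsmul]
    refine (congrArg Multiplicative.ofAdd ?_).trans (ofAdd_toAdd c)
    rw [show kummer hK a (Additive.ofMul g₀.toMul) = 1 from hg₀, nsmul_one, ZMod.natCast_zmod_val]
  have hidx : N'.relIndex K.fixingSubgroup = p := by
    rw [Subgroup.relIndex, hsub, Subgroup.index_ker, MonoidHom.range_eq_top.2 hsurj,
      Subgroup.card_top]
    exact Nat.card_zmod p
  obtain ⟨M, hKM, hrM, hMN⟩ := exists_layer_root (K := K) (root p a.1)
  have hMN' : M.sub ≤ N' := fun g hg => by
    refine (hker ⟨g, hMN hg⟩).2 ((kummer_apply_eq_zero_iff hK a (nsmul_root p a.1) _).2 ?_)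
    exact GU.ext ((IntermediateField.mem_fixingSubgroup_iff _ _).1 hg _ hrM)
  obtain ⟨D, htop, hbot, -⟩ := exists_cyclicStep hMN' hle hidx
    (by rw [hsub]; exact φ.normal_ker) g₀.toMul.2
    (fun h => one_ne_zero (hg₀.symm.trans ((hker g₀.toMul).1 h)))
  refine ⟨D, ?_, fun g => by rw [htop]; exact hker g⟩
  rw [← InfiniteGalois.fixedField_fixingSubgroup D.K, ← InfiniteGalois.fixedField_fixingSubgroup K]
  exact congrArg IntermediateField.fixedField hbot

/-! ### Local behaviour -/

variable {q : Nat.Primes} {σ : Gam}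

omit [FiniteDimensional ℚ K] in
theorem conj_mem_of_mem_locField {τ : LGal q} (hτ : τ ∈ (locField K q σ).fixingSubgroup) :
    σ⁻¹ * loc q τ * σ ∈ K.fixingSubgroup := mem_fixingSubgroup_locField_iff.1 hτ

theorem apply_conj_eq (τ : LGal q) (x : QQbar) :
    emb q (σ ((σ⁻¹ * loc q τ * σ) x)) = τ (emb q (σ x)) := by
  rw [← AlgEquiv.mul_apply σ, show σ * (σ⁻¹ * loc q τ * σ) = loc q τ * σ by group,
    AlgEquiv.mul_apply]
  exact padicEmbedding_localGaloisToGlobal (q : ℕ) τ _

omit [FiniteDimensional ℚ K] in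
/-- A local `p`-th power is killed by the decomposition group. -/
theorem kummer_conj_eq_zero (hK : HasRoots p K) {a : fixedPts K.fixingSubgroup GU}
    {y : PadicAlgCl (q : ℕ)} (hy : y ∈ locField K q σ) (h : y ^ p = emb q (σ a.1.val))
    {τ : LGal q} (hτ : τ ∈ (locField K q σ).fixingSubgroup) :
    kummer hK a (Additive.ofMul ⟨_, conj_mem_of_mem_locField hτ⟩) = 0 := by
  refine (kummer_apply_eq_zero_iff hK a (nsmul_root p a.1) _).2 (GU.ext ?_)
  refine σ.injective ((emb q).injective ?_)
  show emb q (σ ((σ⁻¹ * loc q τ * σ) (root p a.1).val)) = emb q (σ (root p a.1).val)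
  rw [apply_conj_eq]
  set r := emb q (σ (root p a.1).val)
  have hr : r ^ p = y ^ p := by
    rw [h, ← map_pow, ← map_pow, ← GU.val_nsmul, nsmul_root]
  have hy0 : y ≠ 0 := fun h0 => by
    rw [h0, zero_pow hp.out.ne_zero] at hr
    exact (GU.val_ne_zero (root p a.1)) (σ.injective ((emb q).injective
      ((pow_eq_zero_iff hp.out.ne_zero).1 hr |>.trans (by simp))))
  obtain ⟨i, -, hi⟩ := ((cycRoot_spec ⟨p, hp.out⟩).map_of_injective
      (f := (emb q).comp (σ : QQbar →ₐ[ℚ] QQbar)) ((emb q).injective.comp σ.injective)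
      ).eq_pow_of_pow_eq_one
    (show (r / y) ^ p = 1 by rw [div_pow, hr, div_self (pow_ne_zero _ hy0)])
  have hz : r / y ∈ locField K q σ := by
    rw [← hi]
    exact pow_mem (placeEmb_mem_locField (q := q) (σ := σ)
      (⟨cycRoot ⟨p, hp.out⟩, hK _ (cycRoot_spec ⟨p, hp.out⟩).pow_eq_one⟩ : K)) _
  have hrE : r ∈ locField K q σ := by
    rw [← div_mul_cancel₀ r hy0]; exact mul_mem hz hy
  exact (IntermediateField.mem_fixingSubgroup_iff _ _).1 hτ r hrE

namespace CyclicStep

variable {D : CyclicStep p}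

/-- A local `p`-th power splits. -/
theorem not_isLocalGen_of_pow (hK : HasRoots p K) {a : fixedPts K.fixingSubgroup GU}
    (hDK : D.K = K)
    (hD : ∀ g : K.fixingSubgroup, (g : Gam) ∈ D.top ↔ kummer hK a (Additive.ofMul g) = 0)
    {y : PadicAlgCl (q : ℕ)} (hy : y ∈ locField K q σ) (h : y ^ p = emb q (σ a.1.val)) :
    ¬ ∃ t, D.IsLocalGen q σ t := by
  rintro ⟨t, ht⟩
  subst hDK
  have h1 := (hD ⟨_, conj_mem_of_mem_locField ht.mem_fix_bot⟩).2
    (kummer_conj_eq_zero hK hy h ht.mem_fix_bot)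
  obtain ⟨n, hn, e⟩ := ht.conj_eq
  refine D.notMem ?_
  have h2 : D.g * n ∈ D.top := e ▸ h1
  exact (D.top.mul_mem_cancel_right hn).1 h2

/-- Away from `p`, a Kummer step by an element of norm a `p`-th power is unramified. -/
theorem exists_norm_eq_of_kummer (hK : HasRoots p K) {a : fixedPts K.fixingSubgroup GU}
    (hDK : D.K = K)
    (hD : ∀ g : K.fixingSubgroup, (g : Gam) ∈ D.top ↔ kummer hK a (Additive.ofMul g) = 0)
    (hq : (q : ℕ) ≠ p) {y : PadicAlgCl (q : ℕ)} (hy : y ∈ locField K q σ)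
    (hya : ‖y‖ ^ p = ‖emb q (σ a.1.val)‖) {t : LGal q} (ht : D.IsLocalGen q σ t)
    {x : LU q} (hx : x ∈ localTop D q σ) :
    ∃ e ∈ locField D.K q σ, e ≠ 0 ∧ ‖e‖ = ‖x.val‖ := by
  subst hDK
  set r := emb q (σ (root p a.1).val)
  have hrn : ‖r‖ = ‖y‖ := by
    refine (pow_left_inj₀ (norm_nonneg _) (norm_nonneg _) hp.out.ne_zero).1 ?_
    rw [hya, ← norm_pow, ← map_pow, ← map_pow, ← GU.val_nsmul, nsmul_root]
  have hr0 : r ≠ 0 := fun h0 => GU.val_ne_zero (root p a.1)
    (σ.injective ((emb q).injective (by rw [map_zero, map_zero]; exact h0)))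
  have hy0 : y ≠ 0 := norm_ne_zero_iff.1 (by rw [← hrn]; exact norm_ne_zero_iff.2 hr0)
  have hroot : (root p a.1).val ∈ D.L := by
    rw [← InfiniteGalois.fixedField_fixingSubgroup D.L, IntermediateField.mem_fixedField_iff]
    exact fun g hg => congrArg GU.val
      ((kummer_apply_eq_zero_iff hK a (nsmul_root p a.1) ⟨g, D.top_le hg⟩).1
        ((hD ⟨g, D.top_le hg⟩).1 hg))
  have hrL : r ∈ locField D.L q σ :=
    placeEmb_mem_locField (q := q) (σ := σ) (⟨_, hroot⟩ : D.L)
  have hty : t y = y := (IntermediateField.mem_fixingSubgroup_iff _ _).1 ht.mem_fix_bot y hy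
  have htr : t r ≠ r := by
    intro h
    obtain ⟨n, hn, e⟩ := ht.conj_eq
    have h1 := (hD ⟨_, conj_mem_of_mem_locField ht.mem_fix_bot⟩).2
      ((kummer_apply_eq_zero_iff hK a (nsmul_root p a.1) _).2 (GU.ext
        (σ.injective ((emb q).injective ((apply_conj_eq t _).trans h)))))
    exact D.notMem ((D.top.mul_mem_cancel_right hn).1 (e ▸ h1))
  refine ht.exists_norm_eq (θ := r / y) ?_ ?_ ?_ hx
  · exact div_mem hrL (D.locField_le q σ hy)
  · rw [norm_div, hrn, div_self (norm_ne_zero_iff.2 hy0)]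
  · rw [map_div₀, hty, ← sub_div, norm_div, ← hrn, div_eq_one_iff_eq (norm_ne_zero_iff.2 hr0)]
    have hz : (t r / r) ^ p = 1 := by
      have e : r ^ p = emb q (σ a.1.val) := by
        rw [← map_pow, ← map_pow, ← GU.val_nsmul, nsmul_root]
      have hfix : t (emb q (σ a.1.val)) = emb q (σ a.1.val) :=
        (IntermediateField.mem_fixingSubgroup_iff _ _).1 ht.mem_fix_bot _
          (placeEmb_mem_locField (q := q) (σ := σ) (⟨_, val_mem_of_fixed _ a.2⟩ : D.K))
      rw [div_pow, ← map_pow, e, hfix, div_self]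
      rw [← e]; exact pow_ne_zero _ hr0
    rw [show t r - r = r * (t r / r - 1) by field_simp, norm_mul]
    have hle : ‖t r / r - 1‖ ≤ 1 := by
      rw [sub_eq_add_neg]
      refine (IsUltrametricDist.norm_add_le_max _ _).trans ?_
      have h1 : ‖t r / r‖ = 1 := (pow_eq_one_iff_of_nonneg (norm_nonneg _) hp.out.ne_zero).1
        (by rw [← norm_pow, hz, norm_one])
      rw [h1, norm_neg, norm_one, max_self]
    rw [le_antisymm hle (not_lt.1 fun hlt => htr ((div_eq_one_iff_eq hr0).1
      (eq_of_norm_sub_lt (ℓ := ⟨p, hp.out⟩) (fun e => hq (congrArg Subtype.val e))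
        hz (one_pow _) hlt))),
      mul_one]

end CyclicStep

end FLTAgent.IdeleClassCohomology
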