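import Fermat.Agent.IdeleClassCohomology.FirstInequality

/-!
# A criterion for being a norm from a cyclic step

`exists_norm_of_forall_local` recognises norms locally; `card_normQuot` is the first inequality
for the quotient `normQuot` of the ideles by norms and principal ideles.
-/

set_option autoImplicit false

noncomputable section

namespace FLTAgent.IdeleClassCohomology

open FLTAgent.GalCoh FLTAgent.GlobalDuality

variable {K : IntermediateField ℚ QQbar} [FiniteDimensional ℚ K]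

omit [FiniteDimensional ℚ K] in
theorem cosetSet_smul_iff {n : Gam} (hn : n ∈ K.fixingSubgroup) {q r : Nat.Primes} {σ γ : Gam} :
    (r, γ * n) ∈ cosetSet K q σ ↔ (r, γ) ∈ cosetSet K q σ := by
  have h := (isStableSet_cosetSet (K := K) q σ).mem_iff (q := r) (γ := γ) (1 : LGal r) hn
  rwa [map_one, one_mul] at h

namespace CyclicStep

variable {p : ℕ} [hp : Fact p.Prime] (D : CyclicStep p) {q : Nat.Primes} {σ : Gam}

theorem exists_norm_coset_split (hns : ¬ ∃ t, D.IsLocalGen q σ t) {x : Idele}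
    (hx : x ∈ fixedPts D.bot Idele) :
    ∃ y ∈ fixedPts D.top Idele, (∀ r γ, y.at r γ = x.at r γ ∨ y.at r γ = 0) ∧
      ∀ r γ, (r, γ) ∈ cosetSet D.K q σ →
        (∑ i ∈ Finset.range p, D.g ^ i • y).at r γ = x.at r γ := by
  classical
  obtain ⟨M, hM⟩ := exists_layer_sub_le D.L
  set W := cosetSet D.L q σ
  have hW : IsStableSet D.top W := isStableSet_cosetSet q σ
  refine ⟨cut hM hW x, cut_mem_fixedPts hM _ le_rfl (fixedPts_antitone D.top_le hx),
    fun r γ => ?_, fun r γ hγ => ?_⟩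
  · by_cases h : (r, γ) ∈ W
    · exact Or.inl (at_cut_of_mem hM hW x h)
    · exact Or.inr (at_cut_of_notMem hM hW x h)
  obtain ⟨rfl, τ, n, hn, rfl⟩ := mem_cosetSet_iff.1 hγ
  obtain ⟨i, hi, hmi⟩ := D.exists_pow_mul (inv_mem hn)
  have hni : n * D.g ^ i ∈ D.top := by
    have := inv_mem hmi
    rwa [mul_inv_rev, inv_inv, inv_inv] at this
  have hin : (r, loc r τ * σ * n * D.g ^ i) ∈ W :=
    mem_cosetSet_iff.2 ⟨rfl, τ, _, hni, by group⟩
  have huniq : ∀ a b : ℕ, a < b → b < p → (r, loc r τ * σ * n * D.g ^ a) ∈ W →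
      (r, loc r τ * σ * n * D.g ^ b) ∈ W → False := by
    intro a b hab hb ha hb'
    obtain ⟨-, τ₁, n₁, hn₁, e₁⟩ := mem_cosetSet_iff.1 ha
    obtain ⟨-, τ₂, n₂, hn₂, e₂⟩ := mem_cosetSet_iff.1 hb'
    set k := b - a with hk
    have e₃ : loc r τ₂ * σ * n₂ = loc r τ₁ * σ * n₁ * D.g ^ k := by
      rw [← e₂, ← e₁, mul_assoc _ (D.g ^ a), ← pow_add, Nat.add_sub_cancel' hab.le]
    have hm : (D.g ^ k)⁻¹ * n₁ * D.g ^ k ∈ D.top := by
      have := D.conj_mem (inv_mem (D.bot.pow_mem D.mem k)) hn₁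
      rwa [inv_inv] at this
    refine hns (D.isLocalGen_of_mem (i := k) (mem_cosetSet_iff.2 ⟨rfl, τ₁⁻¹ * τ₂, _,
      mul_mem hn₂ (inv_mem hm), ?_⟩) fun hd => by
        have := Nat.eq_zero_of_dvd_of_lt hd (by omega)
        omega)
    rw [show loc r (τ₁⁻¹ * τ₂) * σ * (n₂ * ((D.g ^ k)⁻¹ * n₁ * D.g ^ k)⁻¹) =
      (loc r τ₁)⁻¹ * (loc r τ₂ * σ * n₂) * ((D.g ^ k)⁻¹ * n₁⁻¹ * D.g ^ k) by
        rw [map_mul, map_inv]; group, e₃]
    group
  rw [show (∑ j ∈ Finset.range p, D.g ^ j • cut hM hW x).at r (loc r τ * σ * n) =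
    ∑ j ∈ Finset.range p, (D.g ^ j • cut hM hW x).at r (loc r τ * σ * n) from
      map_sum (Idele.atHom r _) _ _]
  rw [Finset.sum_eq_single i (fun j hj hne => ?_) fun h => absurd (Finset.mem_range.2 hi) h]
  · rw [Idele.at_smul, at_cut_of_mem hM hW x hin]
    exact Idele.mem_fixedPts_iff.1 hx r _ _ (D.bot.pow_mem D.mem i)
  · rw [Idele.at_smul]
    refine at_cut_of_notMem hM hW x fun hj' => ?_
    rcases lt_or_gt_of_ne hne with h' | h'
    · exact huniq j i h' hi hj' hin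
    · exact huniq i j h' (Finset.mem_range.1 hj) hin hj'

theorem exists_norm_coset_unit {x : Idele} (hx : x ∈ fixedPts D.bot Idele)
    (hu : x.at q σ ∈ unitsAt q)
    (hunr : ∀ t, D.IsLocalGen q σ t → ∀ y ∈ localTop D q σ,
      ∃ e ∈ locField D.K q σ, e ≠ 0 ∧ ‖e‖ = ‖(y : LU q).val‖) :
    ∃ y ∈ fixedPts D.top Idele, (∀ r γ, y.at r γ ∈ unitsAt r) ∧
      ∀ r γ, (r, γ) ∈ cosetSet D.K q σ →
        (∑ i ∈ Finset.range p, D.g ^ i • y).at r γ = x.at r γ := by
  obtain ⟨M, hM⟩ := exists_layer_sub_le D.K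
  set W := cosetSet D.K q σ
  have hW : IsStableSet D.bot W := isStableSet_cosetSet q σ
  have hxW : cut hM hW x ∈ fixedPts D.bot Idele := cut_mem_fixedPts hM _ le_rfl hx
  have hmem : cut hM hW x ∈ D.upart W hW := by
    refine ⟨⟨fixedPts_antitone D.top_le hxW, fun r γ h => at_cut_of_notMem hM hW x h⟩,
      fun r γ => ?_⟩
    by_cases h : (r, γ) ∈ W
    · rw [at_cut_of_mem hM hW x h]
      obtain ⟨rfl, τ, n, hn, rfl⟩ := mem_cosetSet_iff.1 h
      rw [Idele.mem_fixedPts_iff.1 hx r _ n hn, Idele.at_loc_mul]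
      exact smul_mem_unitsAt τ hu
    · rw [at_cut_of_notMem hM hW x h]; exact (unitsAt r).zero_mem
  obtain ⟨y, hy, hy'⟩ := (UTrivial.of_unramified D hunr).1 _ hmem (hxW _ D.mem)
  exact ⟨y, hy.1.1, hy.2, fun r γ h => (congrArg (fun z => Idele.at z r γ) hy').trans
    (at_cut_of_mem hM hW x h)⟩

omit hp in
/-- An idele which on each double coset agrees with a norm from a family of units outside a finite
set is a norm. -/
theorem exists_norm_of_forall_coset {x : Idele} (T : Finset Nat.Primes)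
    (h : ∀ q σ, ∃ y ∈ fixedPts D.top Idele, (∀ r ∉ T, ∀ γ, y.at r γ ∈ unitsAt r) ∧
      ∀ r γ, (r, γ) ∈ cosetSet D.K q σ →
        (∑ i ∈ Finset.range p, D.g ^ i • y).at r γ = x.at r γ) :
    ∃ y ∈ fixedPts D.top Idele, ∑ i ∈ Finset.range p, D.g ^ i • y = x := by
  classical
  have key : ∀ W, ∃ y ∈ fixedPts D.top Idele, (∀ q ∉ T, ∀ γ, y.at q γ ∈ unitsAt q) ∧
      ∀ q σ, cosetSet D.K q σ = W → ∀ r γ, (r, γ) ∈ W →
        (∑ i ∈ Finset.range p, D.g ^ i • y).at r γ = x.at r γ := by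
    intro W
    by_cases hW : ∃ q σ, cosetSet D.K q σ = W
    swap
    · exact ⟨0, zero_mem _, fun q _ γ => (unitsAt q).zero_mem, fun q σ e => absurd ⟨q, σ, e⟩ hW⟩
    obtain ⟨q, σ, rfl⟩ := hW
    obtain ⟨y, hy, hy0, hy'⟩ := h q σ
    exact ⟨y, hy, hy0, fun _ _ _ => hy'⟩
  choose P hP hP0 hP' using key
  obtain ⟨M, hM⟩ := exists_layer_sub_le D.L
  obtain ⟨y, hy, hy'⟩ := exists_assemble_outside (K := D.K) T P D.top_le hM hP hP0
  refine ⟨y, hy, Idele.ext fun r γ => ?_⟩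
  rw [← hP' (cosetSet D.K r γ) r γ rfl r γ (mem_cosetSet_self r γ)]
  show (Idele.atHom r γ) _ = (Idele.atHom r γ) _
  rw [map_sum, map_sum]
  refine Finset.sum_congr rfl fun i _ => ?_
  show (D.g ^ i • y).at r γ = (D.g ^ i • P _).at r γ
  rw [Idele.at_smul, Idele.at_smul, hy',
    cosetSet_eq_of_mem ((cosetSet_smul_iff (D.bot.pow_mem D.mem i)).2 (mem_cosetSet_self r γ))]

/-- An idele that is everywhere trivial, at a split place, or a unit at an unramified one is a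
norm. -/
theorem exists_norm_of_forall_local {x : Idele} (hx : x ∈ fixedPts D.bot Idele)
    (h : ∀ q σ, x.at q σ = 0 ∨ (¬ ∃ t, D.IsLocalGen q σ t) ∨ (x.at q σ ∈ unitsAt q ∧
      ∀ t, D.IsLocalGen q σ t → ∀ y ∈ localTop D q σ,
        ∃ e ∈ locField D.K q σ, e ≠ 0 ∧ ‖e‖ = ‖(y : LU q).val‖)) :
    ∃ y ∈ fixedPts D.top Idele, ∑ i ∈ Finset.range p, D.g ^ i • y = x := by
  refine D.exists_norm_of_forall_coset x.finite_nonunit.toFinset fun q σ => ?_
  rcases h q σ with h0 | hs | ⟨hu, hunr⟩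
  · refine ⟨0, zero_mem _, fun r _ γ => (unitsAt r).zero_mem, fun r γ hγ => ?_⟩
    obtain ⟨rfl, τ, n, hn, rfl⟩ := mem_cosetSet_iff.1 hγ
    rw [Idele.mem_fixedPts_iff.1 hx r _ n hn, Idele.at_loc_mul, h0, smul_zero]
    simp [Idele.at_zero]
  · obtain ⟨y, hy, hy0, hy'⟩ := D.exists_norm_coset_split hs hx
    refine ⟨y, hy, fun r hr γ => ?_, hy'⟩
    rcases hy0 r γ with e | e <;> rw [e]
    · by_contra hc
      exact hr (x.finite_nonunit.mem_toFinset.2 ⟨γ, hc⟩)
    · exact (unitsAt r).zero_mem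
  · obtain ⟨y, hy, hy0, hy'⟩ := D.exists_norm_coset_unit hx hu hunr
    exact ⟨y, hy, fun r _ γ => hy0 r γ, hy'⟩

/-- The classes of `K` modulo norms. -/
abbrev NormQuot : Type :=
  fixedPts D.bot IdeleClass ⧸ (normTo IdeleClass D.top D.bot).range

/-- The ideles of `K` modulo norms and principal ideles. -/
def normQuot : fixedPts D.bot Idele →+ D.NormQuot :=
  (QuotientAddGroup.mk' _).comp (fixedMap classMap classMap_smul D.bot)

theorem normQuot_surjective : Function.Surjective D.normQuot := by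
  intro z
  obtain ⟨c, rfl⟩ := QuotientAddGroup.mk'_surjective _ z
  obtain ⟨x, hx, hx'⟩ := exists_idele_lift D.bot c.2
  exact ⟨⟨x, hx⟩, congrArg (QuotientAddGroup.mk' _) (Subtype.ext hx')⟩

theorem normQuot_principal {a : GU} (ha : a ∈ fixedPts D.bot GU) :
    D.normQuot ⟨principal a, principal_mem_fixedPts_iff.2 ha⟩ = 0 := by
  show QuotientAddGroup.mk' (normTo IdeleClass D.top D.bot).range _ = 0
  rw [show fixedMap classMap classMap_smul D.bot ⟨principal a, principal_mem_fixedPts_iff.2 ha⟩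
    = 0 from Subtype.ext ((classMap_eq_zero_iff _).2 ⟨a, rfl⟩), map_zero]

theorem normQuot_eq_zero_of_norm {x : fixedPts D.bot Idele} {y : Idele}
    (hy : y ∈ fixedPts D.top Idele) (h : ∑ i ∈ Finset.range p, D.g ^ i • y = x.1) :
    D.normQuot x = 0 := by
  refine (QuotientAddGroup.eq_zero_iff _).2 ⟨fixedMap classMap classMap_smul D.top ⟨y, hy⟩, ?_⟩
  rw [normTo_map]
  refine congrArg _ (Subtype.ext ?_)
  rw [D.coe_normTo]
  exact h

theorem nsmul_normQuot_eq_zero (z : D.NormQuot) : p • z = 0 := by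
  obtain ⟨c, rfl⟩ := QuotientAddGroup.mk'_surjective _ z
  rw [← map_nsmul]
  refine (QuotientAddGroup.eq_zero_iff _).2 ⟨⟨c.1, fixedPts_antitone D.top_le c.2⟩, ?_⟩
  refine Subtype.ext ?_
  rw [D.coe_normTo, AddSubgroup.coe_nsmul]
  exact (Finset.sum_congr rfl fun i _ => c.2 _ (D.bot.pow_mem D.mem i)).trans (by simp)

/-- The first inequality: the norm quotient is finite of order divisible by `p`. -/
theorem card_normQuot (hD : D.InfSplit) : p ∣ Nat.card D.NormQuot ∧ Nat.card D.NormQuot ≠ 0 :=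
  D.prime_dvd_normIndex hD

end CyclicStep

end FLTAgent.IdeleClassCohomology
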