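import Fermat.Agent.IdeleClassCohomology.RootLayer
import Fermat.Agent.IdeleClassCohomology.Divisor

/-!
# Ideal classes die in an extension unramified outside `S`, up to factors prime to `p`

`exists_class_kill`: some multiple, prime to `p`, of an idele of an `S`-layer is, over a larger
`S`-layer, a principal idele plus a unit `S`-idele.
-/

set_option autoImplicit false

noncomputable section

namespace FLTAgent.IdeleClassCohomology

open FLTAgent.GalCoh FLTAgent.GlobalDuality NumberField

variable {p : ℕ} [hp : Fact p.Prime]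

/-- Every idele class of an `S`-layer becomes an `S`-idele class upstairs, up to a factor prime
to `p`. The idele obtained is a unit everywhere. -/
theorem exists_class_kill {L : Layer} {S : Finset Nat.Primes} (hL : L.IsS S)
    (hpS : (⟨p, hp.out⟩ : Nat.Primes) ∈ S) {x : Idele} (hx : x ∈ fixedPts L.sub Idele) :
    ∃ (m : ℕ) (L' : Layer) (a : GU), ¬ p ∣ m ∧ L ≤ L' ∧ L'.IsS S ∧
      a ∈ fixedPts L'.sub GU ∧ m • x - principal a ∈ unitIdeles ∧
      m • x - principal a ∈ fixedPts L'.sub Idele ∧ m • x - principal a ∈ sIdeles S := by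
  have := L.finite
  obtain ⟨k, m, hm, hh⟩ := Nat.exists_eq_pow_mul_and_not_dvd
    (Fintype.card_ne_zero (α := ClassGroup (𝓞 L.field))) p hp.out.ne_one
  set y : fixedPts L.field.fixingSubgroup Idele := m • ⟨x, hx⟩
  have hy : ideleClassGroup L.field (p ^ k • y) = 0 := by
    rw [map_nsmul, map_nsmul, ← mul_nsmul', ← hh]
    exact Additive.toMul.injective (by rw [toMul_nsmul, pow_card_eq_one]; rfl)
  obtain ⟨b, hb, hu⟩ := exists_eq_principal_add_unit L.field hy
  have hyx : y.1 = m • x := by rw [AddSubgroup.coe_nsmul]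
  rw [AddSubgroup.coe_nsmul, hyx] at hu
  have hnb : ∀ (q : Nat.Primes) (δ : Gam),
      ‖emb q (δ b.val)‖ = ‖((m • x).at q δ).val‖ ^ p ^ k := by
    intro q δ
    have h1 := hu q δ
    rw [Idele.at_sub, at_nsmul, mem_unitsAt_iff] at h1
    change ‖((p ^ k • (m • x).at q δ).toMul / ((principal b).at q δ).toMul :
      (PadicAlgCl (q : ℕ))ˣ).val‖ = 1 at h1
    rw [Units.val_div_eq_div_val, norm_div] at h1
    change ‖(p ^ k • (m • x).at q δ).val‖ / ‖emb q (δ b.val)‖ = 1 at h1
    rw [LU.val_nsmul, norm_pow, div_eq_one_iff_eq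
      (norm_ne_zero_iff.2 fun h => GU.val_ne_zero b
        ((map_eq_zero δ).1 ((map_eq_zero (emb q)).1 h)))] at h1
    exact h1.symm
  have hbL : b.val ∈ L.field := val_mem_of_fixed L.field hb
  obtain ⟨L', hle, hS', hroot⟩ := exists_rootLayer hL (n := p ^ k) (pow_ne_zero _ hp.out.ne_zero)
    (fun q hq h => hq (by
      rwa [show q = (⟨p, hp.out⟩ : Nat.Primes) from
        Subtype.ext ((Nat.prime_dvd_prime_iff_eq q.2 hp.out).1 (q.2.dvd_of_dvd_pow h))]))
    {b.val} (fun c hc => by rw [Finset.mem_singleton.1 hc]; exact hbL)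
    (fun c hc q _ δ => by
      obtain ⟨e, -, he⟩ := exists_norm_at_eq (K := L.field) (q := q) (σ := δ)
        (x := m • x) (nsmul_mem hx m)
      refine ⟨e, e.2, ?_⟩
      rw [Finset.mem_singleton.1 hc, hnb, ← he]
      rfl)
  obtain ⟨z, hz⟩ := IsAlgClosed.exists_pow_nat_eq b.val (pow_pos hp.out.pos k)
  have hz0 : z ≠ 0 := fun h => GU.val_ne_zero b (by
    rw [← hz, h, zero_pow (pow_ne_zero _ hp.out.ne_zero)])
  let a : GU := Additive.ofMul (Units.mk0 z hz0)
  have ha : a ∈ fixedPts L'.sub GU := fun s hs => GU.ext (by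
    rw [GU.val_smul]
    exact (IntermediateField.mem_fixingSubgroup_iff _ _).1 hs _
      (hroot _ (Finset.mem_singleton_self _) z hz))
  have hfix : m • x - principal a ∈ fixedPts L'.sub Idele :=
    sub_mem (fixedPts_antitone (Layer.sub_le hle) (nsmul_mem hx m))
      (principal_mem_fixedPts_iff.2 ha)
  have hunit : m • x - principal a ∈ unitIdeles := fun q δ => by
    rw [Idele.at_sub, mem_unitsAt_iff]
    show ‖(((m • x).at q δ).toMul / ((principal a).at q δ).toMul :
      (PadicAlgCl (q : ℕ))ˣ).val‖ = 1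
    rw [Units.val_div_eq_div_val, norm_div]
    show ‖((m • x).at q δ).val‖ / ‖emb q (δ z)‖ = 1
    rw [div_eq_one_iff_eq (norm_ne_zero_iff.2 fun h =>
      hz0 ((map_eq_zero δ).1 ((map_eq_zero (emb q)).1 h)))]
    refine (pow_left_inj₀ (norm_nonneg _) (norm_nonneg _) (pow_ne_zero k hp.out.ne_zero)).1 ?_
    rw [← norm_pow (emb q (δ z)), ← map_pow, ← map_pow, hz, hnb]
  exact ⟨m, L', a, hm, hle, hS', ha, hunit, hfix, ⟨L', hS', hfix⟩, fun q _ δ => hunit q δ⟩

end FLTAgent.IdeleClassCohomology
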