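import Fermat.Agent.GlobalDuality.Norm

/-!
# Transitivity of the relative norm

`normTo_trans`: norms for nested subgroups of finite index compose.
-/

set_option autoImplicit false

noncomputable section

namespace FLTAgent.GalCoh

variable {Γ : Type} [Group Γ] {A : Type} [AddCommGroup A] [DistribMulAction Γ A]

theorem normTo_trans {N'' N' N : Subgroup Γ} [Finite (N ⧸ N'.subgroupOf N)]
    [Finite (N' ⧸ N''.subgroupOf N')] [Finite (N ⧸ N''.subgroupOf N)]
    (h1 : N'' ≤ N') (h2 : N' ≤ N) (a : fixedPts N'' A) :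
    normTo A N' N (normTo A N'' N' a) = normTo A N'' N a := by
  classical
  have := Fintype.ofFinite (N ⧸ N'.subgroupOf N)
  have := Fintype.ofFinite (N' ⧸ N''.subgroupOf N')
  have := Fintype.ofFinite (N ⧸ N''.subgroupOf N)
  let f : (N ⧸ N'.subgroupOf N) × (N' ⧸ N''.subgroupOf N') → N ⧸ N''.subgroupOf N := fun x =>
    QuotientGroup.mk (x.1.out * ⟨(x.2.out : N'), h2 x.2.out.2⟩)
  have hf : Function.Bijective f := by
    constructor
    · rintro ⟨x, y⟩ ⟨x', y'⟩ h
      have h' := QuotientGroup.eq.1 h
      rw [Subgroup.mem_subgroupOf] at h'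
      simp only [Subgroup.coe_mul, Subgroup.coe_inv, mul_inv_rev] at h'
      have hx : x = x' := by
        rw [← QuotientGroup.out_eq' x, ← QuotientGroup.out_eq' x', QuotientGroup.eq,
          Subgroup.mem_subgroupOf]
        have := mul_mem (mul_mem y.out.2 (h1 h')) (inv_mem y'.out.2)
        simp only [Subgroup.coe_mul, Subgroup.coe_inv]
        convert this using 1
        group
      subst hx
      refine Prod.ext rfl ?_
      rw [← QuotientGroup.out_eq' y, ← QuotientGroup.out_eq' y', QuotientGroup.eq,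
        Subgroup.mem_subgroupOf]
      simp only [Subgroup.coe_mul, Subgroup.coe_inv]
      convert h' using 1
      group
    · intro z
      obtain ⟨g, rfl⟩ := QuotientGroup.mk_surjective z
      set x : N ⧸ N'.subgroupOf N := QuotientGroup.mk g
      have hu : ((x.out : N) : Γ)⁻¹ * (g : Γ) ∈ N' := by
        have h := QuotientGroup.eq.1 (QuotientGroup.out_eq' x)
        rw [Subgroup.mem_subgroupOf] at h
        simpa using h
      set y : N' ⧸ N''.subgroupOf N' := QuotientGroup.mk ⟨_, hu⟩
      refine ⟨(x, y), ?_⟩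
      have hv : ((y.out : N') : Γ)⁻¹ * (((x.out : N) : Γ)⁻¹ * (g : Γ)) ∈ N'' := by
        have h := QuotientGroup.eq.1 (QuotientGroup.out_eq' y)
        rw [Subgroup.mem_subgroupOf] at h
        simpa using h
      show (QuotientGroup.mk _ : N ⧸ N''.subgroupOf N) = _
      rw [QuotientGroup.eq, Subgroup.mem_subgroupOf]
      simp only [Subgroup.coe_mul, Subgroup.coe_inv, mul_inv_rev]
      rw [mul_assoc]
      exact hv
  refine Subtype.ext ?_
  rw [coe_normTo, coe_normTo, ← Fintype.sum_bijective f hf _ _ (fun _ => rfl),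
    Fintype.sum_prod_type]
  refine Finset.sum_congr rfl fun x _ => ?_
  conv_lhs => rw [← QuotientGroup.out_eq' x, normTerm_mk, coe_normTo, Finset.smul_sum]
  refine Finset.sum_congr rfl fun y _ => ?_
  conv_lhs => rw [← QuotientGroup.out_eq' y, normTerm_mk]
  rw [show f (x, y) = QuotientGroup.mk (x.out * ⟨(y.out : N'), h2 y.out.2⟩) from rfl, normTerm_mk,
    Subgroup.coe_mul, mul_smul]

end FLTAgent.GalCoh
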