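import Fermat.Agent.IdeleClassCohomology.KummerDual
import Fermat.Agent.IdeleClassCohomology.NormTrans

/-!
# The norm group of a Kummer step

`IsKummerKer` collects the properties used of the norm group of a Kummer step;
`isKummerKer_normQuot` proves them.
-/

set_option autoImplicit false

noncomputable section

namespace FLTAgent.IdeleClassCohomology

open FLTAgent.GalCoh FLTAgent.GlobalDuality

variable {p : ℕ} [hp : Fact p.Prime] {K : IntermediateField ℚ QQbar} [FiniteDimensional ℚ K]

instance finite_quot_layer (M : Layer) (N : Subgroup Gam) :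
    Finite (N ⧸ M.sub.subgroupOf N) :=
  haveI : (M.sub.subgroupOf N).FiniteIndex := ⟨fun h => M.sub_finiteIndex.index_ne_zero
    (Nat.eq_zero_of_zero_dvd (h ▸ Subgroup.relIndex_dvd_index_of_normal M.sub N))⟩
  Subgroup.finite_quotient_of_finiteIndex

/-- What is needed from the group of norms of a Kummer step. -/
structure IsKummerKer (p : ℕ) [Fact p.Prime] (a : fixedPts K.fixingSubgroup GU)
    (H : AddSubgroup (fixedPts K.fixingSubgroup Idele)) : Prop where
  dvd : p ∣ H.index
  ne_zero : H.index ≠ 0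
  principal_mem : (fixedPrincipal K).range ≤ H
  nsmul_mem : ∀ x, p • x ∈ H
  local_mem : ∀ x : fixedPts K.fixingSubgroup Idele,
    (∀ q σ, x.1.at q σ = 0 ∨
      (∃ y ∈ locField K q σ, y ^ p = emb q (σ a.1.val)) ∨
      (x.1.at q σ ∈ unitsAt q ∧ (q : ℕ) ≠ p ∧
        ∃ y ∈ locField K q σ, ‖y‖ ^ p = ‖emb q (σ a.1.val)‖)) → x ∈ H
  norm_mem : ∀ M : Layer, (root p a.1).val ∈ M.field → M.sub ≤ K.fixingSubgroup →
    ∀ y : fixedPts M.sub Idele, normTo Idele M.sub K.fixingSubgroup y ∈ H

theorem isKummerKer_normQuot (D : CyclicStep p) (hK : HasRoots p D.K)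
    (hc : NumberField.IsTotallyComplex D.K) {a : fixedPts D.K.fixingSubgroup GU}
    (hD : ∀ g : D.K.fixingSubgroup,
      (g : Gam) ∈ D.top ↔ kummer hK a (Additive.ofMul g) = 0) :
    IsKummerKer p a D.normQuot.ker := by
  have hsplit : D.InfSplit := Or.inr hc
  obtain ⟨hdvd, hne⟩ := D.card_normQuot hsplit
  have hidx : D.normQuot.ker.index = Nat.card D.NormQuot := by
    rw [AddSubgroup.index_ker, AddMonoidHom.range_eq_top.2 D.normQuot_surjective,
      AddSubgroup.card_top]
  refine ⟨by rwa [hidx], by rwa [hidx], ?_, ?_, ?_, ?_⟩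
  · rintro _ ⟨b, rfl⟩
    exact D.normQuot_principal b.2
  · intro x
    rw [AddMonoidHom.mem_ker, map_nsmul, D.nsmul_normQuot_eq_zero]
  · intro x hx
    obtain ⟨y, hy, hy'⟩ := D.exists_norm_of_forall_local x.2 fun q σ => by
      rcases hx q σ with h | ⟨y, hy, hy'⟩ | ⟨hu, hq, y, hy, hy'⟩
      · exact Or.inl h
      · exact Or.inr (Or.inl (CyclicStep.not_isLocalGen_of_pow hK rfl hD hy hy'))
      · exact Or.inr (Or.inr ⟨hu, fun t ht z hz =>
          CyclicStep.exists_norm_eq_of_kummer hK rfl hD hq hy hy' ht hz⟩)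
    exact D.normQuot_eq_zero_of_norm hy hy'
  · intro M hroot hM y
    have hMtop : M.sub ≤ D.top := fun g hg =>
      (hD ⟨g, hM hg⟩).2 ((kummer_apply_eq_zero_iff hK a (nsmul_root p a.1) _).2 (GU.ext
        ((IntermediateField.mem_fixingSubgroup_iff _ _).1 hg _ hroot)))
    refine D.normQuot_eq_zero_of_norm (normTo Idele M.sub D.top y).2 ?_
    rw [← D.coe_normTo, normTo_trans hMtop D.top_le]

theorem exists_isKummerKer (hK : HasRoots p K) (hc : NumberField.IsTotallyComplex K)
    {a : fixedPts K.fixingSubgroup GU} (ha : a ∉ powers p K) :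
    ∃ H, IsKummerKer p a H := by
  obtain ⟨D, hDK, hD⟩ := exists_kummerStep hK ha
  subst hDK
  exact ⟨_, isKummerKer_normQuot D hK hc hD⟩

end FLTAgent.IdeleClassCohomology
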