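import Fermat.Agent.IdeleClassCohomology.Hyperplanes
import Fermat.Agent.IdeleClassCohomology.PowerClasses
import Fermat.Agent.IdeleClassCohomology.RootLayer

/-!
# Norms from a big `S`-layer lie in principal, `S`- and `p`-divisible ideles

`exists_normKill` and `exists_normKill_of_odd` find a layer unramified outside `S` all whose norms
are sums of a principal idele, a `p`-th multiple and an `S`-idele.
-/

set_option autoImplicit false

noncomputable section

namespace FLTAgent.IdeleClassCohomology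

open FLTAgent.GalCoh FLTAgent.GlobalDuality Module NumberField

variable {p : ℕ} [hp : Fact p.Prime] {K : IntermediateField ℚ QQbar} [FiniteDimensional ℚ K]
  {S : Finset Nat.Primes} {R : Finset (Nat.Primes × Gam)}

/-- The counting behind the index bound. -/
theorem index_le_of_counts {J V L : Type} [AddCommGroup J] [AddCommGroup V] [AddCommGroup L]
    [Finite L] {q s c : ℕ} (hc : c ≠ 0) (hq : q ≠ 0) (ψ : J →+ L) (φ : V →+ L)
    (U : AddSubgroup J) (hψU : ψ.ker ≤ U) (hφU : ∀ v, ∃ j ∈ U, ψ j = φ v)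
    (hL : Nat.card L = q ^ (2 * s)) (hV : Nat.card V = q ^ s * c)
    (kS : AddSubgroup V) [Finite kS] (hkS : φ.ker ≤ kS) (hker : Nat.card kS ≤ c) :
    U.index ≠ 0 ∧ U.index ≤ q ^ s := by
  have hU0 : U.index ≠ 0 := by
    have h := AddSubgroup.index_dvd_of_le hψU
    rw [AddSubgroup.index_ker] at h
    exact fun h0 => Nat.card_pos.ne' (Nat.eq_zero_of_zero_dvd (h0 ▸ h))
  refine ⟨hU0, ?_⟩
  have hφU' : φ.range ≤ U.map ψ := by
    rintro _ ⟨v, rfl⟩
    obtain ⟨j, hj, e⟩ := hφU v
    exact ⟨j, hj, e⟩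
  have hk : Nat.card φ.ker ≤ c :=
    (Nat.card_le_card_of_injective _ (AddSubgroup.inclusion_injective hkS)).trans hker
  have h1 := AddSubgroup.card_mul_index (U.map ψ)
  rw [AddSubgroup.index_map, sup_eq_left.2 hψU, hL] at h1
  have hr : Nat.card φ.range * U.index ≤ q ^ (2 * s) := by
    rw [← h1, ← mul_assoc]
    have h3 : 1 ≤ ψ.range.index := Nat.pos_of_ne_zero AddSubgroup.index_ne_zero_of_finite
    exact (Nat.mul_le_mul_right _ (Nat.card_le_card_of_injective _
      (AddSubgroup.inclusion_injective hφU'))).trans (Nat.le_mul_of_pos_right _ h3)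
  have hsplit : Nat.card φ.ker * Nat.card φ.range = q ^ s * c := by
    rw [← hV, ← AddSubgroup.card_mul_index φ.ker, AddSubgroup.index_ker]
  refine Nat.le_of_mul_le_mul_right ?_
    (Nat.pos_of_ne_zero (mul_ne_zero (pow_ne_zero s hq) hc) : 0 < q ^ s * c)
  calc U.index * (q ^ s * c) = Nat.card φ.ker * (Nat.card φ.range * U.index) := by
        rw [← hsplit]; ring
    _ ≤ c * q ^ (2 * s) := Nat.mul_le_mul hk hr
    _ = q ^ s * (q ^ s * c) := by rw [two_mul, pow_add]; ring

omit hp [FiniteDimensional ℚ K] in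
theorem nsmul_locQuot (i : Nat.Primes × Gam) (z : LocQuot p K i) : p • z = 0 := by
  obtain ⟨a, rfl⟩ := QuotientAddGroup.mk'_surjective _ z
  rw [← map_nsmul]
  exact (QuotientAddGroup.eq_zero_iff _).2 ⟨a, rfl⟩

omit hp [FiniteDimensional ℚ K] in
theorem nsmul_base_quot (x : fixedPts K.fixingSubgroup Idele ⧸ baseGroup p K R) : p • x = 0 := by
  obtain ⟨a, rfl⟩ := QuotientAddGroup.mk'_surjective _ x
  rw [← map_nsmul]
  exact (QuotientAddGroup.eq_zero_iff _).2
    (AddSubgroup.mem_sup_left (AddSubgroup.mem_sup_right ⟨a, rfl⟩))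

omit [FiniteDimensional ℚ K] in
theorem zeroUnits_le_awayUnits (hcov : covered K R = {j | j.1 ∈ S}) :
    zeroUnits K R ≤ awayUnits K S :=
  fun x hx q hq σ => hx.2 (q, σ) (by rw [hcov]; exact hq)

/-- The image of all classes whose Kummer norm groups contain `B` is no bigger than the quotient
by `B`. -/
theorem card_le_of_kummerKer (hK : HasRoots p K) (hc : IsTotallyComplex K)
    (W : AddSubgroup (PowClass p K)) (B : AddSubgroup (fixedPts K.fixingSubgroup Idele))
    [Finite (fixedPts K.fixingSubgroup Idele ⧸ B)]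
    (hB : ∀ x, p • x ∈ B)
    (hle : ∀ a, QuotientAddGroup.mk' (powers p K) a ∈ W → ∀ H, IsKummerKer p a H → B ≤ H) :
    ∃ f : W → AddSubgroup (fixedPts K.fixingSubgroup Idele ⧸ B),
      (∀ w ≠ 0, (f w).index = p) ∧
      (∀ w ≠ 0, ∀ w', w' ∉ AddSubgroup.zmultiples w → f w ≠ f w') ∧
      (∀ w ≠ 0, ∃ (a : fixedPts K.fixingSubgroup GU) (H : AddSubgroup _),
        QuotientAddGroup.mk' (powers p K) a = w.1 ∧ IsKummerKer p a H ∧
          f w = H.map (QuotientAddGroup.mk' B)) ∧
      Nat.card W ≤ Nat.card (fixedPts K.fixingSubgroup Idele ⧸ B) := by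
  classical
  have hex : ∀ w : W, ∃ (a : fixedPts K.fixingSubgroup GU)
      (H : AddSubgroup (fixedPts K.fixingSubgroup Idele)),
      QuotientAddGroup.mk' (powers p K) a = w.1 ∧ (w ≠ 0 → IsKummerKer p a H) := by
    intro w
    obtain ⟨a, ha⟩ := QuotientAddGroup.mk'_surjective (powers p K) w.1
    rcases eq_or_ne w 0 with h | h
    · exact ⟨a, ⊤, ha, fun h' => absurd h h'⟩
    · obtain ⟨H, hH⟩ := exists_isKummerKer hK hc (a := a) fun hpow => h (Subtype.ext
        (ha.symm.trans ((QuotientAddGroup.eq_zero_iff _).2 hpow)))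
      exact ⟨a, H, ha, fun _ => hH⟩
  choose av Hv hav hHv using hex
  have hnp : ∀ w : W, w ≠ 0 → av w ∉ powers p K := fun w h hpow =>
    h (Subtype.ext ((hav w).symm.trans ((QuotientAddGroup.eq_zero_iff _).2 hpow)))
  have hBle : ∀ w : W, w ≠ 0 → B ≤ Hv w := fun w h =>
    hle (av w) (by rw [hav]; exact w.2) _ (hHv w h)
  have hcomap : ∀ w : W, w ≠ 0 →
      ((Hv w).map (QuotientAddGroup.mk' B)).comap (QuotientAddGroup.mk' B) = Hv w := fun w h => by
    rw [AddSubgroup.comap_map_eq, QuotientAddGroup.ker_mk', sup_eq_left.2 (hBle w h)]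
  let f : W → AddSubgroup (fixedPts K.fixingSubgroup Idele ⧸ B) :=
    fun w => if w = 0 then ⊤ else (Hv w).map (QuotientAddGroup.mk' B)
  have hf : ∀ w : W, w ≠ 0 → f w = (Hv w).map (QuotientAddGroup.mk' B) := fun w h => if_neg h
  have hidx : ∀ w : W, w ≠ 0 → (f w).index = p := fun w h => by
    rw [hf w h, ← AddSubgroup.index_comap_of_surjective _ (QuotientAddGroup.mk'_surjective B),
      hcomap w h]
    exact (hHv w h).index_eq hK hc (hnp w h)
  have hinj : ∀ w ≠ 0, ∀ w', w' ∉ AddSubgroup.zmultiples w → f w ≠ f w' := by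
    intro w h w' hw' e
    have h' : w' ≠ 0 := fun h0 => hw' (h0 ▸ zero_mem _)
    refine (hHv w h).ne hK hc (hnp w h) ?_ (hHv w' h') ?_
    · rw [hav, hav]
      exact fun hm => hw' (by
        obtain ⟨n, hn⟩ := AddSubgroup.mem_zmultiples_iff.1 hm
        exact AddSubgroup.mem_zmultiples_iff.2 ⟨n, Subtype.ext hn⟩)
    · rw [← hcomap w h, ← hcomap w' h', ← hf w h, ← hf w' h', e]
  refine ⟨f, hidx, hinj, fun w h => ⟨av w, Hv w, hav w, hHv w h, hf w h⟩, ?_⟩
  refine card_le_of_hyperplanes (fun w => Subtype.ext (nsmul_powClass w.1)) (fun x => ?_)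
    f hidx hinj
  obtain ⟨y, rfl⟩ := QuotientAddGroup.mk'_surjective B x
  rw [← map_nsmul]
  exact (QuotientAddGroup.eq_zero_iff _).2 (hB y)

omit [FiniteDimensional ℚ K] in
theorem baseGroup_le_of_powerElts (hcov : covered K R = {j | j.1 ∈ S})
    (hpS : (⟨p, hp.out⟩ : Nat.Primes) ∈ S) {a : fixedPts K.fixingSubgroup GU}
    (ha : a ∈ powerElts p K S) {H : AddSubgroup (fixedPts K.fixingSubgroup Idele)}
    (hH : IsKummerKer p a H) : baseGroup p K R ≤ H := by
  refine baseGroup_le hcov hpS (fun j hj => ?_) hH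
  obtain ⟨e, he⟩ := exists_norm_eq_of_powerElts ha (q := j.1)
    (fun h => hj (by rw [hcov]; exact h)) j.2
  exact ⟨placeEmb K j.1 j.2 e, placeEmb_mem_locField e, he⟩

/-- If every norm group of an element of `V_S` contains an idele, it is principal, `p`-divisible
and a unit vanishing on `S`. -/
theorem mem_baseGroup_of_forall_kummerKer (hK : HasRoots p K) (hc : IsTotallyComplex K)
    (hR : IsPlaces K R) (hcov : covered K R = {j | j.1 ∈ S})
    (hdeg : ∀ q ∈ S, ∑ i ∈ R with i.1 = q, finrank ℚ_[(i.1 : ℕ)] (locField K i.1 i.2) =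
      finrank ℚ K)
    (hpS : (⟨p, hp.out⟩ : Nat.Primes) ∈ S) {x : fixedPts K.fixingSubgroup Idele}
    (hx : ∀ a ∈ powerElts p K S, ∀ H, IsKummerKer p a H → x ∈ H) : x ∈ baseGroup p K R := by
  classical
  have := finite_sClass (K := K) (S := S)
  set J0 := awayUnits K S
  set W1 := baseGroup p K R with hW1
  set Wc : AddSubgroup (fixedPts K.fixingSubgroup Idele) := W1 ⊔ J0 with hWc
  set V := powerClasses p K S
  have hVcard := card_powerClasses (p := p) (S := S) hK hR hcov
  set s := R.card + Fintype.card (InfinitePlace K)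
  set cS := (nsmulAddMonoidHom p : SClass K S →+ SClass K S).range.index
  have hcS : cS ≠ 0 := AddSubgroup.index_ne_zero_of_finite
  have hWcidx : Wc.index = cS := by
    have e : ((nsmulAddMonoidHom p : SClass K S →+ SClass K S).range).comap
        (QuotientAddGroup.mk' ((fixedPrincipal K).range ⊔ J0)) = Wc := by
      ext y
      constructor
      · rintro ⟨z, hz⟩
        obtain ⟨y', rfl⟩ := QuotientAddGroup.mk'_surjective _ z
        have hz' : QuotientAddGroup.mk' ((fixedPrincipal K).range ⊔ J0) (p • y') =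
            QuotientAddGroup.mk' _ y := (map_nsmul _ p y').trans hz
        obtain ⟨t, ht, rfl⟩ := (QuotientAddGroup.mk'_eq_mk' _).1 hz'
        refine add_mem (AddSubgroup.mem_sup_left (AddSubgroup.mem_sup_left
          (AddSubgroup.mem_sup_right ⟨y', rfl⟩))) ?_
        exact (sup_le (le_sup_left.trans (le_sup_left.trans le_sup_left)) le_sup_right :
          (fixedPrincipal K).range ⊔ J0 ≤ Wc) ht
      · intro hy
        refine (sup_le (sup_le (sup_le ?_ ?_) ?_) ?_ : Wc ≤ _) hy
        · intro z hz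
          refine ⟨0, ?_⟩
          exact (map_zero _).trans ((QuotientAddGroup.eq_zero_iff z).2
            (AddSubgroup.mem_sup_left hz)).symm
        · rintro _ ⟨z, rfl⟩
          exact ⟨QuotientAddGroup.mk' _ z, (map_nsmul _ p z).symm⟩
        · intro z hz
          exact ⟨0, (map_zero _).trans ((QuotientAddGroup.eq_zero_iff z).2
            (AddSubgroup.mem_sup_right (zeroUnits_le_awayUnits hcov hz))).symm⟩
        · intro z hz
          exact ⟨0, (map_zero _).trans ((QuotientAddGroup.eq_zero_iff z).2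
            (AddSubgroup.mem_sup_right hz)).symm⟩
    rw [← e, AddSubgroup.index_comap_of_surjective _ (QuotientAddGroup.mk'_surjective _)]
  have : Finite (fixedPts K.fixingSubgroup Idele ⧸ Wc) :=
    Nat.finite_of_card_ne_zero (by rw [← AddSubgroup.index_eq_card, hWcidx]; exact hcS)
  -- local images
  have hinf : finrank ℚ K = 2 * Fintype.card (InfinitePlace K) := by
    rw [IsTotallyComplex.finrank (h := hc), InfinitePlace.card_eq_nrRealPlaces_add_nrComplexPlaces,
      IsTotallyComplex.nrRealPlaces_eq_zero (h := hc), zero_add]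
  have hloc : Nat.card ((i : R) → LocQuot p K i.1) = p ^ (2 * s) := by
    rw [prod_card_locQuot p hK hpS hdeg, hinf]
    congr 1
    omega
  have : Finite ((i : R) → LocQuot p K i.1) :=
    Nat.finite_of_card_ne_zero (by rw [hloc]; exact pow_ne_zero _ hp.out.ne_zero)
  set U := W1.addSubgroupOf J0
  have hψU : ∀ j : J0, locClasses K p R j.1 = 0 → j ∈ U := by
    intro j hj
    obtain ⟨w, hw1, hw2⟩ := exists_eq_nsmul_add_of_locClasses p hR (x := j.1) hj
    rw [AddSubgroup.mem_addSubgroupOf, show (j : fixedPts K.fixingSubgroup Idele) =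
      p • w + (j.1 - p • w) by abel]
    refine add_mem (AddSubgroup.mem_sup_left (AddSubgroup.mem_sup_right ⟨w, rfl⟩))
      (AddSubgroup.mem_sup_right ⟨hw1, fun k hk => ?_⟩)
    rw [AddSubgroup.coe_sub, Idele.at_sub, AddSubgroup.coe_nsmul, at_nsmul, hw2 k hk, nsmul_zero,
      sub_zero]
    exact j.2 k.1 (fun h => hk (by rw [hcov]; exact h)) k.2
  let KS : AddSubgroup (PowClass p K) := V ⊓ ⨅ i : R, (locPow K p i.1).ker
  have hKS : ∀ w, w ∈ KS ↔ w ∈ V ∧ ∀ i : R, locPow K p i.1 w = 0 := fun w => by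
    simp [KS, AddSubgroup.mem_iInf]
  -- classes trivial on `S`
  obtain ⟨-, -, -, -, hker⟩ := card_le_of_kummerKer hK hc KS Wc
    (fun y => AddSubgroup.mem_sup_left (AddSubgroup.mem_sup_left
      (AddSubgroup.mem_sup_right ⟨y, rfl⟩)))
    (fun a ha H hH => by
      obtain ⟨haV', hw⟩ := (hKS _).1 ha
      have haV : a ∈ powerElts p K S := mem_powerElts_of_mk haV'
      refine sup_le (baseGroup_le_of_powerElts hcov hpS haV hH) fun j hj =>
        hH.local_mem j fun q σ => ?_
      by_cases hq : q ∈ S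
      · obtain ⟨i, hi, hij⟩ := mem_covered.1 (show (q, σ) ∈ covered K R by rw [hcov]; exact hq)
        have h0 : locClass K p i (fixedPrincipal K a) = 0 := by
          rw [← locPow_mk]
          exact hw ⟨i, hi⟩
        obtain ⟨u, hu, hu'⟩ := locClass_eq_zero_of_mem_cosetSet h0 hij
        exact Or.inr (Or.inl ⟨u.val, hu, by rw [← LU.val_nsmul, hu']; exact at_principal _ _ _⟩)
      · obtain ⟨e', he'⟩ := exists_norm_eq_of_powerElts haV hq σ
        exact Or.inr (Or.inr ⟨hj q hq σ, fun h => hq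
          ((Subtype.ext h : q = ⟨p, hp.out⟩) ▸ hpS), _, placeEmb_mem_locField e', he'⟩))
  rw [← AddSubgroup.index_eq_card Wc, hWcidx] at hker
  have : Finite V := Nat.finite_of_card_ne_zero (by
    rw [hVcard]; exact mul_ne_zero (pow_ne_zero _ hp.out.ne_zero) hcS)
  obtain ⟨hUne, hU⟩ := index_le_of_counts (L := (i : R) → LocQuot p K i.1) (s := s) hcS
    hp.out.ne_zero
    (AddMonoidHom.mk' (fun j : J0 => fun i : R => locClass K p i.1 j.1)
      fun x y => funext fun i => by
      rw [Pi.add_apply, AddSubgroup.coe_add, map_add])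
    (AddMonoidHom.mk' (fun w : V => fun i : R => locPow K p i.1 w.1)
      fun x y => funext fun i => by rw [Pi.add_apply, AddSubgroup.coe_add, map_add])
    U (fun j hj => hψU j (funext fun i => by
      have h := congrFun (AddMonoidHom.mem_ker.1 hj) i
      simp only [AddMonoidHom.mk'_apply, Pi.zero_apply] at h
      rw [locClasses, AddMonoidHom.pi_apply]
      exact h)) (fun v => by
      obtain ⟨w, hw⟩ := v
      obtain ⟨a, ha, rfl⟩ := hw
      obtain ⟨y, hy⟩ := exists_of_mem_powerElts ha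
      refine ⟨⟨_, hy⟩, AddSubgroup.mem_addSubgroupOf.2 (sub_mem
        (AddSubgroup.mem_sup_left (AddSubgroup.mem_sup_left ⟨a, rfl⟩))
        (AddSubgroup.mem_sup_left (AddSubgroup.mem_sup_right ⟨y, rfl⟩))), funext fun i => ?_⟩
      show locClass K p i.1 (fixedPrincipal K a - p • y) = locClass K p i.1 (fixedPrincipal K a)
      rw [map_sub, map_nsmul, nsmul_locQuot, sub_zero])
    hloc hVcard (KS.addSubgroupOf V)
    (fun w hw => AddSubgroup.mem_addSubgroupOf.2 ((hKS _).2 ⟨w.2, fun i => by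
      have h := congrFun (AddMonoidHom.mem_ker.1 hw) i
      simpa only [AddMonoidHom.mk'_apply, Pi.zero_apply] using h⟩))
    (by
      rwa [Nat.card_congr (AddSubgroup.addSubgroupOfEquivOfLe
        (inf_le_left : KS ≤ V)).toEquiv])
  have hW1idx : W1.index = U.index * cS := by
    rw [← hWcidx, ← AddSubgroup.relIndex_mul_index (le_sup_left : W1 ≤ Wc), hWc,
      AddSubgroup.relIndex_sup_left]
    rfl
  have : Finite (fixedPts K.fixingSubgroup Idele ⧸ W1) :=
    Nat.finite_of_card_ne_zero (by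
      rw [← AddSubgroup.index_eq_card, hW1idx]; exact mul_ne_zero hUne hcS)
  -- all power classes
  obtain ⟨f, hidx, hinj, hspec, -⟩ := card_le_of_kummerKer hK hc V W1
    (fun y => AddSubgroup.mem_sup_left (AddSubgroup.mem_sup_right ⟨y, rfl⟩))
    (fun a ha H hH => baseGroup_le_of_powerElts hcov hpS (mem_powerElts_of_mk ha) hH)
  refine (QuotientAddGroup.eq_zero_iff x).1 (eq_zero_of_mem_hyperplanes
    (fun w : V => Subtype.ext (nsmul_powClass w.1)) nsmul_base_quot f hidx hinj ?_ fun w hw => ?_)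
  · rw [← AddSubgroup.index_eq_card, hW1idx, hVcard]
    exact Nat.mul_le_mul_right _ hU
  · obtain ⟨a, H, haw, hH, e⟩ := hspec w hw
    rw [e]
    exact ⟨x, hx a (mem_powerElts_of_mk (by rw [haw]; exact w.2)) H hH, rfl⟩

/-- A big layer unramified outside `S` all whose norms are principal, `p`-divisible and units
vanishing on `S` modulo each other. -/
theorem exists_normKill {L : Layer} {S : Finset Nat.Primes} (hL : L.IsS S)
    (hpS : (⟨p, hp.out⟩ : Nat.Primes) ∈ S) (hK : HasRoots p L.field)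
    (hc : IsTotallyComplex L.field) :
    ∃ L' : Layer, L ≤ L' ∧ L'.IsS S ∧ ∀ y : fixedPts L'.sub Idele,
      ∃ a z w, a ∈ fixedPts L.sub GU ∧ z ∈ fixedPts L.sub Idele ∧ w ∈ fixedPts L.sub Idele ∧
        w ∈ sIdeles S ∧ (normTo Idele L'.sub L.sub y : Idele) = principal a + p • z + w := by
  classical
  have := L.finite
  obtain ⟨R, hR, hcov, hdeg⟩ := exists_places L.field S
  have hVcard := card_powerClasses (p := p) (S := S) hK hR hcov
  have := finite_sClass (K := L.field) (S := S)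
  have : Finite (powerClasses p L.field S) := Nat.finite_of_card_ne_zero (by
    rw [hVcard]; exact mul_ne_zero (pow_ne_zero _ hp.out.ne_zero)
      AddSubgroup.index_ne_zero_of_finite)
  have := Fintype.ofFinite (powerClasses p L.field S)
  choose rep hrep using fun w : powerClasses p L.field S =>
    QuotientAddGroup.mk'_surjective (powers p L.field) w.1
  have hrepV : ∀ w, rep w ∈ powerElts p L.field S := fun w =>
    mem_powerElts_of_mk (by rw [hrep]; exact w.2)
  obtain ⟨L', hle, hS', hroot⟩ := exists_rootLayer hL hp.out.ne_zero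
    (fun q hq h => hq ((Subtype.ext ((Nat.prime_dvd_prime_iff_eq q.2 hp.out).1 h) :
      q = ⟨p, hp.out⟩) ▸ hpS))
    (Finset.univ.image fun w => (rep w).1.val)
    (fun b hb => by
      obtain ⟨w, -, rfl⟩ := Finset.mem_image.1 hb
      exact val_mem_of_fixed L.field (rep w).2)
    (fun b hb q hq δ => by
      obtain ⟨w, -, rfl⟩ := Finset.mem_image.1 hb
      obtain ⟨e, he⟩ := exists_norm_eq_of_powerElts (hrepV w) hq δ
      exact ⟨e, e.2, he⟩)
  refine ⟨L', hle, hS', fun y => ?_⟩
  have hmem : normTo Idele L'.sub L.sub y ∈ baseGroup p L.field R := by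
    refine mem_baseGroup_of_forall_kummerKer hK hc hR hcov hdeg hpS fun a ha H hH => ?_
    refine hH.norm_mem L' ?_ (Layer.sub_le hle) y
    obtain ⟨z, ⟨b, rfl⟩, hz⟩ := (QuotientAddGroup.mk'_eq_mk' _).1
      (hrep ⟨_, a, ha, rfl⟩)
    set w : powerClasses p L.field S := ⟨_, a, ha, rfl⟩
    have hrw : (root p (rep w).1).val ∈ L'.field :=
      hroot _ (Finset.mem_image_of_mem _ (Finset.mem_univ w)) _
        (by rw [← GU.val_nsmul, nsmul_root])
    have hpow : (root p a.1).val ^ p = ((root p (rep w).1).val * b.1.val) ^ p := by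
      rw [mul_pow, ← GU.val_nsmul, ← GU.val_nsmul, ← GU.val_nsmul, nsmul_root, nsmul_root]
      exact (congrArg (fun u : fixedPts L.field.fixingSubgroup GU => u.1.val) hz.symm).trans
        (GU.val_add _ _)
    have hb : b.1.val ∈ L'.field := hle (val_mem_of_fixed L.field b.2)
    obtain ⟨i, -, hi⟩ := (cycRoot_spec ⟨p, hp.out⟩).eq_pow_of_pow_eq_one
      (show ((root p a.1).val / ((root p (rep w).1).val * b.1.val)) ^ p = 1 by
        rw [div_pow, hpow, div_self
          (pow_ne_zero _ (mul_ne_zero (GU.val_ne_zero _) (GU.val_ne_zero _)))])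
    rw [show (root p a.1).val = cycRoot ⟨p, hp.out⟩ ^ i * ((root p (rep w).1).val * b.1.val) by
      rw [hi, div_mul_cancel₀ _ (mul_ne_zero (GU.val_ne_zero _) (GU.val_ne_zero _))]]
    exact mul_mem (pow_mem (hle (hK _ (cycRoot_spec ⟨p, hp.out⟩).pow_eq_one)) i) (mul_mem hrw hb)
  obtain ⟨v, hv, w, hw, e⟩ := AddSubgroup.mem_sup.1 hmem
  obtain ⟨_, ⟨a, rfl⟩, _, ⟨z, rfl⟩, e'⟩ := AddSubgroup.mem_sup.1 hv
  refine ⟨a.1, z.1, w.1, a.2, z.2, w.2, ⟨⟨L, hL, w.2⟩, fun q hq σ => ?_⟩, ?_⟩
  · exact zeroUnits_le_awayUnits hcov hw q hq σ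
  · rw [← e, ← e']
    rfl

/-- The same statement over an arbitrary `S`-layer, for odd `p`. -/
theorem exists_normKill_of_odd {L : Layer} {S : Finset Nat.Primes} (hL : L.IsS S)
    (hpS : (⟨p, hp.out⟩ : Nat.Primes) ∈ S) (hp2 : p ≠ 2) :
    ∃ L' : Layer, L ≤ L' ∧ L'.IsS S ∧ ∀ y : fixedPts L'.sub Idele,
      ∃ a z w, a ∈ fixedPts L.sub GU ∧ z ∈ fixedPts L.sub Idele ∧ w ∈ fixedPts L.sub Idele ∧
        w ∈ sIdeles S ∧ (normTo Idele L'.sub L.sub y : Idele) = principal a + p • z + w := by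
  obtain ⟨L₁, hle₁, hS₁, hroot⟩ := exists_rootLayer hL hp.out.ne_zero
    (fun q hq h => hq ((Subtype.ext ((Nat.prime_dvd_prime_iff_eq q.2 hp.out).1 h) :
      q = ⟨p, hp.out⟩) ▸ hpS))
    {1} (fun b hb => by rw [Finset.mem_singleton.1 hb]; exact one_mem _)
    (fun b hb q _ δ => ⟨1, one_mem _, by rw [Finset.mem_singleton.1 hb]; simp⟩)
  have := L₁.finite
  have hK : HasRoots p L₁.field := fun z hz => hroot 1 (Finset.mem_singleton_self _) z hz
  obtain ⟨L', hle, hS', h⟩ := exists_normKill hS₁ hpS hK (isTotallyComplex_of_hasRoots hK hp2)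
  refine ⟨L', Layer.le_trans hle₁ hle, hS', fun y => ?_⟩
  obtain ⟨a, z, w, ha, hz, hw, hwS, e⟩ := h y
  refine ⟨(normTo GU L₁.sub L.sub ⟨a, ha⟩).1, (normTo Idele L₁.sub L.sub ⟨z, hz⟩).1,
    (normTo Idele L₁.sub L.sub ⟨w, hw⟩).1, (normTo GU L₁.sub L.sub ⟨a, ha⟩).2,
    (normTo Idele L₁.sub L.sub ⟨z, hz⟩).2, (normTo Idele L₁.sub L.sub ⟨w, hw⟩).2, ?_, ?_⟩
  · refine ⟨⟨L, hL, (normTo Idele L₁.sub L.sub ⟨w, hw⟩).2⟩, fun q hq σ => ?_⟩
    have := Fintype.ofFinite (L.sub ⧸ L₁.sub.subgroupOf L.sub)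
    rw [FLTAgent.GalCoh.coe_normTo]
    show (Idele.atHom q σ) _ ∈ unitsAt q
    rw [map_sum]
    refine sum_mem fun k _ => ?_
    induction k using QuotientGroup.induction_on with
    | _ g =>
      rw [normTerm_mk]
      show ((g : Gam) • w).at q σ ∈ unitsAt q
      rw [Idele.at_smul]
      exact hwS.2 q hq _
  · rw [← normTo_trans (Layer.sub_le hle) (Layer.sub_le hle₁) y,
      show normTo Idele L'.sub L₁.sub y =
        fixedMap principal principal_smul L₁.sub ⟨a, ha⟩ +
          p • (⟨z, hz⟩ : fixedPts L₁.sub Idele) + ⟨w, hw⟩ from Subtype.ext e,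
      map_add, map_add, map_nsmul, normTo_map]
    rfl

end FLTAgent.IdeleClassCohomology
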