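import Fermat.Agent.IdeleClassCohomology.PlaceSet
import Fermat.Agent.IdeleClassCohomology.Divisor

/-!
# Units outside a finite set of places

`placeUnits` are the elements that are units away from given places; `finrank_placeUnits` and
`card_placeUnits_classes` count them and their power classes.
-/

set_option autoImplicit false

noncomputable section

namespace FLTAgent.IdeleClassCohomology

open FLTAgent.GalCoh FLTAgent.GlobalDuality Module NumberField

variable (K : IntermediateField ℚ QQbar) [FiniteDimensional ℚ K]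

/-- Principal ideles of `K`. -/
abbrev fixedPrincipal : fixedPts K.fixingSubgroup GU →+ fixedPts K.fixingSubgroup Idele :=
  fixedMap principal principal_smul K.fixingSubgroup

/-- The elements that are units away from the places of `R`. -/
def placeUnits (R : Finset (Nat.Primes × Gam)) : AddSubgroup (fixedPts K.fixingSubgroup GU) where
  carrier := {a | ∀ j, j ∉ covered K R → (principal a.1).at j.1 j.2 ∈ unitsAt j.1}
  zero_mem' j _ := by
    rw [ZeroMemClass.coe_zero, map_zero]
    exact (unitsAt j.1).zero_mem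
  add_mem' {a b} ha hb j hj := by
    rw [AddSubgroup.coe_add, map_add]
    exact (unitsAt j.1).add_mem (ha j hj) (hb j hj)
  neg_mem' {a} ha j hj := by
    rw [AddSubgroup.coe_neg, map_neg]
    exact (unitsAt j.1).neg_mem (ha j hj)

variable {K} {R : Finset (Nat.Primes × Gam)}

theorem mem_unitsAt_of_nsmul {q : Nat.Primes} {n : ℕ} (hn : n ≠ 0) {a : LU q}
    (h : n • a ∈ unitsAt q) : a ∈ unitsAt q := by
  rw [mem_unitsAt_iff, LU.val_nsmul, norm_pow] at h
  exact (pow_eq_one_iff_of_nonneg (norm_nonneg _) hn).1 h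

omit [FiniteDimensional ℚ K] in
theorem mem_placeUnits_of_nsmul {n : ℕ} (hn : n ≠ 0) {a : fixedPts K.fixingSubgroup GU}
    (h : n • a ∈ placeUnits K R) : a ∈ placeUnits K R := by
  intro j hj
  refine mem_unitsAt_of_nsmul hn ?_
  have h1 := h j hj
  rw [AddSubgroup.coe_nsmul, map_nsmul, at_nsmul] at h1
  exact h1

/-- The orders at the places of `R`. -/
def placeOrds (R : Finset (Nat.Primes × Gam)) : placeUnits K R →+ (R → ℤ) :=
  AddMonoidHom.mk' (fun a i => ideleOrdAt K (fixedPrincipal K a.1) i.1.1 i.1.2) fun a b =>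
    funext fun i => by
      show ideleOrdAt K (fixedPrincipal K (a + b : placeUnits K R).1) i.1.1 i.1.2 = _
      rw [AddSubgroup.coe_add, map_add, ideleOrdAt_add]
      rfl

theorem placeOrds_apply (a : placeUnits K R) (i : R) :
    placeOrds R a i = ideleOrdAt K (fixedPrincipal K a.1) i.1.1 i.1.2 := rfl

omit [FiniteDimensional ℚ K] in
theorem at_fixedPrincipal (a : fixedPts K.fixingSubgroup GU) (q : Nat.Primes) (σ : Gam) :
    (fixedPrincipal K a).1.at q σ = (principal a.1).at q σ := rfl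

omit [FiniteDimensional ℚ K] in
theorem unitsAt_of_mem_cosetSet {x : Idele} (hx : x ∈ fixedPts K.fixingSubgroup Idele)
    {q r : Nat.Primes} {σ γ : Gam} (hu : x.at q σ ∈ unitsAt q)
    (h : (r, γ) ∈ cosetSet K q σ) : x.at r γ ∈ unitsAt r := by
  obtain ⟨rfl, τ, n, hn, rfl⟩ := mem_cosetSet_iff.1 h
  rw [Idele.mem_fixedPts_iff.1 hx r _ n hn, Idele.at_loc_mul]
  exact smul_mem_unitsAt τ hu

theorem placeOrds_eq_zero_iff (a : placeUnits K R) :
    placeOrds R a = 0 ↔ a.1.1 ∈ globalUnits K := by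
  constructor
  · intro h
    refine ⟨a.1.2, fun q γ => ?_⟩
    by_cases hj : (q, γ) ∈ covered K R
    · obtain ⟨i, hi, hij⟩ := mem_covered.1 hj
      exact unitsAt_of_mem_cosetSet (fixedPrincipal K a.1).2
        ((ideleOrdAt_eq_zero_iff K _).1 (congrFun h ⟨i, hi⟩)) hij
    · exact a.2 (q, γ) hj
  · intro h
    exact funext fun i => (ideleOrdAt_eq_zero_iff K _).2 (h.2 i.1.1 i.1.2)

/-- The units inside the `R`-units. -/
def unitsIncl (R : Finset (Nat.Primes × Gam)) : globalUnits K →+ placeUnits K R where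
  toFun u := ⟨⟨u.1, u.2.1⟩, fun j _ => u.2.2 j.1 j.2⟩
  map_zero' := rfl
  map_add' _ _ := rfl

theorem ker_placeOrds : (placeOrds (K := K) R).ker = (unitsIncl R).range := by
  ext a
  rw [AddMonoidHom.mem_ker, placeOrds_eq_zero_iff]
  exact ⟨fun h => ⟨⟨a.1.1, h⟩, rfl⟩, fun ⟨u, hu⟩ => hu ▸ u.2⟩

theorem exists_placeOrds_eq_single (hR : IsPlaces K R) (i : R) :
    ∃ a : placeUnits K R, placeOrds R a i ≠ 0 ∧ ∀ k, k ≠ i → placeOrds R a k = 0 := by
  classical
  let b : K := ((i.1.1 : ℕ) : K)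
  have hb : b ≠ 0 := Nat.cast_ne_zero.2 i.1.1.2.ne_zero
  have hval : ((principal (fixedUnit K hb).1).at i.1.1 i.1.2).val ∈ locField K i.1.1 i.1.2 :=
    at_mem_locField (fixedPrincipal K (fixedUnit K hb)).2
  obtain ⟨x, hx, hx1, hx2⟩ := exists_pointIdele hval
  obtain ⟨h, hh0, hh⟩ : ∃ h : ℕ, h ≠ 0 ∧ ideleClassGroup K (h • ⟨x, hx⟩) = 0 := by
    refine ⟨Fintype.card (ClassGroup (𝓞 K)), Fintype.card_ne_zero, ?_⟩
    rw [map_nsmul]
    exact Additive.toMul.injective (by rw [toMul_nsmul, pow_card_eq_one]; rfl)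
  obtain ⟨a, ha, hau⟩ := exists_eq_principal_add_unit K hh
  have hu : ∀ j : Nat.Primes × Gam, x.at j.1 j.2 = 0 →
      (principal a).at j.1 j.2 ∈ unitsAt j.1 := by
    intro j hj
    have h1 := hau j.1 j.2
    rw [Idele.at_sub, AddSubgroup.coe_nsmul, at_nsmul, hj, nsmul_zero, zero_sub,
      AddSubgroup.neg_mem_iff] at h1
    exact h1
  refine ⟨⟨⟨a, ha⟩, fun j hj => hu j (hx2 _ _ fun hc => hj (mem_covered.2 ⟨i.1, i.2, hc⟩))⟩,
    ?_, fun k hk => (ideleOrdAt_eq_zero_iff K _).2 (hu k.1 (hx2 _ _ fun hc =>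
      hk (Subtype.ext (hR i.1 i.2 k.1 k.2 hc)).symm))⟩
  intro h0
  rw [placeOrds_apply, ideleOrdAt_eq_zero_iff, at_fixedPrincipal] at h0
  have h1 : (principal a).at i.1.1 i.1.2 ∈ unitsAt i.1.1 := h0
  have h2 := hau i.1.1 i.1.2
  rw [Idele.at_sub] at h2
  have h2' := (unitsAt _).add_mem h2 h1
  rw [sub_add_cancel, AddSubgroup.coe_nsmul, at_nsmul, hx1] at h2'
  have h3 := mem_unitsAt_of_nsmul hh0 h2'
  have h4 := (ideleOrdAt_eq_zero_iff K (fixedPrincipal K (fixedUnit K hb))).2 h3
  have h5 : ‖placeEmb K i.1.1 i.1.2 b‖ =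
      ‖((fixedPrincipal K (fixedUnit K hb)).1.at i.1.1 i.1.2).val‖ := by
    rw [at_fixedPrincipal, norm_at_principal_fixedUnit]
  rw [ideleOrdAt_eq K (fixedPrincipal K (fixedUnit K hb)) hb h5] at h4
  exact placeOrd_natCast_ne_zero h4

theorem finrank_placeUnits (hR : IsPlaces K R) :
    Module.Finite ℤ (placeUnits K R) ∧
      finrank ℤ (placeUnits K R) = Fintype.card (InfinitePlace K) - 1 + R.card := by
  classical
  let f : placeUnits K R →ₗ[ℤ] (R → ℤ) := (placeOrds R).toIntLinearMap
  let g : globalUnits K →ₗ[ℤ] placeUnits K R := (unitsIncl R).toIntLinearMap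
  have hker : LinearMap.ker f = LinearMap.range g := by
    ext a
    exact SetLike.ext_iff.1 ker_placeOrds a
  have hg : Function.Injective g := fun u v h =>
    Subtype.ext (congrArg (fun z : placeUnits K R => z.1.1) h)
  have : Module.Finite ℤ (LinearMap.ker f) := by
    rw [hker]; exact Module.Finite.range g
  have : Module.Finite ℤ (placeUnits K R) := by
    have : Module.Finite ℤ (placeUnits K R ⧸ LinearMap.ker f) :=
      Module.Finite.equiv f.quotKerEquivRange.symm
    exact Module.Finite.of_submodule_quotient (LinearMap.ker f)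
  refine ⟨inferInstance, ?_⟩
  have h1 := Submodule.finrank_quotient_add_finrank (LinearMap.ker f)
  rw [f.quotKerEquivRange.finrank_eq, hker, LinearMap.finrank_range_of_inj hg,
    finrank_globalUnits] at h1
  have h2 : finrank ℤ (LinearMap.range f) = R.card := by
    refine le_antisymm ((Submodule.finrank_le _).trans (by simp)) ?_
    choose a ha ha' using exists_placeOrds_eq_single hR
    have hli : LinearIndependent ℤ fun i => (⟨f (a i), ⟨a i, rfl⟩⟩ : LinearMap.range f) := by
      refine LinearIndependent.of_comp (LinearMap.range f).subtype ?_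
      rw [Fintype.linearIndependent_iff]
      intro c hc i
      have h3 := congrFun hc i
      rw [Finset.sum_apply, Finset.sum_eq_single i (fun k _ hk => by
        show c k • placeOrds R (a k) i = 0
        rw [ha' k i (Ne.symm hk), smul_zero]) fun h => absurd (Finset.mem_univ _) h] at h3
      exact (mul_eq_zero.1 (h3 : c i * placeOrds R (a i) i = 0)).resolve_right (ha i)
    simpa using hli.fintype_card_le_finrank
  rw [h2] at h1
  rw [← h1, add_comm]

theorem isTotallyComplex_of_hasRoots {p : ℕ} [hp : Fact p.Prime] (hK : HasRoots p K)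
    (hp2 : p ≠ 2) : IsTotallyComplex K := by
  have hz := cycRoot_spec ⟨p, hp.out⟩
  have hprim : IsPrimitiveRoot (⟨_, hK _ hz.pow_eq_one⟩ : K) p :=
    hz.of_map_of_injective (f := K.val) Subtype.val_injective
  exact nrRealPlaces_eq_zero_iff.1
    (InfinitePlace.IsPrimitiveRoot.nrRealPlaces_eq_zero_of_two_lt
      (lt_of_le_of_ne hp.out.two_le (Ne.symm hp2)) hprim)

/-- The power classes of the units outside `R`. -/
theorem card_placeUnits_classes {p : ℕ} [hp : Fact p.Prime] (hK : HasRoots p K)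
    (hR : IsPlaces K R) :
    Nat.card ((placeUnits K R).map (QuotientAddGroup.mk' (powers p K))) =
      p ^ (R.card + Fintype.card (InfinitePlace K)) := by
  obtain ⟨hfin, hrank⟩ := finrank_placeUnits (K := K) hR
  set G := placeUnits K R
  have e1 : Nat.card (G.map (QuotientAddGroup.mk' (powers p K))) =
      (nsmulAddMonoidHom p : G →+ G).range.index := by
    have hf : ((QuotientAddGroup.mk' (powers p K)).comp G.subtype).ker =
        (nsmulAddMonoidHom p : G →+ G).range := by
      ext a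
      rw [AddMonoidHom.mem_ker]
      refine (QuotientAddGroup.eq_zero_iff _).trans ⟨?_, ?_⟩
      · rintro ⟨b, hb⟩
        refine ⟨⟨b, mem_placeUnits_of_nsmul hp.out.ne_zero ?_⟩, Subtype.ext hb⟩
        rw [show p • b = a.1 from hb]
        exact a.2
      · rintro ⟨b, rfl⟩
        exact ⟨b.1, rfl⟩
    rw [← hf, AddSubgroup.index_ker]
    congr 1
    rw [AddMonoidHom.range_comp, AddSubgroup.range_subtype]
  rw [e1]
  have hone : cycNorm p (1 : AddMonoid.End G) = (p : AddMonoid.End G) := by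
    simp [cycNorm]
  have hpow : herbrand p (1 : AddMonoid.End G) ^ (p - 1) =
      (p : ℚ) ^ ((p : ℤ) * finrank ℤ G - finrank ℤ G) := by
    rw [herbrand_pow_of_finite_module (one_pow p)]
    congr 3
    have htop : cycFixed (1 : AddMonoid.End G) = ⊤ :=
      eq_top_iff.2 fun x _ => mem_cycFixed.2 rfl
    rw [htop, map_top, finrank_top]
  rw [show (p : ℤ) * finrank ℤ G - finrank ℤ G = (((finrank ℤ G) * (p - 1) : ℕ) : ℤ) by
    rw [Nat.cast_mul, Nat.cast_sub hp.out.one_le]; push_cast; ring, zpow_natCast, pow_mul] at hpow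
  have hk1 : hIndex ((1 : AddMonoid.End G) - 1 : AddMonoid.End G) (cycNorm p (1 : AddMonoid.End G))
      = (nsmulAddMonoidHom p : G →+ G).range.index := by
    have hker : AddMonoidHom.ker ((1 : AddMonoid.End G) - 1 : AddMonoid.End G) = ⊤ :=
      eq_top_iff.2 fun x _ => by rw [sub_self]; rfl
    rw [hIndex, hker, AddSubgroup.relIndex_top_right]
    congr 1
    ext x
    rw [hone]
    exact ⟨fun ⟨y, hy⟩ => ⟨y, hy⟩, fun ⟨y, hy⟩ => ⟨y, hy⟩⟩
  have hk2 : hIndex (cycNorm p (1 : AddMonoid.End G)) ((1 : AddMonoid.End G) - 1 : AddMonoid.End G)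
      = p := by
    rw [hIndex, hone, sub_self]
    have hrange : AddMonoidHom.range (0 : AddMonoid.End G) = ⊥ := by
      ext x
      exact ⟨fun ⟨y, hy⟩ => hy.symm, fun hx => ⟨0, hx.symm⟩⟩
    rw [hrange, AddSubgroup.relIndex_bot_left]
    have hz : (fixedUnit K (a := ⟨cycRoot ⟨p, hp.out⟩, hK _ (cycRoot_spec ⟨p, hp.out⟩).pow_eq_one⟩)
        (fun h => (cycRoot_spec ⟨p, hp.out⟩).ne_zero hp.out.ne_zero (congrArg Subtype.val h))).1 =
        zetaU p := GU.ext rfl
    set w := fixedUnit K (a := ⟨cycRoot ⟨p, hp.out⟩, hK _ (cycRoot_spec ⟨p, hp.out⟩).pow_eq_one⟩)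
        (fun h => (cycRoot_spec ⟨p, hp.out⟩).ne_zero hp.out.ne_zero (congrArg Subtype.val h))
    have hwp : p • w = 0 := Subtype.ext (by rw [AddSubgroup.coe_nsmul, hz, nsmul_zetaU]; rfl)
    let e : ZMod p →+ G := ZMod.lift p ⟨zmultiplesHom G ⟨w, mem_placeUnits_of_nsmul hp.out.ne_zero
      (by rw [hwp]; exact zero_mem _)⟩, by
        rw [zmultiplesHom_apply, natCast_zsmul]; exact Subtype.ext hwp⟩
    have he : ∀ i : ℕ, ((e (i : ZMod p)).1 : GU) = i • zetaU p := by
      intro i
      rw [show (i : ZMod p) = ((i : ℤ) : ZMod p) from (Int.cast_natCast i).symm]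
      simp only [e, ZMod.lift_coe, zmultiplesHom_apply, natCast_zsmul, AddSubgroup.coe_nsmul, hz]
    have hinj : Function.Injective e := by
      rw [injective_iff_map_eq_zero]
      intro c hc
      obtain ⟨i, rfl⟩ := ZMod.natCast_zmod_surjective c
      have h3 := he i
      rw [hc] at h3
      exact (CharP.cast_eq_zero_iff (ZMod p) p i).2 ((nsmul_zetaU_eq_zero_iff p).1 h3.symm)
    refine Eq.trans (Nat.card_congr ?_).symm (Nat.card_zmod p)
    refine Equiv.ofBijective (fun c => ⟨e c, ?_⟩) ⟨fun c d h => hinj (congrArg Subtype.val h), ?_⟩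
    · show p • e c = 0
      rw [← map_nsmul, nsmul_eq_mul, ZMod.natCast_self, zero_mul, map_zero]
    · rintro ⟨x, hx⟩
      have hx' : p • x = 0 := hx
      obtain ⟨i, hi⟩ := exists_eq_nsmul_zetaU p (r := (x.1 : GU))
        (congrArg (fun z : G => (z.1 : GU)) hx')
      exact ⟨i, Subtype.ext (Subtype.ext (Subtype.ext ((he i).trans hi)))⟩
  replace hpow := (congrArg₂ (fun a b : ℕ => ((a : ℚ) / b) ^ (p - 1)) hk1 hk2).symm.trans hpow
  have hp1 : p - 1 ≠ 0 := by have := hp.out.two_le; omega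
  have h5 := (pow_left_inj₀ (div_nonneg (Nat.cast_nonneg _) (Nat.cast_nonneg _))
    (pow_nonneg (Nat.cast_nonneg _) _) hp1).1 hpow
  rw [div_eq_iff (Nat.cast_ne_zero.2 hp.out.ne_zero), ← pow_succ] at h5
  have h6 : (nsmulAddMonoidHom p : G →+ G).range.index = p ^ (finrank ℤ G + 1) := by
    exact_mod_cast h5
  rw [h6, hrank]
  congr 1
  have hpos : 0 < Fintype.card (InfinitePlace K) := Fintype.card_pos
  omega

end FLTAgent.IdeleClassCohomology
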