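import Fermat.Agent.GlobalDuality.Idele
import Mathlib.FieldTheory.Minpoly.IsConjRoot
import Mathlib.FieldTheory.PrimitiveElement

/-!
# The places of a number field inside the finite ideles

For a finite level `K` the place `(q, σ)` is the embedding `x ↦ emb q (σ x)` of `K`. Its local
field `locField K q σ` is generated by the image; two places with the same absolute value lie in
the same double coset.
-/

set_option autoImplicit false

noncomputable section

open Polynomial Filter Topology

namespace FLTAgent.IdeleClassCohomology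

open FLTAgent.GalCoh FLTAgent.GlobalDuality FLTAgent.LocalDuality

/-- The embedding attached to the place `(q, σ)`. -/
def placeEmb (K : IntermediateField ℚ QQbar) (q : Nat.Primes) (σ : Gam) :
    K →ₐ[ℚ] PadicAlgCl (q : ℕ) :=
  (emb q).comp ((σ : QQbar →ₐ[ℚ] QQbar).comp K.val)

theorem placeEmb_apply (K : IntermediateField ℚ QQbar) (q : Nat.Primes) (σ : Gam) (x : K) :
    placeEmb K q σ x = emb q (σ x) := rfl

/-- The local field at the place `(q, σ)` of `K`. -/
def locField (K : IntermediateField ℚ QQbar) (q : Nat.Primes) (σ : Gam) :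
    IntermediateField ℚ_[(q : ℕ)] (PadicAlgCl (q : ℕ)) :=
  IntermediateField.adjoin _ (Set.range (placeEmb K q σ))

variable {K : IntermediateField ℚ QQbar} {q : Nat.Primes} {σ σ' : Gam}

theorem placeEmb_mem_locField (x : K) : placeEmb K q σ x ∈ locField K q σ :=
  IntermediateField.subset_adjoin _ _ ⟨x, rfl⟩

theorem mem_fixingSubgroup_locField_iff {τ : LGal q} :
    τ ∈ (locField K q σ).fixingSubgroup ↔ σ⁻¹ * loc q τ * σ ∈ K.fixingSubgroup := by
  have key : ∀ x : K, τ (placeEmb K q σ x) = placeEmb K q σ x ↔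
      (σ⁻¹ * loc q τ * σ) (x : QQbar) = x := by
    intro x
    rw [placeEmb_apply, ← padicEmbedding_localGaloisToGlobal, AlgEquiv.mul_apply,
      AlgEquiv.mul_apply]
    constructor
    · intro h
      rw [show (loc q τ) (σ x) = σ x from (emb q).injective h]
      exact AlgEquiv.symm_apply_apply σ x
    · intro h
      congr 1
      exact σ⁻¹.injective (h.trans (AlgEquiv.symm_apply_apply σ x).symm)
  constructor
  · intro h
    rw [IntermediateField.mem_fixingSubgroup_iff]
    exact fun x hx => (key ⟨x, hx⟩).1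
      ((IntermediateField.mem_fixingSubgroup_iff _ _).1 h _ (placeEmb_mem_locField ⟨x, hx⟩))
  · intro h
    rw [IntermediateField.mem_fixingSubgroup_iff]
    intro y hy
    induction hy using IntermediateField.adjoin_induction with
    | mem y hy =>
      obtain ⟨x, rfl⟩ := hy
      exact (key x).2 ((IntermediateField.mem_fixingSubgroup_iff _ _).1 h _ x.2)
    | algebraMap r => exact τ.commutes r
    | add x y _ _ hx hy => rw [map_add, hx, hy]
    | inv x _ hx => rw [map_inv₀, hx]
    | mul x y _ _ hx hy => rw [map_mul, hx, hy]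

theorem finiteDimensional_locField [FiniteDimensional ℚ K] :
    FiniteDimensional ℚ_[(q : ℕ)] (locField K q σ) := by
  obtain ⟨α, hα⟩ := Field.exists_primitive_element ℚ K
  have := IntermediateField.adjoin.finiteDimensional (K := ℚ_[(q : ℕ)])
    (Algebra.IsIntegral.isIntegral (R := ℚ_[(q : ℕ)]) (placeEmb K q σ α))
  have hle : locField K q σ ≤ IntermediateField.adjoin _ {placeEmb K q σ α} := by
    rw [locField, IntermediateField.adjoin_le_iff]
    rintro _ ⟨x, rfl⟩
    have hx : x ∈ IntermediateField.adjoin ℚ {α} := by rw [hα]; exact trivial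
    have h : placeEmb K q σ x ∈ (IntermediateField.adjoin ℚ {α}).map (placeEmb K q σ) :=
      ⟨x, hx, rfl⟩
    rw [IntermediateField.adjoin_map, Set.image_singleton] at h
    generalize placeEmb K q σ x = z at h ⊢
    induction h using IntermediateField.adjoin_induction with
    | mem y hy => rw [Set.mem_singleton_iff.1 hy]; exact
      IntermediateField.mem_adjoin_simple_self _ _
    | algebraMap r =>
      rw [IsScalarTower.algebraMap_apply ℚ ℚ_[(q : ℕ)] (PadicAlgCl (q : ℕ))]
      exact IntermediateField.algebraMap_mem _ _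
    | add x y _ _ hx hy => exact add_mem hx hy
    | inv x _ hx => exact inv_mem hx
    | mul x y _ _ hx hy => exact mul_mem hx hy
  exact FiniteDimensional.of_injective (IntermediateField.inclusion hle).toLinearMap
    (IntermediateField.inclusion_injective hle)

/-- The components of a fixed idele lie in the local fields. -/
theorem at_mem_locField {x : Idele} (hx : x ∈ fixedPts K.fixingSubgroup Idele) :
    (x.at q σ).val ∈ locField K q σ := by
  rw [← InfiniteGalois.fixedField_fixingSubgroup (locField K q σ),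
    IntermediateField.mem_fixedField_iff]
  intro τ hτ
  have h := Idele.mem_fixedPts_iff.1 hx q σ _ (mem_fixingSubgroup_locField_iff.1 hτ)
  rw [← LU.val_smul, ← Idele.at_loc_mul,
    show loc q τ * σ = σ * (σ⁻¹ * loc q τ * σ) by group, h]

/-- `K` is dense in its local fields. -/
theorem exists_norm_sub_lt {y : PadicAlgCl (q : ℕ)} (hy : y ∈ locField K q σ) {ε : ℝ}
    (hε : 0 < ε) : ∃ x : K, ‖y - placeEmb K q σ x‖ < ε := by
  set S : Subfield (PadicAlgCl (q : ℕ)) :=
    (placeEmb K q σ).toRingHom.fieldRange.topologicalClosure with hS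
  have hbase : ∀ r : ℚ_[(q : ℕ)], algebraMap ℚ_[(q : ℕ)] (PadicAlgCl (q : ℕ)) r ∈ S := by
    intro r
    refine map_mem_closure (continuous_algebraMap _ _) (Padic.denseRange_ratCast (q : ℕ) r) ?_
    rintro _ ⟨t, rfl⟩
    exact ⟨(t : K), by simp⟩
  have key : y ∈ S := by
    induction hy using IntermediateField.adjoin_induction with
    | mem z hz =>
      obtain ⟨x, rfl⟩ := hz
      exact Subfield.le_topologicalClosure _ ⟨x, rfl⟩
    | algebraMap r => exact hbase r
    | add x y _ _ hx hy => exact add_mem hx hy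
    | inv x _ hx => exact inv_mem hx
    | mul x y _ _ hx hy => exact mul_mem hx hy
  obtain ⟨_, ⟨x, rfl⟩, h⟩ := Metric.mem_closure_iff.1 key ε hε
  exact ⟨x, by rwa [dist_eq_norm] at h⟩

/-- A nonzero element of a local field has the same absolute value as an element of `K`. -/
theorem exists_norm_placeEmb_eq {y : PadicAlgCl (q : ℕ)} (hy : y ∈ locField K q σ) (h0 : y ≠ 0) :
    ∃ x : K, x ≠ 0 ∧ ‖placeEmb K q σ x‖ = ‖y‖ := by
  obtain ⟨x, hx⟩ := exists_norm_sub_lt hy (norm_pos_iff.2 h0)
  have hne : ‖placeEmb K q σ x‖ = ‖y‖ := by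
    rw [show placeEmb K q σ x = y + -(y - placeEmb K q σ x) by ring]
    rw [IsUltrametricDist.norm_add_eq_max_of_norm_ne_norm (by rw [norm_neg]; exact hx.ne'),
      norm_neg, max_eq_left hx.le]
  exact ⟨x, fun h => h0 (norm_eq_zero.1 (by simpa [h] using hne.symm)), hne⟩

/-- Two places with the same absolute value lie in one double coset. -/
theorem exists_loc_mul_eq [FiniteDimensional ℚ K]
    (h : ∀ x : K, ‖placeEmb K q σ' x‖ = ‖placeEmb K q σ x‖) :
    ∃ τ : LGal q, (loc q τ * σ)⁻¹ * σ' ∈ K.fixingSubgroup := by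
  obtain ⟨α, hα⟩ := Field.exists_primitive_element ℚ K
  set a := placeEmb K q σ α
  set b := placeEmb K q σ' α
  set P := minpoly ℚ_[(q : ℕ)] a
  have hb : aeval b P = 0 := by
    have hr : ∀ n : ℕ, ∀ i, ∃ r : ℚ, ‖P.coeff i - (r : ℚ_[(q : ℕ)])‖ < 1 / (n + 1) := by
      intro n i
      obtain ⟨r, hr⟩ := Metric.denseRange_iff.1 (Padic.denseRange_ratCast (q : ℕ)) (P.coeff i)
        (1 / (n + 1)) Nat.one_div_pos_of_nat
      exact ⟨r, by rwa [dist_eq_norm] at hr⟩
    choose r hr using hr
    set R : ℕ → PadicAlgCl (q : ℕ) → PadicAlgCl (q : ℕ) := fun n z =>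
      ∑ i ∈ Finset.range (P.natDegree + 1), (r n i : PadicAlgCl (q : ℕ)) * z ^ i with hR
    have hlim : ∀ z : PadicAlgCl (q : ℕ), Tendsto (fun n => R n z) atTop (𝓝 (aeval z P)) := by
      intro z
      rw [aeval_eq_sum_range]
      refine tendsto_finsetSum _ fun i _ => ?_
      rw [Algebra.smul_def]
      refine Tendsto.mul_const _ ?_
      rw [tendsto_iff_norm_sub_tendsto_zero]
      refine squeeze_zero (fun n => norm_nonneg _) (fun n => ?_)
        tendsto_one_div_add_atTop_nhds_zero_nat
      rw [norm_sub_rev, ← map_ratCast (algebraMap ℚ_[(q : ℕ)] (PadicAlgCl (q : ℕ))), ← map_sub,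
        norm_algebraMap']
      exact (hr n i).le
    have hval : ∀ n, ∀ τ : Gam, R n (placeEmb K q τ α) =
        placeEmb K q τ (∑ i ∈ Finset.range (P.natDegree + 1), (r n i : K) * α ^ i) := by
      intro n τ
      simp only [hR, map_sum, map_mul, map_pow, map_ratCast]
    have h2 : ∀ n, ‖R n b‖ = ‖R n a‖ := fun n => by rw [hval, hval, h]
    have h3 := (hlim b).norm
    simp_rw [h2] at h3
    have h4 := tendsto_nhds_unique (hlim a).norm h3
    rw [minpoly.aeval, norm_zero] at h4
    exact norm_eq_zero.1 h4.symm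
  have hconj : IsConjRoot ℚ_[(q : ℕ)] a b :=
    (isConjRoot_iff_aeval_eq_zero (Algebra.IsIntegral.isIntegral a)).2 hb
  obtain ⟨τ, hτ⟩ := IsConjRoot.exists_algEquiv hconj.symm
  refine ⟨τ, ?_⟩
  have hτ' : loc q τ (σ (α : QQbar)) = σ' (α : QQbar) := by
    refine (emb q).injective ?_
    exact (padicEmbedding_localGaloisToGlobal (q : ℕ) τ _).trans hτ
  rw [IntermediateField.mem_fixingSubgroup_iff]
  intro x hx
  have hK : (⟨x, hx⟩ : K) ∈ IntermediateField.adjoin ℚ {α} := by rw [hα]; exact trivial
  set g : Gam := (loc q τ * σ)⁻¹ * σ'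
  have key : ∀ y : K, y ∈ IntermediateField.adjoin ℚ {α} → g (y : QQbar) = y := by
    intro y hy
    induction hy using IntermediateField.adjoin_induction with
    | mem y hy =>
      rw [Set.mem_singleton_iff.1 hy]
      show ((loc q τ * σ)⁻¹) (σ' (α : QQbar)) = _
      rw [← hτ']
      exact AlgEquiv.symm_apply_apply (loc q τ * σ) _
    | algebraMap r => exact g.commutes r
    | add x y _ _ hx hy => push_cast; rw [map_add, hx, hy]
    | inv x _ hx => push_cast; rw [map_inv₀, hx]
    | mul x y _ _ hx hy => push_cast; rw [map_mul, hx, hy]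
  exact key _ hK

end FLTAgent.IdeleClassCohomology
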