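import Fermat.Agent.IdeleClassCohomology.HerbrandCyclic
import Fermat.Agent.IdeleClassCohomology.Divisor
import Fermat.Agent.GlobalDuality.Descent
import Fermat.Agent.GlobalDuality.Norm

/-!
# A cyclic step of prime degree between two number fields

The structure `CyclicStep p` records `L/K` by its Galois groups and a generator; `subEnd` and
`fixEnd` are the actions of the generator, and `exists_cyclicStep` builds a step from a normal
subgroup of index `p`.
-/

set_option autoImplicit false

noncomputable section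

namespace FLTAgent.IdeleClassCohomology

open FLTAgent.GalCoh FLTAgent.GlobalDuality

/-- A cyclic extension `L/K` of degree `p` of number fields inside `ℚ̄`. -/
structure CyclicStep (p : ℕ) where
  /-- the bottom field -/
  K : IntermediateField ℚ QQbar
  /-- the top field -/
  L : IntermediateField ℚ QQbar
  finK : FiniteDimensional ℚ K
  finL : FiniteDimensional ℚ L
  le : K ≤ L
  normal : (L.fixingSubgroup.subgroupOf K.fixingSubgroup).Normal
  index : L.fixingSubgroup.relIndex K.fixingSubgroup = p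
  /-- a lift of a generator -/
  g : Gam
  mem : g ∈ K.fixingSubgroup
  notMem : g ∉ L.fixingSubgroup

/-- If `t ^ i ∈ K` exactly when `p ∣ i` and the powers of `t` below `p` meet all cosets of `K` in
`H`, they represent those cosets. -/
theorem bijective_quotient_pow {G : Type*} [Group G] {H K : Subgroup G} {t : G} {p : ℕ}
    (ht : t ∈ H) (hpow : ∀ i : ℕ, t ^ i ∈ K ↔ p ∣ i)
    (hex : ∀ x ∈ H, ∃ i < p, (t ^ i)⁻¹ * x ∈ K) :
    Function.Bijective fun i : Fin p =>
      (QuotientGroup.mk ⟨t ^ (i : ℕ), H.pow_mem ht _⟩ : H ⧸ K.subgroupOf H) := by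
  constructor
  · have key : ∀ i j : Fin p, (i : ℕ) ≤ j → (t ^ (i : ℕ))⁻¹ * t ^ (j : ℕ) ∈ K → i = j := by
      intro i j hij h1
      rw [show t ^ (j : ℕ) = t ^ (i : ℕ) * t ^ ((j : ℕ) - i) by
        rw [← pow_add, Nat.add_sub_cancel' hij], inv_mul_cancel_left] at h1
      have h2 := Nat.eq_zero_of_dvd_of_lt ((hpow _).1 h1) (by omega)
      exact Fin.ext (by omega)
    intro i j h
    have h1 := Subgroup.mem_subgroupOf.1 ((QuotientGroup.eq (s := K.subgroupOf H)).1 h)
    rcases le_total (i : ℕ) j with hij | hij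
    · exact key i j hij h1
    · exact (key j i hij (by simpa using K.inv_mem h1)).symm
  · intro c
    induction c using QuotientGroup.induction_on with
    | _ x =>
      obtain ⟨i, hi, h⟩ := hex x x.2
      exact ⟨⟨i, hi⟩, QuotientGroup.eq.2 (Subgroup.mem_subgroupOf.2 h)⟩

namespace CyclicStep

variable {p : ℕ} [hp : Fact p.Prime] (D : CyclicStep p)

instance finiteK : FiniteDimensional ℚ D.K := D.finK
instance finiteL : FiniteDimensional ℚ D.L := D.finL

/-- The group of `K`. -/
abbrev bot : Subgroup Gam := D.K.fixingSubgroup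

/-- The group of `L`. -/
abbrev top : Subgroup Gam := D.L.fixingSubgroup

omit hp in
theorem top_le : D.top ≤ D.bot := IntermediateField.fixingSubgroup_antitone D.le

instance finite_quot : Finite (D.bot ⧸ D.top.subgroupOf D.bot) :=
  Nat.finite_of_card_ne_zero (ne_of_eq_of_ne D.index hp.out.ne_zero)

omit hp in
/-- The top group is normal in the bottom one. -/
theorem conj_mem {n m : Gam} (hn : n ∈ D.bot) (hm : m ∈ D.top) : n * m * n⁻¹ ∈ D.top :=
  D.normal.conj_mem ⟨m, D.top_le hm⟩ hm ⟨n, hn⟩

omit hp in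
theorem mk_g_ne_one : haveI := D.normal
    (QuotientGroup.mk (⟨D.g, D.mem⟩ : D.bot) : D.bot ⧸ D.top.subgroupOf D.bot) ≠ 1 := by
  have := D.normal
  rw [Ne, QuotientGroup.eq_one_iff]
  exact D.notMem

theorem exists_pow_mul {n : Gam} (hn : n ∈ D.bot) : ∃ i < p, (D.g ^ i)⁻¹ * n ∈ D.top := by
  have := D.normal
  have hc : Nat.card (D.bot ⧸ D.top.subgroupOf D.bot) = p := D.index
  obtain ⟨z, hz⟩ := mem_zpowers_of_prime_card (g' := (QuotientGroup.mk (⟨n, hn⟩ : D.bot) :
    D.bot ⧸ D.top.subgroupOf D.bot)) hc D.mk_g_ne_one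
  refine ⟨(z % p).toNat, ?_, ?_⟩
  · have := Int.emod_lt_of_pos z (Int.natCast_pos.2 hp.out.pos)
    have := Int.emod_nonneg z (Int.natCast_ne_zero.2 hp.out.ne_zero)
    omega
  · have h1 : (QuotientGroup.mk (⟨D.g, D.mem⟩ : D.bot) : D.bot ⧸ D.top.subgroupOf D.bot) ^
        (z % p).toNat = QuotientGroup.mk (⟨n, hn⟩ : D.bot) := by
      have hp' : (QuotientGroup.mk (⟨D.g, D.mem⟩ : D.bot) : D.bot ⧸ D.top.subgroupOf D.bot) ^ p
          = 1 := (congrArg _ hc.symm).trans pow_card_eq_one'
      simp only at hz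
      rw [← zpow_natCast, Int.toNat_of_nonneg (Int.emod_nonneg z (Int.natCast_ne_zero.2
        hp.out.ne_zero)), ← hz]
      conv_rhs => rw [← Int.emod_add_mul_ediv z p, zpow_add, zpow_mul, zpow_natCast, hp', one_zpow,
        mul_one]
    rw [← QuotientGroup.mk_pow, QuotientGroup.eq] at h1
    exact h1

omit hp in
/-- The `p`th power of the generator lies in the top group. -/
theorem pow_mem : D.g ^ p ∈ D.top := by
  have := D.normal
  have h1 : (QuotientGroup.mk (⟨D.g, D.mem⟩ : D.bot) : D.bot ⧸ D.top.subgroupOf D.bot) ^ p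
      = 1 := (congrArg _ D.index.symm).trans pow_card_eq_one'
  rw [← QuotientGroup.mk_pow, QuotientGroup.eq_one_iff] at h1
  exact h1

theorem pow_mem_iff {i : ℕ} : D.g ^ i ∈ D.top ↔ p ∣ i := by
  refine ⟨fun h => ?_, fun ⟨k, hk⟩ => by rw [hk, pow_mul]; exact D.top.pow_mem D.pow_mem k⟩
  by_contra hi
  obtain ⟨a, ha⟩ := Nat.exists_mul_mod_eq_one_of_coprime
    ((hp.out.coprime_iff_not_dvd.2 hi).symm) hp.out.one_lt
  refine D.notMem ?_
  have h1 : D.g ^ (i * a) = D.g * (D.g ^ p) ^ (i * a / p) := by
    rw [← pow_mul, ← pow_succ']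
    congr 1
    have := Nat.mod_add_div (i * a) p
    omega
  have h2 : D.g ^ (i * a) ∈ D.top := by rw [pow_mul]; exact D.top.pow_mem h _
  rw [h1] at h2
  exact (D.top.mul_mem_cancel_right (D.top.pow_mem D.pow_mem _)).1 h2

section Module

variable {A : Type} [AddCommGroup A] [DistribMulAction Gam A]

omit hp in
theorem smul_mem_top {a : A} (ha : a ∈ fixedPts D.top A) : D.g • a ∈ fixedPts D.top A := by
  intro m hm
  have h : D.g⁻¹ * m * D.g ∈ D.top := by
    have := D.conj_mem (inv_mem D.mem) hm
    rwa [inv_inv] at this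
  rw [smul_smul, show m * D.g = D.g * (D.g⁻¹ * m * D.g) by group, mul_smul, ha _ h]

/-- The generator acting on a stable subgroup. -/
def subEnd (S : AddSubgroup A) (hS : ∀ a ∈ S, D.g • a ∈ S) : AddMonoid.End S :=
  ((DistribSMul.toAddMonoidHom A D.g).comp S.subtype).codRestrict S fun a => hS a a.2

omit hp in
theorem coe_subEnd {S : AddSubgroup A} {hS : ∀ a ∈ S, D.g • a ∈ S} (a : S) :
    (D.subEnd S hS a : A) = D.g • (a : A) := rfl

omit hp in
theorem coe_subEnd_pow {S : AddSubgroup A} {hS : ∀ a ∈ S, D.g • a ∈ S} (i : ℕ) (a : S) :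
    ((D.subEnd S hS ^ i) a : A) = D.g ^ i • (a : A) := by
  induction i with
  | zero => simp
  | succ i ih =>
    rw [pow_succ', AddMonoid.End.coe_mul, Function.comp_apply, coe_subEnd, ih, pow_succ', mul_smul]

omit hp in
theorem subEnd_pow_eq_one {S : AddSubgroup A} {hS : ∀ a ∈ S, D.g • a ∈ S}
    (hfix : S ≤ fixedPts D.top A) : D.subEnd S hS ^ p = 1 :=
  DFunLike.ext _ _ fun a => Subtype.ext (by
    rw [coe_subEnd_pow]; exact hfix a.2 _ D.pow_mem)

/-- The generator acting on the points fixed by `L`. -/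
abbrev fixEnd (A : Type) [AddCommGroup A] [DistribMulAction Gam A] :
    AddMonoid.End (fixedPts D.top A) :=
  D.subEnd (fixedPts D.top A) fun _ ha => D.smul_mem_top ha

theorem mem_fixedPts_bot {a : A} (ha : a ∈ fixedPts D.top A) :
    a ∈ fixedPts D.bot A ↔ D.g • a = a := by
  refine ⟨fun h => h _ D.mem, fun h n hn => ?_⟩
  obtain ⟨i, -, hi⟩ := D.exists_pow_mul hn
  have hpow : ∀ j : ℕ, D.g ^ j • a = a := by
    intro j
    induction j with
    | zero => rw [pow_zero, one_smul]
    | succ j ih => rw [pow_succ, mul_smul, h, ih]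
  rw [show n = D.g ^ i * ((D.g ^ i)⁻¹ * n) by group, mul_smul, ha _ hi, hpow]

omit hp in
theorem coe_cycNorm_subEnd {S : AddSubgroup A} {hS : ∀ a ∈ S, D.g • a ∈ S} (a : S) :
    (cycNorm p (D.subEnd S hS) a : A) = ∑ i ∈ Finset.range p, D.g ^ i • (a : A) := by
  rw [cycNorm, end_sum_apply, AddSubgroup.val_finsetSum]
  simp only [coe_subEnd_pow]

theorem coe_normTo (a : fixedPts D.top A) :
    (normTo A D.top D.bot a : A) = ∑ i ∈ Finset.range p, D.g ^ i • (a : A) := by
  classical
  have := Fintype.ofFinite (D.bot ⧸ D.top.subgroupOf D.bot)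
  rw [GalCoh.coe_normTo]
  let f : Fin p → D.bot ⧸ D.top.subgroupOf D.bot := fun i =>
    QuotientGroup.mk ⟨D.g ^ (i : ℕ), D.bot.pow_mem D.mem _⟩
  have hf : Function.Bijective f :=
    bijective_quotient_pow D.mem (fun _ => D.pow_mem_iff) fun x hx => D.exists_pow_mul hx
  rw [← Fintype.sum_bijective f hf (fun i => D.g ^ (i : ℕ) • (a : A)) _ fun i => rfl,
    Fin.sum_univ_eq_sum_range fun i => D.g ^ i • (a : A)]

end Module

end CyclicStep

/-- Open subgroups are groups of number fields. -/
theorem fixingSubgroup_fixedField_of_layer_le {N : Subgroup Gam} {M : Layer} (h : M.sub ≤ N) :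
    (IntermediateField.fixedField N).fixingSubgroup = N ∧
      FiniteDimensional ℚ (IntermediateField.fixedField N) := by
  have := M.finite
  have ho : IsOpen (M.sub : Set Gam) := IntermediateField.fixingSubgroup_isOpen M.field
  have hc : IsClosed (N : Set Gam) := N.isClosed_of_isOpen (Subgroup.isOpen_mono h ho)
  refine ⟨InfiniteGalois.fixingSubgroup_fixedField ⟨N, hc⟩, ?_⟩
  have hle : IntermediateField.fixedField N ≤ M.field := by
    refine le_trans (IntermediateField.fixedField_antitone h) ?_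
    exact (InfiniteGalois.fixedField_fixingSubgroup M.field).le
  exact FiniteDimensional.of_injective (IntermediateField.inclusion hle).toLinearMap
    (IntermediateField.inclusion_injective hle)

/-- A normal subgroup of index `p` containing a layer gives a cyclic step. -/
theorem exists_cyclicStep {p : ℕ} [Fact p.Prime] {N' N : Subgroup Gam} {M : Layer}
    (hM : M.sub ≤ N') (hle : N' ≤ N) (hidx : N'.relIndex N = p)
    (hnorm : (N'.subgroupOf N).Normal) {g : Gam} (hg : g ∈ N) (hg' : g ∉ N') :
    ∃ D : CyclicStep p, D.top = N' ∧ D.bot = N ∧ D.g = g := by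
  obtain ⟨hK, hKf⟩ := fixingSubgroup_fixedField_of_layer_le (hM.trans hle)
  obtain ⟨hL, hLf⟩ := fixingSubgroup_fixedField_of_layer_le hM
  refine ⟨
    { K := IntermediateField.fixedField N
      L := IntermediateField.fixedField N'
      finK := hKf
      finL := hLf
      le := IntermediateField.fixedField_antitone hle
      normal := by rw [hK, hL]; exact hnorm
      index := by rw [hK, hL]; exact hidx
      g := g
      mem := by rw [hK]; exact hg
      notMem := by rw [hL]; exact hg' }, hL, hK, rfl⟩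

end FLTAgent.IdeleClassCohomology
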