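import Fermat.Agent.IdeleClassCohomology.KummerDual

/-!
# Dual families in elementary groups

A `DualFamily` is a basis with coordinates in a group killed by `p`; `exists_dualFamily_single`
and `exists_dualFamily_pair` start one from one or two independent elements.
-/

set_option autoImplicit false

noncomputable section

namespace FLTAgent.IdeleClassCohomology

open Module

/-- A basis with its coordinates. -/
structure DualFamily (p : ℕ) (A : Type) [AddCommGroup A] where
  ι : Type
  fin : Fintype ι
  b : ι → A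
  c : ι → (A →+ ZMod p)
  diag : ∀ i, c i (b i) = 1
  off : ∀ i k, i ≠ k → c i (b k) = 0
  card : Nat.card A = p ^ Fintype.card ι

variable {p : ℕ} [hp : Fact p.Prime] {A : Type} [AddCommGroup A]

theorem exists_dualFamily_module [Finite A] [Module (ZMod p) A] {s : Set A}
    (hs : LinearIndepOn (ZMod p) id s) :
    ∃ F : DualFamily p A, ∀ w ∈ s, ∃ i, F.b i = w := by
  classical
  have : Module.Finite (ZMod p) A := Module.Finite.of_finite
  let B := Basis.extend hs
  have : Fintype (hs.extend (Set.subset_univ s)) := Fintype.ofFinite _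
  refine ⟨{ ι := hs.extend (Set.subset_univ s), fin := inferInstance, b := B,
            c := fun i => (B.coord i).toAddMonoidHom,
            diag := fun i => ?_, off := fun i k h => ?_, card := ?_ }, fun w hw => ?_⟩
  · show B.coord i (B i) = 1
    rw [Basis.coord_apply, Basis.repr_self, Finsupp.single_eq_same]
  · show B.coord i (B k) = 0
    rw [Basis.coord_apply, Basis.repr_self, Finsupp.single_eq_of_ne h]
  · rw [Nat.card_congr B.equivFun.toEquiv, Nat.card_fun, Nat.card_zmod, Nat.card_eq_fintype_card]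
  · exact ⟨⟨w, hs.subset_extend _ hw⟩, Basis.extend_apply_self hs _⟩

theorem exists_dualFamily_single_module [Finite A] [Module (ZMod p) A] {w : A} (hw : w ≠ 0) :
    ∃ (F : DualFamily p A) (i : F.ι), F.b i = w := by
  obtain ⟨F, hF⟩ := exists_dualFamily_module (p := p) (LinearIndepOn.singleton (v := id) hw :
    LinearIndepOn (ZMod p) id ({w} : Set A))
  obtain ⟨i, hi⟩ := hF w rfl
  exact ⟨F, i, hi⟩

theorem exists_dualFamily_pair_module [Finite A] [Module (ZMod p) A] {w w' : A} (hw : w ≠ 0)
    (hw' : w' ∉ AddSubgroup.zmultiples w) :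
    ∃ (F : DualFamily p A) (i i' : F.ι), F.b i = w ∧ F.b i' = w' ∧ i ≠ i' := by
  have hne : w ≠ w' := fun e => hw' (e ▸ AddSubgroup.mem_zmultiples w)
  have hs : LinearIndepOn (ZMod p) id ({w, w'} : Set A) := by
    rw [LinearIndepOn.pair_iff _ hne]
    intro r t hrt
    obtain ⟨i, rfl⟩ := ZMod.natCast_zmod_surjective r
    obtain ⟨j, rfl⟩ := ZMod.natCast_zmod_surjective t
    simp only [id_eq, Nat.cast_smul_eq_nsmul] at hrt
    have hj : (j : ZMod p) = 0 := by
      by_contra hj
      refine hw' ?_
      have h1 : ((j : ZMod p)⁻¹).val • (i • w + j • w') = 0 := by rw [hrt, nsmul_zero]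
      have h2 : ((j : ZMod p)⁻¹).val • j • w' = w' := by
        rw [← Nat.cast_smul_eq_nsmul (ZMod p) ((j : ZMod p)⁻¹).val,
          ← Nat.cast_smul_eq_nsmul (ZMod p) j, ZMod.natCast_zmod_val, smul_smul,
          inv_mul_cancel₀ hj, one_smul]
      rw [nsmul_add, h2] at h1
      rw [eq_neg_of_add_eq_zero_right h1]
      exact neg_mem (nsmul_mem (nsmul_mem (AddSubgroup.mem_zmultiples w) _) _)
    refine ⟨?_, hj⟩
    have hj' : j • w' = 0 := by rw [← Nat.cast_smul_eq_nsmul (ZMod p), hj, zero_smul]
    rw [hj', add_zero] at hrt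
    by_contra hi
    exact hw (by
      have := congrArg (fun z => ((i : ZMod p)⁻¹).val • z) hrt
      simp only [nsmul_zero] at this
      rwa [← Nat.cast_smul_eq_nsmul (ZMod p), ← Nat.cast_smul_eq_nsmul (ZMod p) i,
        ZMod.natCast_zmod_val, smul_smul, inv_mul_cancel₀ hi, one_smul] at this)
  obtain ⟨F, hF⟩ := exists_dualFamily_module (p := p) hs
  obtain ⟨i, hi⟩ := hF w (Set.mem_insert _ _)
  obtain ⟨i', hi'⟩ := hF w' (Set.mem_insert_of_mem _ rfl)
  exact ⟨F, i, i', hi, hi', fun e => hne (hi.symm.trans ((congrArg F.b e).trans hi'))⟩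

theorem exists_dualFamily_single [Finite A] (h : ∀ a : A, p • a = 0) {w : A} (hw : w ≠ 0) :
    ∃ (F : DualFamily p A) (i : F.ι), F.b i = w :=
  @exists_dualFamily_single_module p hp A _ _ (AddCommGroup.zmodModule h) w hw

theorem exists_dualFamily_pair [Finite A] (h : ∀ a : A, p • a = 0) {w w' : A} (hw : w ≠ 0)
    (hw' : w' ∉ AddSubgroup.zmultiples w) :
    ∃ (F : DualFamily p A) (i i' : F.ι), F.b i = w ∧ F.b i' = w' ∧ i ≠ i' :=
  @exists_dualFamily_pair_module p hp A _ _ (AddCommGroup.zmodModule h) w w' hw hw'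

end FLTAgent.IdeleClassCohomology
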