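import Fermat.Agent.IdeleClassCohomology.UnitTotal

/-!
# The first inequality

The Herbrand quotient of the idele classes of a cyclic extension of prime degree `p` is `p`.
-/

set_option autoImplicit false

noncomputable section

namespace FLTAgent.IdeleClassCohomology

open FLTAgent.GalCoh FLTAgent.GlobalDuality

theorem hIndex_ne_zero_of_hQuot {A : Type*} [AddCommGroup A] {f g : A →+ A}
    (h : hQuot f g ≠ 0) : hIndex f g ≠ 0 ∧ hIndex g f ≠ 0 := by
  simpa [hQuot, not_or] using h

namespace CyclicStep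

variable {p : ℕ} [hp : Fact p.Prime] (D : CyclicStep p)

/-- The classes of unit ideles of `L`. -/
def unitClasses : AddSubgroup IdeleClass := D.allUnits.map classMap

omit hp in
theorem smul_mem_unitClasses {c : IdeleClass} (hc : c ∈ D.unitClasses) :
    D.g • c ∈ D.unitClasses := by
  obtain ⟨x, hx, rfl⟩ := hc
  exact ⟨D.g • x, D.smul_mem_allUnits hx, classMap_smul _ _⟩

omit hp in
theorem unitClasses_le : D.unitClasses ≤ fixedPts D.top IdeleClass := by
  rintro _ ⟨x, hx, rfl⟩
  exact classMap_mem_fixedPts hx.1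

/-- The generator on classes of unit ideles. -/
abbrev unitClassesEnd : AddMonoid.End D.unitClasses :=
  D.subEnd D.unitClasses fun _ hc => D.smul_mem_unitClasses hc

theorem herbrand_unitClasses (hD : D.InfSplit) : herbrand p D.unitClassesEnd = p := by
  let i : globalUnits D.L →+ D.allUnits :=
    (principal.comp (globalUnits D.L).subtype).codRestrict _ fun a =>
      ⟨principal_mem_fixedPts_iff.2 a.2.1, a.2.2⟩
  let π : D.allUnits →+ D.unitClasses :=
    (classMap.comp D.allUnits.subtype).codRestrict _ fun x => ⟨x, x.2, rfl⟩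
  have hπ : Function.Surjective π := fun c => by
    obtain ⟨x, hx, hc⟩ := c.2
    exact ⟨⟨x, hx⟩, Subtype.ext hc⟩
  have hi : Function.Injective i := fun a b h =>
    Subtype.ext (principal_injective (congrArg Subtype.val h))
  have hex : π.ker = i.range := by
    ext x
    constructor
    · intro hx
      obtain ⟨a, ha⟩ := (classMap_eq_zero_iff (x : Idele)).1 (congrArg Subtype.val hx)
      have h1 : principal a ∈ fixedPts D.top Idele := ha ▸ x.2.1
      have h2 : principal a ∈ unitIdeles := ha ▸ x.2.2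
      exact ⟨⟨a, principal_mem_fixedPts_iff.1 h1, h2⟩, Subtype.ext ha⟩
    · rintro ⟨a, rfl⟩
      exact Subtype.ext ((classMap_eq_zero_iff _).2 ⟨a, rfl⟩)
  have hA : ∀ a, D.allUnitsEnd (i a) = i (D.unitEnd a) := fun a =>
    Subtype.ext (principal_smul D.g (a : GU)).symm
  have hC : ∀ x, D.unitClassesEnd (π x) = π (D.allUnitsEnd x) := fun x =>
    Subtype.ext (classMap_smul D.g (x : Idele)).symm
  have hord : D.allUnitsEnd ^ p = 1 := D.subEnd_pow_eq_one inf_le_left
  have hU : herbrand p D.allUnitsEnd = 1 := D.herbrand_allUnits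
  have hO : herbrand p D.unitEnd = (p : ℚ)⁻¹ := D.herbrand_units hD
  have hpq : (p : ℚ) ≠ 0 := Nat.cast_ne_zero.2 hp.out.ne_zero
  -- the quotient is finite: it is squeezed between the units and the unit ideles
  have h1 := hIndex_mul_conIndex (f := (D.allUnitsEnd - 1 : AddMonoid.End _))
    (g := cycNorm p D.allUnitsEnd) (fA := (D.unitEnd - 1 : AddMonoid.End _))
    (gA := cycNorm p D.unitEnd) (fC := (D.unitClassesEnd - 1 : AddMonoid.End _))
    (gC := cycNorm p D.unitClassesEnd) hi hex
    (fun a => by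
      show D.allUnitsEnd (i a) - i a = i (D.unitEnd a - a)
      rw [map_sub, hA])
    (cycNorm_apply_comm p i hA)
    (fun x => by
      show D.unitClassesEnd (π x) - π x = π (D.allUnitsEnd x - x)
      rw [map_sub, hC])
    (cycNorm_apply_comm p π hC) hπ
    (fun b => DFunLike.congr_fun (sub_one_mul_cycNorm hord) b)
  have h2 := hIndex_mul_conIndex (g := (D.allUnitsEnd - 1 : AddMonoid.End _))
    (f := cycNorm p D.allUnitsEnd) (gA := (D.unitEnd - 1 : AddMonoid.End _))
    (fA := cycNorm p D.unitEnd) (gC := (D.unitClassesEnd - 1 : AddMonoid.End _))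
    (fC := cycNorm p D.unitClassesEnd) hi hex
    (cycNorm_apply_comm p i hA)
    (fun a => by
      show D.allUnitsEnd (i a) - i a = i (D.unitEnd a - a)
      rw [map_sub, hA])
    (cycNorm_apply_comm p π hC)
    (fun x => by
      show D.unitClassesEnd (π x) - π x = π (D.allUnitsEnd x - x)
      rw [map_sub, hC])
    hπ (fun b => DFunLike.congr_fun (cycNorm_mul_sub_one hord) b)
  -- connecting indices are finite since the indices of the units are
  have hO' : hIndex (D.unitEnd - 1 : AddMonoid.End _) (cycNorm p D.unitEnd) ≠ 0 ∧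
      hIndex (cycNorm p D.unitEnd) (D.unitEnd - 1 : AddMonoid.End _) ≠ 0 := by
    have : herbrand p D.unitEnd ≠ 0 := by rw [hO]; exact inv_ne_zero hpq
    exact hIndex_ne_zero_of_hQuot this
  have hU' : hIndex (D.allUnitsEnd - 1 : AddMonoid.End _) (cycNorm p D.allUnitsEnd) ≠ 0 ∧
      hIndex (cycNorm p D.allUnitsEnd) (D.allUnitsEnd - 1 : AddMonoid.End _) ≠ 0 := by
    have : herbrand p D.allUnitsEnd ≠ 0 := by rw [hU]; exact one_ne_zero
    exact hIndex_ne_zero_of_hQuot this
  have hc : ∀ (u v : AddMonoid.End D.allUnits) (uA vA : AddMonoid.End (globalUnits D.L)),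
      (∀ a, u (i a) = i (uA a)) → (∀ a, v (i a) = i (vA a)) →
      (∀ b, v (u b) = 0) → hIndex vA uA ≠ 0 → conIndex u uA i ≠ 0 := by
    intro u v uA vA hu hv huv hne h0
    refine hne (AddSubgroup.relIndex_eq_zero_of_le_right ?_ h0)
    rintro a ⟨b, hb⟩
    refine hi ?_
    exact ((hv a).symm.trans ((congrArg v hb.symm).trans (huv b))).trans (map_zero i).symm
  have c1 := hc (cycNorm p D.allUnitsEnd) (D.allUnitsEnd - 1) (cycNorm p D.unitEnd) (D.unitEnd - 1)
    (cycNorm_apply_comm p i hA)
    (fun a => by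
      show D.allUnitsEnd (i a) - i a = i (D.unitEnd a - a)
      rw [map_sub, hA])
    (fun b => DFunLike.congr_fun (sub_one_mul_cycNorm hord) b) hO'.1
  have c2 := hc (D.allUnitsEnd - 1) (cycNorm p D.allUnitsEnd) (D.unitEnd - 1) (cycNorm p D.unitEnd)
    (fun a => by
      show D.allUnitsEnd (i a) - i a = i (D.unitEnd a - a)
      rw [map_sub, hA])
    (cycNorm_apply_comm p i hA)
    (fun b => DFunLike.congr_fun (cycNorm_mul_sub_one hord) b) hO'.2
  have hP : herbrand p D.unitClassesEnd ≠ 0 := by
    refine div_ne_zero (Nat.cast_ne_zero.2 fun h => ?_) (Nat.cast_ne_zero.2 fun h => ?_)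
    · have h3 := h1.trans ((congrArg (_ * ·) h).trans (mul_zero _))
      exact mul_ne_zero hU'.1 (mul_ne_zero c1 c2) h3
    · have h3 := h2.trans ((congrArg (_ * ·) h).trans (mul_zero _))
      exact mul_ne_zero hU'.2 (mul_ne_zero c2 c1) h3
  have h := herbrand_exact (σA := D.unitEnd) (σ := D.allUnitsEnd) (σC := D.unitClassesEnd)
    hi hπ hex hA hC hord (by rw [hO]; exact inv_ne_zero hpq) hP
  rw [hU, hO] at h
  field_simp at h
  exact h.symm

/-- The Herbrand quotient of the idele classes is `p`. -/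
theorem herbrand_classes (hD : D.InfSplit) : herbrand p (D.fixEnd IdeleClass) = p := by
  set C := fixedPts D.top IdeleClass
  set P : AddSubgroup C := D.unitClasses.addSubgroupOf C with hP
  let σQ : AddMonoid.End (C ⧸ P) := QuotientAddGroup.map P P (D.fixEnd IdeleClass)
    fun c hc => D.smul_mem_unitClasses hc
  have hC : ∀ c, σQ (QuotientAddGroup.mk' P c) = QuotientAddGroup.mk' P (D.fixEnd IdeleClass c) :=
    fun c => rfl
  have hord : D.fixEnd IdeleClass ^ p = 1 := D.subEnd_pow_eq_one le_rfl
  have hordQ : σQ ^ p = 1 := DFunLike.ext _ _ fun x => by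
    induction x using QuotientAddGroup.induction_on with
    | H a =>
      have h := pow_apply_comm (QuotientAddGroup.mk' P)
        (σA := D.fixEnd IdeleClass) (σB := σQ) hC p a
      rw [hord] at h
      exact h
  have : Finite (C ⧸ P) := by
    let f : fixedPts D.top Idele →+ C ⧸ P := (QuotientAddGroup.mk' P).comp
      ((classMap.comp (fixedPts D.top Idele).subtype).codRestrict C fun x =>
        classMap_mem_fixedPts x.2)
    have hf : Function.Surjective f := fun c => by
      induction c using QuotientAddGroup.induction_on with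
      | H c =>
        obtain ⟨x, hx, hxc⟩ := exists_idele_lift D.top c.2
        exact ⟨⟨x, hx⟩, congrArg (QuotientAddGroup.mk' P) (Subtype.ext hxc)⟩
    have hle : (ideleClassGroup D.L).ker ≤ f.ker := by
      intro x hx
      obtain ⟨a, ha, hu⟩ := exists_eq_principal_add_unit D.L hx
      refine (QuotientAddGroup.eq_zero_iff _).2 ⟨(x : Idele) - principal a,
        ⟨(fixedPts D.top Idele).sub_mem x.2 (principal_mem_fixedPts_iff.2 ha), hu⟩, ?_⟩
      rw [map_sub, (classMap_eq_zero_iff _).2 ⟨a, rfl⟩, sub_zero]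
      rfl
    have : Finite (fixedPts D.top Idele ⧸ (ideleClassGroup D.L).ker) :=
      Finite.of_equiv _ (QuotientAddGroup.quotientKerEquivRange (ideleClassGroup D.L)).symm.toEquiv
    refine Finite.of_surjective (QuotientAddGroup.lift (ideleClassGroup D.L).ker f hle) fun c => ?_
    obtain ⟨x, hx⟩ := hf c
    exact ⟨x, hx⟩
  let e : D.unitClasses ≃+ P :=
    { toFun := fun c => ⟨⟨c.1, D.unitClasses_le c.2⟩, c.2⟩
      invFun := fun c => ⟨c.1.1, c.2⟩
      left_inv := fun _ => rfl
      right_inv := fun _ => rfl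
      map_add' := fun _ _ => rfl }
  have h1 : herbrand p D.unitClassesEnd = p := D.herbrand_unitClasses hD
  have hpq : (p : ℚ) ≠ 0 := Nat.cast_ne_zero.2 hp.out.ne_zero
  rw [herbrand_exact (σA := D.unitClassesEnd) (σC := σQ)
    (i := P.subtype.comp e.toAddMonoidHom) (π := QuotientAddGroup.mk' P)
    (Subtype.val_injective.comp e.injective) (QuotientAddGroup.mk'_surjective P)
    (by
      ext c
      rw [QuotientAddGroup.ker_mk']
      exact ⟨fun h => ⟨e.symm ⟨c, h⟩, rfl⟩, fun ⟨a, ha⟩ => ha ▸ (e a).2⟩)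
    (fun a => rfl) hC hord (by rw [h1]; exact hpq)
    (by rw [herbrand_of_finite hordQ]; exact one_ne_zero),
    h1, herbrand_of_finite hordQ, mul_one]

/-- The norm index of idele classes is `p` times the order of `H¹`, and both are finite. -/
theorem hIndex_classes (hD : D.InfSplit) :
    hIndex (D.fixEnd IdeleClass - 1 : AddMonoid.End _) (cycNorm p (D.fixEnd IdeleClass)) ≠ 0 ∧
    hIndex (D.fixEnd IdeleClass - 1 : AddMonoid.End _) (cycNorm p (D.fixEnd IdeleClass)) =
      p * hIndex (cycNorm p (D.fixEnd IdeleClass)) (D.fixEnd IdeleClass - 1 : AddMonoid.End _) := by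
  have h : (hIndex (D.fixEnd IdeleClass - 1 : AddMonoid.End _)
      (cycNorm p (D.fixEnd IdeleClass)) : ℚ) /
      (hIndex (cycNorm p (D.fixEnd IdeleClass)) (D.fixEnd IdeleClass - 1 : AddMonoid.End _) : ℕ)
      = p := D.herbrand_classes hD
  have hpq : (p : ℚ) ≠ 0 := Nat.cast_ne_zero.2 hp.out.ne_zero
  have hne := h.symm ▸ hpq
  rw [div_ne_zero_iff] at hne
  refine ⟨Nat.cast_ne_zero.1 hne.1, ?_⟩
  rw [div_eq_iff hne.2] at h
  exact_mod_cast h

theorem normTo_range_eq :
    (normTo IdeleClass D.top D.bot).range.map (fixedPts D.bot IdeleClass).subtype =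
      (AddMonoidHom.range (cycNorm p (D.fixEnd IdeleClass))).map
        (fixedPts D.top IdeleClass).subtype := by
  ext c
  constructor
  · rintro ⟨_, ⟨a, rfl⟩, rfl⟩
    exact ⟨_, ⟨a, rfl⟩, ((D.coe_cycNorm_subEnd a).trans (D.coe_normTo a).symm :)⟩
  · rintro ⟨_, ⟨a, rfl⟩, rfl⟩
    exact ⟨_, ⟨a, rfl⟩, ((D.coe_normTo a).trans (D.coe_cycNorm_subEnd a).symm :)⟩

theorem index_normTo_eq :
    (normTo IdeleClass D.top D.bot).range.index =
      hIndex (D.fixEnd IdeleClass - 1 : AddMonoid.End _) (cycNorm p (D.fixEnd IdeleClass)) := by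
  have hker : (AddMonoidHom.ker (D.fixEnd IdeleClass - 1 : AddMonoid.End _)).map
      (fixedPts D.top IdeleClass).subtype = fixedPts D.bot IdeleClass := by
    ext c
    constructor
    · rintro ⟨a, ha, rfl⟩
      have ha' : D.fixEnd IdeleClass a = a := sub_eq_zero.1 ha
      exact (D.mem_fixedPts_bot a.2).2 (congrArg Subtype.val ha')
    · intro hc
      refine ⟨⟨c, fixedPts_antitone D.top_le hc⟩, ?_, rfl⟩
      exact sub_eq_zero.2 (Subtype.ext (hc _ D.mem))
  refine Eq.symm ?_
  refine ((AddSubgroup.relIndex_map_map_of_injective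
    (AddMonoidHom.range (cycNorm p (D.fixEnd IdeleClass))) _
    (fixedPts D.top IdeleClass).subtype_injective).symm.trans ?_)
  rw [hker, ← normTo_range_eq]
  exact congrArg AddSubgroup.index
    (AddSubgroup.comap_map_eq_self_of_injective (fixedPts D.bot IdeleClass).subtype_injective _)

/-- The first inequality: the norm index is a nonzero multiple of `p`. -/
theorem prime_dvd_normIndex (hD : D.InfSplit) :
    p ∣ (normTo IdeleClass D.top D.bot).range.index ∧
      (normTo IdeleClass D.top D.bot).range.index ≠ 0 := by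
  obtain ⟨h0, h⟩ := D.hIndex_classes hD
  rw [index_normTo_eq]
  exact ⟨Dvd.intro _ h.symm, h0⟩

/-- If the second inequality holds, `H¹` of the classes vanishes. -/
theorem exists_eq_smul_sub_of_le (hD : D.InfSplit)
    (h2 : (normTo IdeleClass D.top D.bot).range.index ≤ p) {c : IdeleClass}
    (hc : c ∈ fixedPts D.top IdeleClass) (hN : ∑ i ∈ Finset.range p, D.g ^ i • c = 0) :
    ∃ d ∈ fixedPts D.top IdeleClass, c = D.g • d - d := by
  obtain ⟨h0, h⟩ := D.hIndex_classes hD
  rw [index_normTo_eq, h] at h2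
  have h1 : hIndex (cycNorm p (D.fixEnd IdeleClass))
      (D.fixEnd IdeleClass - 1 : AddMonoid.End _) = 1 := by
    rcases Nat.lt_trichotomy (hIndex (cycNorm p (D.fixEnd IdeleClass))
      (D.fixEnd IdeleClass - 1 : AddMonoid.End _)) 1 with hl | hl | hl
    · exact absurd (h.trans (by rw [Nat.lt_one_iff.1 hl, mul_zero])) h0
    · exact hl
    · exact absurd h2 (not_le.2 (lt_mul_of_one_lt_right hp.out.pos hl))
  rw [hIndex, AddSubgroup.relIndex_eq_one] at h1
  have hm : cycNorm p (D.fixEnd IdeleClass) ⟨c, hc⟩ = 0 :=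
    Subtype.ext ((D.coe_cycNorm_subEnd _).trans hN)
  obtain ⟨d, hd⟩ := h1 hm
  exact ⟨d, d.2, (congrArg Subtype.val hd).symm⟩

end CyclicStep

end FLTAgent.IdeleClassCohomology
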