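import Fermat.Agent.IdeleClassCohomology.HerbrandPair
import Mathlib.Algebra.Polynomial.AlgebraMap
import Mathlib.Algebra.Polynomial.Div
import Mathlib.Algebra.CharP.Frobenius
import Mathlib.Algebra.Field.ZMod
import Mathlib.Algebra.Polynomial.Expand
import Mathlib.Algebra.Module.ZMod
import Mathlib.RingTheory.Finiteness.Basic
import Mathlib.LinearAlgebra.FreeModule.Finite.CardQuotient
import Mathlib.LinearAlgebra.FreeModule.PID
import Mathlib.GroupTheory.Sylow
import Mathlib.LinearAlgebra.Dimension.RankNullity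
import Mathlib.LinearAlgebra.Dimension.Localization
import Mathlib.LinearAlgebra.Dimension.Torsion.Basic
import Mathlib.GroupTheory.FiniteAbelian.Basic
import Mathlib.LinearAlgebra.FreeModule.Finite.Quotient

/-!
# The Herbrand quotient of an automorphism of prime order

For a lattice it only depends on the ranks of the lattice and of its fixed part.
-/

set_option autoImplicit false

open AddSubgroup Polynomial

namespace FLTAgent.IdeleClassCohomology

variable {A B C : Type*} [AddCommGroup A] [AddCommGroup B] [AddCommGroup C]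

/-- The norm `1 + σ + ⋯ + σ^(p-1)`. -/
def cycNorm (p : ℕ) (σ : AddMonoid.End A) : AddMonoid.End A :=
  ∑ i ∈ Finset.range p, σ ^ i

theorem sub_one_mul_cycNorm {p : ℕ} {σ : AddMonoid.End A} (h : σ ^ p = 1) :
    (σ - 1) * cycNorm p σ = 0 := by rw [cycNorm, mul_geom_sum, h, sub_self]

theorem cycNorm_mul_sub_one {p : ℕ} {σ : AddMonoid.End A} (h : σ ^ p = 1) :
    cycNorm p σ * (σ - 1) = 0 := by rw [cycNorm, geom_sum_mul, h, sub_self]

/-- The Herbrand quotient of `σ`. -/
noncomputable def herbrand (p : ℕ) (σ : AddMonoid.End A) : ℚ := hQuot (σ - 1) (cycNorm p σ)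

/-- The fixed points of `σ`. -/
def cycFixed (σ : AddMonoid.End A) : AddSubgroup A := AddMonoidHom.ker (σ - 1)

theorem mem_cycFixed {σ : AddMonoid.End A} {a : A} : a ∈ cycFixed σ ↔ σ a = a := sub_eq_zero

theorem pow_apply_comm (i : A →+ B) {σA : AddMonoid.End A} {σB : AddMonoid.End B}
    (h : ∀ a, σB (i a) = i (σA a)) (n : ℕ) (a : A) : (σB ^ n) (i a) = i ((σA ^ n) a) := by
  induction n with
  | zero => rfl
  | succ n ih => rw [pow_succ', pow_succ', AddMonoid.End.coe_mul, Function.comp_apply, ih, h]; rfl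

theorem end_sum_apply {ι : Type*} (s : Finset ι) (f : ι → AddMonoid.End A) (a : A) :
    (∑ i ∈ s, f i) a = ∑ i ∈ s, f i a :=
  AddMonoidHom.finsetSum_apply f s a

theorem cycNorm_apply_comm (p : ℕ) (i : A →+ B) {σA : AddMonoid.End A} {σB : AddMonoid.End B}
    (h : ∀ a, σB (i a) = i (σA a)) (a : A) : cycNorm p σB (i a) = i (cycNorm p σA a) := by
  simp only [cycNorm, end_sum_apply, map_sum]
  exact Finset.sum_congr rfl fun n _ => pow_apply_comm i h n a

theorem herbrand_exact {p : ℕ} {σA : AddMonoid.End A} {σ : AddMonoid.End B}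
    {σC : AddMonoid.End C} {i : A →+ B} {π : B →+ C} (hi : Function.Injective i)
    (hπ : Function.Surjective π) (hex : π.ker = i.range) (hA : ∀ a, σ (i a) = i (σA a))
    (hC : ∀ b, σC (π b) = π (σ b)) (hord : σ ^ p = 1)
    (hA0 : herbrand p σA ≠ 0) (hC0 : herbrand p σC ≠ 0) :
    herbrand p σ = herbrand p σA * herbrand p σC := by
  refine hQuot_exact hi hπ hex ?_ (cycNorm_apply_comm p i hA) ?_
    (cycNorm_apply_comm p π hC) ?_ ?_ hA0 hC0
  · intro a
    show σ (i a) - i a = i (σA a - a)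
    rw [hA, map_sub]
  · intro b
    show σC (π b) - π b = π (σ b - b)
    rw [hC, map_sub]
  · exact fun b => DFunLike.congr_fun (sub_one_mul_cycNorm hord) b
  · exact fun b => DFunLike.congr_fun (cycNorm_mul_sub_one hord) b

theorem herbrand_of_finite [Finite A] {p : ℕ} {σ : AddMonoid.End A} (hord : σ ^ p = 1) :
    herbrand p σ = 1 :=
  hQuot_of_finite _ _ (fun b => DFunLike.congr_fun (sub_one_mul_cycNorm hord) b)
    (fun b => DFunLike.congr_fun (cycNorm_mul_sub_one hord) b)

theorem relIndex_range_nsmul (A : Type*) [AddCommGroup A] [Module.Free ℤ A] [Module.Finite ℤ A]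
    (n : ℕ) (hn : n ≠ 0) :
    (nsmulAddMonoidHom n : A →+ A).range.index = n ^ Module.finrank ℤ A := by
  have hinj : Function.Injective ((n : ℤ) • (LinearMap.id : A →ₗ[ℤ] A)) := by
    intro x y h
    have h' : (n : ℤ) • x = (n : ℤ) • y := h
    exact smul_right_injective A (Int.natCast_ne_zero.mpr hn) h'
  obtain ⟨e, he⟩ : ∃ e : A ≃ₗ[ℤ] LinearMap.range ((n : ℤ) • (LinearMap.id : A →ₗ[ℤ] A)),
      ∀ x, (e x : A) = ((n : ℤ) • (LinearMap.id : A →ₗ[ℤ] A)) x :=
    ⟨LinearEquiv.ofInjective _ hinj, LinearEquiv.ofInjective_apply (h := hinj) _⟩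
  have h := Submodule.natAbs_det_equiv (LinearMap.range ((n : ℤ) • (LinearMap.id : A →ₗ[ℤ] A))) e
  have hsub : (LinearMap.range ((n : ℤ) • (LinearMap.id : A →ₗ[ℤ] A))).subtype ∘ₗ
      (e : A →+ (LinearMap.range ((n : ℤ) • (LinearMap.id : A →ₗ[ℤ] A)))).toIntLinearMap =
        (n : ℤ) • LinearMap.id :=
    LinearMap.ext fun x => by
      simp only [LinearMap.comp_apply, AddMonoidHom.coe_toIntLinearMap, AddMonoidHom.coe_coe,
        Submodule.subtype_apply]
      exact he x
  rw [hsub, LinearMap.det_smul, LinearMap.det_id, mul_one, Int.natAbs_pow,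
    Int.natAbs_natCast] at h
  rw [h, AddSubgroup.index_eq_card]
  have e1 : (nsmulAddMonoidHom n : A →+ A).range =
      (LinearMap.range ((n : ℤ) • (LinearMap.id : A →ₗ[ℤ] A))).toAddSubgroup := by
    ext x
    simp
  rw [e1]
  rfl

section Lattice

variable {p : ℕ} [hp : Fact p.Prime]

theorem exists_sub_one_pow_eq :
    ∃ R : ℤ[X], (X - 1) ^ (p - 1) = (∑ i ∈ Finset.range p, X ^ i) + (p : ℤ[X]) * R ∧
      R.eval 1 = -1 := by
  have h2 : (((X - 1) ^ (p - 1) - ∑ i ∈ Finset.range p, X ^ i : ℤ[X]).map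
      (Int.castRingHom (ZMod p))) = 0 := by
    rw [Polynomial.map_sub, Polynomial.map_pow, Polynomial.map_sub, Polynomial.map_sum,
      Polynomial.map_one, map_X]
    simp only [Polynomial.map_pow, map_X]
    have hne : (X - 1 : (ZMod p)[X]) ≠ 0 := by rw [← C_1]; exact X_sub_C_ne_zero _
    refine (mul_left_inj' hne).mp ?_
    rw [zero_mul, sub_mul, geom_sum_mul, ← pow_succ,
      Nat.sub_add_cancel hp.out.one_le, sub_pow_char, one_pow, sub_self]
  obtain ⟨R, hR⟩ : (C (p : ℤ)) ∣ ((X - 1) ^ (p - 1) - ∑ i ∈ Finset.range p, X ^ i : ℤ[X]) := by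
    rw [C_dvd_iff_dvd_coeff]
    intro n
    rw [← ZMod.intCast_zmod_eq_zero_iff_dvd]
    have := congrArg (fun q => Polynomial.coeff q n) h2
    rw [coeff_map, coeff_zero] at this
    exact this
  refine ⟨R, ?_, ?_⟩
  · rw [← sub_eq_iff_eq_add', hR, map_natCast]
  · have h := congrArg (Polynomial.eval (1 : ℤ)) hR
    have hp1 : p - 1 ≠ 0 := by have := hp.out.two_le; omega
    simp [eval_finsetSum, zero_pow hp1] at h
    have hp0 : (p : ℤ) ≠ 0 := Int.natCast_ne_zero.mpr hp.out.ne_zero
    exact mul_left_cancel₀ hp0 (by linarith)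

theorem index_range_pow {D : AddMonoid.End A} (hD : Function.Injective D) (k : ℕ) :
    (D ^ k).range.index = D.range.index ^ k := by
  induction k with
  | zero =>
    have : (AddMonoidHom.range (1 : AddMonoid.End A)) = ⊤ :=
      AddMonoidHom.range_eq_top.mpr fun a => ⟨a, rfl⟩
    rw [pow_zero, this, AddSubgroup.index_top, pow_zero]
  | succ k ih =>
    have e : AddMonoidHom.range (D ^ (k + 1)) = (AddMonoidHom.range (D ^ k)).map D := by
      rw [pow_succ']
      exact AddMonoidHom.range_comp _ _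
    rw [e, AddSubgroup.index_map_of_injective _ hD, ih, pow_succ]

variable [Module.Free ℤ A] [Module.Finite ℤ A] {σ : AddMonoid.End A}

/-- If the norm vanishes and `σ` has no fixed point, then `[A : (σ-1)A] ^ (p-1) = p ^ rank`. -/
theorem index_sub_one_pow (hN : cycNorm p σ = 0) (hd : Function.Injective ⇑(σ - 1)) :
    ((σ - 1).range.index) ^ (p - 1) = p ^ Module.finrank ℤ A := by
  have hp0 := hp.out.ne_zero
  obtain ⟨R, hR, hR1⟩ := exists_sub_one_pow_eq (p := p)
  set RA : AddMonoid.End A := aeval σ R with hRA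
  have hev : (σ - 1) ^ (p - 1) = (p : AddMonoid.End A) * RA := by
    have h := congrArg (aeval σ) hR
    simp only [map_pow, map_sub, aeval_X, map_one, map_add, map_sum, map_mul, map_natCast] at h
    rw [h, show (∑ i ∈ Finset.range p, σ ^ i) = 0 from hN, zero_add]
  -- `R = -1 + (X - 1) Q`
  obtain ⟨Q, hQ⟩ : (X - C 1 : ℤ[X]) ∣ (R + 1) := by
    rw [dvd_iff_isRoot, IsRoot, eval_add, eval_one, hR1]
    norm_num
  have hRA' : RA = -1 + (σ - 1) * aeval σ Q := by
    have h := congrArg (aeval σ) hQ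
    simp only [map_add, map_one, map_mul, map_sub, aeval_X] at h
    rw [hRA, ← h]; abel
  have hcomm : Commute (σ - 1) (aeval σ Q) := by
    have h : Commute σ (aeval σ Q) := by
      have := (Commute.all (X : ℤ[X]) Q).map (aeval σ)
      rwa [aeval_X] at this
    exact h.sub_left (Commute.one_left _)
  set P : AddSubgroup A := (nsmulAddMonoidHom p : A →+ A).range with hP
  have hPidx : P.index = p ^ Module.finrank ℤ A := relIndex_range_nsmul A p hp0
  -- `p A ≤ (σ - 1) A`
  have hpd : P ≤ AddMonoidHom.range (σ - 1) := by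
    obtain ⟨Q', hQ'⟩ : (X - C 1 : ℤ[X]) ∣ ((∑ i ∈ Finset.range p, X ^ i) - (p : ℤ[X])) := by
      rw [dvd_iff_isRoot, IsRoot]
      simp [eval_finsetSum]
    have h := congrArg (aeval σ) hQ'
    simp only [map_sub, map_sum, map_pow, aeval_X, map_natCast, map_mul, map_one] at h
    rw [show (∑ i ∈ Finset.range p, σ ^ i) = 0 from hN, zero_sub] at h
    rintro _ ⟨a, rfl⟩
    refine ⟨-(aeval σ Q' a), ?_⟩
    have h' := DFunLike.congr_fun h a
    rw [map_neg]
    show -(((σ - 1) * aeval σ Q') a) = p • a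
    rw [← h']
    show -(-((p : AddMonoid.End A) a)) = p • a
    rw [neg_neg, AddMonoid.End.natCast_apply]
  have hidx : (σ - 1).range.index ∣ p ^ Module.finrank ℤ A :=
    hPidx ▸ AddSubgroup.index_dvd_of_le hpd
  have hmap : AddMonoidHom.range ((p : AddMonoid.End A) * RA) =
      (AddMonoidHom.range RA).map (nsmulAddMonoidHom p) := by
    ext x
    constructor
    · rintro ⟨a, rfl⟩
      exact ⟨RA a, ⟨a, rfl⟩, (AddMonoid.End.natCast_apply p (RA a)).symm⟩
    · rintro ⟨_, ⟨a, rfl⟩, rfl⟩
      exact ⟨a, AddMonoid.End.natCast_apply p (RA a)⟩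
  have hpinj : Function.Injective (nsmulAddMonoidHom p : A →+ A) := fun x y h => by
    have h' : (p : ℤ) • x = (p : ℤ) • y := by simpa [natCast_zsmul] using h
    exact smul_right_injective A (Int.natCast_ne_zero.mpr hp0) h'
  have heq : (σ - 1).range.index ^ (p - 1) =
      (AddMonoidHom.range RA).index * p ^ Module.finrank ℤ A := by
    rw [← index_range_pow hd, hev, hmap, AddSubgroup.index_map_of_injective _ hpinj, ← hP, hPidx]
  -- `RA` is surjective
  set Rr : AddSubgroup A := AddMonoidHom.range RA with hRr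
  have hdiv : ∀ a : A, ∃ b, a - p • b ∈ Rr := by
    have step : ∀ (k : ℕ) (a : A), ∃ b, a - ((σ - 1) * aeval σ Q) ^ k • b ∈ Rr := by
      intro k
      induction k with
      | zero => exact fun a => ⟨a, by simp⟩
      | succ k ih =>
        intro a
        obtain ⟨b, hb⟩ := ih a
        refine ⟨b, ?_⟩
        have e : (((σ - 1) * aeval σ Q) ^ k) b + RA ((((σ - 1) * aeval σ Q) ^ k) b) =
            (((σ - 1) * aeval σ Q) ^ (k + 1)) b := by
          rw [pow_succ', hRA']
          show _ + ((-1 : AddMonoid.End A) _ + ((σ - 1) * aeval σ Q) _) = _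
          rw [show ∀ y : A, (-1 : AddMonoid.End A) y = -y from fun y => rfl, ← add_assoc,
            add_neg_cancel, zero_add]
          rfl
        show a - (((σ - 1) * aeval σ Q) ^ (k + 1)) b ∈ Rr
        rw [← e, sub_add_eq_sub_sub]
        exact Rr.sub_mem hb ⟨_, rfl⟩
    intro a
    obtain ⟨b, hb⟩ := step (p - 1) a
    refine ⟨RA ((aeval σ Q ^ (p - 1)) b), ?_⟩
    rw [hcomm.mul_pow, hev] at hb
    change a - ((p : AddMonoid.End A) * RA * aeval σ Q ^ (p - 1)) b ∈ Rr at hb
    rwa [AddMonoid.End.coe_mul, Function.comp_apply, AddMonoid.End.coe_mul, Function.comp_apply,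
      AddMonoid.End.natCast_apply] at hb
  have hpow : ∃ m, Rr.index = p ^ m := by
    have h1 : Rr.index ∣ p ^ (Module.finrank ℤ A * (p - 1)) := by
      rw [pow_mul]
      exact dvd_trans (Dvd.intro _ rfl) (heq ▸ pow_dvd_pow_of_dvd hidx (p - 1))
    obtain ⟨m, -, hm⟩ := (Nat.dvd_prime_pow hp.out).mp h1
    exact ⟨m, hm⟩
  obtain ⟨m, hm⟩ := hpow
  suffices m = 0 by rw [heq, hm, this, pow_zero, one_mul]
  by_contra hm0
  have : Finite (A ⧸ Rr) := (AddSubgroup.index_ne_zero_iff_finite).mp (by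
    rw [hm]; exact pow_ne_zero _ hp0)
  have hsurj : Function.Surjective (fun x : A ⧸ Rr => p • x) := by
    intro x
    induction x using QuotientAddGroup.induction_on with
    | H a =>
      obtain ⟨b, hb⟩ := hdiv a
      refine ⟨(b : A ⧸ Rr), ?_⟩
      show p • (b : A ⧸ Rr) = (a : A ⧸ Rr)
      rw [← QuotientAddGroup.mk_nsmul, QuotientAddGroup.eq_iff_sub_mem]
      simpa using Rr.neg_mem hb
  obtain ⟨x, hx⟩ := exists_prime_addOrderOf_dvd_card' p (G := A ⧸ Rr) (by
    rw [← AddSubgroup.index_eq_card, hm]; exact dvd_pow_self p hm0)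
  have hx0 : x = 0 := (Finite.injective_iff_surjective.mpr hsurj) (by
    show p • x = p • (0 : A ⧸ Rr)
    rw [smul_zero, ← hx, addOrderOf_nsmul_eq_zero])
  rw [hx0, addOrderOf_zero] at hx
  exact hp.out.one_lt.ne hx

omit hp [Module.Free ℤ A] [Module.Finite ℤ A] in
theorem cycNorm_sub_one_ker_le {σ : AddMonoid.End A} (a : A) (ha : σ a = a) :
    cycNorm p σ a = p • a := by
  rw [cycNorm, end_sum_apply, Finset.sum_eq_card_nsmul (b := a), Finset.card_range]
  intro i hi
  clear hi
  induction i with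
  | zero => rfl
  | succ i ih => rw [pow_succ, AddMonoid.End.coe_mul, Function.comp_apply, ha, ih]

/-- The Herbrand quotient of a lattice in terms of the ranks. -/
theorem herbrand_pow_of_free (hord : σ ^ p = 1) :
    herbrand p σ ^ (p - 1) =
      (p : ℚ) ^ ((p : ℤ) * Module.finrank ℤ (AddSubgroup.toIntSubmodule (cycFixed σ)) -
        Module.finrank ℤ A) := by
  have hp0 := hp.out.ne_zero
  set A0 := AddSubgroup.toIntSubmodule (cycFixed σ) with hA0
  have mem0 : ∀ a : A, a ∈ A0 ↔ σ a = a := fun a => mem_cycFixed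
  have sat : ∀ (n : ℤ) (a : A), n ≠ 0 → n • a ∈ A0 → a ∈ A0 := by
    intro n a hn h
    rw [mem0] at h ⊢
    rw [map_zsmul] at h
    exact smul_right_injective A hn h
  have : Module.IsTorsionFree ℤ (A ⧸ A0) := by
    refine .of_smul_eq_zero fun n x hx => ?_
    induction x using Submodule.Quotient.induction_on with
    | H a =>
      rw [← Submodule.Quotient.mk_smul, Submodule.Quotient.mk_eq_zero] at hx
      rw [Submodule.Quotient.mk_eq_zero]
      exact or_iff_not_imp_left.mpr fun hn => sat n a hn hx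
  have : Module.Finite ℤ A0 := inferInstance
  have : Module.Free ℤ A0 := inferInstance
  have : Module.Free ℤ (A ⧸ A0) := inferInstance
  -- the induced automorphisms
  let σ0 : AddMonoid.End A0 := 1
  let σC : AddMonoid.End (A ⧸ A0) :=
    (A0.mapQ A0 σ.toIntLinearMap fun a ha => by
      show σ a ∈ A0
      rw [mem0] at ha ⊢
      rw [ha, ha]).toAddMonoidHom
  have hσC : ∀ a : A, σC (A0.mkQ a) = A0.mkQ (σ a) := fun a => rfl
  have hordC : σC ^ p = 1 := by
    refine DFunLike.ext _ _ fun x => ?_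
    induction x using Submodule.Quotient.induction_on with
    | H a =>
      have h := pow_apply_comm (A0.mkQ).toAddMonoidHom (σA := σ) (σB := σC) hσC p a
      rw [hord] at h
      exact h
  -- no fixed points on the quotient
  have hdC : Function.Injective ⇑(σC - 1) := by
    rw [injective_iff_map_eq_zero]
    intro x
    induction x using Submodule.Quotient.induction_on with
    | H a =>
      intro hx
      have h1 : σ a - a ∈ A0 := (Submodule.Quotient.mk_eq_zero A0).mp hx
      rw [mem0] at h1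
      rw [Submodule.Quotient.mk_eq_zero, mem0]
      have h2 : cycNorm p σ (σ a - a) = 0 := DFunLike.congr_fun (cycNorm_mul_sub_one hord) a
      rw [cycNorm_sub_one_ker_le _ h1, ← natCast_zsmul, smul_eq_zero] at h2
      exact sub_eq_zero.mp (h2.resolve_left (Int.natCast_ne_zero.mpr hp0))
  have hNC : cycNorm p σC = 0 := by
    refine DFunLike.ext _ _ fun x => hdC ?_
    have := DFunLike.congr_fun (sub_one_mul_cycNorm hordC) x
    rw [AddMonoid.End.coe_mul, Function.comp_apply] at this
    rw [this]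
    exact (map_zero _).symm
  -- the fixed part
  have hN0 : cycNorm p σ0 = (p : AddMonoid.End A0) := by simp [cycNorm, σ0]
  have hNapp : ∀ x : A0, cycNorm p σ0 x = p • x := fun x => by
    rw [hN0]; exact AddMonoid.End.natCast_apply p x
  have e00 : hIndex (σ0 - 1 : AddMonoid.End A0) (cycNorm p σ0) = p ^ Module.finrank ℤ A0 := by
    have h1 : AddMonoidHom.ker (σ0 - 1) = ⊤ := by
      ext x
      simp only [AddSubgroup.mem_top, iff_true, AddMonoidHom.mem_ker]
      exact sub_self x
    have h2 : AddMonoidHom.range (cycNorm p σ0) = (nsmulAddMonoidHom p : A0 →+ A0).range := by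
      ext x
      simp only [AddMonoidHom.mem_range, nsmulAddMonoidHom_apply]
      exact ⟨fun ⟨y, h⟩ => ⟨y, (hNapp y).symm.trans h⟩, fun ⟨y, h⟩ => ⟨y, (hNapp y).trans h⟩⟩
    refine (congrArg₂ AddSubgroup.relIndex h2 h1).trans ?_
    rw [AddSubgroup.relIndex_top_right, relIndex_range_nsmul _ p hp0]
  have e01 : hIndex (cycNorm p σ0) (σ0 - 1 : AddMonoid.End A0) = 1 := by
    rw [hIndex, AddSubgroup.relIndex_eq_one]
    intro x hx
    have hx : p • x = 0 := (hNapp x).symm.trans hx
    rw [← natCast_zsmul, smul_eq_zero] at hx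
    rw [hx.resolve_left (Int.natCast_ne_zero.mpr hp0)]
    exact zero_mem _
  -- the quotient
  have eC0 : hIndex (σC - 1 : AddMonoid.End (A ⧸ A0)) (cycNorm p σC) = 1 := by
    rw [hIndex, AddSubgroup.relIndex_eq_one]
    intro x hx
    rw [AddMonoidHom.mem_ker] at hx
    rw [hdC (hx.trans (map_zero _).symm)]
    exact zero_mem _
  have eC1 : hIndex (cycNorm p σC) (σC - 1 : AddMonoid.End (A ⧸ A0)) = (σC - 1).range.index := by
    rw [hIndex, hNC, show AddMonoidHom.ker (0 : AddMonoid.End (A ⧸ A0)) = ⊤ from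
      AddMonoidHom.ker_zero, AddSubgroup.relIndex_top_right]
  have key := index_sub_one_pow hNC hdC
  have hidx0 : (σC - 1).range.index ≠ 0 := by
    intro h
    have hp1 : p - 1 ≠ 0 := by have := hp.out.two_le; omega
    rw [h, zero_pow hp1] at key
    exact pow_ne_zero _ hp0 key.symm
  have h0 : herbrand p σ0 = (p : ℚ) ^ Module.finrank ℤ A0 := by
    show (hIndex _ _ : ℚ) / (hIndex _ _ : ℕ) = _
    exact (congrArg₂ (fun a b : ℕ => (a : ℚ) / (b : ℚ)) e00 e01).trans (by simp)
  have hC : herbrand p σC = ((σC - 1).range.index : ℚ)⁻¹ := by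
    exact (congrArg₂ (fun a b : ℕ => (a : ℚ) / (b : ℚ)) eC0 eC1).trans (by simp)
  have hpq : (p : ℚ) ≠ 0 := Nat.cast_ne_zero.mpr hp0
  have hex := herbrand_exact (σA := σ0) (σC := σC) (i := A0.subtype.toAddMonoidHom)
    (π := A0.mkQ.toAddMonoidHom) Subtype.val_injective A0.mkQ_surjective
    (by ext x; simp) (fun a => (mem0 _).mp a.2) hσC hord
    (by rw [h0]; exact pow_ne_zero _ hpq)
    (by rw [hC]; exact inv_ne_zero (Nat.cast_ne_zero.mpr hidx0))
  have hrank := Submodule.finrank_quotient_add_finrank A0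
  have key' : ((σC - 1).range.index : ℚ) ^ (p - 1) = (p : ℚ) ^ Module.finrank ℤ (A ⧸ A0) := by
    exact_mod_cast key
  rw [hex, h0, hC, mul_pow, inv_pow]
  refine (congrArg (fun t : ℚ => ((p : ℚ) ^ Module.finrank ℤ A0) ^ (p - 1) * t⁻¹) key').trans ?_
  rw [← pow_mul, ← div_eq_mul_inv, ← zpow_natCast, ← zpow_natCast, ← zpow_sub₀ hpq]
  congr 1
  rw [← hrank]
  push_cast [Nat.cast_sub hp.out.one_le]
  ring

end Lattice

section FiniteModule

variable {p : ℕ} [hp : Fact p.Prime] [Module.Finite ℤ A] {σ : AddMonoid.End A}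

/-- The Herbrand quotient of a finitely generated group in terms of the ranks. -/
theorem herbrand_pow_of_finite_module (hord : σ ^ p = 1) :
    herbrand p σ ^ (p - 1) =
      (p : ℚ) ^ ((p : ℤ) * Module.finrank ℤ (AddSubgroup.toIntSubmodule (cycFixed σ)) -
        Module.finrank ℤ A) := by
  have htor : ∀ {M : Type _} [AddCommGroup M] (x : M), IsOfFinAddOrder x →
      ∃ r : nonZeroDivisors ℤ, r • x = 0 := by
    intro M _ x hx
    obtain ⟨n, hn, hx'⟩ := isOfFinAddOrder_iff_nsmul_eq_zero.1 hx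
    exact ⟨⟨n, mem_nonZeroDivisors_of_ne_zero (Int.natCast_ne_zero.2 hn.ne')⟩,
      by simpa [Submonoid.smul_def] using hx'⟩
  set T : Submodule ℤ A := (AddCommGroup.torsion A).toIntSubmodule with hT
  have : Finite T := Module.finite_of_fg_torsion T fun {x} => by
    obtain ⟨r, hr⟩ := htor (x : A) x.2
    exact ⟨r, Subtype.ext hr⟩
  have : Module.IsTorsionFree ℤ (A ⧸ T) := by
    refine .of_smul_eq_zero fun n x hx => ?_
    induction x using Submodule.Quotient.induction_on with
    | H a =>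
      rw [← Submodule.Quotient.mk_smul, Submodule.Quotient.mk_eq_zero] at hx
      rw [Submodule.Quotient.mk_eq_zero]
      refine or_iff_not_imp_left.2 fun hn => ?_
      obtain ⟨m, hm, hm'⟩ := isOfFinAddOrder_iff_nsmul_eq_zero.1 hx
      refine isOfFinAddOrder_iff_zsmul_eq_zero.2 ⟨m * n, mul_ne_zero
        (Int.natCast_ne_zero.2 hm.ne') hn, ?_⟩
      rw [mul_smul, natCast_zsmul]; exact hm'
  have : Module.Free ℤ (A ⧸ T) := inferInstance
  let σT : AddMonoid.End T := AddMonoidHom.codRestrict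
    (σ.comp T.subtype.toAddMonoidHom) T.toAddSubgroup
    fun x => AddMonoidHom.isOfFinAddOrder σ x.2
  let σQ : AddMonoid.End (A ⧸ T) :=
    (T.mapQ T σ.toIntLinearMap fun x hx =>
      AddMonoidHom.isOfFinAddOrder σ hx).toAddMonoidHom
  have hT1 : ∀ a : T, σ (a : A) = (σT a : A) := fun a => rfl
  have hQ1 : ∀ a : A, σQ (T.mkQ a) = T.mkQ (σ a) := fun a => rfl
  have hordT : σT ^ p = 1 := DFunLike.ext _ _ fun a => Subtype.ext (by
    have h := pow_apply_comm T.subtype.toAddMonoidHom (σA := σT) (σB := σ) hT1 p a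
    rw [hord] at h
    exact h.symm)
  have hordQ : σQ ^ p = 1 := DFunLike.ext _ _ fun x => by
    induction x using Submodule.Quotient.induction_on with
    | H a =>
      have h := pow_apply_comm T.mkQ.toAddMonoidHom (σA := σ) (σB := σQ) hQ1 p a
      rw [hord] at h
      exact h
  -- the ranks of the fixed parts agree
  set F0 := AddSubgroup.toIntSubmodule (cycFixed σ) with hF0
  set Λ := AddSubgroup.toIntSubmodule (cycFixed σQ) with hΛ
  have hrank : Module.finrank ℤ Λ = Module.finrank ℤ F0 := by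
    let f : F0 →ₗ[ℤ] Λ := LinearMap.codRestrict Λ (T.mkQ.comp F0.subtype) fun a => by
      show T.mkQ (a : A) ∈ cycFixed σQ
      rw [mem_cycFixed, hQ1, mem_cycFixed.1 a.2]
    have hker : LinearMap.ker f ≤ Submodule.torsion ℤ F0 := fun a ha => by
      obtain ⟨r, hr⟩ := htor (a : A)
        ((Submodule.Quotient.mk_eq_zero T).1 (congrArg Subtype.val (LinearMap.mem_ker.1 ha)))
      exact ⟨r, Subtype.ext hr⟩
    have h1 : Module.finrank ℤ (LinearMap.range f) = Module.finrank ℤ F0 := by
      rw [← f.quotKerEquivRange.finrank_eq]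
      exact finrank_quotient_eq_of_le_torsion hker
    have h2 : LinearMap.range ((p : ℤ) • (LinearMap.id : Λ →ₗ[ℤ] Λ)) ≤ LinearMap.range f := by
      rintro _ ⟨⟨l, hl⟩, rfl⟩
      obtain ⟨a, rfl⟩ := T.mkQ_surjective l
      have hl' : σQ (T.mkQ a) = T.mkQ a := mem_cycFixed.1 hl
      refine ⟨⟨cycNorm p σ a, mem_cycFixed.2 (sub_eq_zero.1
        (DFunLike.congr_fun (sub_one_mul_cycNorm hord) a))⟩, Subtype.ext ?_⟩
      show T.mkQ (cycNorm p σ a) = (p : ℤ) • T.mkQ a
      refine ((cycNorm_apply_comm p T.mkQ.toAddMonoidHom hQ1 a).symm).trans ?_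
      rw [natCast_zsmul]
      exact cycNorm_sub_one_ker_le _ hl'
    have h3 : Module.finrank ℤ (LinearMap.range ((p : ℤ) • (LinearMap.id : Λ →ₗ[ℤ] Λ))) =
        Module.finrank ℤ Λ :=
      LinearMap.finrank_range_of_inj fun x y h =>
        smul_right_injective Λ (Int.natCast_ne_zero.2 hp.out.ne_zero) h
    exact le_antisymm (h3 ▸ h1 ▸ Submodule.finrank_mono h2) (h1 ▸ Submodule.finrank_le _)
  have hQpow := herbrand_pow_of_free hordQ
  rw [← hΛ, hrank] at hQpow
  have hne : herbrand p σQ ≠ 0 := by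
    intro h0
    rw [h0, zero_pow (by have := hp.out.two_le; omega)] at hQpow
    exact zpow_ne_zero _ (Nat.cast_ne_zero.2 hp.out.ne_zero) hQpow.symm
  rw [herbrand_exact (σA := σT) (σC := σQ) (i := T.subtype.toAddMonoidHom)
    (π := T.mkQ.toAddMonoidHom) Subtype.val_injective T.mkQ_surjective (by ext x; simp) hT1 hQ1
    hord (by rw [herbrand_of_finite hordT]; exact one_ne_zero) hne,
    herbrand_of_finite hordT, one_mul, hQpow, finrank_quotient_torsion_eq]

end FiniteModule

end FLTAgent.IdeleClassCohomology
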