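import Mathlib.GroupTheory.Index
import Mathlib.Data.Rat.Defs
import Mathlib.Tactic.Ring
import Mathlib.SetTheory.Cardinal.NatCard

/-!
# Herbrand quotients of pairs of endomorphisms

For endomorphisms `f, g` of an abelian group with `f ∘ g = g ∘ f = 0` we consider the indices
`[ker f : im g]` and `[ker g : im f]` and their behaviour in short exact sequences.
-/

set_option autoImplicit false

open AddSubgroup

namespace FLTAgent.IdeleClassCohomology

variable {A B C : Type*} [AddCommGroup A] [AddCommGroup B] [AddCommGroup C]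

/-- The index of the image of `g` in the kernel of `f`. -/
noncomputable def hIndex (f g : A →+ A) : ℕ := g.range.relIndex f.ker

/-- The Herbrand quotient of the pair `(f, g)` (zero if one of the indices is infinite). -/
noncomputable def hQuot (f g : A →+ A) : ℚ := (hIndex f g : ℚ) / hIndex g f

/-- An index splits along a homomorphism. -/
theorem relIndex_eq_mul_of_hom {K H : AddSubgroup B} (hKH : K ≤ H) (π : B →+ C) :
    K.relIndex H = (K ⊓ π.ker).relIndex (H ⊓ π.ker) * (K.map π).relIndex (H.map π) := by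
  have h1 : K.relIndex H = K.relIndex (K ⊔ (H ⊓ π.ker)) * (K ⊔ (H ⊓ π.ker)).relIndex H :=
    (relIndex_mul_relIndex K _ H le_sup_left (sup_le hKH inf_le_left)).symm
  have h2 : K.relIndex (K ⊔ (H ⊓ π.ker)) = (K ⊓ π.ker).relIndex (H ⊓ π.ker) := by
    rw [relIndex_sup_left, ← inf_relIndex_right K (H ⊓ π.ker),
      ← inf_relIndex_right (K ⊓ π.ker) (H ⊓ π.ker)]
    congr 1
    ext x
    simp only [AddSubgroup.mem_inf]
    tauto
  have h3 : (K ⊔ (H ⊓ π.ker)).relIndex H = (K.map π).relIndex (H.map π) := by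
    rw [relIndex_map_map, ← inf_relIndex_right, ← inf_relIndex_right (K ⊔ π.ker) (H ⊔ π.ker)]
    have e1 : (K ⊔ H ⊓ π.ker) ⊓ H = (K ⊔ π.ker) ⊓ H := by
      ext x
      simp only [AddSubgroup.mem_inf, AddSubgroup.mem_sup]
      constructor
      · rintro ⟨⟨y, hy, z, hz, rfl⟩, hx⟩; exact ⟨⟨y, hy, z, hz.2, rfl⟩, hx⟩
      · rintro ⟨⟨y, hy, z, hz, rfl⟩, hx⟩
        exact ⟨⟨y, hy, z, ⟨by simpa using H.sub_mem hx (hKH hy), hz⟩, rfl⟩, hx⟩
    have e2 : (K ⊔ π.ker) ⊓ (H ⊔ π.ker) = K ⊔ π.ker :=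
      inf_eq_left.mpr (sup_le_sup_right hKH _)
    rw [e1, e2, inf_relIndex_right]
    have e3 : H ⊔ π.ker = (K ⊔ π.ker) ⊔ H := by
      rw [sup_right_comm, sup_eq_right.mpr hKH]
    rw [e3, relIndex_sup_left]
  rw [h1, h2, h3]

section Exact

variable {f g : B →+ B} {fA gA : A →+ A} {fC gC : C →+ C} {i : A →+ B} {π : B →+ C}

/-- The connecting index: how much bigger `(im f) ∩ A` is than `f A`. -/
noncomputable def conIndex (f : B →+ B) (fA : A →+ A) (i : A →+ B) : ℕ :=
  fA.range.relIndex (f.range.comap i)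

theorem conIndex_eq (hi : Function.Injective i) (hπ : Function.Surjective π)
    (hex : π.ker = i.range) (hfA : ∀ a, f (i a) = i (fA a)) (hfC : ∀ b, fC (π b) = π (f b)) :
    conIndex f fA i = (f.ker.map π).relIndex fC.ker := by
  -- both sides compare `{b | π (f b) = 0}` with `A + ker f`
  set M : AddSubgroup B := fC.ker.comap π with hM
  set N : AddSubgroup B := i.range ⊔ f.ker with hN
  have hr : (f.ker.map π).relIndex fC.ker = N.relIndex M := by
    have e : fC.ker = M.map π := (map_comap_eq_self_of_surjective hπ _).symm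
    rw [e, relIndex_map_map, hN, hex]
    congr 1
    · rw [sup_comm]
    · refine sup_eq_left.mpr ?_
      rintro _ ⟨a, rfl⟩
      have : π (i a) = 0 := (hex.symm ▸ (⟨a, rfl⟩ : i a ∈ i.range) : i a ∈ π.ker)
      simp [hM, this]
  have hl : conIndex f fA i = (N.map f).relIndex (M.map f) := by
    rw [conIndex, ← relIndex_map_map_of_injective _ _ hi]
    congr 1
    · ext x
      constructor
      · rintro ⟨_, ⟨a, rfl⟩, rfl⟩
        exact ⟨i a, AddSubgroup.mem_sup_left ⟨a, rfl⟩, hfA a⟩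
      · rintro ⟨b, hb, rfl⟩
        obtain ⟨_, ⟨a, rfl⟩, z, hz, rfl⟩ := AddSubgroup.mem_sup.mp hb
        refine ⟨fA a, ⟨a, rfl⟩, ?_⟩
        rw [map_add, show f z = 0 from hz, add_zero, hfA]
    · ext x
      constructor
      · rintro ⟨a, ⟨b, hb⟩, rfl⟩
        refine ⟨b, ?_, hb⟩
        show fC (π b) = 0
        rw [hfC, hb]
        exact (hex.symm ▸ (⟨a, rfl⟩ : i a ∈ i.range) : i a ∈ π.ker)
      · rintro ⟨b, hb, rfl⟩
        have hb' : f b ∈ π.ker := by
          show π (f b) = 0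
          rw [← hfC]; exact hb
        rw [hex] at hb'
        obtain ⟨a, ha⟩ := hb'
        exact ⟨a, ⟨b, ha.symm⟩, ha⟩
  rw [hr, hl, relIndex_map_map]
  congr 1
  · exact sup_eq_left.mpr le_sup_right
  · refine sup_eq_left.mpr fun b hb => ?_
    show fC (π b) = 0
    rw [hfC, show f b = 0 from hb, map_zero]

theorem hIndex_mul_conIndex (hi : Function.Injective i)
    (hex : π.ker = i.range) (hfA : ∀ a, f (i a) = i (fA a)) (hgA : ∀ a, g (i a) = i (gA a))
    (hfC : ∀ b, fC (π b) = π (f b)) (hgC : ∀ b, gC (π b) = π (g b))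
    (hπ : Function.Surjective π) (hfg : ∀ b, f (g b) = 0) :
    hIndex f g * (conIndex g gA i * conIndex f fA i) = hIndex fA gA * hIndex fC gC := by
  have hle : g.range ≤ f.ker := by rintro _ ⟨b, rfl⟩; exact hfg b
  have e1 : (g.range ⊓ π.ker).relIndex (f.ker ⊓ π.ker) =
      (g.range.comap i).relIndex fA.ker := by
    rw [hex, ← relIndex_map_map_of_injective _ _ hi, AddSubgroup.map_comap_eq, inf_comm i.range]
    congr 1
    ext x
    constructor
    · rintro ⟨hx, a, rfl⟩
      exact ⟨a, hi (by rw [← hfA, map_zero]; exact hx), rfl⟩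
    · rintro ⟨a, ha, rfl⟩
      exact ⟨show f (i a) = 0 by rw [hfA, show fA a = 0 from ha, map_zero], a, rfl⟩
  have e2 : g.range.map π = gC.range := by
    ext c
    constructor
    · rintro ⟨_, ⟨b, rfl⟩, rfl⟩; exact ⟨π b, hgC b⟩
    · rintro ⟨c', rfl⟩
      obtain ⟨b, rfl⟩ := hπ c'
      exact ⟨g b, ⟨b, rfl⟩, (hgC b).symm⟩
  have hmA : gA.range ≤ g.range.comap i := by
    rintro _ ⟨a, rfl⟩; exact ⟨i a, hgA a⟩
  have hIA : g.range.comap i ≤ fA.ker := by
    intro a ha
    obtain ⟨b, hb⟩ := ha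
    exact hi (by rw [← hfA, ← hb, hfg, map_zero])
  have hP : f.ker.map π ≤ fC.ker := by
    rintro _ ⟨b, hb, rfl⟩
    show fC (π b) = 0
    rw [hfC, show f b = 0 from hb, map_zero]
  have hgP : gC.range ≤ f.ker.map π := e2 ▸ AddSubgroup.map_mono hle
  have hA : conIndex g gA i * (g.range.comap i).relIndex fA.ker = hIndex fA gA :=
    relIndex_mul_relIndex _ _ _ hmA hIA
  have hC : gC.range.relIndex (f.ker.map π) * conIndex f fA i = hIndex fC gC := by
    rw [conIndex_eq hi hπ hex hfA hfC]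
    exact relIndex_mul_relIndex _ _ _ hgP hP
  rw [hIndex, relIndex_eq_mul_of_hom hle π, e1, e2, ← hA, ← hC]
  ring

theorem conIndex_ne_zero (hi : Function.Injective i) (hπ : Function.Surjective π)
    (hex : π.ker = i.range) (hfA : ∀ a, f (i a) = i (fA a)) (hfC : ∀ b, fC (π b) = π (f b))
    (hgC : ∀ b, gC (π b) = π (g b)) (hfg : ∀ b, f (g b) = 0) (hC : hIndex fC gC ≠ 0) :
    conIndex f fA i ≠ 0 := by
  rw [conIndex_eq hi hπ hex hfA hfC]
  intro h0
  apply hC
  refine AddSubgroup.relIndex_eq_zero_of_le_left ?_ h0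
  rintro _ ⟨c, rfl⟩
  obtain ⟨b, rfl⟩ := hπ c
  exact ⟨g b, hfg b, (hgC b).symm⟩

/-- The quotient on a subgroup is nonzero if those on the group and the quotient are. -/
theorem hQuot_ne_zero_left (hi : Function.Injective i) (hπ : Function.Surjective π)
    (hex : π.ker = i.range) (hfA : ∀ a, f (i a) = i (fA a)) (hgA : ∀ a, g (i a) = i (gA a))
    (hfC : ∀ b, fC (π b) = π (f b)) (hgC : ∀ b, gC (π b) = π (g b))
    (hfg : ∀ b, f (g b) = 0) (hgf : ∀ b, g (f b) = 0)
    (hB : hQuot f g ≠ 0) (hC : hQuot fC gC ≠ 0) : hQuot fA gA ≠ 0 := by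
  have h1 := hIndex_mul_conIndex hi hex hfA hgA hfC hgC hπ hfg
  have h2 := hIndex_mul_conIndex hi hex hgA hfA hgC hfC hπ hgf
  simp only [hQuot, ne_eq, div_eq_zero_iff, Nat.cast_eq_zero, not_or] at hB hC ⊢
  have c1 := conIndex_ne_zero hi hπ hex hfA hfC hgC hfg hC.1
  have c2 := conIndex_ne_zero hi hπ hex hgA hgC hfC hgf hC.2
  constructor
  · intro h0
    rw [h0, zero_mul] at h1
    exact mul_ne_zero hB.1 (mul_ne_zero c2 c1) h1
  · intro h0
    rw [h0, zero_mul] at h2
    exact mul_ne_zero hB.2 (mul_ne_zero c1 c2) h2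

theorem hQuot_exact (hi : Function.Injective i) (hπ : Function.Surjective π)
    (hex : π.ker = i.range) (hfA : ∀ a, f (i a) = i (fA a)) (hgA : ∀ a, g (i a) = i (gA a))
    (hfC : ∀ b, fC (π b) = π (f b)) (hgC : ∀ b, gC (π b) = π (g b))
    (hfg : ∀ b, f (g b) = 0) (hgf : ∀ b, g (f b) = 0)
    (hA : hQuot fA gA ≠ 0) (hC : hQuot fC gC ≠ 0) :
    hQuot f g = hQuot fA gA * hQuot fC gC := by
  have h1 := hIndex_mul_conIndex hi hex hfA hgA hfC hgC hπ hfg
  have h2 := hIndex_mul_conIndex hi hex hgA hfA hgC hfC hπ hgf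
  rw [mul_comm (conIndex f fA i)] at h2
  simp only [hQuot, ne_eq, div_eq_zero_iff, Nat.cast_eq_zero, not_or] at hA hC
  have hne : hIndex f g * (conIndex g gA i * conIndex f fA i) ≠ 0 := by
    rw [h1]; exact mul_ne_zero hA.1 hC.1
  have hne' : hIndex g f * (conIndex g gA i * conIndex f fA i) ≠ 0 := by
    rw [h2]; exact mul_ne_zero hA.2 hC.2
  obtain ⟨hne1, hne2⟩ := mul_ne_zero_iff.mp hne
  have hne3 := (mul_ne_zero_iff.mp hne').1
  have k2 : (hIndex gA fA : ℚ) ≠ 0 := by exact_mod_cast hA.2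
  have k3 : (hIndex gC fC : ℚ) ≠ 0 := by exact_mod_cast hC.2
  have k4 : (hIndex g f : ℚ) ≠ 0 := by exact_mod_cast hne3
  have k5 : ((conIndex g gA i * conIndex f fA i : ℕ) : ℚ) ≠ 0 := by exact_mod_cast hne2
  rw [hQuot, hQuot, hQuot, div_mul_div_comm, ← mul_div_mul_right _ _ k5, ← Nat.cast_mul,
    ← Nat.cast_mul, h1, h2]
  push_cast
  ring

end Exact

theorem card_ker_mul_card_range [Finite A] (f : A →+ A) :
    Nat.card f.ker * Nat.card f.range = Nat.card A := by
  rw [← AddSubgroup.index_ker f, AddSubgroup.card_mul_index]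

theorem hQuot_of_finite [Finite A] (f g : A →+ A) (hfg : ∀ a, f (g a) = 0)
    (hgf : ∀ a, g (f a) = 0) : hQuot f g = 1 := by
  have key : ∀ (u v : A →+ A), (∀ a, u (v a) = 0) →
      Nat.card v.range * hIndex u v = Nat.card u.ker := by
    intro u v huv
    have hle : v.range ≤ u.ker := by rintro _ ⟨b, rfl⟩; exact huv b
    rw [hIndex, ← relIndex_bot_left, ← relIndex_bot_left]
    exact relIndex_mul_relIndex _ _ _ bot_le hle
  have hf := card_ker_mul_card_range f
  have hg := card_ker_mul_card_range g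
  have e : hIndex f g * (Nat.card g.range * Nat.card f.range) =
      hIndex g f * (Nat.card g.range * Nat.card f.range) := by
    have a1 := key f g hfg
    have a2 := key g f hgf
    calc _ = (Nat.card g.range * hIndex f g) * Nat.card f.range := by ring
      _ = Nat.card f.ker * Nat.card f.range := by rw [a1]
      _ = Nat.card g.ker * Nat.card g.range := by rw [hf, hg]
      _ = (Nat.card f.range * hIndex g f) * Nat.card g.range := by rw [a2]
      _ = _ := by ring
  have e' : hIndex f g = hIndex g f :=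
    Nat.eq_of_mul_eq_mul_right (Nat.mul_pos Nat.card_pos Nat.card_pos) e
  have hle : f.range ≤ g.ker := by rintro _ ⟨b, rfl⟩; exact hgf b
  have hne : hIndex g f ≠ 0 := by
    intro h
    have := key g f hgf
    rw [h, mul_zero] at this
    exact absurd this.symm Nat.card_pos.ne'
  rw [hQuot, e', div_self (Nat.cast_ne_zero.mpr hne)]

end FLTAgent.IdeleClassCohomology
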