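import Fermat.Agent.IdeleClassCohomology.KummerDual

/-!
# Counting hyperplanes in elementary groups

If distinct subgroups of index `p` are attached to the lines of an elementary group, they bound
its order (`card_le_of_hyperplanes`).
-/

set_option autoImplicit false

noncomputable section

namespace FLTAgent.IdeleClassCohomology

variable {p : ℕ} [hp : Fact p.Prime] {A Q : Type*} [AddCommGroup A] [AddCommGroup Q]

theorem exists_hom_ker_eq {H : AddSubgroup Q} (hH : H.index = p) :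
    ∃ φ : Q →+ ZMod p, φ.ker = H := by
  have hc : Nat.card (Q ⧸ H) = p := hH
  refine ⟨(addEquivOfPrimeCardEq hc (Nat.card_zmod p)).toAddMonoidHom.comp
    (QuotientAddGroup.mk' H), ?_⟩
  ext x
  rw [AddMonoidHom.mem_ker, AddMonoidHom.comp_apply, AddEquiv.coe_toAddMonoidHom,
    AddEquiv.map_eq_zero_iff]
  exact QuotientAddGroup.eq_zero_iff x

/-- A family of hyperplanes separating lines embeds the group into the dual. -/
theorem exists_injective_dual (hA : ∀ a : A, p • a = 0) (f : A → AddSubgroup Q)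
    (hidx : ∀ a ≠ 0, (f a).index = p)
    (hinj : ∀ a ≠ 0, ∀ a', a' ∉ AddSubgroup.zmultiples a → f a ≠ f a') :
    ∃ Ψ : A → (Q →+ ZMod p), Function.Injective Ψ ∧ ∀ a ≠ 0, (Ψ a).ker = f a := by
  classical
  choose φ hφ using fun H : {H : AddSubgroup Q // H.index = p} => exists_hom_ker_eq H.2
  let H : {a : A // a ≠ 0} → {H : AddSubgroup Q // H.index = p} := fun a => ⟨f a.1, hidx a.1 a.2⟩
  let rep : {a : A // a ≠ 0} → {a : A // a ≠ 0} := fun a =>
    (⟨a, rfl⟩ : ∃ b, H b = H a).choose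
  have hrep : ∀ a, H (rep a) = H a := fun a => (⟨a, rfl⟩ : ∃ b, H b = H a).choose_spec
  have hrep' : ∀ a b, H a = H b → rep a = rep b := fun a b h => by simp only [rep, h]
  have hmul : ∀ a : {a : A // a ≠ 0}, ∃ k : ZMod p, k ≠ 0 ∧ k.val • (rep a).1 = a.1 := by
    intro a
    have h1 : a.1 ∈ AddSubgroup.zmultiples (rep a).1 := by
      by_contra h
      exact hinj _ (rep a).2 _ h (congrArg Subtype.val (hrep a))
    obtain ⟨n, hn⟩ := AddSubgroup.mem_zmultiples_iff.1 h1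
    refine ⟨(n : ZMod p), fun h => a.2 ?_, ?_⟩
    · obtain ⟨m, hm⟩ := (ZMod.intCast_zmod_eq_zero_iff_dvd n p).1 h
      rw [← hn, hm, mul_comm, mul_zsmul, natCast_zsmul, hA, zsmul_zero]
    · rw [← natCast_zsmul, ZMod.val_intCast, ← sub_eq_zero]
      rw [← hn, Int.emod_def, sub_smul, sub_sub_cancel_left, mul_comm, mul_zsmul,
        natCast_zsmul, hA, zsmul_zero, neg_zero]
  choose k hk0 hk using hmul
  have happ : ∀ (n : ℕ) (ψ : Q →+ ZMod p) (x : Q), (n • ψ) x = n • ψ x := fun _ _ _ => rfl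
  let Ψ : A → (Q →+ ZMod p) := fun a =>
    if h : a = 0 then 0 else (k ⟨a, h⟩).val • φ (H ⟨a, h⟩)
  have hker : ∀ (a : A) (h : a ≠ 0), (Ψ a).ker = f a := by
    intro a h
    show _ = (H ⟨a, h⟩).1
    rw [← hφ (H ⟨a, h⟩)]
    ext x
    simp only [Ψ, dif_neg h, AddMonoidHom.mem_ker, happ,
      nsmul_eq_mul, ZMod.natCast_zmod_val, mul_eq_zero, hk0, false_or]
  have htop : ∀ a ≠ 0, f a ≠ ⊤ := fun a h he => hp.out.ne_one (by
    rw [← hidx a h, he, AddSubgroup.index_top])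
  refine ⟨Ψ, fun a b hab => ?_, hker⟩
  by_cases ha : a = 0
  · by_contra hb
    have hb' : b ≠ 0 := fun h => hb (ha.trans h.symm)
    refine htop b hb' ?_
    rw [← hker b hb', ← hab, show Ψ a = 0 by simp [Ψ, ha]]
    exact eq_top_iff.2 fun x _ => rfl
  by_cases hb : b = 0
  · refine absurd ?_ (htop a ha)
    rw [← hker a ha, hab, show Ψ b = 0 by simp [Ψ, hb]]
    exact eq_top_iff.2 fun x _ => rfl
  have hH : H ⟨a, ha⟩ = H ⟨b, hb⟩ := Subtype.ext (by
    show f a = f b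
    rw [← hker a ha, ← hker b hb, hab])
  have h1 := hab
  simp only [Ψ, dif_neg ha, dif_neg hb, hH] at h1
  obtain ⟨x, hx⟩ : ∃ x, φ (H ⟨b, hb⟩) x ≠ 0 := by
    by_contra h
    push Not at h
    refine htop b hb (eq_top_iff.2 fun x _ => ?_)
    show x ∈ (H ⟨b, hb⟩).1
    rw [← hφ]
    exact h x
  have h2 := DFunLike.congr_fun h1 x
  simp only [happ, nsmul_eq_mul, ZMod.natCast_zmod_val,
    mul_eq_mul_right_iff, hx, or_false] at h2
  calc a = (k ⟨a, ha⟩).val • (rep ⟨a, ha⟩).1 := (hk ⟨a, ha⟩).symm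
    _ = (k ⟨b, hb⟩).val • (rep ⟨b, hb⟩).1 := by rw [h2, hrep' _ _ hH]
    _ = b := hk ⟨b, hb⟩

theorem card_le_of_hyperplanes [Finite Q] (hA : ∀ a : A, p • a = 0) (hQ : ∀ x : Q, p • x = 0)
    (f : A → AddSubgroup Q) (hidx : ∀ a ≠ 0, (f a).index = p)
    (hinj : ∀ a ≠ 0, ∀ a', a' ∉ AddSubgroup.zmultiples a → f a ≠ f a') :
    Nat.card A ≤ Nat.card Q := by
  obtain ⟨Ψ, hΨ, -⟩ := exists_injective_dual hA f hidx hinj
  have : Finite (Q →+ ZMod p) := Finite.of_injective _ DFunLike.coe_injective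
  exact (Nat.card_le_card_of_injective Ψ hΨ).trans_eq (card_hom_zmod hQ)

theorem eq_zero_of_forall_hom [Finite Q] (hQ : ∀ x : Q, p • x = 0) {x : Q}
    (h : ∀ φ : Q →+ ZMod p, φ x = 0) : x = 0 := by
  set Z := AddSubgroup.zmultiples x
  let r : (Q ⧸ Z →+ ZMod p) → (Q →+ ZMod p) := fun ψ => ψ.comp (QuotientAddGroup.mk' Z)
  have hr : Function.Surjective r := fun φ => ⟨QuotientAddGroup.lift Z φ
    (AddSubgroup.zmultiples_le.2 (h φ)), AddMonoidHom.ext fun _ => rfl⟩
  have : Finite (Q ⧸ Z →+ ZMod p) := Finite.of_injective _ DFunLike.coe_injective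
  have h1 := Nat.card_le_card_of_surjective r hr
  rw [card_hom_zmod hQ, card_hom_zmod fun z => ?_] at h1
  swap
  · obtain ⟨y, rfl⟩ := QuotientAddGroup.mk'_surjective Z z
    rw [← map_nsmul, hQ, map_zero]
  have h2 := AddSubgroup.card_eq_card_quotient_mul_card_addSubgroup Z
  by_contra hx
  have h3 : 1 < Nat.card Z := by
    rw [AddSubgroup.one_lt_card_iff_ne_bot, Ne, AddSubgroup.zmultiples_eq_bot]
    exact hx
  have h4 : 0 < Nat.card (Q ⧸ Z) := Nat.card_pos
  nlinarith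

/-- If there are enough hyperplanes, only zero lies in all of them. -/
theorem eq_zero_of_mem_hyperplanes [Finite Q] (hA : ∀ a : A, p • a = 0)
    (hQ : ∀ x : Q, p • x = 0) (f : A → AddSubgroup Q) (hidx : ∀ a ≠ 0, (f a).index = p)
    (hinj : ∀ a ≠ 0, ∀ a', a' ∉ AddSubgroup.zmultiples a → f a ≠ f a')
    (hcard : Nat.card Q ≤ Nat.card A) {x : Q} (hx : ∀ a ≠ 0, x ∈ f a) : x = 0 := by
  obtain ⟨Ψ, hΨ, hker⟩ := exists_injective_dual hA f hidx hinj
  have : Finite (Q →+ ZMod p) := Finite.of_injective _ DFunLike.coe_injective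
  have : Finite A := Finite.of_injective Ψ hΨ
  have hbij : Function.Bijective Ψ := (Nat.bijective_iff_injective_and_card Ψ).2 ⟨hΨ,
    le_antisymm (Nat.card_le_card_of_injective Ψ hΨ) ((card_hom_zmod hQ).trans_le hcard)⟩
  refine eq_zero_of_forall_hom hQ fun φ => ?_
  rcases eq_or_ne φ 0 with rfl | hφ
  · rfl
  obtain ⟨a, rfl⟩ := hbij.2 φ
  rcases eq_or_ne a 0 with rfl | ha
  · by_contra hne
    obtain ⟨b, hb⟩ := hbij.2 (0 : Q →+ ZMod p)
    rcases eq_or_ne b 0 with rfl | hb0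
    · exact hφ hb
    · refine hp.out.ne_one ?_
      rw [← hidx b hb0, ← hker b hb0, hb, show (0 : Q →+ ZMod p).ker = ⊤ from
        eq_top_iff.2 fun x _ => rfl, AddSubgroup.index_top]
  · have := hx a ha
    rwa [← hker a ha] at this

end FLTAgent.IdeleClassCohomology
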