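import Fermat.Agent.IdeleClassCohomology.Divisor

/-!
# Cutting fixed ideles into pieces supported on double cosets

`cosetSet` is the double coset of a place and `cut` cuts an idele off to a stable set;
`exists_assemble` and `exists_assemble_outside` glue ideles from a choice on each double coset.
-/

set_option autoImplicit false

noncomputable section

namespace FLTAgent.IdeleClassCohomology

open FLTAgent.GalCoh FLTAgent.GlobalDuality

variable {K : IntermediateField ℚ QQbar} [FiniteDimensional ℚ K]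

/-- The double coset of the place `(q, σ)` of `K`. -/
def cosetSet (K : IntermediateField ℚ QQbar) (q : Nat.Primes) (σ : Gam) :
    Set (Nat.Primes × Gam) :=
  {i | i.1 = q ∧ ∃ τ : LGal q, (loc q τ * σ)⁻¹ * i.2 ∈ K.fixingSubgroup}

omit [FiniteDimensional ℚ K] in
theorem mem_cosetSet_self (q : Nat.Primes) (σ : Gam) : (q, σ) ∈ cosetSet K q σ :=
  ⟨rfl, 1, by simp [one_mem]⟩

omit [FiniteDimensional ℚ K] in
theorem mem_cosetSet_iff {q r : Nat.Primes} {σ γ : Gam} :
    (r, γ) ∈ cosetSet K q σ ↔ r = q ∧ ∃ τ : LGal q, ∃ n ∈ K.fixingSubgroup,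
      γ = loc q τ * σ * n :=
  ⟨fun ⟨h, τ, hτ⟩ => ⟨h, τ, _, hτ, (mul_inv_cancel_left _ _).symm⟩,
    fun ⟨h, τ, n, hn, e⟩ => ⟨h, τ, by simpa [e] using hn⟩⟩

/-- A set of places invariant under the local groups and under `N`. -/
def IsStableSet (N : Subgroup Gam) (W : Set (Nat.Primes × Gam)) : Prop :=
  ∀ (q : Nat.Primes) (γ : Gam) (τ : LGal q), ∀ n ∈ N, (q, γ) ∈ W → (q, loc q τ * γ * n) ∈ W

theorem IsStableSet.mem_iff {N : Subgroup Gam} {W : Set (Nat.Primes × Gam)} (hW : IsStableSet N W)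
    {q : Nat.Primes} {γ : Gam} (τ : LGal q) {n : Gam} (hn : n ∈ N) :
    (q, loc q τ * γ * n) ∈ W ↔ (q, γ) ∈ W := by
  refine ⟨fun h => ?_, hW q γ τ n hn⟩
  have := hW q _ τ⁻¹ n⁻¹ (inv_mem hn) h
  rwa [show loc q τ⁻¹ * (loc q τ * γ * n) * n⁻¹ = γ by rw [map_inv]; group] at this

omit [FiniteDimensional ℚ K] in
theorem isStableSet_cosetSet (q : Nat.Primes) (σ : Gam) :
    IsStableSet K.fixingSubgroup (cosetSet K q σ) := by
  intro r γ τ n hn h
  obtain ⟨rfl, τ', m, hm, rfl⟩ := mem_cosetSet_iff.1 h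
  exact mem_cosetSet_iff.2 ⟨rfl, τ * τ', m * n, mul_mem hm hn, by rw [map_mul]; group⟩

theorem IsStableSet.inter {N : Subgroup Gam} {V W : Set (Nat.Primes × Gam)}
    (hV : IsStableSet N V) (hW : IsStableSet N W) : IsStableSet N (V ∩ W) :=
  fun q γ τ n hn h => ⟨hV q γ τ n hn h.1, hW q γ τ n hn h.2⟩

theorem IsStableSet.compl {N : Subgroup Gam} {V : Set (Nat.Primes × Gam)}
    (hV : IsStableSet N V) : IsStableSet N Vᶜ :=
  fun _ _ τ _ hn h h' => h ((hV.mem_iff τ hn).1 h')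

theorem isStableSet_primes (N : Subgroup Gam) (T : Set Nat.Primes) :
    IsStableSet N {i | i.1 ∈ T} :=
  fun _ _ _ _ _ h => h

omit [FiniteDimensional ℚ K] in
theorem cosetSet_eq_of_mem {q r : Nat.Primes} {σ γ : Gam} (h : (r, γ) ∈ cosetSet K q σ) :
    cosetSet K r γ = cosetSet K q σ := by
  obtain ⟨rfl, τ, n, hn, rfl⟩ := mem_cosetSet_iff.1 h
  ext ⟨s, δ⟩
  constructor
  · intro h'
    obtain ⟨rfl, τ', m, hm, rfl⟩ := mem_cosetSet_iff.1 h'
    exact mem_cosetSet_iff.2 ⟨rfl, τ' * τ, n * m, mul_mem hn hm, by rw [map_mul]; group⟩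
  · intro h'
    obtain ⟨rfl, τ', m, hm, rfl⟩ := mem_cosetSet_iff.1 h'
    exact mem_cosetSet_iff.2 ⟨rfl, τ' * τ⁻¹, n⁻¹ * m, mul_mem (inv_mem hn) hm, by
      rw [map_mul, map_inv]; group⟩

open Classical in
/-- The family cut off to `W`. -/
def cutFun (W : Set (Nat.Primes × Gam)) (x : Idele) (q : Nat.Primes) (σ : Gam) : LU q :=
  if (q, σ) ∈ W then x.at q σ else 0

theorem cutFun_mem {N : Subgroup Gam} {M : Layer} (hM : M.sub ≤ N) {W : Set (Nat.Primes × Gam)}
    (hW : IsStableSet N W) (x : Idele) : cutFun W x ∈ ideleSubgroup := by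
  classical
  refine ⟨fun q τ σ => ?_, ?_, x.finite_nonunit.subset fun q hq => ?_⟩
  · have := hW.mem_iff (γ := σ) τ N.one_mem
    rw [mul_one] at this
    by_cases h : (q, σ) ∈ W
    · rw [cutFun, cutFun, if_pos h, if_pos (this.2 h), Idele.at_loc_mul]
    · rw [cutFun, cutFun, if_neg h, if_neg (fun h' => h (this.1 h')), smul_zero]
  · obtain ⟨L, hL⟩ := x.exists_layer
    refine ⟨M.sup L, fun q σ s hs => ?_⟩
    have hs' : s ∈ N := hM (Layer.sub_le (M.le_sup_left L) hs)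
    have := hW.mem_iff (γ := σ) (1 : LGal q) hs'
    rw [map_one, one_mul] at this
    by_cases h : (q, σ) ∈ W
    · rw [cutFun, cutFun, if_pos h, if_pos (this.2 h),
      hL q σ s (Layer.sub_le (M.le_sup_right L) hs)]
    · rw [cutFun, cutFun, if_neg h, if_neg (fun h' => h (this.1 h'))]
  · obtain ⟨σ, hσ⟩ := hq
    refine ⟨σ, fun hu => hσ ?_⟩
    simp only [cutFun]
    split
    · exact hu
    · exact (unitsAt q).zero_mem

/-- Cutting an idele off to a stable set. -/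
def cut {N : Subgroup Gam} {M : Layer} (hM : M.sub ≤ N) {W : Set (Nat.Primes × Gam)}
    (hW : IsStableSet N W) : Idele →+ Idele where
  toFun x := ⟨cutFun W x, cutFun_mem hM hW x⟩
  map_zero' := Idele.ext fun q σ => by
    show cutFun W 0 q σ = 0
    simp [cutFun, Idele.at_zero]
  map_add' x y := Idele.ext fun q σ => by
    show cutFun W (x + y) q σ = cutFun W x q σ + cutFun W y q σ
    simp only [cutFun]
    split <;> simp [Idele.at_add]

theorem at_cut_of_mem {N : Subgroup Gam} {M : Layer} (hM : M.sub ≤ N)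
    {W : Set (Nat.Primes × Gam)} (hW : IsStableSet N W) (x : Idele) {q : Nat.Primes} {σ : Gam}
    (h : (q, σ) ∈ W) : (cut hM hW x).at q σ = x.at q σ := by
  classical exact if_pos h

theorem at_cut_of_notMem {N : Subgroup Gam} {M : Layer} (hM : M.sub ≤ N)
    {W : Set (Nat.Primes × Gam)} (hW : IsStableSet N W) (x : Idele) {q : Nat.Primes} {σ : Gam}
    (h : (q, σ) ∉ W) : (cut hM hW x).at q σ = 0 := by
  classical exact if_neg h

theorem cut_smul {N : Subgroup Gam} {M : Layer} (hM : M.sub ≤ N)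
    {W : Set (Nat.Primes × Gam)} (hW : IsStableSet N W) {g : Gam} (hg : g ∈ N) (x : Idele) :
    cut hM hW (g • x) = g • cut hM hW x := by
  refine Idele.ext fun q σ => ?_
  have := hW.mem_iff (γ := σ) (1 : LGal q) hg
  rw [map_one, one_mul] at this
  rw [Idele.at_smul]
  by_cases h : (q, σ) ∈ W
  · rw [at_cut_of_mem hM hW _ h, at_cut_of_mem hM hW _ (this.2 h), Idele.at_smul]
  · rw [at_cut_of_notMem hM hW _ h, at_cut_of_notMem hM hW _ (fun h' => h (this.1 h'))]

theorem cut_mem_fixedPts {N : Subgroup Gam} {M : Layer} (hM : M.sub ≤ N)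
    {W : Set (Nat.Primes × Gam)} (hW : IsStableSet N W) {H : Subgroup Gam} (hH : H ≤ N)
    {x : Idele} (hx : x ∈ fixedPts H Idele) : cut hM hW x ∈ fixedPts H Idele :=
  fun s hs => by rw [← cut_smul hM hW (hH hs), hx s hs]

/-- Every number field is fixed by the group of some layer. -/
theorem exists_layer_sub_le (K : IntermediateField ℚ QQbar) [FiniteDimensional ℚ K] :
    ∃ M : Layer, M.sub ≤ K.fixingSubgroup := by
  obtain ⟨M, hM⟩ := Layer.exists_ge K
  exact ⟨M, IntermediateField.fixingSubgroup_antitone hM⟩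

/-- An idele of `K` supported on one double coset with a given value there. -/
theorem exists_pointIdele {q : Nat.Primes} {σ : Gam} {a : LU q} (ha : a.val ∈ locField K q σ) :
    ∃ x ∈ fixedPts K.fixingSubgroup Idele, x.at q σ = a ∧
      ∀ r γ, (r, γ) ∉ cosetSet K q σ → x.at r γ = 0 := by
  classical
  obtain ⟨M, hM⟩ := exists_layer_sub_le K
  let f : Gam → LU q := fun γ =>
    if h : ∃ τ : LGal q, (loc q τ * σ)⁻¹ * γ ∈ K.fixingSubgroup then h.choose • a else 0
  have hwd : ∀ γ (τ : LGal q), (loc q τ * σ)⁻¹ * γ ∈ K.fixingSubgroup → f γ = τ • a := by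
    intro γ τ hτ
    have h : ∃ τ : LGal q, (loc q τ * σ)⁻¹ * γ ∈ K.fixingSubgroup := ⟨τ, hτ⟩
    simp only [f, dif_pos h]
    have hs := h.choose_spec
    generalize h.choose = τ' at hs ⊢
    have hmem : τ⁻¹ * τ' ∈ (locField K q σ).fixingSubgroup := by
      rw [mem_fixingSubgroup_locField_iff]
      have := mul_mem hτ (inv_mem hs)
      rwa [show (loc q τ * σ)⁻¹ * γ * ((loc q τ' * σ)⁻¹ * γ)⁻¹ =
        σ⁻¹ * loc q (τ⁻¹ * τ') * σ by rw [map_mul, map_inv]; group] at this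
    have hfix : (τ⁻¹ * τ') • a = a := LU.ext ((IntermediateField.mem_fixingSubgroup_iff _ _).1 hmem
      a.val ha)
    calc τ' • a = τ • ((τ⁻¹ * τ') • a) := by rw [smul_smul, mul_inv_cancel_left]
      _ = τ • a := by rw [hfix]
  have hout : ∀ γ, (¬ ∃ τ : LGal q, (loc q τ * σ)⁻¹ * γ ∈ K.fixingSubgroup) → f γ = 0 :=
    fun γ h => dif_neg h
  have hfix : ∀ γ, ∀ s ∈ K.fixingSubgroup, f (γ * s) = f γ := by
    intro γ s hs
    by_cases h : ∃ τ : LGal q, (loc q τ * σ)⁻¹ * γ ∈ K.fixingSubgroup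
    · obtain ⟨τ, hτ⟩ := h
      rw [hwd γ τ hτ, hwd (γ * s) τ (by rw [← mul_assoc]; exact mul_mem hτ hs)]
    · rw [hout γ h, hout (γ * s) fun ⟨τ, hτ⟩ => h ⟨τ, by
        rw [← mul_assoc] at hτ
        exact (K.fixingSubgroup.mul_mem_cancel_right hs).1 hτ⟩]
  have hequiv : ∀ (τ : LGal q) (γ : Gam), f (loc q τ * γ) = τ • f γ := by
    intro τ γ
    by_cases h : ∃ τ' : LGal q, (loc q τ' * σ)⁻¹ * γ ∈ K.fixingSubgroup
    · obtain ⟨τ', hτ'⟩ := h
      rw [hwd γ τ' hτ', hwd (loc q τ * γ) (τ * τ') ?_, mul_smul]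
      rwa [map_mul, show (loc q τ * loc q τ' * σ)⁻¹ * (loc q τ * γ) =
        (loc q τ' * σ)⁻¹ * γ by group]
    · rw [hout γ h, smul_zero, hout _ fun ⟨τ', hτ'⟩ => h ⟨τ⁻¹ * τ', by
        rwa [map_mul, map_inv, show ((loc q τ)⁻¹ * loc q τ' * σ)⁻¹ * γ =
          (loc q τ' * σ)⁻¹ * (loc q τ * γ) by group]⟩]
  refine ⟨single q ⟨f, hequiv, M, fun γ s hs => hfix γ s (hM hs)⟩, ?_, ?_, ?_⟩
  · rw [Idele.mem_fixedPts_iff]
    intro r γ s hs
    rcases eq_or_ne r q with rfl | h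
    · simp only [at_single_self, hfix γ s hs]
    · simp only [at_single_of_ne h]
  · rw [at_single_self]
    show f σ = a
    rw [hwd σ 1 (by simp [one_mem]), one_smul]
  · intro r γ h
    rcases eq_or_ne r q with rfl | h'
    · rw [at_single_self]
      exact hout γ fun ⟨τ, hτ⟩ => h ⟨rfl, τ, hτ⟩
    · rw [at_single_of_ne h']

omit [FiniteDimensional ℚ K] in
/-- Assembling an idele that is a unit outside `T` from a choice on each double coset. -/
theorem exists_assemble_outside {M : Layer} {H : Subgroup Gam} (T : Finset Nat.Primes)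
    (P : Set (Nat.Primes × Gam) → Idele) (hH : H ≤ K.fixingSubgroup) (hM : M.sub ≤ H)
    (hfix : ∀ W, P W ∈ fixedPts H Idele)
    (hu : ∀ W, ∀ q ∉ T, ∀ σ, (P W).at q σ ∈ unitsAt q) :
    ∃ y ∈ fixedPts H Idele, ∀ q σ, y.at q σ = (P (cosetSet K q σ)).at q σ := by
  let f : ∀ q : Nat.Primes, Gam → LU q := fun q σ => (P (cosetSet K q σ)).at q σ
  have h1 : ∀ (q : Nat.Primes) (σ : Gam) (τ : LGal q), ∀ n ∈ K.fixingSubgroup,
      cosetSet K q (loc q τ * σ * n) = cosetSet K q σ := fun q σ τ n hn =>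
    cosetSet_eq_of_mem (mem_cosetSet_iff.2 ⟨rfl, τ, n, hn, rfl⟩)
  have hmem : f ∈ ideleSubgroup := by
    refine ⟨fun q τ σ => ?_, ⟨M, fun q σ s hs => ?_⟩, T.finite_toSet.subset fun q hq => ?_⟩
    · have e := h1 q σ τ 1 (one_mem _)
      rw [mul_one] at e
      simp only [f, e, Idele.at_loc_mul]
    · have e := h1 q σ 1 s (hH (hM hs))
      rw [map_one, one_mul] at e
      simp only [f, e]
      exact Idele.mem_fixedPts_iff.1 (hfix _) q σ s (hM hs)
    · obtain ⟨σ, hσ⟩ := hq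
      by_contra hT
      exact hσ (hu _ q hT σ)
  refine ⟨⟨f, hmem⟩, Idele.mem_fixedPts_iff.2 fun q σ s hs => ?_, fun q σ => rfl⟩
  have e := h1 q σ 1 s (hH hs)
  rw [map_one, one_mul] at e
  show (P (cosetSet K q (σ * s))).at q (σ * s) = _
  rw [e]
  exact Idele.mem_fixedPts_iff.1 (hfix _) q σ s hs

omit [FiniteDimensional ℚ K] in
/-- Assembling an idele from a choice on each double coset. -/
theorem exists_assemble {M : Layer} {H : Subgroup Gam}
    (P : Set (Nat.Primes × Gam) → Idele) (hH : H ≤ K.fixingSubgroup) (hM : M.sub ≤ H)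
    (hfix : ∀ W, P W ∈ fixedPts H Idele) (hu : ∀ W, P W ∈ unitIdeles) :
    ∃ y ∈ fixedPts H Idele, y ∈ unitIdeles ∧
      ∀ q σ, y.at q σ = (P (cosetSet K q σ)).at q σ := by
  obtain ⟨y, hy, hy'⟩ := exists_assemble_outside (K := K) ∅ P hH hM hfix fun W q _ σ => hu W q σ
  exact ⟨y, hy, fun q σ => by rw [hy']; exact hu _ q σ, hy'⟩

/-- Finitely many double cosets cover one prime. -/
theorem exists_finset_cosets (K : IntermediateField ℚ QQbar) [FiniteDimensional ℚ K]
    (q : Nat.Primes) : ∃ R : Finset Gam, ∀ γ : Gam, ∃ σ ∈ R, (q, γ) ∈ cosetSet K q σ := by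
  classical
  have : K.fixingSubgroup.FiniteIndex := by
    obtain ⟨M, hM⟩ := exists_layer_sub_le K
    exact Subgroup.finiteIndex_of_le hM
  have : Finite (Gam ⧸ K.fixingSubgroup) := Subgroup.finite_quotient_of_finiteIndex
  have := Fintype.ofFinite (Gam ⧸ K.fixingSubgroup)
  refine ⟨Finset.univ.image fun c : Gam ⧸ K.fixingSubgroup => c.out, fun γ =>
    ⟨_, Finset.mem_image_of_mem _ (Finset.mem_univ (QuotientGroup.mk γ)), rfl, 1, ?_⟩⟩
  rw [map_one, one_mul, ← QuotientGroup.eq, QuotientGroup.out_eq']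

end FLTAgent.IdeleClassCohomology
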