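import Fermat.Agent.IdeleClassCohomology.Places
import Fermat.Agent.Density.Chebotarev
import Mathlib.FieldTheory.Finite.Basic

/-!
# Places of degree one with a prescribed Frobenius

Chebotarev's theorem, rephrased for the places `(q, σ)` of the idele model.
-/

set_option autoImplicit false

noncomputable section

open Polynomial
open scoped Pointwise

namespace FLTAgent.IdeleClassCohomology

open FLTAgent.GalCoh FLTAgent.GlobalDuality FLTAgent.LocalDuality

section Residue

variable (q : Nat.Primes)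

/-- The reduction of an integer of `PadicAlgCl q`. -/
abbrev resMap : padicIntegers (q : ℕ) →+* IsLocalRing.ResidueField (padicIntegers (q : ℕ)) :=
  IsLocalRing.residue _

variable {q}

theorem mem_padicIntegers_of_norm_le {x : PadicAlgCl (q : ℕ)} (h : ‖x‖ ≤ 1) :
    x ∈ padicIntegers (q : ℕ) :=
  (mem_padicIntegers_iff (q : ℕ)).2 (by exact_mod_cast h)

theorem resMap_eq_zero_iff (x : padicIntegers (q : ℕ)) :
    resMap q x = 0 ↔ ‖(x : PadicAlgCl (q : ℕ))‖ < 1 := by
  rw [IsLocalRing.residue_eq_zero_iff, IsLocalRing.mem_maximalIdeal, mem_nonunits_iff]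
  have hle : ‖(x : PadicAlgCl (q : ℕ))‖ ≤ 1 := by
    exact_mod_cast (mem_padicIntegers_iff (q : ℕ)).1 x.2
  constructor
  · intro h
    refine lt_of_le_of_ne hle fun h1 => h ?_
    have hx : (x : PadicAlgCl (q : ℕ)) ≠ 0 := fun h0 => by rw [h0, norm_zero] at h1; norm_num at h1
    refine .of_mul_eq_one ⟨(x : PadicAlgCl (q : ℕ))⁻¹,
      mem_padicIntegers_of_norm_le (by rw [norm_inv, h1, inv_one])⟩
      (Subtype.ext (mul_inv_cancel₀ hx))
  · intro h hu
    obtain ⟨y, hy⟩ := hu.exists_right_inv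
    have h1 := congrArg (fun z : padicIntegers (q : ℕ) => ‖(z : PadicAlgCl (q : ℕ))‖) hy
    simp only [MulMemClass.coe_mul, norm_mul, OneMemClass.coe_one, norm_one] at h1
    have hy1 : ‖(y : PadicAlgCl (q : ℕ))‖ ≤ 1 := by
      exact_mod_cast (mem_padicIntegers_iff (q : ℕ)).1 y.2
    exact absurd h1 (ne_of_lt (lt_of_le_of_lt (mul_le_of_le_one_right (norm_nonneg _) hy1) h))

theorem resMap_natCast_self :
    (((q : ℕ) : ℕ) : IsLocalRing.ResidueField (padicIntegers (q : ℕ))) = 0 := by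
  rw [← map_natCast (resMap q), resMap_eq_zero_iff]
  push_cast
  rw [← map_natCast (algebraMap ℚ_[(q : ℕ)] (PadicAlgCl (q : ℕ))), norm_algebraMap', Padic.norm_p]
  exact inv_lt_one_of_one_lt₀ (by exact_mod_cast q.2.one_lt)

instance charP_residueField : CharP (IsLocalRing.ResidueField (padicIntegers (q : ℕ))) (q : ℕ) := by
  obtain ⟨r, hr⟩ := CharP.exists (IsLocalRing.ResidueField (padicIntegers (q : ℕ)))
  have hd : r ∣ (q : ℕ) := (CharP.cast_eq_zero_iff _ r _).1 resMap_natCast_self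
  rcases (Nat.dvd_prime q.2).1 hd with h | h
  · exact absurd h (CharP.char_ne_one (IsLocalRing.ResidueField (padicIntegers (q : ℕ))) r)
  · exact h ▸ hr

/-- An element of the residue field fixed by the Frobenius is an integer. -/
theorem exists_intCast_of_pow_eq {x : IsLocalRing.ResidueField (padicIntegers (q : ℕ))}
    (h : x ^ (q : ℕ) = x) :
    ∃ n : ℤ, (n : IsLocalRing.ResidueField (padicIntegers (q : ℕ))) = x := by
  classical
  let f : ZMod (q : ℕ) →+* IsLocalRing.ResidueField (padicIntegers (q : ℕ)) :=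
    ZMod.castHom dvd_rfl _
  have hne : (X ^ (q : ℕ) - X : (ZMod (q : ℕ))[X]) ≠ 0 :=
    FiniteField.X_pow_card_sub_X_ne_zero _ q.2.one_lt
  have hroots : (X ^ (q : ℕ) - X : (ZMod (q : ℕ))[X]).roots = Finset.univ.val := by
    simpa [ZMod.card] using FiniteField.roots_X_pow_card_sub_X (ZMod (q : ℕ))
  have hsplit : (X ^ (q : ℕ) - X : (ZMod (q : ℕ))[X]).roots.card =
      (X ^ (q : ℕ) - X : (ZMod (q : ℕ))[X]).natDegree := by
    rw [hroots, FiniteField.X_pow_card_sub_X_natDegree_eq _ q.2.one_lt]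
    simp [ZMod.card]
  have hmap := roots_map_of_injective_of_card_eq_natDegree f.injective hsplit
  have hx : x ∈ ((X ^ (q : ℕ) - X : (ZMod (q : ℕ))[X]).map f).roots := by
    rw [mem_roots (Polynomial.map_ne_zero hne)]
    simp only [IsRoot.def, Polynomial.map_sub, Polynomial.map_pow, map_X, eval_sub, eval_pow,
      eval_X]
    exact sub_eq_zero.2 h
  rw [← hmap, hroots, Multiset.mem_map] at hx
  obtain ⟨a, -, ha⟩ := hx
  refine ⟨(a.val : ℤ), ?_⟩
  rw [Int.cast_natCast, ← map_natCast f, ZMod.natCast_zmod_val]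
  exact ha

theorem norm_sub_lt_one_trans {x y z : PadicAlgCl (q : ℕ)} (h1 : ‖x - y‖ < 1) (h2 : ‖y - z‖ < 1) :
    ‖x - z‖ < 1 := by
  rw [show x - z = (x - y) + (y - z) by ring]
  exact lt_of_le_of_lt (IsUltrametricDist.norm_add_le_max _ _) (max_lt h1 h2)

/-- A Frobenius-fixed integer is congruent to all its conjugates. -/
theorem norm_apply_sub_lt_one {y : PadicAlgCl (q : ℕ)} (hy : ‖y‖ ≤ 1)
    (h : ‖y ^ (q : ℕ) - y‖ < 1) (τ : LGal q) : ‖τ y - y‖ < 1 := by
  obtain ⟨n, hn⟩ := exists_intCast_of_pow_eq (q := q)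
    (x := resMap q ⟨y, mem_padicIntegers_of_norm_le hy⟩) (by
      rw [← map_pow, ← sub_eq_zero, ← map_sub, resMap_eq_zero_iff]
      exact h)
  have h1 : ‖y - n‖ < 1 := by
    rw [← sub_eq_zero, ← map_intCast (resMap q), ← map_sub, resMap_eq_zero_iff] at hn
    rw [norm_sub_rev]
    simpa using hn
  have h2 : ‖τ y - n‖ < 1 := by
    rw [← map_intCast τ n, ← map_sub]
    exact (congrArg NNReal.toReal (nnnorm_padicAlgCl_algEquiv (q : ℕ) τ _)).trans_lt h1
  refine norm_sub_lt_one_trans h2 ?_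
  rwa [norm_sub_rev]

/-- Integers of `ℚ_q` have Frobenius-fixed reductions. -/
theorem resMap_pow_eq_of_base (z : padicIntegers (q : ℕ)) (r : ℚ_[(q : ℕ)])
    (h : (z : PadicAlgCl (q : ℕ)) = algebraMap ℚ_[(q : ℕ)] (PadicAlgCl (q : ℕ)) r) :
    resMap q z ^ (q : ℕ) = resMap q z := by
  have h2 : ‖r‖ ≤ 1 := by
    have := (mem_padicIntegers_iff (q : ℕ)).1 z.2
    rw [h, ← NNReal.coe_le_coe, coe_nnnorm, norm_algebraMap'] at this
    exact this
  set c : ℤ_[(q : ℕ)] := ⟨r, h2⟩
  have hlt : ‖r - (c.appr 1 : ℚ_[(q : ℕ)])‖ < 1 := by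
    have h3 := PadicInt.appr_spec 1 c
    rw [← PadicInt.norm_le_pow_iff_mem_span_pow] at h3
    rw [PadicInt.norm_def] at h3
    push_cast at h3
    refine lt_of_le_of_lt h3 ?_
    rw [zpow_neg, zpow_one]
    exact inv_lt_one_of_one_lt₀ (by exact_mod_cast q.2.one_lt)
  have h4 : resMap q z =
      ((c.appr 1 : ℕ) : IsLocalRing.ResidueField (padicIntegers (q : ℕ))) := by
    rw [← map_natCast (resMap q), ← sub_eq_zero, ← map_sub, resMap_eq_zero_iff]
    push_cast
    rw [h, ← map_natCast (algebraMap ℚ_[(q : ℕ)] (PadicAlgCl (q : ℕ))), ← map_sub,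
      norm_algebraMap']
    exact hlt
  rw [h4, ← frobenius_def, map_natCast]

/-- If a split monic polynomial has Frobenius-fixed reduced coefficients, the Frobenius permutes
its reduced roots. -/
theorem exists_frobenius_root {O k : Type*} [CommRing O] [Field k] (ℓ : ℕ) [Fact ℓ.Prime]
    [CharP k ℓ] (r : O →+* k) (rs : Multiset O) (y : O)
    (hcoef : ∀ i, r ((rs.map fun z => X - C z).prod.coeff i) ^ ℓ =
      r ((rs.map fun z => X - C z).prod.coeff i))
    (hy : y ∈ rs) : ∃ z ∈ rs, r z = r y ^ ℓ := by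
  classical
  set R := (rs.map fun z => X - C z).prod
  have hR0 : eval₂ r (r y) R = 0 := by
    rw [eval₂_at_apply, eval_multiset_prod, Multiset.prod_eq_zero, map_zero]
    rw [Multiset.map_map]
    exact Multiset.mem_map.2 ⟨y, hy, by simp⟩
  have hRq : eval₂ r (r y ^ ℓ) R = 0 := by
    rw [eval₂_eq_sum_range] at hR0 ⊢
    have h5 := congrArg (frobenius k ℓ) hR0
    rw [map_sum, map_zero] at h5
    rw [← h5]
    refine Finset.sum_congr rfl fun i _ => ?_
    rw [frobenius_def, mul_pow, hcoef, ← pow_mul, ← pow_mul, mul_comm ℓ i]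
  rw [eval₂_eq_eval_map, Polynomial.map_multiset_prod, eval_multiset_prod,
    Multiset.map_map, Multiset.map_map, Multiset.prod_eq_zero_iff, Multiset.mem_map] at hRq
  obtain ⟨z, hz, hz0⟩ := hRq
  refine ⟨z, hz, ?_⟩
  simp only [Function.comp_apply, Polynomial.map_sub, map_X, map_C, eval_sub, eval_X,
    eval_C] at hz0
  exact (sub_eq_zero.1 hz0).symm

/-- A local Frobenius for one integer. -/
theorem exists_norm_apply_sub_pow_lt_one {y : PadicAlgCl (q : ℕ)}
    (hy : ∀ τ : LGal q, ‖τ y‖ ≤ 1) :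
    ∃ τ : LGal q, ‖τ y - y ^ (q : ℕ)‖ < 1 := by
  classical
  have hint : IsIntegral ℚ_[(q : ℕ)] y := Algebra.IsIntegral.isIntegral y
  obtain ⟨rts, hrts_def⟩ : ∃ rts, rts =
      ((minpoly ℚ_[(q : ℕ)] y).map (algebraMap ℚ_[(q : ℕ)] (PadicAlgCl (q : ℕ)))).roots := ⟨_, rfl⟩
  have hrts : ∀ z ∈ rts, ∃ τ : LGal q, τ y = z := by
    intro z hz
    rw [hrts_def, mem_roots (Polynomial.map_ne_zero (minpoly.ne_zero hint)), IsRoot.def,
      eval_map_algebraMap] at hz
    exact IsConjRoot.exists_algEquiv ((isConjRoot_iff_aeval_eq_zero hint).2 hz).symm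
  have hmem : ∀ z ∈ rts, z ∈ padicIntegers (q : ℕ) := fun z hz => by
    obtain ⟨τ, rfl⟩ := hrts z hz
    exact mem_padicIntegers_of_norm_le (hy τ)
  have hyr : y ∈ rts := by
    rw [hrts_def, mem_roots (Polynomial.map_ne_zero (minpoly.ne_zero hint)), IsRoot.def,
      eval_map_algebraMap]
    exact minpoly.aeval _ _
  obtain ⟨rs, hrs_def⟩ : ∃ rs : Multiset (padicIntegers (q : ℕ)),
      rs = rts.attach.map fun z => ⟨z.1, hmem z.1 z.2⟩ := ⟨_, rfl⟩
  have hsub : rs.map (padicIntegers (q : ℕ)).subtype = rts := by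
    rw [hrs_def, Multiset.map_map]
    exact Multiset.attach_map_val rts
  have hprod : ((rs.map fun z => X - C z).prod).map (padicIntegers (q : ℕ)).subtype =
      (minpoly ℚ_[(q : ℕ)] y).map (algebraMap ℚ_[(q : ℕ)] (PadicAlgCl (q : ℕ))) := by
    have hmon := (minpoly.monic hint).map (algebraMap ℚ_[(q : ℕ)] (PadicAlgCl (q : ℕ)))
    rw [Polynomial.map_multiset_prod, Multiset.map_map]
    rw [(IsAlgClosed.splits ((minpoly ℚ_[(q : ℕ)] y).map
      (algebraMap ℚ_[(q : ℕ)] (PadicAlgCl (q : ℕ))))).eq_prod_roots, hmon.leadingCoeff, map_one,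
      one_mul, ← hrts_def, ← hsub, Multiset.map_map]
    congr 1
    exact Multiset.map_congr rfl fun z _ => by simp
  obtain ⟨z, hz, hz'⟩ := exists_frobenius_root (q : ℕ) (resMap q) rs
    ⟨y, hmem y hyr⟩ (fun i => resMap_pow_eq_of_base _ ((minpoly ℚ_[(q : ℕ)] y).coeff i) (by
      have h1 := congrArg (fun s => Polynomial.coeff s i) hprod
      simp only [coeff_map] at h1
      exact h1))
    (by rw [hrs_def]; exact Multiset.mem_map.2 ⟨⟨y, hyr⟩, Multiset.mem_attach _ _, rfl⟩)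
  obtain ⟨τ, hτ⟩ := hrts (z : PadicAlgCl (q : ℕ)) (by
    rw [← hsub]; exact Multiset.mem_map.2 ⟨z, hz, rfl⟩)
  refine ⟨τ, ?_⟩
  rw [← map_pow, ← sub_eq_zero, ← map_sub, resMap_eq_zero_iff] at hz'
  rw [hτ]
  exact hz'

end Residue

/-- A place of degree one of `K` whose local Galois group meets a prescribed class. -/
theorem exists_split_prime (K : IntermediateField ℚ QQbar) (M : Layer) (hKM : K ≤ M.field)
    {g : Gam} (hg : g ∈ K.fixingSubgroup) (S : Finset Nat.Primes) :
    ∃ q : Nat.Primes, q ∉ S ∧ ∃ σ : Gam,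
      (∀ τ : LGal q, σ⁻¹ * loc q τ * σ ∈ K.fixingSubgroup) ∧
      ∃ t : LGal q, ∀ x ∈ M.field, (σ⁻¹ * loc q t * σ) x = g x := by
  classical
  have := M.finite
  have : Normal ℚ M.field := by
    convert M.normal
    exact Subsingleton.elim _ _
  have : FiniteDimensional ℚ K :=
    FiniteDimensional.of_injective (IntermediateField.inclusion hKM).toLinearMap
      (IntermediateField.inclusion_injective hKM)
  have : IsGalois ℚ M.field := ⟨⟩
  obtain ⟨β, hβ⟩ := Field.exists_primitive_element ℚ K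
  obtain ⟨θ, hθ⟩ := Field.exists_primitive_element ℚ M.field
  have hgenK : ∀ h : Gam, h (β : QQbar) = β → h ∈ K.fixingSubgroup := by
    intro h hh
    rw [IntermediateField.mem_fixingSubgroup_iff]
    intro x hx
    have hx' : (⟨x, hx⟩ : K) ∈ IntermediateField.adjoin ℚ {β} := by rw [hβ]; exact trivial
    have key : ∀ y : K, y ∈ IntermediateField.adjoin ℚ {β} → h (y : QQbar) = y := by
      intro y hy
      induction hy using IntermediateField.adjoin_induction with
      | mem y hy => rw [Set.mem_singleton_iff.1 hy]; exact hh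
      | algebraMap r => exact h.commutes r
      | add x y _ _ hx hy => push_cast; rw [map_add, hx, hy]
      | inv x _ hx => push_cast; rw [map_inv₀, hx]
      | mul x y _ _ hx hy => push_cast; rw [map_mul, hx, hy]
    exact key _ hx'
  have hgenM : ∀ h h' : Gam, h (θ : QQbar) = h' θ → ∀ x ∈ M.field, h x = h' x := by
    intro h h' hh x hx
    have hx' : (⟨x, hx⟩ : M.field) ∈ IntermediateField.adjoin ℚ {θ} := by rw [hθ]; exact trivial
    have key : ∀ y : M.field, y ∈ IntermediateField.adjoin ℚ {θ} → h (y : QQbar) = h' y := by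
      intro y hy
      induction hy using IntermediateField.adjoin_induction with
      | mem y hy => rw [Set.mem_singleton_iff.1 hy]; exact hh
      | algebraMap r => exact (h.commutes r).trans (h'.commutes r).symm
      | add x y _ _ hx hy => push_cast; rw [map_add, map_add, hx, hy]
      | inv x _ hx => push_cast; rw [map_inv₀, map_inv₀, hx]
      | mul x y _ _ hx hy => push_cast; rw [map_mul, map_mul, hx, hy]
    exact key _ hx'
  -- the primes to avoid
  let Z : Set QQbar := {z | z ∈ ({(β : QQbar), (θ : QQbar)} : Set QQbar) ∨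
    ∃ h : Gam, z = h (β : QQbar) - β ∨ z = h (θ : QQbar) - θ}
  have hZ : Z.Finite := by
    have hfin : ∀ a : QQbar, (Set.range fun h : Gam => h a - a).Finite := fun a => by
      refine (((minpoly ℚ a).rootSet_finite QQbar).image fun z => z - a).subset ?_
      rintro _ ⟨h, rfl⟩
      refine ⟨h a, ?_, rfl⟩
      rw [Polynomial.mem_rootSet]
      exact ⟨minpoly.ne_zero (Algebra.IsIntegral.isIntegral _),
        by rw [Polynomial.aeval_algHom_apply, minpoly.aeval, map_zero]⟩
    refine (((Set.toFinite ({(β : QQbar), (θ : QQbar)} : Set QQbar)).union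
      (hfin β)).union (hfin θ)).subset ?_
    rintro z (hz | ⟨h, rfl | rfl⟩)
    · exact Or.inl (Or.inl hz)
    · exact Or.inl (Or.inr ⟨h, rfl⟩)
    · exact Or.inr ⟨h, rfl⟩
  let bad : Set Nat.Primes :=
    ⋃ z ∈ Z, {q | ∃ _ : z ≠ 0, ∃ γ : Gam, ‖emb q (γ z)‖ ≠ 1}
  have hbad : bad.Finite := by
    refine hZ.biUnion fun z _ => ?_
    by_cases hz : z = 0
    · exact Set.finite_empty.subset fun q ⟨h, _⟩ => (h hz).elim
    · exact (finite_norm_emb_ne_one (Additive.ofMul (Units.mk0 z hz))).subset fun q ⟨_, h⟩ => h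
  obtain ⟨l, hl, hlS, A, hA, -, φ, hφ, hφg⟩ := Density.exists_frobenius_agree M.field g
    ((S ∪ hbad.toFinset).image fun q : Nat.Primes => (q : ℕ))
  obtain ⟨q, rfl⟩ : ∃ q : Nat.Primes, (q : ℕ) = l := ⟨⟨l, hl⟩, rfl⟩
  have hqS : q ∉ S ∧ q ∉ bad := by
    simp only [Finset.mem_image, Finset.mem_union, Set.Finite.mem_toFinset] at hlS
    exact ⟨fun h => hlS ⟨q, Or.inl h, rfl⟩, fun h => hlS ⟨q, Or.inr h, rfl⟩⟩
  have hunit : ∀ z ∈ Z, ∀ γ : Gam, z ≠ 0 → ‖emb q (γ z)‖ = 1 := by
    intro z hz γ hz0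
    by_contra h
    exact hqS.2 (Set.mem_biUnion hz ⟨hz0, γ, h⟩)
  have hsep : ∀ a ∈ ({(β : QQbar), (θ : QQbar)} : Set QQbar), ∀ γ h h' : Gam,
      ‖emb q (γ (h a)) - emb q (γ (h' a))‖ < 1 → h a = h' a := by
    intro a ha γ h h' hlt
    by_contra hne
    have hz : (h'⁻¹ * h) a - a ∈ Z := by
      rcases ha with rfl | ha
      · exact Or.inr ⟨_, Or.inl rfl⟩
      · rw [Set.mem_singleton_iff.1 ha]; exact Or.inr ⟨_, Or.inr rfl⟩
    have e : γ (h a) - γ (h' a) = (γ * h') ((h'⁻¹ * h) a - a) := by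
      simp only [map_sub, AlgEquiv.mul_apply]
      congr 2
      exact (AlgEquiv.apply_symm_apply h' _).symm
    rw [← map_sub, e, hunit _ hz] at hlt
    · exact lt_irrefl _ hlt
    · intro h0
      refine hne ?_
      have := congrArg h' (sub_eq_zero.1 h0)
      rwa [← AlgEquiv.mul_apply, mul_inv_cancel_left] at this
  -- move the place to the fixed one
  have hP : (padicPlace (q : ℕ)).LiesOverPrime (q : ℕ) := by
    show ((q : ℕ) : QQbar) ∈ (padicPlace (q : ℕ)).nonunits
    rw [ValuationSubring.mem_nonunits_iff_or]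
    refine Or.inr fun hmem => ?_
    rw [mem_padicPlace_iff, map_inv₀, map_natCast, ← NNReal.coe_le_coe, coe_nnnorm, norm_inv,
      NNReal.coe_one,
      show ((q : ℕ) : PadicAlgCl (q : ℕ)) = algebraMap ℚ_[(q : ℕ)] _ ((q : ℕ) : ℚ_[(q : ℕ)])
        by rw [map_natCast], norm_algebraMap', Padic.norm_p, inv_inv] at hmem
    exact absurd hmem (not_le.2 (by exact_mod_cast q.2.one_lt))
  obtain ⟨γ, hγ⟩ := Density.exists_smul_eq_of_liesOverPrime hl hA hP
  have hfrob : ∀ x : QQbar, ‖emb q (γ x)‖ ≤ 1 → ‖emb q (γ (φ x)) - emb q (γ x) ^ (q : ℕ)‖ < 1 := by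
    intro x hx
    have hxA : x ∈ A := by
      have h1 : γ x ∈ γ • A := by rw [hγ, mem_padicPlace_iff]; exact_mod_cast hx
      rw [ValuationSubring.mem_pointwise_smul_iff_inv_smul_mem, AlgEquiv.smul_def] at h1
      rwa [show γ⁻¹ (γ x) = x from AlgEquiv.symm_apply_apply γ x] at h1
    have h1 := (Density.isFrobeniusAt_iff.1 hφ).2 x hxA
    rw [← map_pow, ← map_sub, ← map_pow, ← map_sub]
    set z := φ x - x ^ (q : ℕ)
    rcases eq_or_ne z 0 with hz | hz
    · simp [hz]
    rw [ValuationSubring.mem_nonunits_iff_or] at h1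
    have h2 : z⁻¹ ∉ A := h1.resolve_left hz
    have h3 : γ z⁻¹ ∉ γ • A := by
      rw [ValuationSubring.mem_pointwise_smul_iff_inv_smul_mem, AlgEquiv.smul_def,
        show γ⁻¹ (γ z⁻¹) = z⁻¹ from AlgEquiv.symm_apply_apply γ _]
      exact h2
    rw [hγ, mem_padicPlace_iff, ← NNReal.coe_le_coe, coe_nnnorm, map_inv₀, map_inv₀, norm_inv,
      NNReal.coe_one, not_le] at h3
    exact (one_lt_inv_iff₀.1 h3).2
  have hnorm : ∀ a ∈ ({(β : QQbar), (θ : QQbar)} : Set QQbar), ∀ δ : Gam, ‖emb q (δ a)‖ ≤ 1 := by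
    intro a ha δ
    rcases eq_or_ne a 0 with h0 | h0
    · simp [h0]
    · exact (hunit a (Or.inl ha) δ h0).le
  have hφK : φ (β : QQbar) = β := by
    rw [← hφg _ (hKM β.2)]
    exact (IntermediateField.mem_fixingSubgroup_iff _ _).1 hg _ β.2
  refine ⟨q, hqS.1, γ, fun τ => ?_, ?_⟩
  · refine hgenK _ ?_
    have h1 := hfrob β (hnorm _ (Or.inl rfl) γ)
    rw [hφK, norm_sub_rev] at h1
    have h2 := norm_apply_sub_lt_one (hnorm _ (Or.inl rfl) γ) h1 τ
    rw [← padicEmbedding_localGaloisToGlobal] at h2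
    refine (hsep _ (Or.inl rfl) γ (γ⁻¹ * loc q τ * γ) 1 ?_)
    rwa [← AlgEquiv.mul_apply γ, show γ * (γ⁻¹ * loc q τ * γ) = loc q τ * γ by group,
      AlgEquiv.mul_apply, AlgEquiv.one_apply]
  · have hb : ∀ τ : LGal q, ‖τ (emb q (γ (θ : QQbar)))‖ ≤ 1 := fun τ => by
      rw [← padicEmbedding_localGaloisToGlobal, ← AlgEquiv.mul_apply]
      exact hnorm _ (Or.inr rfl) _
    obtain ⟨t, ht⟩ := exists_norm_apply_sub_pow_lt_one hb
    refine ⟨t, fun x hx => ?_⟩
    rw [hφg x hx]
    refine hgenM _ _ (hsep _ (Or.inr rfl) γ _ _ ?_) x hx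
    rw [← AlgEquiv.mul_apply γ, show γ * (γ⁻¹ * loc q t * γ) = loc q t * γ by group,
      AlgEquiv.mul_apply]
    refine norm_sub_lt_one_trans ?_ (by
      rw [norm_sub_rev]; exact hfrob θ (hnorm _ (Or.inr rfl) γ))
    exact (congrArg (fun z => ‖z - emb q (γ (θ : QQbar)) ^ (q : ℕ)‖)
      (padicEmbedding_localGaloisToGlobal (q : ℕ) t _)).trans_lt ht

end FLTAgent.IdeleClassCohomology
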