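import Fermat.Agent.IdeleClassCohomology.SUnits
import Fermat.Agent.IdeleClassCohomology.SplitPrimes

/-!
# Splitting places dual to Kummer classes

`kummerClass` is the Kummer pairing on power classes; `exists_dual_places` finds split places dual
to a basis of classes that are units away from `S`.
-/

set_option autoImplicit false

noncomputable section

namespace FLTAgent.IdeleClassCohomology

open FLTAgent.GalCoh FLTAgent.GlobalDuality Module

section Hom

variable {p : ℕ} [hp : Fact p.Prime] {A : Type*} [AddCommGroup A]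

theorem card_hom_zmod_module [Finite A] [Module (ZMod p) A] :
    Nat.card (A →+ ZMod p) = Nat.card A := by
  classical
  have : Module.Finite (ZMod p) A := Module.Finite.of_finite
  let e : (A →+ ZMod p) ≃ Dual (ZMod p) A :=
    { toFun := AddMonoidHom.toZModLinearMap p
      invFun := LinearMap.toAddMonoidHom
      left_inv := fun _ => rfl
      right_inv := fun _ => rfl }
  obtain ⟨ι, b⟩ := Module.Free.exists_basis (R := ZMod p) (M := A)
  have : Finite ι := Module.Finite.finite_basis b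
  exact (Nat.card_congr e).trans (Nat.card_congr b.toDualEquiv.toEquiv).symm

theorem card_hom_zmod [Finite A] (h : ∀ a : A, p • a = 0) :
    Nat.card (A →+ ZMod p) = Nat.card A :=
  @card_hom_zmod_module p hp A _ _ (AddCommGroup.zmodModule h)

theorem nsmul_hom_zmod (φ : A →+ ZMod p) : p • φ = 0 :=
  AddMonoidHom.ext fun a => by
    show p • φ a = 0
    rw [nsmul_eq_mul, ZMod.natCast_self, zero_mul]

/-- A group of functionals separating the points of an elementary group is everything. -/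
theorem eq_top_of_separating [Finite A] (h : ∀ a : A, p • a = 0) (I : AddSubgroup (A →+ ZMod p))
    (hI : ∀ a : A, (∀ φ ∈ I, φ a = 0) → a = 0) : I = ⊤ := by
  have : Finite (A →+ ZMod p) := Finite.of_injective _ DFunLike.coe_injective
  have : Finite (I →+ ZMod p) := Finite.of_injective _ DFunLike.coe_injective
  let ev : A →+ (I →+ ZMod p) :=
    AddMonoidHom.mk' (fun a => AddMonoidHom.mk' (fun φ => φ.1 a) fun _ _ => rfl) fun a b =>
      AddMonoidHom.ext fun φ => map_add φ.1 a b
  have hev : Function.Injective ev := (injective_iff_map_eq_zero ev).2 fun a ha =>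
    hI a fun φ hφ => DFunLike.congr_fun ha ⟨φ, hφ⟩
  refine AddSubgroup.eq_top_of_le_card _ ?_
  calc Nat.card (A →+ ZMod p) = Nat.card A := card_hom_zmod h
    _ ≤ Nat.card (I →+ ZMod p) := Nat.card_le_card_of_injective _ hev
    _ = Nat.card I := card_hom_zmod fun φ => Subtype.ext (nsmul_hom_zmod φ.1)

end Hom

variable {p : ℕ} [hp : Fact p.Prime] {K : IntermediateField ℚ QQbar} [FiniteDimensional ℚ K]

/-- The power classes of the global units of `K`. -/
abbrev PowClass (p : ℕ) (K : IntermediateField ℚ QQbar) : Type :=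
  fixedPts K.fixingSubgroup GU ⧸ powers p K

omit hp [FiniteDimensional ℚ K] in
theorem nsmul_powClass (w : PowClass p K) : p • w = 0 := by
  obtain ⟨a, rfl⟩ := QuotientAddGroup.mk'_surjective _ w
  rw [← map_nsmul]
  exact (QuotientAddGroup.eq_zero_iff _).2 ⟨a, rfl⟩

/-- The Kummer pairing on classes. -/
def kummerClass (hK : HasRoots p K) :
    PowClass p K →+ (Additive K.fixingSubgroup →+ ZMod p) :=
  QuotientAddGroup.lift (powers p K) (kummer hK) fun _ ha => (kummer_eq_zero_iff hK _).2 ha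

omit [FiniteDimensional ℚ K] in
theorem kummerClass_mk (hK : HasRoots p K) (a : fixedPts K.fixingSubgroup GU) :
    kummerClass hK (QuotientAddGroup.mk' _ a) = kummer hK a := rfl

omit [FiniteDimensional ℚ K] in
theorem kummerClass_injective (hK : HasRoots p K) : Function.Injective (kummerClass hK) := by
  rw [injective_iff_map_eq_zero]
  intro w hw
  obtain ⟨a, rfl⟩ := QuotientAddGroup.mk'_surjective _ w
  exact (QuotientAddGroup.eq_zero_iff _).2 ((kummer_eq_zero_iff hK a).1 hw)

omit [FiniteDimensional ℚ K] in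
/-- Every functional on finitely many classes comes from the Galois group. -/
theorem exists_kummerClass_eq (hK : HasRoots p K) (W : AddSubgroup (PowClass p K)) [Finite W]
    (φ : W →+ ZMod p) : ∃ g : Additive K.fixingSubgroup, ∀ w : W, kummerClass hK w.1 g = φ w := by
  let ev : Additive K.fixingSubgroup →+ (W →+ ZMod p) :=
    ((kummerClass hK).comp W.subtype).flip
  have hev : ∀ g w, ev g w = kummerClass hK w.1 g := fun _ _ => rfl
  have h : ev.range = ⊤ := by
    refine eq_top_of_separating (fun w => Subtype.ext (nsmul_powClass w.1)) _ fun w hw => ?_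
    refine Subtype.ext (kummerClass_injective hK ?_)
    rw [ZeroMemClass.coe_zero, map_zero]
    exact AddMonoidHom.ext fun g => (hev g w).symm.trans (hw _ ⟨g, rfl⟩)
  obtain ⟨g, hg⟩ : φ ∈ ev.range := h ▸ AddSubgroup.mem_top φ
  exact ⟨g, fun w => by rw [← hev, hg]⟩

variable (K) in
/-- The local classes of a global class. -/
def locPow (p : ℕ) [Fact p.Prime] (i : Nat.Primes × Gam) : PowClass p K →+ LocQuot p K i :=
  QuotientAddGroup.lift (powers p K) ((locClass K p i).comp (fixedPrincipal K)) fun a ha => by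
    obtain ⟨b, rfl⟩ := ha
    refine (QuotientAddGroup.eq_zero_iff _).2 ?_
    refine ⟨⟨(fixedPrincipal K b).1.at i.1 i.2, at_mem_locField (fixedPrincipal K b).2⟩, ?_⟩
    refine Subtype.ext ?_
    show p • (fixedPrincipal K b).1.at i.1 i.2 = (fixedPrincipal K (p • b)).1.at i.1 i.2
    rw [map_nsmul, AddSubgroup.coe_nsmul, at_nsmul]

omit [FiniteDimensional ℚ K] in
theorem locPow_mk (i : Nat.Primes × Gam) (a : fixedPts K.fixingSubgroup GU) :
    locPow K p i (QuotientAddGroup.mk' _ a) = locClass K p i (fixedPrincipal K a) := rfl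

/-- The unit classes at one place. -/
def unitLocClasses (p : ℕ) [Fact p.Prime] (K : IntermediateField ℚ QQbar)
    (i : Nat.Primes × Gam) : AddSubgroup (LocQuot p K i) :=
  ((unitsAt i.1).addSubgroupOf (locUnits K i)).map (QuotientAddGroup.mk' _)

omit [FiniteDimensional ℚ K] in
theorem locClass_mem_unitLocClasses {i : Nat.Primes × Gam}
    {x : fixedPts K.fixingSubgroup Idele} (hx : x.1.at i.1 i.2 ∈ unitsAt i.1) :
    locClass K p i x ∈ unitLocClasses p K i :=
  ⟨⟨x.1.at i.1 i.2, at_mem_locField x.2⟩, AddSubgroup.mem_addSubgroupOf.2 hx, rfl⟩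

omit [FiniteDimensional ℚ K] in
theorem exists_norm_eq_zpow_of_eq_bot {i : Nat.Primes × Gam} (hi : locField K i.1 i.2 = ⊥)
    {y : LU i.1} (hy : y.val ∈ locField K i.1 i.2) :
    ∃ n : ℤ, ‖y.val‖ = ((i.1 : ℕ) : ℝ) ^ n := by
  rw [hi, IntermediateField.mem_bot] at hy
  obtain ⟨r, hr⟩ := hy
  have hr0 : r ≠ 0 := fun h => Units.ne_zero y.toMul (by rw [h, map_zero] at hr; exact hr.symm)
  refine ⟨-r.valuation, ?_⟩
  rw [← hr, norm_algebraMap', Padic.norm_eq_zpow_neg_valuation hr0]

theorem card_unitLocClasses_le (hK : HasRoots p K) {i : Nat.Primes × Gam}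
    (hi : locField K i.1 i.2 = ⊥) (hq : (i.1 : ℕ) ≠ p) :
    Finite (unitLocClasses p K i) ∧ Nat.card (unitLocClasses p K i) ≤ p := by
  have hc := card_locQuot p hK i
  rw [if_neg hq, mul_one] at hc
  have : Finite (LocQuot p K i) :=
    Nat.finite_of_card_ne_zero (by rw [hc]; exact pow_ne_zero _ hp.out.ne_zero)
  refine ⟨inferInstance, ?_⟩
  have hne : unitLocClasses p K i ≠ ⊤ := by
    intro h
    have hmem : (qUnit i.1).val ∈ locField K i.1 i.2 := by
      rw [val_qUnit]
      exact natCast_mem _ _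
    have h' : QuotientAddGroup.mk' _ (⟨qUnit i.1, hmem⟩ : locUnits K i) ∈ unitLocClasses p K i :=
      h ▸ AddSubgroup.mem_top _
    obtain ⟨u, hu, hu'⟩ := h'
    obtain ⟨y, hy⟩ := (QuotientAddGroup.mk'_eq_mk' _).1 hu' |>.choose_spec.1
    have h2 := (QuotientAddGroup.mk'_eq_mk' _).1 hu' |>.choose_spec.2
    rw [← hy] at h2
    obtain ⟨n, hn⟩ := exists_norm_eq_zpow_of_eq_bot hi y.2
    have h3 := congrArg (fun z : locUnits K i => ‖(z : LU i.1).val‖) h2
    change ‖((u : LU i.1) + p • (y : LU i.1)).val‖ = ‖(qUnit i.1).val‖ at h3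
    rw [LU.val_add, LU.val_nsmul, norm_mul, norm_pow, hn,
      (mem_unitsAt_iff.1 (AddSubgroup.mem_addSubgroupOf.1 hu)), one_mul, norm_qUnit,
      ← zpow_natCast, ← zpow_mul, ← zpow_neg_one] at h3
    have h4 := (zpow_right_injective₀ (by exact_mod_cast i.1.2.pos)
      (by exact_mod_cast i.1.2.ne_one)) h3
    have h5 : (p : ℤ) ∣ 1 := ⟨-n, by linarith⟩
    exact hp.out.ne_one (Nat.eq_one_of_dvd_one (by exact_mod_cast h5))
  obtain ⟨k, hk, hk'⟩ := (Nat.dvd_prime_pow hp.out).1
    (hc ▸ AddSubgroup.card_addSubgroup_dvd_card (unitLocClasses p K i))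
  rw [hk']
  rcases Nat.lt_or_ge k 2 with h | h
  · exact (Nat.pow_le_pow_right hp.out.pos (by omega : k ≤ 1)).trans_eq (pow_one p)
  · exact absurd (AddSubgroup.eq_top_of_card_eq _ (by rw [hk', hc, le_antisymm hk h])) hne

/-- A splitting place realising a functional. -/
theorem exists_split_place (hK : HasRoots p K) (W : AddSubgroup (PowClass p K)) [Finite W]
    (φ : W →+ ZMod p) (S : Finset Nat.Primes) :
    ∃ i : Nat.Primes × Gam, i.1 ∉ S ∧ (i.1 : ℕ) ≠ p ∧ locField K i.1 i.2 = ⊥ ∧
      ∀ w : W, locPow K p i w.1 = 0 → φ w = 0 := by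
  classical
  have := Fintype.ofFinite W
  obtain ⟨g, hg⟩ := exists_kummerClass_eq hK W φ
  choose rep hrep using fun w : W => QuotientAddGroup.mk'_surjective (powers p K) w.1
  obtain ⟨M, hKM, hroots⟩ : ∃ M : Layer, K ≤ M.field ∧
      ∀ w : W, (root p (rep w).1).val ∈ M.field := by
    obtain ⟨M₀, hM₀⟩ := Layer.exists_ge K
    suffices h : ∀ s : Finset W, ∃ M : Layer, K ≤ M.field ∧
        ∀ w ∈ s, (root p (rep w).1).val ∈ M.field by
      obtain ⟨M, h1, h2⟩ := h Finset.univ
      exact ⟨M, h1, fun w => h2 w (Finset.mem_univ _)⟩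
    intro s
    induction s using Finset.induction_on with
    | empty => exact ⟨M₀, hM₀, fun w hw => absurd hw (Finset.notMem_empty _)⟩
    | @insert a t _ ih =>
      obtain ⟨M, h1, h2⟩ := ih
      obtain ⟨M', -, h3, -⟩ := exists_layer_root (K := K) (root p (rep a).1)
      refine ⟨M.sup M', h1.trans (M.le_sup_left M'), fun w hw => ?_⟩
      rcases Finset.mem_insert.1 hw with rfl | hw
      · exact (M.le_sup_right M') h3
      · exact (M.le_sup_left M') (h2 w hw)
  obtain ⟨q, hq, σ, hdeg, t, ht⟩ := exists_split_prime K M hKM g.toMul.2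
    (insert ⟨p, hp.out⟩ S)
  rw [Finset.mem_insert, not_or] at hq
  have hall : ∀ τ : LGal q, τ ∈ (locField K q σ).fixingSubgroup :=
    fun τ => mem_fixingSubgroup_locField_iff.2 (hdeg τ)
  refine ⟨(q, σ), hq.2, fun h => hq.1 (Subtype.ext h), ?_, fun w hw => ?_⟩
  · show locField K q σ = ⊥
    rw [← InfiniteGalois.fixedField_fixingSubgroup (locField K q σ),
      show (locField K q σ).fixingSubgroup = ⊤ from eq_top_iff.2 fun τ _ => hall τ]
    exact InfiniteGalois.fixedField_bot
  rw [← hrep w, locPow_mk, locClass_eq_zero_iff] at hw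
  obtain ⟨y, hy, hy'⟩ := hw
  have h1 : y.val ^ p = emb q (σ (rep w).1.val) := by
    rw [← LU.val_nsmul, hy']
    exact at_principal _ _ _
  have h2 := kummer_conj_eq_zero hK hy h1 (hall t)
  rw [← hg w, ← hrep w, kummerClass_mk]
  refine (kummer_apply_eq_zero_iff hK (rep w) (nsmul_root p _) g.toMul).2 (GU.ext ?_)
  rw [GU.val_smul, ← ht _ (hroots w)]
  exact congrArg GU.val ((kummer_apply_eq_zero_iff hK (rep w) (nsmul_root p _) _).1 h2)

/-- Places dual to a basis of a group of classes that are units away from `S`. -/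
theorem exists_dual_places (hK : HasRoots p K) (W : AddSubgroup (PowClass p K)) [Finite W]
    (S : Finset Nat.Primes)
    (hW : ∀ w ∈ W, ∃ a : fixedPts K.fixingSubgroup GU, QuotientAddGroup.mk' _ a = w ∧
      ∀ q ∉ S, ∀ σ, (principal a.1).at q σ ∈ unitsAt q)
    {ι : Type*} [Fintype ι] (b : ι → W) (c : ι → (W →+ ZMod p))
    (hbc : ∀ i, c i (b i) = 1) (hbc' : ∀ i k, i ≠ k → c i (b k) = 0) :
    ∃ v : ι → Nat.Primes × Gam, (∀ i, (v i).1 ∉ S ∧ ((v i).1 : ℕ) ≠ p ∧
        locField K (v i).1 (v i).2 = ⊥) ∧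
      (∀ i k, v k ∈ cosetSet K (v i).1 (v i).2 → i = k) ∧
      (∀ i, ∀ w : W, locPow K p (v i) w.1 = 0 ↔ c i w = 0) ∧
      ∀ i, ∀ u ∈ unitLocClasses p K (v i), ∃ n : ℕ, n • locPow K p (v i) (b i).1 = u := by
  classical
  choose v hv1 hv2 hv3 hv4 using fun i => exists_split_place hK W (c i) S
  have hin : ∀ i, ∀ w : W, locPow K p (v i) w.1 ∈ unitLocClasses p K (v i) := by
    intro i w
    obtain ⟨a, ha, ha'⟩ := hW w.1 w.2
    rw [← ha, locPow_mk]
    exact locClass_mem_unitLocClasses (ha' _ (hv1 i) _)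
  have hb0 : ∀ i, locPow K p (v i) (b i).1 ≠ 0 := fun i h =>
    one_ne_zero ((hbc i).symm.trans (hv4 i (b i) h))
  have hgen : ∀ i, ∀ u ∈ unitLocClasses p K (v i),
      ∃ n : ℕ, n • locPow K p (v i) (b i).1 = u := by
    intro i u hu
    obtain ⟨hfin, hle⟩ := card_unitLocClasses_le hK (hv3 i) (hv2 i)
    set z : unitLocClasses p K (v i) := ⟨_, hin i (b i)⟩
    have hord : addOrderOf z = p := by
      refine addOrderOf_eq_prime ?_ fun h => hb0 i (congrArg Subtype.val h)
      refine Subtype.ext ?_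
      show p • locPow K p (v i) (b i).1 = 0
      rw [← map_nsmul, nsmul_powClass, map_zero]
    have htop : AddSubgroup.zmultiples z = ⊤ :=
      AddSubgroup.eq_top_of_le_card _ (by rw [Nat.card_zmultiples, hord]; exact hle)
    have hzu : (⟨u, hu⟩ : unitLocClasses p K (v i)) ∈ AddSubgroup.zmultiples z :=
      htop ▸ AddSubgroup.mem_top _
    obtain ⟨n, -, hn⟩ := mem_zmultiples_iff_mem_range_addOrderOf.1 hzu |> Finset.mem_image.1
    exact ⟨n, congrArg Subtype.val hn⟩
  have hiff : ∀ i, ∀ w : W, locPow K p (v i) w.1 = 0 ↔ c i w = 0 := by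
    intro i w
    refine ⟨hv4 i w, fun hc => ?_⟩
    obtain ⟨n, hn⟩ := hgen i _ (hin i w)
    have h1 := hv4 i (w - n • b i) (by
      rw [AddSubgroup.coe_sub, AddSubgroup.coe_nsmul, map_sub, map_nsmul, hn, sub_self])
    rw [map_sub, map_nsmul, hc, hbc, zero_sub, neg_eq_zero, nsmul_one] at h1
    obtain ⟨m, hm⟩ := (CharP.cast_eq_zero_iff (ZMod p) p n).1 h1
    rw [← hn, hm, mul_comm, mul_nsmul', ← map_nsmul, nsmul_powClass, map_zero, nsmul_zero]
  refine ⟨v, fun i => ⟨hv1 i, hv2 i, hv3 i⟩, fun i k hik => ?_, hiff, hgen⟩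
  by_contra hne
  have h1 := (hiff i (b k)).2 (hbc' i k hne)
  obtain ⟨a, ha⟩ := QuotientAddGroup.mk'_surjective (powers p K) (b k).1
  rw [← ha, locPow_mk, locClass_eq_zero_iff] at h1
  obtain ⟨y, hy, hy'⟩ := h1
  refine hb0 k ?_
  rw [← ha, locPow_mk, locClass_eq_zero_iff]
  obtain ⟨e, τ, n, hn, hk⟩ := mem_cosetSet_iff.1 (show ((v k).1, (v k).2) ∈ _ from hik)
  rcases hvk : v k with ⟨r, γ⟩
  rw [hvk] at e hk
  dsimp only at e hk
  subst e
  subst hk
  refine ⟨τ • y, ?_, ?_⟩
  · show (τ • y).val ∈ locField K (v i).1 (loc (v i).1 τ * (v i).2 * n)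
    have htop := hv3 k
    rw [hvk] at htop
    rw [htop]
    have hy0 : y.val ∈ (⊥ : IntermediateField ℚ_[((v i).1 : ℕ)] (PadicAlgCl ((v i).1 : ℕ))) :=
      hv3 i ▸ hy
    obtain ⟨r, hr⟩ := IntermediateField.mem_bot.1 hy0
    exact IntermediateField.mem_bot.2 ⟨r, by rw [LU.val_smul, ← hr, AlgEquiv.commutes]⟩
  · rw [smul_comm, hy', Idele.mem_fixedPts_iff.1 (fixedPrincipal K a).2 _ _ n hn,
      Idele.at_loc_mul]

end FLTAgent.IdeleClassCohomology
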