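import Fermat.Agent.IdeleClassCohomology.DualFamily
import Fermat.Agent.IdeleClassCohomology.KummerNorm

/-!
# The idele classes modulo `p` and the places dual to the `S`-units

For a big enough set of places (`IsGoodSet`) dual places exist (`exists_dualPlaces`); with
`power_criterion` they give the second inequality `IsKummerKer.index_eq` for Kummer steps.
-/

set_option autoImplicit false

noncomputable section

namespace FLTAgent.IdeleClassCohomology

open FLTAgent.GalCoh FLTAgent.GlobalDuality Module NumberField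

variable (p : ℕ) [hp : Fact p.Prime] (K : IntermediateField ℚ QQbar) [FiniteDimensional ℚ K]

/-- Every idele is principal up to one that is a unit outside `S`. -/
def IsFull (S : Finset Nat.Primes) : Prop :=
  ∀ x : fixedPts K.fixingSubgroup Idele, ∃ b : fixedPts K.fixingSubgroup GU,
    ∀ q ∉ S, ∀ σ, (x - fixedPrincipal K b).1.at q σ ∈ unitsAt q

/-- A big enough set of primes with its places. -/
structure IsGoodSet (S : Finset Nat.Primes) (R : Finset (Nat.Primes × Gam)) : Prop where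
  places : IsPlaces K R
  cov : covered K R = {j | j.1 ∈ S}
  deg : ∀ q ∈ S, ∑ i ∈ R with i.1 = q, finrank ℚ_[(i.1 : ℕ)] (locField K i.1 i.2) = finrank ℚ K
  mem : (⟨p, hp.out⟩ : Nat.Primes) ∈ S
  full : IsFull K S

variable {K}

theorem exists_isFull (S₀ : Finset Nat.Primes) : ∃ S, S₀ ⊆ S ∧ IsFull K S := by
  classical
  let cl := ideleClassGroup K
  have : Finite (Additive (ClassGroup (𝓞 K))) := inferInstanceAs (Finite (ClassGroup (𝓞 K)))
  have := Fintype.ofFinite cl.range
  choose rep hrep using fun c : cl.range => c.2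
  refine ⟨S₀ ∪ Finset.univ.biUnion fun c : cl.range => (rep c).1.finite_nonunit.toFinset,
    Finset.subset_union_left, fun x => ?_⟩
  set c : cl.range := ⟨cl x, x, rfl⟩
  have h0 : cl (x - rep c) = 0 := by rw [map_sub, hrep, sub_self]
  obtain ⟨b, hb, hu⟩ := exists_eq_principal_add_unit K h0
  refine ⟨⟨b, hb⟩, fun q hq σ => ?_⟩
  have h1 := hu q σ
  have h2 : (rep c).1.at q σ ∈ unitsAt q := by
    by_contra h
    exact hq (Finset.mem_union_right _ (Finset.mem_biUnion.2
      ⟨c, Finset.mem_univ _, Set.Finite.mem_toFinset _ |>.2 ⟨σ, h⟩⟩))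
  have h3 := (unitsAt q).add_mem h1 h2
  rw [Idele.at_sub, AddSubgroup.coe_sub, Idele.at_sub, sub_right_comm, sub_add_cancel] at h3
  rw [AddSubgroup.coe_sub, Idele.at_sub]
  exact h3

theorem exists_isGoodSet (S₀ : Finset Nat.Primes) :
    ∃ S R, S₀ ⊆ S ∧ IsGoodSet p K S R := by
  classical
  obtain ⟨S, hS, hfull⟩ := exists_isFull (K := K) (insert ⟨p, hp.out⟩ S₀)
  obtain ⟨R, h1, h2, h3⟩ := exists_places K S
  exact ⟨S, R, (Finset.subset_insert _ _).trans hS,
    ⟨h1, h2, h3, hS (Finset.mem_insert_self _ _), hfull⟩⟩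

variable (K) in
/-- The ideles that vanish on `R` and are units elsewhere. -/
def zeroUnits (R : Finset (Nat.Primes × Gam)) :
    AddSubgroup (fixedPts K.fixingSubgroup Idele) where
  carrier := {x | (∀ j ∈ covered K R, x.1.at j.1 j.2 = 0) ∧
    ∀ j, j ∉ covered K R → x.1.at j.1 j.2 ∈ unitsAt j.1}
  zero_mem' := ⟨fun j _ => Idele.at_zero j.1 j.2, fun j _ => (unitsAt j.1).zero_mem⟩
  add_mem' {a b} ha hb := ⟨fun j hj => by
      rw [AddSubgroup.coe_add, Idele.at_add, ha.1 j hj, hb.1 j hj, add_zero], fun j hj => by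
      rw [AddSubgroup.coe_add, Idele.at_add]; exact (unitsAt _).add_mem (ha.2 j hj) (hb.2 j hj)⟩
  neg_mem' {a} ha := ⟨fun j hj => by
      show (Idele.atHom j.1 j.2) (-a.1) = 0
      rw [map_neg]
      exact neg_eq_zero.2 (ha.1 j hj), fun j hj => by
      show (Idele.atHom j.1 j.2) (-a.1) ∈ unitsAt j.1
      rw [map_neg]
      exact (unitsAt _).neg_mem (ha.2 j hj)⟩

variable (K) in
/-- Principal ideles, `p`-th multiples and units vanishing on `R`. -/
def baseGroup (R : Finset (Nat.Primes × Gam)) : AddSubgroup (fixedPts K.fixingSubgroup Idele) :=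
  (fixedPrincipal K).range ⊔
    (nsmulAddMonoidHom p : fixedPts K.fixingSubgroup Idele →+ _).range ⊔ zeroUnits K R

variable (K) in
/-- The classes of the units outside `R`. -/
def unitClassesAway (R : Finset (Nat.Primes × Gam)) : AddSubgroup (PowClass p K) :=
  (placeUnits K R).map (QuotientAddGroup.mk' (powers p K))

variable {p}

theorem finite_unitClassesAway (hK : HasRoots p K) {R : Finset (Nat.Primes × Gam)}
    (hR : IsPlaces K R) : Finite (unitClassesAway p K R) :=
  Nat.finite_of_card_ne_zero (by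
    rw [unitClassesAway, card_placeUnits_classes hK hR]
    exact pow_ne_zero _ hp.out.ne_zero)

omit [FiniteDimensional ℚ K] in
theorem at_mem_unitsAt_of_placeUnits {R : Finset (Nat.Primes × Gam)} {S : Finset Nat.Primes}
    (hcov : covered K R = {j | j.1 ∈ S}) {a : fixedPts K.fixingSubgroup GU}
    (ha : a ∈ placeUnits K R) {q : Nat.Primes} (hq : q ∉ S) (σ : Gam) :
    (principal a.1).at q σ ∈ unitsAt q :=
  ha (q, σ) (by rw [hcov]; exact hq)

omit hp [FiniteDimensional ℚ K] in
theorem locClass_eq_zero_of_mem_cosetSet {i j : Nat.Primes × Gam}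
    {x : fixedPts K.fixingSubgroup Idele} (h : locClass K p i x = 0)
    (hj : j ∈ cosetSet K i.1 i.2) :
    ∃ a : LU j.1, a.val ∈ locField K j.1 j.2 ∧ p • a = x.1.at j.1 j.2 := by
  obtain ⟨a, ha, ha'⟩ := (locClass_eq_zero_iff p i x).1 h
  obtain ⟨r, γ⟩ := j
  obtain ⟨e, τ, n, hn, hγ⟩ := mem_cosetSet_iff.1 hj
  dsimp only at e hγ ⊢
  subst e hγ
  refine ⟨τ • a, ?_, ?_⟩
  · show τ a.val ∈ _
    rw [← InfiniteGalois.fixedField_fixingSubgroup (locField K i.1 (loc i.1 τ * i.2 * n)),
      IntermediateField.mem_fixedField_iff]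
    intro ρ hρ
    have hρ' : τ⁻¹ * ρ * τ ∈ (locField K i.1 i.2).fixingSubgroup := by
      rw [mem_fixingSubgroup_locField_iff] at hρ ⊢
      have := mul_mem (mul_mem hn hρ) (inv_mem hn)
      convert this using 1
      rw [map_mul, map_mul, map_inv]
      group
    have h1 := (IntermediateField.mem_fixingSubgroup_iff _ _).1 hρ' a.val ha
    have h2 := congrArg τ h1
    rw [← AlgEquiv.mul_apply, show τ * (τ⁻¹ * ρ * τ) = ρ * τ by group, AlgEquiv.mul_apply] at h2
    exact h2
  · rw [smul_comm, ha', Idele.mem_fixedPts_iff.1 x.2 _ _ n hn, Idele.at_loc_mul]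

/-- Dual places and their consequences. -/
structure DualPlaces (R : Finset (Nat.Primes × Gam)) (S : Finset Nat.Primes) where
  fam : DualFamily p (unitClassesAway p K R)
  v : fam.ι → Nat.Primes × Gam
  notMem : ∀ i, (v i).1 ∉ S
  deg_one : ∀ i, locField K (v i).1 (v i).2 = ⊥
  ne_prime : ∀ i, ((v i).1 : ℕ) ≠ p
  inj : ∀ i k, v k ∈ cosetSet K (v i).1 (v i).2 → i = k
  ker : ∀ i, ∀ w : unitClassesAway p K R, locPow K p (v i) w.1 = 0 ↔ fam.c i w = 0
  gen : ∀ i, ∀ u ∈ unitLocClasses p K (v i), ∃ n : ℕ, n • locPow K p (v i) (fam.b i).1 = u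

theorem exists_dualPlaces (hK : HasRoots p K) {R : Finset (Nat.Primes × Gam)}
    {S : Finset Nat.Primes} (hR : IsGoodSet p K S R)
    (F : DualFamily p (unitClassesAway p K R)) :
    ∃ P : DualPlaces (p := p) (K := K) R S, P.fam = F := by
  have := finite_unitClassesAway hK hR.places
  let := F.fin
  obtain ⟨v, h1, h2, h3, h4⟩ := exists_dual_places hK (unitClassesAway p K R) S
    (fun w hw => by
      obtain ⟨a, ha, rfl⟩ := hw
      exact ⟨a, rfl, fun q hq σ => at_mem_unitsAt_of_placeUnits hR.cov ha hq σ⟩)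
    F.b F.c F.diag F.off
  exact ⟨⟨F, v, fun i => (h1 i).1, fun i => (h1 i).2.2, fun i => (h1 i).2.1, h2, h3, h4⟩, rfl⟩

namespace DualPlaces

variable {R : Finset (Nat.Primes × Gam)} {S : Finset Nat.Primes}
  (P : DualPlaces (p := p) (K := K) R S)

open Classical in
/-- The places. -/
def set : Finset (Nat.Primes × Gam) :=
  letI := P.fam.fin
  Finset.univ.image P.v

omit [FiniteDimensional ℚ K] in
theorem mem_set {j : Nat.Primes × Gam} : j ∈ P.set ↔ ∃ i, P.v i = j := by
  classical
  let := P.fam.fin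
  simp [set]

omit [FiniteDimensional ℚ K] in
theorem v_injective : Function.Injective P.v := fun i k h =>
  P.inj i k (h ▸ mem_cosetSet_self _ _)

omit [FiniteDimensional ℚ K] in
theorem notMem_covered (hR : IsGoodSet p K S R) {i : P.fam.ι} {j : Nat.Primes × Gam}
    (hj : j ∈ cosetSet K (P.v i).1 (P.v i).2) : j ∉ covered K R := by
  rw [hR.cov]
  intro h
  exact P.notMem i (hj.1 ▸ h)

open Classical in
omit [FiniteDimensional ℚ K] in
theorem isPlaces_union (hR : IsGoodSet p K S R) : IsPlaces K (R ∪ P.set) ∧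
    (R ∪ P.set).card = R.card + (letI := P.fam.fin; Fintype.card P.fam.ι) := by
  let := P.fam.fin
  have hd : ∀ i, ∀ j ∈ R, j ∉ cosetSet K (P.v i).1 (P.v i).2 := fun i j hj h =>
    P.notMem_covered hR h (mem_covered.2 ⟨j, hj, mem_cosetSet_self _ _⟩)
  refine ⟨fun i hi j hj h => ?_, ?_⟩
  · rcases Finset.mem_union.1 hi with hi' | hi' <;> rcases Finset.mem_union.1 hj with hj' | hj'
    · exact hR.places i hi' j hj' h
    · obtain ⟨k, rfl⟩ := P.mem_set.1 hj'
      exact absurd
        (cosetSet_eq_of_mem (r := (P.v k).1) (γ := (P.v k).2) h ▸ mem_cosetSet_self i.1 i.2)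
        (hd k i hi')
    · obtain ⟨k, rfl⟩ := P.mem_set.1 hi'
      exact absurd h (hd k j hj')
    · obtain ⟨k, rfl⟩ := P.mem_set.1 hi'
      obtain ⟨l, rfl⟩ := P.mem_set.1 hj'
      rw [P.inj k l h]
  · rw [Finset.card_union_of_disjoint, set, Finset.card_image_of_injective _ P.v_injective,
      Finset.card_univ]
    exact Finset.disjoint_left.2 fun j hj hj' => by
      obtain ⟨k, rfl⟩ := P.mem_set.1 hj'
      exact hd k _ hj (mem_cosetSet_self _ _)

omit [FiniteDimensional ℚ K] in
theorem exists_unitClass_match {x : fixedPts K.fixingSubgroup Idele}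
    (hx : ∀ i, x.1.at (P.v i).1 (P.v i).2 ∈ unitsAt (P.v i).1) :
    ∃ a ∈ placeUnits K R, ∀ i, locClass K p (P.v i) (x - fixedPrincipal K a) = 0 := by
  classical
  let := P.fam.fin
  choose n hn using fun i => P.gen i _ (locClass_mem_unitLocClasses (p := p) (hx i))
  obtain ⟨a, ha, haw⟩ := (∑ k, n k • P.fam.b k : unitClassesAway p K R).2
  refine ⟨a, ha, fun i => ?_⟩
  rw [map_sub, ← locPow_mk, haw, sub_eq_zero, ← hn i, AddSubgroup.val_finsetSum, map_sum,
    Finset.sum_eq_single i (fun k _ hk => ?_) (fun h => absurd (Finset.mem_univ _) h),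
    AddSubgroup.coe_nsmul, map_nsmul]
  rw [AddSubgroup.coe_nsmul, map_nsmul, (P.ker i (P.fam.b k)).2 (P.fam.off i k (Ne.symm hk)),
    nsmul_zero]

open Classical in
/-- A unit away from `R` and the dual places that is a local power on `R` is a power. -/
theorem power_criterion (hK : HasRoots p K) (hc : IsTotallyComplex K) (hR : IsGoodSet p K S R)
    {x : fixedPts K.fixingSubgroup GU} (hx : x ∈ placeUnits K (R ∪ P.set))
    (hloc : ∀ i ∈ R, locClass K p i (fixedPrincipal K x) = 0) : x ∈ powers p K := by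
  by_contra hpow
  obtain ⟨H, hH⟩ := exists_isKummerKer hK hc hpow
  have hall : H = ⊤ := by
    refine eq_top_iff.2 fun z _ => ?_
    obtain ⟨b, hb⟩ := hR.full z
    obtain ⟨a, ha, ha0⟩ := P.exists_unitClass_match (x := z - fixedPrincipal K b)
      fun i => hb _ (P.notMem i) _
    set y := z - fixedPrincipal K b - fixedPrincipal K a with hy
    have hyz : z = fixedPrincipal K b + fixedPrincipal K a + y := by rw [hy]; abel
    rw [hyz]
    refine add_mem (add_mem (hH.principal_mem ⟨b, rfl⟩) (hH.principal_mem ⟨a, rfl⟩)) ?_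
    have hTs : IsPlaces K P.set := fun i hi j hj h =>
      (P.isPlaces_union hR).1 i (Finset.mem_union_right _ hi) j (Finset.mem_union_right _ hj) h
    obtain ⟨w, hw1, hw2⟩ := exists_eq_nsmul_add_of_locClasses p hTs (x := y)
      (funext fun i => by
        obtain ⟨k, hk⟩ := P.mem_set.1 i.2
        show locClass K p i.1 y = 0
        rw [← hk]
        exact ha0 k)
    rw [show y = (y - p • w) + p • w by abel]
    refine add_mem (hH.local_mem _ fun q σ => ?_) (hH.nsmul_mem _)
    by_cases hT : (q, σ) ∈ covered K P.set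
    · exact Or.inl (hw1 (q, σ) hT)
    by_cases hS : q ∈ S
    · obtain ⟨i, hi, hij⟩ := mem_covered.1 (show (q, σ) ∈ covered K R by rw [hR.cov]; exact hS)
      obtain ⟨u, hu, hu'⟩ := locClass_eq_zero_of_mem_cosetSet (hloc i hi) hij
      exact Or.inr (Or.inl ⟨u.val, hu, by rw [← LU.val_nsmul, hu']; exact at_principal _ _ _⟩)
    · refine Or.inr (Or.inr ⟨?_, fun h => hS ((Subtype.ext h : q = ⟨p, hp.out⟩) ▸ hR.mem), 1,
        (locField K q σ).one_mem, ?_⟩)
      · rw [AddSubgroup.coe_sub, AddSubgroup.coe_nsmul, Idele.at_sub, at_nsmul, hw2 (q, σ) hT,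
          nsmul_zero, sub_zero, hy, AddSubgroup.coe_sub, Idele.at_sub]
        exact (unitsAt q).sub_mem (hb q hS σ) (at_mem_unitsAt_of_placeUnits hR.cov ha hS σ)
      · rw [norm_one, one_pow]
        refine (mem_unitsAt_iff.1 (hx (q, σ) ?_)).symm
        rw [mem_covered]
        rintro ⟨i, hi, hij⟩
        rcases Finset.mem_union.1 hi with hi | hi
        · exact hS (by
            have := (hR.cov ▸ mem_covered.2 ⟨i, hi, hij⟩ :
              (q, σ) ∈ {j : Nat.Primes × Gam | j.1 ∈ S})
            exact this)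
        · exact hT (mem_covered.2 ⟨i, hi, hij⟩)
  have h1 := hH.dvd
  rw [hall, AddSubgroup.index_top] at h1
  exact hp.out.not_dvd_one h1

open Classical in
/-- The local classes on `R` of the units away from `R` and the dual places are everything. -/
theorem exists_placeUnits_match (hK : HasRoots p K) (hc : IsTotallyComplex K)
    (hR : IsGoodSet p K S R) (u : (i : R) → LocQuot p K i.1) :
    ∃ a ∈ placeUnits K (R ∪ P.set), locClasses K p R (fixedPrincipal K a) = u := by
  let := P.fam.fin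
  obtain ⟨hU, hUcard⟩ := P.isPlaces_union hR
  let f : unitClassesAway p K (R ∪ P.set) →+ ((i : R) → LocQuot p K i.1) :=
    AddMonoidHom.pi fun i : R => (locPow K p i.1).comp (unitClassesAway p K (R ∪ P.set)).subtype
  have hinj : Function.Injective f := by
    rw [injective_iff_map_eq_zero]
    rintro ⟨_, a, ha, rfl⟩ h
    exact Subtype.ext ((QuotientAddGroup.eq_zero_iff _).2
      (P.power_criterion hK hc hR ha fun i hi => congrFun h ⟨i, hi⟩))
  have hι : Fintype.card P.fam.ι = R.card + Fintype.card (InfinitePlace K) := by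
    have h1 : p ^ (R.card + Fintype.card (InfinitePlace K)) = p ^ Fintype.card P.fam.ι :=
      (card_placeUnits_classes hK hR.places).symm.trans P.fam.card
    exact (Nat.pow_right_injective hp.out.two_le h1).symm
  have hinf : finrank ℚ K = 2 * Fintype.card (InfinitePlace K) := by
    rw [IsTotallyComplex.finrank (h := hc), InfinitePlace.card_eq_nrRealPlaces_add_nrComplexPlaces,
      IsTotallyComplex.nrRealPlaces_eq_zero (h := hc), zero_add]
  have := finite_unitClassesAway hK hU
  have hpr := prod_card_locQuot p hK hR.mem hR.deg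
  have : Finite ((i : R) → LocQuot p K i.1) :=
    Nat.finite_of_card_ne_zero (by rw [hpr]; exact pow_ne_zero _ hp.out.ne_zero)
  have hbij : Function.Bijective f := by
    refine (Nat.bijective_iff_injective_and_card _).2 ⟨hinj, ?_⟩
    rw [hpr]
    refine (card_placeUnits_classes hK hU).trans ?_
    rw [hUcard, hι, hinf]
    congr 1
    omega
  obtain ⟨⟨_, a, ha, rfl⟩, hwu⟩ := hbij.2 u
  exact ⟨a, ha, hwu⟩

/-- An idele with a uniformiser at a dual place. -/
theorem exists_pi (i : P.fam.ι) : ∃ x : fixedPts K.fixingSubgroup Idele,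
    x.1.at (P.v i).1 (P.v i).2 = qUnit (P.v i).1 ∧
      ∀ j, j ∉ cosetSet K (P.v i).1 (P.v i).2 → x.1.at j.1 j.2 = 0 := by
  obtain ⟨x, hx, h1, h2⟩ := exists_pointIdele (K := K) (q := (P.v i).1) (σ := (P.v i).2)
    (a := qUnit (P.v i).1) (by rw [val_qUnit]; exact natCast_mem _ _)
  exact ⟨⟨x, hx⟩, h1, fun j hj => h2 j.1 j.2 hj⟩

/-- The chosen uniformisers. -/
def pi (i : P.fam.ι) : fixedPts K.fixingSubgroup Idele := (P.exists_pi i).choose

theorem at_pi_self (i : P.fam.ι) : (P.pi i).1.at (P.v i).1 (P.v i).2 = qUnit (P.v i).1 :=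
  (P.exists_pi i).choose_spec.1

theorem at_pi_of_notMem (i : P.fam.ι) {j : Nat.Primes × Gam}
    (h : j ∉ cosetSet K (P.v i).1 (P.v i).2) : (P.pi i).1.at j.1 j.2 = 0 :=
  (P.exists_pi i).choose_spec.2 j h

/-- The dual places generate. -/
theorem eq_top (hK : HasRoots p K) (hc : IsTotallyComplex K) (hR : IsGoodSet p K S R)
    (H : AddSubgroup (fixedPts K.fixingSubgroup Idele)) (hbase : baseGroup p K R ≤ H)
    (hpi : ∀ i, P.pi i ∈ H) : H = ⊤ := by
  classical
  let := P.fam.fin
  refine eq_top_iff.2 fun z _ => ?_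
  obtain ⟨b, hb⟩ := hR.full z
  obtain ⟨a, ha, hau⟩ := P.exists_placeUnits_match hK hc hR
    (locClasses K p R (z - fixedPrincipal K b))
  set y := z - fixedPrincipal K b - fixedPrincipal K a with hy
  have hyz : z = fixedPrincipal K b + fixedPrincipal K a + y := by rw [hy]; abel
  have hP : (fixedPrincipal K).range ≤ H := le_sup_left.trans (le_sup_left.trans hbase)
  rw [hyz]
  refine add_mem (add_mem (hP ⟨b, rfl⟩) (hP ⟨a, rfl⟩)) ?_
  obtain ⟨w, hw1, hw2⟩ := exists_eq_nsmul_add_of_locClasses p hR.places (x := y)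
    ((map_sub (locClasses K p R) _ _).trans (sub_eq_zero.2 hau.symm))
  -- the valuations at the dual places
  have hval : ∀ i, ∃ n : ℤ, ‖((y - p • w).1.at (P.v i).1 (P.v i).2).val‖ =
      (((P.v i).1 : ℕ) : ℝ) ^ n :=
    fun i => exists_norm_eq_zpow_of_eq_bot (P.deg_one i) (at_mem_locField (y - p • w).2)
  choose n hn using hval
  obtain ⟨Z, hZ⟩ : ∃ t : fixedPts K.fixingSubgroup Idele, t = ∑ i, (-n i) • P.pi i := ⟨_, rfl⟩
  rw [show y = (y - p • w - Z) + Z + p • w by abel]
  refine add_mem (add_mem (hbase (le_sup_right (a := (fixedPrincipal K).range ⊔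
    (nsmulAddMonoidHom p : fixedPts K.fixingSubgroup Idele →+ _).range) ?_)) ?_)
    (hbase (le_sup_left (b := zeroUnits K R) (le_sup_right (a := (fixedPrincipal K).range)
      ⟨w, rfl⟩)))
  swap
  · rw [hZ]; exact sum_mem fun i _ => zsmul_mem (hpi i) _
  have hat : ∀ j : Nat.Primes × Gam, (y - p • w - Z).1.at j.1 j.2 =
      (y - p • w).1.at j.1 j.2 - ∑ i, (-n i) • (P.pi i).1.at j.1 j.2 := by
    intro j
    rw [AddSubgroup.coe_sub, Idele.at_sub, hZ, AddSubgroup.val_finsetSum]
    refine congrArg _ ((map_sum (Idele.atHom j.1 j.2) _ _).trans ?_)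
    exact Finset.sum_congr rfl fun i _ => by
      rw [AddSubgroup.coe_zsmul]; exact map_zsmul (Idele.atHom j.1 j.2) _ _
  refine ⟨fun j hj => ?_, fun j hj => ?_⟩
  · rw [hat, hw1 j hj, zero_sub, neg_eq_zero]
    refine Finset.sum_eq_zero fun i _ => ?_
    rw [P.at_pi_of_notMem i fun h => P.notMem_covered hR h hj, smul_zero]
  · have hjS : j.1 ∉ S := fun h => hj (by rw [hR.cov]; exact h)
    have hyw : (y - p • w).1.at j.1 j.2 = y.1.at j.1 j.2 := by
      rw [AddSubgroup.coe_sub, Idele.at_sub, AddSubgroup.coe_nsmul, at_nsmul, hw2 j hj,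
        nsmul_zero, sub_zero]
    by_cases hT : j ∈ covered K P.set
    · obtain ⟨i', hi', hij⟩ := mem_covered.1 hT
      obtain ⟨i, rfl⟩ := P.mem_set.1 hi'
      refine unitsAt_of_mem_cosetSet (y - p • w - Z).2 ?_ hij
      rw [hat (P.v i), Finset.sum_eq_single i (fun k _ hk => by
        rw [P.at_pi_of_notMem k fun h => hk (P.inj k i h), smul_zero])
        (fun h => absurd (Finset.mem_univ _) h), P.at_pi_self, mem_unitsAt_iff]
      show ‖(((y - p • w).1.at (P.v i).1 (P.v i).2).toMul / (qUnit (P.v i).1).toMul ^ (-n i) :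
        (PadicAlgCl ((P.v i).1 : ℕ))ˣ).val‖ = 1
      rw [Units.val_div_eq_div_val, norm_div, Units.val_zpow_eq_zpow_val, norm_zpow]
      show ‖((y - p • w).1.at (P.v i).1 (P.v i).2).val‖ / ‖(qUnit (P.v i).1).val‖ ^ (-n i) = 1
      rw [hn i, norm_qUnit, inv_zpow', neg_neg, div_self]
      exact zpow_ne_zero _ (Nat.cast_ne_zero.2 (P.v i).1.2.ne_zero)
    · rw [hat, Finset.sum_eq_zero fun i _ => ?_, sub_zero, hyw, hy, AddSubgroup.coe_sub,
        Idele.at_sub]
      · refine (unitsAt _).sub_mem (hb _ hjS _) (ha j ?_)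
        rw [mem_covered]
        rintro ⟨i, hi, hij⟩
        rcases Finset.mem_union.1 hi with hi | hi
        · exact hj (mem_covered.2 ⟨i, hi, hij⟩)
        · exact hT (mem_covered.2 ⟨i, hi, hij⟩)
      · rw [P.at_pi_of_notMem i fun h => hT (mem_covered.2 ⟨_, P.mem_set.2 ⟨i, rfl⟩, h⟩), smul_zero]

theorem pi_mem {a : fixedPts K.fixingSubgroup GU}
    (ha : a ∈ placeUnits K R) {H : AddSubgroup (fixedPts K.fixingSubgroup Idele)}
    (hH : IsKummerKer p a H) {i : P.fam.ι}
    (hi : P.fam.c i ⟨QuotientAddGroup.mk' _ a, a, ha, rfl⟩ = 0) : P.pi i ∈ H := by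
  have h0 : locClass K p (P.v i) (fixedPrincipal K a) = 0 :=
    (P.ker i ⟨QuotientAddGroup.mk' _ a, a, ha, rfl⟩).2 hi
  refine hH.local_mem _ fun q σ => ?_
  by_cases h : (q, σ) ∈ cosetSet K (P.v i).1 (P.v i).2
  · obtain ⟨u, hu, hu'⟩ := locClass_eq_zero_of_mem_cosetSet h0 h
    exact Or.inr (Or.inl ⟨u.val, hu, by rw [← LU.val_nsmul, hu']; exact at_principal _ _ _⟩)
  · exact Or.inl (P.at_pi_of_notMem i h)

end DualPlaces

omit [FiniteDimensional ℚ K] in
theorem baseGroup_le {R : Finset (Nat.Primes × Gam)} {S : Finset Nat.Primes}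
    (hcov : covered K R = {j | j.1 ∈ S}) (hS : (⟨p, hp.out⟩ : Nat.Primes) ∈ S)
    {a : fixedPts K.fixingSubgroup GU}
    (ha : ∀ j, j ∉ covered K R →
      ∃ y ∈ locField K j.1 j.2, ‖y‖ ^ p = ‖emb j.1 (j.2 a.1.val)‖)
    {H : AddSubgroup (fixedPts K.fixingSubgroup Idele)} (hH : IsKummerKer p a H) :
    baseGroup p K R ≤ H := by
  refine sup_le (sup_le hH.principal_mem ?_) fun x hx => hH.local_mem x fun q σ => ?_
  · rintro _ ⟨x, rfl⟩
    exact hH.nsmul_mem x
  by_cases h : (q, σ) ∈ covered K R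
  · exact Or.inl (hx.1 (q, σ) h)
  · refine Or.inr (Or.inr ⟨hx.2 (q, σ) h, fun e => h ?_, ha (q, σ) h⟩)
    rw [hcov]
    show q ∈ S
    rw [show q = ⟨p, hp.out⟩ from Subtype.ext e]
    exact hS

omit hp [FiniteDimensional ℚ K] in
theorem exists_norm_eq_of_placeUnits {R : Finset (Nat.Primes × Gam)}
    {a : fixedPts K.fixingSubgroup GU} (ha : a ∈ placeUnits K R) (j : Nat.Primes × Gam)
    (hj : j ∉ covered K R) :
    ∃ y ∈ locField K j.1 j.2, ‖y‖ ^ p = ‖emb j.1 (j.2 a.1.val)‖ :=
  ⟨1, one_mem _, by rw [norm_one, one_pow]; exact (mem_unitsAt_iff.1 (ha j hj)).symm⟩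

omit [FiniteDimensional ℚ K] in
theorem exists_placeUnits_of_finset (s : Finset (fixedPts K.fixingSubgroup GU)) :
    ∃ S₀ : Finset Nat.Primes, ∀ a ∈ s, ∀ q ∉ S₀, ∀ σ, (principal a.1).at q σ ∈ unitsAt q := by
  classical
  refine ⟨s.biUnion fun a => (principal a.1).finite_nonunit.toFinset, fun a ha q hq σ => ?_⟩
  by_contra h
  exact hq (Finset.mem_biUnion.2 ⟨a, ha, (Set.Finite.mem_toFinset _).2 ⟨σ, h⟩⟩)

/-- The second inequality for a Kummer step. -/
theorem IsKummerKer.index_eq (hK : HasRoots p K) (hc : IsTotallyComplex K)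
    {a : fixedPts K.fixingSubgroup GU} (ha : a ∉ powers p K)
    {H : AddSubgroup (fixedPts K.fixingSubgroup Idele)} (hH : IsKummerKer p a H) :
    H.index = p := by
  classical
  obtain ⟨S₀, hS₀⟩ := exists_placeUnits_of_finset (K := K) {a}
  obtain ⟨S, R, hsub, hR⟩ := exists_isGoodSet (K := K) p S₀
  have haR : a ∈ placeUnits K R := fun j hj =>
    hS₀ a (Finset.mem_singleton_self a) _ (fun h => hj (by rw [hR.cov]; exact hsub h)) _
  have := finite_unitClassesAway hK hR.places
  obtain ⟨F, i₀, hi₀⟩ := exists_dualFamily_single (fun w =>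
    Subtype.ext (nsmul_powClass (p := p) w.1))
    (w := (⟨QuotientAddGroup.mk' _ a, a, haR, rfl⟩ : unitClassesAway p K R))
    fun h => ha ((QuotientAddGroup.eq_zero_iff _).1 (congrArg Subtype.val h))
  obtain ⟨P, rfl⟩ := exists_dualPlaces hK hR F
  have htop := P.eq_top hK hc hR (H ⊔ AddSubgroup.zmultiples (P.pi i₀))
    ((baseGroup_le hR.cov hR.mem (exists_norm_eq_of_placeUnits haR) hH).trans le_sup_left)
    fun i => by
      rcases eq_or_ne i i₀ with rfl | hne
      · exact AddSubgroup.mem_sup_right (AddSubgroup.mem_zmultiples _)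
      · exact AddSubgroup.mem_sup_left (P.pi_mem haR hH (by rw [← hi₀]; exact P.fam.off i i₀ hne))
  have hgen : AddSubgroup.zmultiples (QuotientAddGroup.mk' H (P.pi i₀)) = ⊤ := by
    rw [← AddMonoidHom.map_zmultiples, eq_top_iff]
    intro z _
    obtain ⟨x, rfl⟩ := QuotientAddGroup.mk'_surjective H z
    obtain ⟨y, hy, w, hw, rfl⟩ := AddSubgroup.mem_sup.1 (htop ▸ AddSubgroup.mem_top x :
      x ∈ H ⊔ AddSubgroup.zmultiples (P.pi i₀))
    exact ⟨w, hw, by rw [map_add, show QuotientAddGroup.mk' H y = 0 from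
      (QuotientAddGroup.eq_zero_iff y).2 hy, zero_add]⟩
  have hle : Nat.card (fixedPts K.fixingSubgroup Idele ⧸ H) ∣ p := by
    rw [← AddSubgroup.card_top (G := fixedPts K.fixingSubgroup Idele ⧸ H), ← hgen,
      Nat.card_zmultiples]
    refine addOrderOf_dvd_of_nsmul_eq_zero ?_
    rw [← map_nsmul]
    exact (QuotientAddGroup.eq_zero_iff _).2 (hH.nsmul_mem _)
  rw [← AddSubgroup.index_eq_card] at hle
  exact Nat.dvd_antisymm hle hH.dvd

/-- Independent classes have different norm groups. -/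
theorem IsKummerKer.ne (hK : HasRoots p K) (hc : IsTotallyComplex K)
    {a a' : fixedPts K.fixingSubgroup GU} (ha : a ∉ powers p K)
    (ha' : QuotientAddGroup.mk' (powers p K) a' ∉
      AddSubgroup.zmultiples (QuotientAddGroup.mk' (powers p K) a))
    {H H' : AddSubgroup (fixedPts K.fixingSubgroup Idele)}
    (hH : IsKummerKer p a H) (hH' : IsKummerKer p a' H') : H ≠ H' := by
  classical
  rintro rfl
  obtain ⟨S₀, hS₀⟩ := exists_placeUnits_of_finset (K := K) {a, a'}
  obtain ⟨S, R, hsub, hR⟩ := exists_isGoodSet (K := K) p S₀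
  have hmem : ∀ b ∈ ({a, a'} : Finset _), b ∈ placeUnits K R := fun b hb j hj =>
    hS₀ b hb _ (fun h => hj (by rw [hR.cov]; exact hsub h)) _
  have haR := hmem a (Finset.mem_insert_self _ _)
  have haR' := hmem a' (Finset.mem_insert_of_mem (Finset.mem_singleton_self _))
  have := finite_unitClassesAway hK hR.places
  obtain ⟨F, i, i', hi, hi', hne⟩ := exists_dualFamily_pair
    (fun w => Subtype.ext (nsmul_powClass (p := p) w.1))
    (w := (⟨QuotientAddGroup.mk' _ a, a, haR, rfl⟩ : unitClassesAway p K R))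
    (w' := ⟨QuotientAddGroup.mk' _ a', a', haR', rfl⟩)
    (fun h => ha ((QuotientAddGroup.eq_zero_iff _).1 (congrArg Subtype.val h)))
    fun h => by
      obtain ⟨n, hn⟩ := AddSubgroup.mem_zmultiples_iff.1 h
      exact ha' (AddSubgroup.mem_zmultiples_iff.2 ⟨n, congrArg Subtype.val hn⟩)
  obtain ⟨P, rfl⟩ := exists_dualPlaces hK hR F
  have htop := P.eq_top hK hc hR H
    (baseGroup_le hR.cov hR.mem (exists_norm_eq_of_placeUnits haR) hH)
    fun k => by
      rcases eq_or_ne k i with rfl | hk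
      · exact P.pi_mem haR' hH' (by rw [← hi']; exact P.fam.off k i' hne)
      · exact P.pi_mem haR hH (by rw [← hi]; exact P.fam.off k i hk)
  have h1 := hH.dvd
  rw [htop, AddSubgroup.index_top] at h1
  exact hp.out.not_dvd_one h1

end FLTAgent.IdeleClassCohomology
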