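import Fermat.Agent.IdeleClassCohomology.CyclicStep
import Fermat.Agent.IdeleClassCohomology.IdeleParts
import Fermat.Agent.LocalDuality.NormIndex
import Mathlib.RepresentationTheory.Homological.GroupCohomology.Hilbert90
import Mathlib.GroupTheory.SpecificGroups.Cyclic.Basic

/-!
# The local extension at a place where a cyclic step does not split

`IsLocalGen` says that the generator lives at a place; `localExt` is then cyclic of degree `p`,
with local Herbrand indices `p` and `1` (`IsLocalGen.hIndex_localEnd`).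
-/

set_option autoImplicit false

noncomputable section

open Module

namespace FLTAgent.IdeleClassCohomology

open FLTAgent.GalCoh FLTAgent.GlobalDuality

namespace CyclicStep

variable {p : ℕ} [hp : Fact p.Prime] (D : CyclicStep p)

/-- `t` maps to the generator at the place `(q, σ)`. -/
def IsLocalGen (q : Nat.Primes) (σ : Gam) (t : LGal q) : Prop :=
  (loc q t * σ)⁻¹ * (σ * D.g) ∈ D.top

variable {D} {q : Nat.Primes} {σ : Gam} {t : LGal q}

omit hp in
theorem IsLocalGen.exists_eq (ht : D.IsLocalGen q σ t) :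
    ∃ n ∈ D.top, σ * D.g = loc q t * σ * n :=
  ⟨_, ht, (mul_inv_cancel_left _ _).symm⟩

omit hp in
theorem IsLocalGen.conj_eq (ht : D.IsLocalGen q σ t) :
    ∃ n ∈ D.top, σ⁻¹ * loc q t * σ = D.g * n := by
  obtain ⟨n, hn, h⟩ := ht.exists_eq
  refine ⟨n⁻¹, inv_mem hn, ?_⟩
  rw [show D.g = σ⁻¹ * (σ * D.g) by group, h]
  group

omit hp in
theorem IsLocalGen.mem_fix_bot (ht : D.IsLocalGen q σ t) :
    t ∈ (locField D.K q σ).fixingSubgroup := by
  obtain ⟨n, hn, h⟩ := ht.conj_eq
  rw [mem_fixingSubgroup_locField_iff, h]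
  exact mul_mem D.mem (D.top_le hn)

variable (D q σ) in
omit hp in
theorem locField_le : locField D.K q σ ≤ locField D.L q σ := by
  rw [← InfiniteGalois.fixedField_fixingSubgroup (locField D.K q σ),
    ← InfiniteGalois.fixedField_fixingSubgroup (locField D.L q σ)]
  refine IntermediateField.fixedField_antitone fun τ hτ => ?_
  rw [mem_fixingSubgroup_locField_iff] at hτ ⊢
  exact D.top_le hτ

theorem conj_loc_mul (τ τ' : LGal q) :
    σ⁻¹ * loc q (τ * τ') * σ = σ⁻¹ * loc q τ * σ * (σ⁻¹ * loc q τ' * σ) := by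
  rw [map_mul]; group

theorem IsLocalGen.pow_mem_iff (ht : D.IsLocalGen q σ t) (i : ℕ) :
    t ^ i ∈ (locField D.L q σ).fixingSubgroup ↔ p ∣ i := by
  rw [mem_fixingSubgroup_locField_iff, map_pow]
  obtain ⟨n, hn, h⟩ := ht.conj_eq
  rw [show σ⁻¹ * loc q t ^ i * σ = (σ⁻¹ * loc q t * σ) ^ i by
    rw [show σ⁻¹ * loc q t * σ = σ⁻¹ * loc q t * σ⁻¹⁻¹ by group, conj_pow]; group, h]
  have := D.normal
  have h1 : (D.g * n) ^ i ∈ D.top ↔ D.g ^ i ∈ D.top := by
    have e : ((QuotientGroup.mk (⟨D.g, D.mem⟩ * ⟨n, D.top_le hn⟩ : D.bot)) :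
        D.bot ⧸ D.top.subgroupOf D.bot) = QuotientGroup.mk ⟨D.g, D.mem⟩ := by
      rw [QuotientGroup.mk_mul_of_mem]
      exact hn
    have e' := congrArg (· ^ i) e
    simp only [← QuotientGroup.mk_pow] at e'
    constructor
    · intro hm
      rw [(QuotientGroup.eq_one_iff _).2 (show ((⟨D.g, D.mem⟩ : D.bot) *
        ⟨n, D.top_le hn⟩) ^ i ∈ D.top.subgroupOf D.bot from hm)] at e'
      exact (QuotientGroup.eq_one_iff (N := D.top.subgroupOf D.bot) _).1 e'.symm
    · intro hm
      rw [(QuotientGroup.eq_one_iff _).2 (show (⟨D.g, D.mem⟩ : D.bot) ^ i ∈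
        D.top.subgroupOf D.bot from hm)] at e'
      exact (QuotientGroup.eq_one_iff (N := D.top.subgroupOf D.bot) _).1 e'
  rw [h1, D.pow_mem_iff]

theorem IsLocalGen.exists_pow_mul (ht : D.IsLocalGen q σ t) {τ : LGal q}
    (hτ : τ ∈ (locField D.K q σ).fixingSubgroup) :
    ∃ i < p, (t ^ i)⁻¹ * τ ∈ (locField D.L q σ).fixingSubgroup := by
  obtain ⟨i, hi, h⟩ := D.exists_pow_mul (mem_fixingSubgroup_locField_iff.1 hτ)
  refine ⟨i, hi, ?_⟩
  rw [mem_fixingSubgroup_locField_iff]
  obtain ⟨n, hn, e⟩ := ht.conj_eq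
  have hpow : ∀ j : ℕ, (σ⁻¹ * loc q (t ^ j) * σ)⁻¹ * D.g ^ j ∈ D.top := by
    intro j
    induction j with
    | zero => simp [one_mem]
    | succ j ih =>
      rw [pow_succ t, conj_loc_mul, e, pow_succ]
      have := D.top.mul_mem (inv_mem hn) (D.conj_mem (inv_mem D.mem) ih)
      convert this using 1
      group
  have := mul_mem (hpow i) h
  convert this using 1
  rw [map_mul, map_inv]
  group

/-- The local top field over the local bottom field. -/
abbrev localExt (D : CyclicStep p) (q : Nat.Primes) (σ : Gam) :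
    IntermediateField (locField D.K q σ) (PadicAlgCl (q : ℕ)) :=
  IntermediateField.extendScalars (locField_le D q σ)

omit hp in
theorem mem_localExt_fixingSubgroup
    {τ : PadicAlgCl (q : ℕ) ≃ₐ[locField D.K q σ] PadicAlgCl (q : ℕ)} :
    τ ∈ (localExt D q σ).fixingSubgroup ↔
      τ.restrictScalars ℚ_[(q : ℕ)] ∈ (locField D.L q σ).fixingSubgroup := by
  rw [IntermediateField.mem_fixingSubgroup_iff, IntermediateField.mem_fixingSubgroup_iff]
  exact ⟨fun h x hx => h x hx, fun h x hx => h x hx⟩

omit hp in
theorem isGalois_localExt :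
    IsGalois (locField D.K q σ) (localExt D q σ) := by
  have : IsGalois (locField D.K q σ) (PadicAlgCl (q : ℕ)) :=
    IsGalois.tower_top_of_isGalois ℚ_[(q : ℕ)] _ _
  rw [← InfiniteGalois.normal_iff_isGalois]
  refine ⟨fun m hm n => ?_⟩
  rw [mem_localExt_fixingSubgroup, mem_fixingSubgroup_locField_iff] at hm ⊢
  have hn : n.restrictScalars ℚ_[(q : ℕ)] ∈ (locField D.K q σ).fixingSubgroup :=
    (IntermediateField.mem_fixingSubgroup_iff _ _).2 fun x hx => n.commutes ⟨x, hx⟩
  rw [mem_fixingSubgroup_locField_iff] at hn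
  have h := D.conj_mem hn hm
  rw [show (n * m * n⁻¹).restrictScalars ℚ_[(q : ℕ)] = n.restrictScalars ℚ_[(q : ℕ)] *
    m.restrictScalars ℚ_[(q : ℕ)] * (n.restrictScalars ℚ_[(q : ℕ)])⁻¹ from rfl, map_mul, map_mul,
    map_inv]
  convert h using 1
  group

theorem IsLocalGen.relIndex_eq (ht : D.IsLocalGen q σ t) :
    (locField D.L q σ).fixingSubgroup.relIndex (locField D.K q σ).fixingSubgroup = p := by
  set H := (locField D.K q σ).fixingSubgroup
  let f : Fin p → H ⧸ (locField D.L q σ).fixingSubgroup.subgroupOf H := fun i =>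
    QuotientGroup.mk ⟨t ^ (i : ℕ), H.pow_mem ht.mem_fix_bot _⟩
  have hf : Function.Bijective f :=
    bijective_quotient_pow ht.mem_fix_bot ht.pow_mem_iff fun x hx => ht.exists_pow_mul hx
  show Nat.card (H ⧸ _) = p
  rw [← Nat.card_congr (Equiv.ofBijective f hf), Nat.card_fin]

theorem IsLocalGen.finrank_localExt (ht : D.IsLocalGen q σ t) :
    finrank (locField D.K q σ) (localExt D q σ) = p := by
  have := finiteDimensional_locField (K := D.K) (q := q) (σ := σ)
  have h1 : finrank ℚ_[(q : ℕ)] (locField D.K q σ) *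
      finrank (locField D.K q σ) (localExt D q σ) = finrank ℚ_[(q : ℕ)] (locField D.L q σ) :=
    finrank_mul_finrank ℚ_[(q : ℕ)] (locField D.K q σ) (localExt D q σ)
  have eK := IntermediateField.finrank_eq_fixingSubgroup_index (PadicAlgCl (q : ℕ))
    (locField D.K q σ)
  have eL := IntermediateField.finrank_eq_fixingSubgroup_index (PadicAlgCl (q : ℕ))
    (locField D.L q σ)
  have hle : (locField D.L q σ).fixingSubgroup ≤ (locField D.K q σ).fixingSubgroup :=
    IntermediateField.fixingSubgroup_antitone (locField_le D q σ)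
  rw [eL, ← Subgroup.relIndex_mul_index hle, ← eK, ht.relIndex_eq, mul_comm p] at h1
  exact Nat.eq_of_mul_eq_mul_left Module.finrank_pos h1

section Module

/-- The nonzero elements of the local top field. -/
def localTop (D : CyclicStep p) (q : Nat.Primes) (σ : Gam) : AddSubgroup (LU q) where
  carrier := {a : LU q | LU.val a ∈ locField D.L q σ}
  zero_mem' := (locField D.L q σ).one_mem
  add_mem' {a b} (ha : LU.val a ∈ locField D.L q σ) (hb : LU.val b ∈ locField D.L q σ) :=
    (locField D.L q σ).mul_mem ha hb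
  neg_mem' {a} (ha : LU.val a ∈ locField D.L q σ) := by
    show ((a.toMul⁻¹ : (PadicAlgCl (q : ℕ))ˣ) : PadicAlgCl (q : ℕ)) ∈ locField D.L q σ
    rw [Units.val_inv_eq_inv_val]
    exact (locField D.L q σ).inv_mem ha

omit hp in
theorem IsLocalGen.smul_mem (ht : D.IsLocalGen q σ t) {a : LU q} (ha : a ∈ localTop D q σ) :
    t • a ∈ localTop D q σ := by
  show (t • a).val ∈ locField D.L q σ
  rw [← InfiniteGalois.fixedField_fixingSubgroup (locField D.L q σ),
    IntermediateField.mem_fixedField_iff]
  intro τ hτ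
  have hconj : t⁻¹ * τ * t ∈ (locField D.L q σ).fixingSubgroup := by
    rw [mem_fixingSubgroup_locField_iff] at hτ ⊢
    have hb := mem_fixingSubgroup_locField_iff.1 ht.mem_fix_bot
    have := D.conj_mem (inv_mem hb) hτ
    rw [map_mul, map_mul, map_inv]
    convert this using 1
    group
  have := (IntermediateField.mem_fixingSubgroup_iff _ _).1 hconj a.val ha
  rw [LU.val_smul]
  have h2 := congrArg t this
  rwa [← AlgEquiv.mul_apply, show t * (t⁻¹ * τ * t) = τ * t by group, AlgEquiv.mul_apply] at h2

/-- The local generator acting on the local top field. -/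
def localEnd (ht : D.IsLocalGen q σ t) : AddMonoid.End (localTop D q σ) :=
  ((DistribSMul.toAddMonoidHom (LU q) t).comp (localTop D q σ).subtype).codRestrict _
    fun a => ht.smul_mem a.2

omit hp in
theorem coe_localEnd_pow (ht : D.IsLocalGen q σ t) (i : ℕ) (a : localTop D q σ) :
    ((localEnd ht ^ i) a : LU q) = t ^ i • (a : LU q) := by
  induction i with
  | zero => simp
  | succ i ih =>
    rw [pow_succ', AddMonoid.End.coe_mul, Function.comp_apply, pow_succ', mul_smul, ← ih]
    rfl

theorem val_sum_range (a : LU q) (k : ℕ) :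
    (∑ i ∈ Finset.range k, t ^ i • a).val = ∏ i ∈ Finset.range k, (t ^ i) a.val := by
  induction k with
  | zero => rfl
  | succ k ih => rw [Finset.sum_range_succ, Finset.prod_range_succ, LU.val_add, ih, LU.val_smul]

/-- The local Herbrand indices. -/
theorem IsLocalGen.hIndex_localEnd (ht : D.IsLocalGen q σ t) :
    hIndex (localEnd ht - 1 : AddMonoid.End _) (cycNorm p (localEnd ht)) = p ∧
      hIndex (cycNorm p (localEnd ht)) (localEnd ht - 1 : AddMonoid.End _) = 1 := by
  have := finiteDimensional_locField (K := D.K) (q := q) (σ := σ)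
  have : FiniteDimensional (locField D.K q σ) (localExt D q σ) :=
    FiniteDimensional.of_finrank_pos (lt_of_lt_of_eq hp.out.pos ht.finrank_localExt.symm)
  have := isGalois_localExt (D := D) (q := q) (σ := σ)
  have hcard : Nat.card (localExt D q σ ≃ₐ[locField D.K q σ] localExt D q σ) = p :=
    (IsGalois.card_aut_eq_finrank _ _).trans ht.finrank_localExt
  have : IsCyclic (localExt D q σ ≃ₐ[locField D.K q σ] localExt D q σ) :=
    isCyclic_of_prime_card hcard
  -- the restriction of `t`
  let tF : PadicAlgCl (q : ℕ) ≃ₐ[locField D.K q σ] PadicAlgCl (q : ℕ) :=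
    IntermediateField.fixingSubgroupEquiv _ ⟨t, ht.mem_fix_bot⟩
  let g : localExt D q σ ≃ₐ[locField D.K q σ] localExt D q σ :=
    tF.restrictNormal (localExt D q σ)
  have hg : ∀ x : localExt D q σ, (g x : PadicAlgCl (q : ℕ)) = t (x : PadicAlgCl (q : ℕ)) :=
    fun x => AlgEquiv.restrictNormal_commutes tF (localExt D q σ) x
  have hgpow : ∀ (i : ℕ) (x : localExt D q σ),
      ((g ^ i) x : PadicAlgCl (q : ℕ)) = (t ^ i) (x : PadicAlgCl (q : ℕ)) := by
    intro i
    induction i with
    | zero => simp
    | succ i ih =>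
      intro x
      rw [pow_succ', AlgEquiv.mul_apply, hg, ih, pow_succ', AlgEquiv.mul_apply]
  have hg1 : g ≠ 1 := by
    intro h
    have h1 : t ∈ (locField D.L q σ).fixingSubgroup := by
      rw [IntermediateField.mem_fixingSubgroup_iff]
      intro x hx
      rw [← hg ⟨x, hx⟩, h, AlgEquiv.one_apply]
    rw [← pow_one t, ht.pow_mem_iff] at h1
    exact hp.out.not_dvd_one h1
  have hgen : ∀ x, x ∈ Subgroup.zpowers g := fun x => mem_zpowers_of_prime_card hcard hg1
  have hnorm : ∀ x : localExt D q σ,
      ((Algebra.norm (locField D.K q σ) x : locField D.K q σ) : PadicAlgCl (q : ℕ)) =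
        ∏ i ∈ Finset.range p, (t ^ i) (x : PadicAlgCl (q : ℕ)) := by
    intro x
    have hord : orderOf g = p := (orderOf_eq_card_of_forall_mem_zpowers hgen).trans hcard
    have h := congrArg (fun y : localExt D q σ => (y : PadicAlgCl (q : ℕ)))
      (Algebra.norm_eq_prod_automorphisms (locField D.K q σ) x)
    refine h.trans ?_
    rw [← Finset.prod_bij (fun i _ => g ^ i) (fun i _ => Finset.mem_univ _)
      (s := Finset.range p) (f := fun i => (g ^ i) x)]
    · rw [show ((∏ i ∈ Finset.range p, (g ^ i) x : localExt D q σ) : PadicAlgCl (q : ℕ)) =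
        ∏ i ∈ Finset.range p, (((g ^ i) x : localExt D q σ) : PadicAlgCl (q : ℕ)) from
        map_prod (localExt D q σ).val _ _]
      exact Finset.prod_congr rfl fun i _ => hgpow i x
    · intro i hi j hj hij
      exact pow_injOn_Iio_orderOf (lt_of_lt_of_eq (Finset.mem_range.1 hi) hord.symm)
        (lt_of_lt_of_eq (Finset.mem_range.1 hj) hord.symm) hij
    · intro y _
      obtain ⟨i, hi⟩ := (mem_powers_iff_mem_zpowers (x := g)).2 (hgen y)
      exact ⟨i % p, Finset.mem_range.2 (Nat.mod_lt _ hp.out.pos),
        ((congrArg (fun k => g ^ (i % k)) hord.symm).trans (pow_mod_orderOf g i)).trans hi⟩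
    · exact fun i _ => rfl
  have hN : ∀ a : localTop D q σ, ((cycNorm p (localEnd ht) a : localTop D q σ) : LU q) =
      ∑ i ∈ Finset.range p, t ^ i • (a : LU q) := by
    intro a
    rw [cycNorm, end_sum_apply, AddSubgroup.val_finsetSum]
    simp only [coe_localEnd_pow]
  constructor
  · -- fixed points modulo norms
    let φ : Additive (locField D.K q σ)ˣ →+ localTop D q σ :=
      (MonoidHom.toAdditive (Units.map (locField D.K q σ).val.toRingHom.toMonoidHom)).codRestrict
        _ fun u => locField_le D q σ (SetLike.coe_mem _)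
    have hφ : Function.Injective φ := fun u v h =>
      Additive.toMul.injective (Units.ext (Subtype.ext
        (congrArg (fun a : localTop D q σ => (a : LU q).val) h)))
    let N : (localExt D q σ)ˣ →* (locField D.K q σ)ˣ :=
      Units.map (Algebra.norm (locField D.K q σ))
    have hker : AddMonoidHom.ker (localEnd ht - 1 : AddMonoid.End _) = φ.range := by
      ext a
      rw [AddMonoidHom.mem_range]
      refine (sub_eq_zero (a := localEnd ht a) (b := a)).trans ?_
      constructor
      · intro h
        have h1 : t (a : LU q).val = (a : LU q).val :=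
          congrArg (fun b : localTop D q σ => (b : LU q).val) h
        have h2 : (a : LU q).val ∈ locField D.K q σ := by
          rw [← InfiniteGalois.fixedField_fixingSubgroup (locField D.K q σ),
            IntermediateField.mem_fixedField_iff]
          intro τ hτ
          obtain ⟨i, -, hi⟩ := ht.exists_pow_mul hτ
          have hfix := (IntermediateField.mem_fixingSubgroup_iff _ _).1 hi _ a.2
          have hp' : ∀ j : ℕ, (t ^ j) (a : LU q).val = (a : LU q).val := by
            intro j
            induction j with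
            | zero => simp
            | succ j ih => rw [pow_succ, AlgEquiv.mul_apply, h1, ih]
          rw [show τ = t ^ i * ((t ^ i)⁻¹ * τ) by group, AlgEquiv.mul_apply, hfix, hp']
        exact ⟨Additive.ofMul (Units.mk0 ⟨_, h2⟩ fun h0 => Units.ne_zero (a : LU q).toMul
          (congrArg Subtype.val h0)), Subtype.ext (LU.ext rfl)⟩
      · rintro ⟨u, rfl⟩
        exact Subtype.ext (LU.ext ((IntermediateField.mem_fixingSubgroup_iff _ _).1 ht.mem_fix_bot
          _ (SetLike.coe_mem _)))
    have hrange : AddMonoidHom.range (cycNorm p (localEnd ht)) =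
        (Subgroup.toAddSubgroup N.range).map φ := by
      ext a
      constructor
      · rintro ⟨b, rfl⟩
        refine ⟨Additive.ofMul (N (Units.mk0 ⟨(b : LU q).val, b.2⟩
          fun h0 => Units.ne_zero (b : LU q).toMul (congrArg Subtype.val h0))),
          ⟨_, rfl⟩, Subtype.ext (LU.ext ?_)⟩
        exact (hnorm _).trans ((val_sum_range _ p).symm.trans (congrArg LU.val (hN b).symm))
      · rintro ⟨u, ⟨y, hy⟩, rfl⟩
        refine ⟨⟨Additive.ofMul (Units.map (localExt D q σ).val.toRingHom.toMonoidHom y),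
          (y : localExt D q σ).2⟩, Subtype.ext (LU.ext ?_)⟩
        refine (congrArg LU.val (hN _)).trans ((val_sum_range _ p).trans ?_)
        refine (hnorm (y : localExt D q σ)).symm.trans ?_
        exact congrArg (fun w : (locField D.K q σ)ˣ =>
          ((w : locField D.K q σ) : PadicAlgCl (q : ℕ))) hy
    refine (congrArg₂ AddSubgroup.relIndex hrange hker).trans ?_
    rw [AddMonoidHom.range_eq_map, AddSubgroup.relIndex_map_map_of_injective _ _ hφ,
      AddSubgroup.relIndex_top_right]
    show N.range.index = p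
    exact (FLTAgent.LocalDuality.local_index_norm_range (q : ℕ) (locField D.K q σ)
      (localExt D q σ)).trans ht.finrank_localExt
  · rw [hIndex, AddSubgroup.relIndex_eq_one]
    intro a ha
    have h1 : (∑ i ∈ Finset.range p, t ^ i • (a : LU q)) = 0 := by
      rw [← hN]; exact congrArg Subtype.val ha
    have h2 : Algebra.norm (locField D.K q σ) (⟨(a : LU q).val, a.2⟩ : localExt D q σ) = 1 := by
      refine Subtype.ext ((hnorm _).trans ?_)
      rw [← val_sum_range, h1]
      rfl
    obtain ⟨y, hy⟩ := groupCohomology.exists_div_of_norm_eq_one hgen h2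
    refine ⟨-⟨Additive.ofMul (Units.map (localExt D q σ).val.toRingHom.toMonoidHom y),
      (y : localExt D q σ).2⟩, Subtype.ext (LU.ext ?_)⟩
    rw [map_neg]
    show ((((t • (Additive.ofMul (Units.map (localExt D q σ).val.toRingHom.toMonoidHom y) : LU q))
      - Additive.ofMul (Units.map (localExt D q σ).val.toRingHom.toMonoidHom y)).toMul)⁻¹ :
        (PadicAlgCl (q : ℕ))ˣ).val = _
    have h3 := congrArg (fun z : localExt D q σ => (z : PadicAlgCl (q : ℕ))) hy
    simp only at h3
    rw [Units.val_inv_eq_inv_val, toMul_sub, Units.val_div_eq_div_val, inv_div]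
    refine Eq.trans ?_ h3
    push_cast
    rw [hg]
    rfl

end Module

end CyclicStep

end FLTAgent.IdeleClassCohomology
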