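import Fermat.Agent.IdeleClassCohomology.LocalStep
import Mathlib.Analysis.Normed.Group.Ultra
import Mathlib.Algebra.Order.Ring.IsNonarchimedean
import Mathlib.LinearAlgebra.Basis.VectorSpace

/-!
# At almost all primes the local extensions of a cyclic step are unramified

`exists_finset_unramified`: outside a finite set of primes the value groups agree at every place
where the step does not split.
-/

set_option autoImplicit false

noncomputable section

open Module

namespace FLTAgent.IdeleClassCohomology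

open FLTAgent.GalCoh FLTAgent.GlobalDuality

namespace CyclicStep

variable {p : ℕ} [hp : Fact p.Prime] {D : CyclicStep p} {q : Nat.Primes} {σ : Gam} {t : LGal q}

theorem IsLocalGen.mem_bot_of_smul_eq (ht : D.IsLocalGen q σ t) {a : LU q}
    (ha : a ∈ localTop D q σ) (h : t • a = a) : a.val ∈ locField D.K q σ := by
  rw [← InfiniteGalois.fixedField_fixingSubgroup (locField D.K q σ),
    IntermediateField.mem_fixedField_iff]
  intro τ hτ
  obtain ⟨i, -, hi⟩ := ht.exists_pow_mul hτ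
  have hp' : ∀ j : ℕ, t ^ j • a = a := by
    intro j
    induction j with
    | zero => rw [pow_zero, one_smul]
    | succ j ih => rw [pow_succ, mul_smul, h, ih]
  rw [show τ = t ^ i * ((t ^ i)⁻¹ * τ) by group, AlgEquiv.mul_apply,
    (IntermediateField.mem_fixingSubgroup_iff _ _).1 hi _ ha]
  exact congrArg LU.val (hp' i)

/-- A norm from the local top field takes the `p`-th power of the absolute value. -/
theorem IsLocalGen.exists_norm_pow_eq (ht : D.IsLocalGen q σ t) {y : LU q}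
    (hy : y ∈ localTop D q σ) :
    ∃ e ∈ locField D.K q σ, e ≠ 0 ∧ ‖e‖ = ‖y.val‖ ^ p := by
  refine ⟨(∑ i ∈ Finset.range p, t ^ i • y).val, ?_, Units.ne_zero _, ?_⟩
  · have hpow : ∀ i : ℕ, t ^ i • y ∈ localTop D q σ := by
      intro i
      induction i with
      | zero => rwa [pow_zero, one_smul]
      | succ i ih => rw [pow_succ', mul_smul]; exact ht.smul_mem ih
    refine ht.mem_bot_of_smul_eq (sum_mem fun i _ => hpow i) ?_
    have hfix : t ^ p • y = y := LU.ext ((IntermediateField.mem_fixingSubgroup_iff _ _).1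
      ((ht.pow_mem_iff p).2 dvd_rfl) _ hy)
    rw [Finset.smul_sum]
    simp only [← mul_smul, ← pow_succ']
    apply add_right_cancel (b := t ^ 0 • y)
    rw [← Finset.sum_range_succ' (fun i => t ^ i • y), Finset.sum_range_succ, hfix, pow_zero,
      one_smul]
  · rw [val_sum_range, norm_prod]
    simp only [← LU.val_smul, norm_smul_LU, Finset.prod_const, Finset.card_range]

/-- If an integral element is moved by a unit, the value groups agree. -/
theorem IsLocalGen.exists_norm_eq (ht : D.IsLocalGen q σ t) {θ : PadicAlgCl (q : ℕ)}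
    (hθ : θ ∈ locField D.L q σ) (hθ1 : ‖θ‖ ≤ 1) (hmove : ‖t θ - θ‖ = 1)
    {y : LU q} (hy : y ∈ localTop D q σ) :
    ∃ e ∈ locField D.K q σ, e ≠ 0 ∧ ‖e‖ = ‖y.val‖ := by
  by_contra hno
  set r := ‖y.val‖
  have hr : 0 < r := norm_pos_iff.2 (Units.ne_zero _)
  set E := locField D.K q σ
  obtain ⟨e₀, he₀, he₀0, he₀r⟩ := ht.exists_norm_pow_eq hy
  -- a proper power of `r` is not a value of `E`
  have hpow : ∀ k : ℕ, ¬ p ∣ k → ∀ e : E, (e : PadicAlgCl (q : ℕ)) ≠ 0 →
      ‖(e : PadicAlgCl (q : ℕ))‖ ≠ r ^ k := by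
    intro k hk e he heq
    obtain ⟨a, b, hab⟩ := (Nat.prime_iff_prime_int.1 hp.out).coprime_iff_not_dvd.2
      (fun h => hk (Int.natCast_dvd_natCast.1 h))
    refine hno ⟨e₀ ^ a * (e : PadicAlgCl (q : ℕ)) ^ b,
      E.mul_mem (zpow_mem he₀ _) (zpow_mem e.2 _), ?_, ?_⟩
    · exact mul_ne_zero (zpow_ne_zero _ he₀0) (zpow_ne_zero _ he)
    · rw [norm_mul, norm_zpow, norm_zpow, he₀r, heq, ← zpow_natCast, ← zpow_natCast, ← zpow_mul,
        ← zpow_mul, ← zpow_add₀ hr.ne', mul_comm (p : ℤ), mul_comm (k : ℤ), hab, zpow_one]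
  have hna : IsNonarchimedean fun x : PadicAlgCl (q : ℕ) => ‖x‖ := fun a b =>
    IsUltrametricDist.norm_add_le_max a b
  -- the powers of `y` form a basis
  let v : Fin p → localExt D q σ := fun i =>
    ⟨y.val ^ (i : ℕ), (locField D.L q σ).toSubfield.pow_mem hy _⟩
  have hv : ∀ c : Fin p → E,
      ((∑ i, c i • v i : localExt D q σ) : PadicAlgCl (q : ℕ)) =
        ∑ i : Fin p, (c i : PadicAlgCl (q : ℕ)) * y.val ^ (i : ℕ) := by
    intro c
    rw [AddSubmonoidClass.coe_finsetSum]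
    rfl
  have hdist : ∀ (c : Fin p → E) (i j : Fin p), i ≠ j → (c i : PadicAlgCl (q : ℕ)) ≠ 0 →
      (c j : PadicAlgCl (q : ℕ)) ≠ 0 →
      ‖(c i : PadicAlgCl (q : ℕ)) * y.val ^ (i : ℕ)‖ ≠
        ‖(c j : PadicAlgCl (q : ℕ)) * y.val ^ (j : ℕ)‖ := by
    intro c
    have key : ∀ i j : Fin p, (i : ℕ) < j → (c i : PadicAlgCl (q : ℕ)) ≠ 0 →
        (c j : PadicAlgCl (q : ℕ)) ≠ 0 →
        ‖(c i : PadicAlgCl (q : ℕ)) * y.val ^ (i : ℕ)‖ ≠
          ‖(c j : PadicAlgCl (q : ℕ)) * y.val ^ (j : ℕ)‖ := by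
      intro i j hij hi hj h
      refine hpow ((j : ℕ) - i) (fun hd => ?_) (c i / c j) ?_ ?_
      · have := Nat.eq_zero_of_dvd_of_lt hd (by omega)
        omega
      · push_cast; exact div_ne_zero hi hj
      · push_cast
        rw [norm_mul, norm_mul, norm_pow, norm_pow,
          show (j : ℕ) = i + ((j : ℕ) - i) by omega, pow_add] at h
        rw [norm_div, div_eq_iff (norm_ne_zero_iff.2 hj)]
        apply mul_right_cancel₀ (pow_ne_zero (i : ℕ) hr.ne')
        linear_combination h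
    intro i j hne hi hj
    rcases lt_or_gt_of_ne (fun h => hne (Fin.ext h) : (i : ℕ) ≠ j) with h | h
    · exact key i j h hi hj
    · exact (key j i h hj hi).symm
  have hmax : ∀ c : Fin p → E, (∃ i, (c i : PadicAlgCl (q : ℕ)) ≠ 0) → ∃ k,
      (c k : PadicAlgCl (q : ℕ)) ≠ 0 ∧
      (∀ j, ‖(c j : PadicAlgCl (q : ℕ)) * y.val ^ (j : ℕ)‖ ≤
        ‖(c k : PadicAlgCl (q : ℕ)) * y.val ^ (k : ℕ)‖) ∧
      ‖∑ i : Fin p, (c i : PadicAlgCl (q : ℕ)) * y.val ^ (i : ℕ)‖ =
        ‖(c k : PadicAlgCl (q : ℕ)) * y.val ^ (k : ℕ)‖ := by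
    intro c ⟨i₀, hi₀⟩
    obtain ⟨k, -, hk⟩ := Finset.exists_max_image Finset.univ
      (fun i : Fin p => ‖(c i : PadicAlgCl (q : ℕ)) * y.val ^ (i : ℕ)‖) ⟨i₀, Finset.mem_univ _⟩
    have hk0 : (c k : PadicAlgCl (q : ℕ)) ≠ 0 := by
      intro h
      have h1 := hk i₀ (Finset.mem_univ _)
      rw [h, zero_mul, norm_zero, norm_le_zero_iff] at h1
      exact mul_ne_zero hi₀ (pow_ne_zero _ (Units.ne_zero _)) h1
    refine ⟨k, hk0, fun j => hk j (Finset.mem_univ _), ?_⟩
    refine hna.apply_sum_eq_of_lt (f := fun x : PadicAlgCl (q : ℕ) => ‖x‖)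
      (fun a => (norm_neg a).symm) (Finset.mem_univ k) fun j _ hj => ?_
    refine lt_of_le_of_ne (hk j (Finset.mem_univ _)) ?_
    rcases eq_or_ne (c j : PadicAlgCl (q : ℕ)) 0 with h0 | h0
    · rw [h0, zero_mul, norm_zero]
      exact fun h => mul_ne_zero hk0 (pow_ne_zero _ (Units.ne_zero _)) (norm_eq_zero.1 h.symm)
    · exact hdist c j k hj h0 hk0
  have hli : LinearIndependent E v := by
    rw [Fintype.linearIndependent_iff]
    intro c hc i
    by_contra hi
    obtain ⟨k, hk0, -, hsum⟩ := hmax c ⟨i, fun h => hi (Subtype.ext h)⟩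
    rw [← hv, hc, ZeroMemClass.coe_zero, norm_zero] at hsum
    exact mul_ne_zero hk0 (pow_ne_zero _ (Units.ne_zero _)) (norm_eq_zero.1 hsum.symm)
  have : Nonempty (Fin p) := ⟨⟨0, hp.out.pos⟩⟩
  have := finiteDimensional_locField (K := D.K) (q := q) (σ := σ)
  have hspan : Submodule.span E (Set.range v) = ⊤ :=
    hli.span_eq_top_of_card_eq_finrank (by rw [Fintype.card_fin, ht.finrank_localExt])
  obtain ⟨c, hc⟩ := Submodule.mem_span_range_iff_exists_fun (R := E) |>.1
    (hspan ▸ Submodule.mem_top : (⟨θ, hθ⟩ : localExt D q σ) ∈ Submodule.span E (Set.range v))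
  have hθeq : θ = ∑ i : Fin p, (c i : PadicAlgCl (q : ℕ)) * y.val ^ (i : ℕ) := by
    rw [← hv, hc]
  set z : Fin p := ⟨0, hp.out.pos⟩
  have hlt : ‖θ - c z‖ < 1 := by
    rw [hθeq, ← Finset.add_sum_erase _ _ (Finset.mem_univ z), show (z : ℕ) = 0 from rfl, pow_zero,
      mul_one, add_sub_cancel_left]
    obtain ⟨m, hm, hle⟩ := IsUltrametricDist.exists_norm_finsetSum_le (Finset.univ.erase z)
      (fun i : Fin p => (c i : PadicAlgCl (q : ℕ)) * y.val ^ (i : ℕ))
    rcases (Finset.univ.erase z).eq_empty_or_nonempty with h | h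
    · rw [h, Finset.sum_empty, norm_zero]; exact one_pos
    refine lt_of_le_of_lt hle ?_
    have hm' := Finset.mem_erase.1 (hm h)
    rcases eq_or_ne (c m : PadicAlgCl (q : ℕ)) 0 with h0 | h0
    · rw [h0, zero_mul, norm_zero]; exact one_pos
    refine lt_of_le_of_ne ?_ fun heq => ?_
    · obtain ⟨k, -, hk, hsum⟩ := hmax c ⟨m, h0⟩
      rw [← hθeq] at hsum
      exact (hk m).trans (hsum ▸ hθ1)
    · refine hpow m (fun hd => hm'.1 (Fin.ext ?_)) (c m)⁻¹ ?_ ?_
      · exact Nat.eq_zero_of_dvd_of_lt hd m.2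
      · push_cast; exact inv_ne_zero h0
      · push_cast
        rw [norm_mul, norm_pow] at heq
        rw [norm_inv]
        exact inv_eq_of_mul_eq_one_right heq
  have hfix : t (c z : PadicAlgCl (q : ℕ)) = c z :=
    (IntermediateField.mem_fixingSubgroup_iff _ _).1 ht.mem_fix_bot _ (c z).2
  have h2 : ‖t (θ - c z)‖ = ‖θ - c z‖ :=
    congrArg NNReal.toReal (nnnorm_padicAlgCl_algEquiv (q : ℕ) t _)
  have h3 : t θ - θ = t (θ - c z) + -(θ - c z) := by rw [map_sub, hfix]; ring
  rw [h3] at hmove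
  have h4 := IsUltrametricDist.norm_add_le_max (t (θ - c z)) (-(θ - c z))
  rw [hmove, norm_neg, h2, max_self] at h4
  exact absurd hlt (not_lt.2 h4)

variable (D) in
/-- Outside a finite set of primes the value groups agree at every non-split place. -/
theorem exists_finset_unramified :
    ∃ T : Finset Nat.Primes, ∀ q ∉ T, ∀ (σ : Gam) (t : LGal q), D.IsLocalGen q σ t →
      ∀ y ∈ localTop D q σ, ∃ e ∈ locField D.K q σ, e ≠ 0 ∧ ‖e‖ = ‖(y : LU q).val‖ := by
  classical
  obtain ⟨α, hα⟩ := Field.exists_primitive_element ℚ D.L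
  have hgen : ∀ h : Gam, h (α : QQbar) = α → h ∈ D.top := by
    intro h hh
    rw [IntermediateField.mem_fixingSubgroup_iff]
    intro x hx
    have hx' : (⟨x, hx⟩ : D.L) ∈ IntermediateField.adjoin ℚ {α} := by rw [hα]; exact trivial
    have key : ∀ y : D.L, y ∈ IntermediateField.adjoin ℚ {α} → h (y : QQbar) = y := by
      intro y hy
      induction hy using IntermediateField.adjoin_induction with
      | mem y hy => rw [Set.mem_singleton_iff.1 hy]; exact hh
      | algebraMap r => exact h.commutes r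
      | add x y _ _ hx hy => push_cast; rw [map_add, hx, hy]
      | inv x _ hx => push_cast; rw [map_inv₀, hx]
      | mul x y _ _ hx hy => push_cast; rw [map_mul, hx, hy]
    exact key _ hx'
  have hα0 : (α : QQbar) ≠ 0 := by
    intro h0
    exact D.notMem (hgen D.g (by rw [h0, map_zero]))
  let a : GU := Additive.ofMul (Units.mk0 (α : QQbar) hα0)
  have hC : (Set.range fun h : Gam => h (α : QQbar) - α).Finite := by
    refine (((minpoly ℚ (α : QQbar)).rootSet_finite QQbar).image fun z => z - (α : QQbar)).subset ?_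
    rintro _ ⟨h, rfl⟩
    refine ⟨h α, ?_, rfl⟩
    rw [Polynomial.mem_rootSet]
    refine ⟨minpoly.ne_zero (Algebra.IsIntegral.isIntegral _), ?_⟩
    rw [Polynomial.aeval_algHom_apply, minpoly.aeval, map_zero]
  let bad : Set Nat.Primes := {q | ∃ γ : Gam, ‖emb q (γ a.val)‖ ≠ 1} ∪
    ⋃ z ∈ Set.range (fun h : Gam => h (α : QQbar) - α),
      {q | ∃ hz : z ≠ 0, ∃ γ : Gam, ‖emb q (γ z)‖ ≠ 1}
  have hbad : bad.Finite := by
    refine (finite_norm_emb_ne_one a).union (hC.biUnion fun z _ => ?_)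
    by_cases hz : z = 0
    · exact Set.finite_empty.subset fun q ⟨h, _⟩ => (h hz).elim
    · exact (finite_norm_emb_ne_one (Additive.ofMul (Units.mk0 z hz))).subset fun q ⟨_, h⟩ => h
  refine ⟨hbad.toFinset, fun q hq σ t ht y hy => ?_⟩
  rw [Set.Finite.mem_toFinset] at hq
  have hθ1 : ‖emb q (σ (α : QQbar))‖ = 1 := by
    by_contra h
    exact hq (Or.inl ⟨σ, h⟩)
  obtain ⟨n, hn, hc⟩ := ht.conj_eq
  have hne : (σ⁻¹ * loc q t * σ) (α : QQbar) - α ≠ 0 := by
    rw [sub_ne_zero, hc]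
    intro h
    exact D.notMem ((D.top.mul_mem_cancel_right hn).1 (hgen _ h))
  have hmove : ‖t (emb q (σ (α : QQbar))) - emb q (σ (α : QQbar))‖ = 1 := by
    rw [← padicEmbedding_localGaloisToGlobal, ← map_sub]
    have : loc q t (σ (α : QQbar)) - σ α = σ ((σ⁻¹ * loc q t * σ) (α : QQbar) - α) := by
      rw [map_sub, ← AlgEquiv.mul_apply σ, show σ * (σ⁻¹ * loc q t * σ) = loc q t * σ by group,
        AlgEquiv.mul_apply]
    rw [this]
    by_contra h
    exact hq (Or.inr (Set.mem_biUnion ⟨_, rfl⟩ ⟨hne, σ, h⟩))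
  exact ht.exists_norm_eq (placeEmb_mem_locField (K := D.L) α) hθ1.le hmove hy

end CyclicStep

end FLTAgent.IdeleClassCohomology
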