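import Fermat.Agent.IdeleClassCohomology.CyclicStep
import Mathlib.NumberTheory.NumberField.Units.DirichletTheorem
import Mathlib.NumberTheory.NumberField.InfinitePlace.Ramification
import Mathlib.LinearAlgebra.Dimension.Torsion.Basic

/-!
# The Herbrand quotient of global units in a cyclic step of prime degree

`herbrand_units`: it is `1/p` when the infinite places split completely (`InfSplit`).
-/

set_option autoImplicit false

noncomputable section

open NumberField Module

namespace FLTAgent.IdeleClassCohomology

open FLTAgent.GalCoh FLTAgent.GlobalDuality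

section Units

variable (F : IntermediateField ℚ QQbar) [FiniteDimensional ℚ F]

/-- The units of `F` inside the global units. -/
def globalUnits : AddSubgroup GU := fixedPts F.fixingSubgroup GU ⊓ unitIdeles.comap principal

omit [FiniteDimensional ℚ F] in
theorem val_mem_of_fixed {a : GU} (ha : a ∈ fixedPts F.fixingSubgroup GU) : a.val ∈ F := by
  rw [← InfiniteGalois.fixedField_fixingSubgroup F, IntermediateField.mem_fixedField_iff]
  exact fun σ hσ => congrArg GU.val (ha σ hσ)

/-- A unit of `𝓞 F` as a fixed unit idele. -/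
def unitsToGlobal : Additive (𝓞 F)ˣ →+ globalUnits F :=
  (MonoidHom.toAdditive
    (Units.map ((F.val : F →+* QQbar).comp (algebraMap (𝓞 F) F)).toMonoidHom)).codRestrict
      (globalUnits F) fun u => by
    refine ⟨fun s hs => GU.ext ?_, fun q σ => ?_⟩
    · exact (IntermediateField.mem_fixingSubgroup_iff _ _).1 hs _
        ((u.toMul : 𝓞 F) : F).2
    · rw [mem_unitsAt_iff]
      have h1 : ∀ a : 𝓞 F, ‖placeEmb F q σ a‖ ≤ 1 := fun a => norm_placeEmb_le_one a
      refine le_antisymm (h1 _) ?_
      have h2 := h1 ((u.toMul⁻¹ : (𝓞 F)ˣ) : 𝓞 F)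
      by_contra hlt
      have hmul : ‖placeEmb F q σ (u.toMul : 𝓞 F)‖ *
          ‖placeEmb F q σ ((u.toMul⁻¹ : (𝓞 F)ˣ) : 𝓞 F)‖ = 1 := by
        rw [← norm_mul, ← map_mul, ← map_mul (algebraMap (𝓞 F) F), Units.mul_inv, map_one, map_one,
          norm_one]
      exact absurd hmul (ne_of_lt (lt_of_le_of_lt (mul_le_of_le_one_right (norm_nonneg _) h2)
        (not_le.1 hlt)))

omit [FiniteDimensional ℚ F] in
theorem unitsToGlobal_bijective : Function.Bijective (unitsToGlobal F) := by
  constructor
  · intro u v h
    refine Additive.toMul.injective (Units.ext (FaithfulSMul.algebraMap_injective (𝓞 F) F ?_))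
    exact Subtype.ext (congrArg (fun a : globalUnits F => (a : GU).val) h :)
  · rintro ⟨a, ha, hu⟩
    have hint : ∀ b : GU, b ∈ fixedPts F.fixingSubgroup GU → principal b ∈ unitIdeles →
        ∃ c : 𝓞 F, ((c : F) : QQbar) = b.val := by
      intro b hb hbu
      refine ⟨⟨⟨b.val, val_mem_of_fixed F hb⟩, ?_⟩, rfl⟩
      refine (isIntegral_algebraMap_iff (B := QQbar) (algebraMap F QQbar).injective).1 ?_
      exact isIntegral_of_forall_norm_le_one fun q σ => (hbu q σ).le
    obtain ⟨c, hc⟩ := hint a ha hu
    obtain ⟨d, hd⟩ := hint (-a) (neg_mem ha) (by rw [map_neg]; exact neg_mem hu)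
    refine ⟨Additive.ofMul ⟨c, d, ?_, ?_⟩, Subtype.ext (GU.ext hc)⟩
    all_goals
      refine FaithfulSMul.algebraMap_injective (𝓞 F) F (Subtype.ext ?_)
      simp only [map_mul, map_one, MulMemClass.coe_mul, OneMemClass.coe_one, hc, hd]
      show _ * _ = (1 : QQbar)
      rw [show (-a).val = a.val⁻¹ from Units.val_inv_eq_inv_val _]
      simp

/-- `(𝓞 F)ˣ` and the global units of `F`. -/
def unitsEquivGlobal : Additive (𝓞 F)ˣ ≃ₗ[ℤ] globalUnits F :=
  (AddEquiv.ofBijective (unitsToGlobal F) (unitsToGlobal_bijective F)).toIntLinearEquiv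

instance finite_globalUnits : Module.Finite ℤ (globalUnits F) :=
  Module.Finite.equiv (unitsEquivGlobal F)

theorem finrank_globalUnits : finrank ℤ (globalUnits F) = Fintype.card (InfinitePlace F) - 1 :=
  (unitsEquivGlobal F).finrank_eq.symm.trans (Units.finrank_eq F)

end Units

namespace CyclicStep

variable {p : ℕ} [hp : Fact p.Prime] (D : CyclicStep p)

omit hp in
theorem finrank_step : finrank D.K (IntermediateField.extendScalars D.le) = p := by
  have h1 : finrank ℚ D.K * finrank D.K (IntermediateField.extendScalars D.le) = finrank ℚ D.L :=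
    finrank_mul_finrank ℚ D.K (IntermediateField.extendScalars D.le)
  have eK : finrank ℚ D.K = D.K.fixingSubgroup.index := by
    convert IntermediateField.finrank_eq_fixingSubgroup_index QQbar D.K
  have eL : finrank ℚ D.L = D.L.fixingSubgroup.index := by
    convert IntermediateField.finrank_eq_fixingSubgroup_index QQbar D.L
  rw [eK, eL,
    ← Subgroup.relIndex_mul_index D.top_le, D.index, mul_comm p] at h1
  have hne : D.K.fixingSubgroup.index ≠ 0 := by
    rw [← eK]
    exact Module.finrank_pos.ne'
  exact Nat.eq_of_mul_eq_mul_left (Nat.pos_of_ne_zero hne) h1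

omit hp in
theorem isGalois_step : IsGalois D.K (IntermediateField.extendScalars D.le) := by
  have : IsGalois D.K QQbar := IsGalois.tower_top_of_isGalois ℚ D.K QQbar
  rw [← InfiniteGalois.normal_iff_isGalois]
  refine ⟨fun m hm n => ?_⟩
  let e := IntermediateField.fixingSubgroupEquiv D.K
  have hm' : ((e.symm m : D.bot) : Gam) ∈ D.top := (IntermediateField.mem_fixingSubgroup_iff _ _).2
    fun x hx => (IntermediateField.mem_fixingSubgroup_iff _ _).1 hm x hx
  have h := D.conj_mem (e.symm n).2 hm'
  rw [IntermediateField.mem_fixingSubgroup_iff]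
  exact fun x hx => (IntermediateField.mem_fixingSubgroup_iff _ _).1 h x hx

/-- The archimedean places split completely: `p` is odd or `K` is totally complex. -/
def InfSplit : Prop := p ≠ 2 ∨ IsTotallyComplex D.K

theorem card_infinitePlace (hD : D.InfSplit) :
    Fintype.card (InfinitePlace D.L) = p * Fintype.card (InfinitePlace D.K) := by
  have : FiniteDimensional ℚ (IntermediateField.extendScalars D.le) := D.finL
  have : FiniteDimensional D.K (IntermediateField.extendScalars D.le) :=
    FiniteDimensional.of_finrank_pos (by rw [D.finrank_step]; exact hp.out.pos)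
  have : NumberField (IntermediateField.extendScalars D.le) := { }
  have := D.isGalois_step
  have : IsUnramifiedAtInfinitePlaces D.K (IntermediateField.extendScalars D.le) := by
    rcases hD with hp2 | hC
    · exact IsUnramifiedAtInfinitePlaces_of_odd_finrank (by
        rw [D.finrank_step]; exact hp.out.odd_of_ne_two hp2)
    · exact ⟨fun w => InfinitePlace.isUnramified_iff.2
        (Or.inr (hC.isComplex (w.comap (algebraMap D.K _))))⟩
  have h := IsUnramifiedAtInfinitePlaces.card_infinitePlace D.K
    (IntermediateField.extendScalars D.le)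
  rw [D.finrank_step, mul_comm] at h
  rw [← h]
  exact Fintype.card_congr (Equiv.refl _)

omit hp in
theorem smul_mem_globalUnits {a : GU} (ha : a ∈ globalUnits D.L) : D.g • a ∈ globalUnits D.L :=
  ⟨D.smul_mem_top ha.1, by
    show principal (D.g • a) ∈ unitIdeles
    rw [principal_smul]; exact smul_mem_unitIdeles _ ha.2⟩

/-- The generator acting on the units of `L`. -/
abbrev unitEnd : AddMonoid.End (globalUnits D.L) :=
  D.subEnd (globalUnits D.L) fun _ ha => D.smul_mem_globalUnits ha

/-- The Herbrand quotient of the units is `1/p`. -/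
theorem herbrand_units (hD : D.InfSplit) : herbrand p D.unitEnd = (p : ℚ)⁻¹ := by
  have hord : D.unitEnd ^ p = 1 := D.subEnd_pow_eq_one inf_le_left
  have h := herbrand_pow_of_finite_module hord
  have hfix : finrank ℤ (AddSubgroup.toIntSubmodule (cycFixed D.unitEnd)) =
      Fintype.card (InfinitePlace D.K) - 1 := by
    rw [← finrank_globalUnits D.K]
    let e : AddSubgroup.toIntSubmodule (cycFixed D.unitEnd) ≃+ globalUnits D.K :=
      { toFun := fun a => ⟨(a.1 : GU), ⟨(D.mem_fixedPts_bot a.1.2.1).2
          (congrArg Subtype.val (mem_cycFixed.1 a.2)), a.1.2.2⟩⟩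
        invFun := fun a => ⟨⟨(a : GU), ⟨fixedPts_antitone D.top_le a.2.1, a.2.2⟩⟩,
          mem_cycFixed.2 (Subtype.ext (a.2.1 _ D.mem))⟩
        left_inv := fun _ => rfl
        right_inv := fun _ => rfl
        map_add' := fun _ _ => rfl }
    exact e.toIntLinearEquiv.finrank_eq
  rw [hfix, finrank_globalUnits D.L, D.card_infinitePlace hD] at h
  have hk : 1 ≤ Fintype.card (InfinitePlace D.K) := Fintype.card_pos
  have hexp : (p : ℤ) * ((Fintype.card (InfinitePlace D.K) - 1 : ℕ) : ℤ) -
      ((p * Fintype.card (InfinitePlace D.K) - 1 : ℕ) : ℤ) = -((p - 1 : ℕ) : ℤ) := by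
    rw [Nat.cast_sub hk, Nat.cast_sub hp.out.one_le,
      Nat.cast_sub (Nat.one_le_iff_ne_zero.2 (mul_ne_zero hp.out.ne_zero (by omega)))]
    push_cast
    ring
  rw [hexp, zpow_neg, zpow_natCast, ← inv_pow] at h
  have hpos : 0 ≤ herbrand p D.unitEnd := div_nonneg (Nat.cast_nonneg _) (Nat.cast_nonneg _)
  exact (pow_left_inj₀ hpos (by positivity) (by have := hp.out.two_le; omega)).1 h

end CyclicStep

end FLTAgent.IdeleClassCohomology
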