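import Fermat.Agent.IdeleClassCohomology.KummerField
import Fermat.Agent.IdeleClassCohomology.UnitsHerbrand

/-!
# Finite sets of places and local power classes

`IsPlaces` selects one place over each prime of a finite set; `locClasses` are the local power
classes there, counted by `prod_card_locQuot`.
-/

set_option autoImplicit false

noncomputable section

namespace FLTAgent.IdeleClassCohomology

open FLTAgent.GalCoh FLTAgent.GlobalDuality Module NumberField

variable (K : IntermediateField ℚ QQbar) [FiniteDimensional ℚ K]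

/-- No two members lie over the same place. -/
def IsPlaces (R : Finset (Nat.Primes × Gam)) : Prop :=
  ∀ i ∈ R, ∀ j ∈ R, j ∈ cosetSet K i.1 i.2 → i = j

/-- All indices over the places of `R`. -/
def covered (R : Finset (Nat.Primes × Gam)) : Set (Nat.Primes × Gam) :=
  ⋃ i ∈ R, cosetSet K i.1 i.2

variable {K}

omit [FiniteDimensional ℚ K] in
theorem mem_covered {R : Finset (Nat.Primes × Gam)} {j : Nat.Primes × Gam} :
    j ∈ covered K R ↔ ∃ i ∈ R, j ∈ cosetSet K i.1 i.2 := by
  simp [covered]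

/-- The orbit decomposition at one prime. -/
theorem exists_placesOver (K : IntermediateField ℚ QQbar) [FiniteDimensional ℚ K]
    (q : Nat.Primes) :
    ∃ P : Finset Gam, (∀ γ, ∃ σ ∈ P, (q, γ) ∈ cosetSet K q σ) ∧
      (∀ σ ∈ P, ∀ σ' ∈ P, (q, σ') ∈ cosetSet K q σ → σ = σ') ∧
      ∑ σ ∈ P, finrank ℚ_[(q : ℕ)] (locField K q σ) = finrank ℚ K := by
  classical
  have : K.fixingSubgroup.FiniteIndex := by
    obtain ⟨M, hM⟩ := exists_layer_sub_le K
    exact Subgroup.finiteIndex_of_le hM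
  have : Finite (Gam ⧸ K.fixingSubgroup) := Subgroup.finite_quotient_of_finiteIndex
  let : MulAction (LGal q) (Gam ⧸ K.fixingSubgroup) :=
    MulAction.compHom (Gam ⧸ K.fixingSubgroup) (loc q)
  have := Fintype.ofFinite (MulAction.orbitRel.Quotient (LGal q) (Gam ⧸ K.fixingSubgroup))
  let f : MulAction.orbitRel.Quotient (LGal q) (Gam ⧸ K.fixingSubgroup) → Gam := fun ω => ω.out.out
  have hf : ∀ ω, (QuotientGroup.mk (f ω) : Gam ⧸ K.fixingSubgroup) = ω.out :=
    fun ω => QuotientGroup.out_eq' ω.out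
  have hmem : ∀ σ γ : Gam, (q, γ) ∈ cosetSet K q σ ↔ (QuotientGroup.mk γ : Gam ⧸ K.fixingSubgroup)
      ∈ MulAction.orbit (LGal q) (QuotientGroup.mk σ : Gam ⧸ K.fixingSubgroup) := by
    intro σ γ
    constructor
    · rintro ⟨-, τ, hτ⟩
      exact ⟨τ, (QuotientGroup.eq.2 hτ : (QuotientGroup.mk (loc q τ * σ) : Gam ⧸ K.fixingSubgroup)
        = QuotientGroup.mk γ)⟩
    · rintro ⟨τ, hτ⟩
      exact ⟨rfl, τ, QuotientGroup.eq.1
        (hτ : (QuotientGroup.mk (loc q τ * σ) : Gam ⧸ K.fixingSubgroup) = QuotientGroup.mk γ)⟩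
  have hinj : Function.Injective f := fun a b h => by
    rw [← Quotient.out_eq a, ← Quotient.out_eq b, ← hf, ← hf, h]
  refine ⟨Finset.univ.image f, fun γ => ?_, ?_, ?_⟩
  · refine ⟨f (Quotient.mk'' (QuotientGroup.mk γ)), Finset.mem_image_of_mem _ (Finset.mem_univ _),
      (hmem _ _).2 ?_⟩
    rw [hf]
    exact MulAction.mem_orbit_symm.1 (Quotient.mk_out (s := MulAction.orbitRel (LGal q)
      (Gam ⧸ K.fixingSubgroup)) (QuotientGroup.mk γ))
  · intro σ hσ σ' hσ' h
    obtain ⟨a, -, rfl⟩ := Finset.mem_image.1 hσ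
    obtain ⟨b, -, rfl⟩ := Finset.mem_image.1 hσ'
    rw [hmem, hf, hf] at h
    congr 1
    rw [← Quotient.out_eq a, ← Quotient.out_eq b]
    exact (Quotient.sound h).symm
  · have : ∀ a : Quotient (MulAction.orbitRel (LGal q) (Gam ⧸ K.fixingSubgroup)),
        Finite (LGal q ⧸ MulAction.stabilizer (LGal q) a.out) := fun a =>
      Finite.of_equiv _ (MulAction.orbitEquivQuotientStabilizer (LGal q) a.out)
    rw [Finset.sum_image fun a _ b _ h => hinj h,
      IntermediateField.finrank_eq_fixingSubgroup_index QQbar K, Subgroup.index_eq_card,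
      Nat.card_congr (MulAction.selfEquivSigmaOrbitsQuotientStabilizer (LGal q)
        (Gam ⧸ K.fixingSubgroup)), Nat.card_sigma]
    refine Finset.sum_congr rfl fun ω _ => ?_
    have := finiteDimensional_locField (K := K) (q := q) (σ := f ω)
    have e : MulAction.stabilizer (LGal q) ω.out = (locField K q (f ω)).fixingSubgroup := by
      ext τ
      rw [MulAction.mem_stabilizer_iff, mem_fixingSubgroup_locField_iff, ← hf]
      show (QuotientGroup.mk (loc q τ * f ω) : Gam ⧸ K.fixingSubgroup) = QuotientGroup.mk (f ω) ↔ _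
      rw [QuotientGroup.eq, ← inv_mem_iff,
        show ((loc q τ * f ω)⁻¹ * f ω)⁻¹ = (f ω)⁻¹ * loc q τ * f ω by group]
    rw [IntermediateField.finrank_eq_fixingSubgroup_index (PadicAlgCl (q : ℕ)), ← e,
      Subgroup.index_eq_card]

/-- The places over a finite set of primes. -/
theorem exists_places (K : IntermediateField ℚ QQbar) [FiniteDimensional ℚ K]
    (S : Finset Nat.Primes) :
    ∃ R : Finset (Nat.Primes × Gam), IsPlaces K R ∧ covered K R = {j | j.1 ∈ S} ∧
      ∀ q ∈ S, ∑ i ∈ R with i.1 = q, finrank ℚ_[(i.1 : ℕ)] (locField K i.1 i.2) = finrank ℚ K := by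
  classical
  choose P hP1 hP2 hP3 using exists_placesOver K
  refine ⟨S.biUnion fun q => (P q).image fun σ => (q, σ), ?_, ?_, ?_⟩
  · intro i hi j hj h
    simp only [Finset.mem_biUnion, Finset.mem_image] at hi hj
    obtain ⟨q, -, σ, hσ, rfl⟩ := hi
    obtain ⟨r, -, σ', hσ', rfl⟩ := hj
    obtain rfl : r = q := h.1
    rw [hP2 r σ hσ σ' hσ' h]
  · ext ⟨q, γ⟩
    simp only [mem_covered, Finset.mem_biUnion, Finset.mem_image, Set.mem_ofPred_eq]
    constructor
    · rintro ⟨_, ⟨r, hr, σ, -, rfl⟩, h⟩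
      have hqr : q = r := h.1
      exact hqr ▸ hr
    · intro hq
      obtain ⟨σ, hσ, h⟩ := hP1 q γ
      exact ⟨(q, σ), ⟨q, hq, σ, hσ, rfl⟩, h⟩
  · intro q hq
    rw [← hP3 q]
    have e : (S.biUnion fun r => (P r).image fun σ => (r, σ)).filter (fun i => i.1 = q) =
        (P q).image fun σ => (q, σ) := by
      ext ⟨r, σ⟩
      simp only [Finset.mem_filter, Finset.mem_biUnion, Finset.mem_image, Prod.mk.injEq]
      constructor
      · rintro ⟨⟨r', -, σ', hσ', rfl, rfl⟩, rfl⟩
        exact ⟨σ', hσ', rfl, rfl⟩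
      · rintro ⟨σ', hσ', rfl, rfl⟩
        exact ⟨⟨q, hq, σ', hσ', rfl, rfl⟩, rfl⟩
    rw [e, Finset.sum_image fun a _ b _ h => (Prod.mk.injEq _ _ _ _ ▸ h).2]

/-! ### Local power classes -/

variable (p : ℕ) [hp : Fact p.Prime]

/-- The multiplicative group of a local field of `K`. -/
def locUnits (K : IntermediateField ℚ QQbar) (i : Nat.Primes × Gam) : AddSubgroup (LU i.1) where
  carrier := {a | a.val ∈ locField K i.1 i.2}
  zero_mem' := (locField K i.1 i.2).one_mem
  add_mem' {a b} (ha : a.val ∈ locField K i.1 i.2) (hb : b.val ∈ locField K i.1 i.2) :=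
    show (a + b).val ∈ locField K i.1 i.2 by rw [LU.val_add]; exact mul_mem ha hb
  neg_mem' {a} (ha : a.val ∈ locField K i.1 i.2) := by
    show (((a.toMul)⁻¹ : (PadicAlgCl (i.1 : ℕ))ˣ) : PadicAlgCl (i.1 : ℕ)) ∈ locField K i.1 i.2
    rw [Units.val_inv_eq_inv_val]
    exact inv_mem ha

/-- The local power classes. -/
abbrev LocQuot (K : IntermediateField ℚ QQbar) (i : Nat.Primes × Gam) : Type :=
  locUnits K i ⧸ (nsmulAddMonoidHom p : locUnits K i →+ locUnits K i).range

theorem card_locQuot (hK : HasRoots p K) (i : Nat.Primes × Gam) :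
    Nat.card (LocQuot p K i) =
      p ^ 2 * if (i.1 : ℕ) = p then p ^ finrank ℚ_[(i.1 : ℕ)] (locField K i.1 i.2) else 1 := by
  set E := locField K i.1 i.2
  have : FiniteDimensional ℚ_[(i.1 : ℕ)] E := finiteDimensional_locField
  have h := LocalDuality.local_index_pow_range (i.1 : ℕ) E p
  let f : Additive Eˣ →+ locUnits K i :=
    (MonoidHom.toAdditive (Units.map (E.val : E →* PadicAlgCl (i.1 : ℕ)))).codRestrict _
      fun u => (u.toMul : Eˣ).1.2
  have hf : Function.Bijective f := by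
    refine ⟨fun u v h => Additive.toMul.injective (Units.ext (Subtype.ext
      (congrArg (fun z : locUnits K i => (z : LU i.1).val) h))), fun a => ?_⟩
    exact ⟨Additive.ofMul (Units.mk0 ⟨(a : LU i.1).val, a.2⟩ fun h0 =>
      Units.ne_zero (a : LU i.1).toMul (congrArg Subtype.val h0)), Subtype.ext (LU.ext rfl)⟩
  have e : ((nsmulAddMonoidHom p : Additive Eˣ →+ Additive Eˣ).range).map
      (AddEquiv.ofBijective f hf).toAddMonoidHom =
      (nsmulAddMonoidHom p : locUnits K i →+ locUnits K i).range := by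
    ext a
    constructor
    · rintro ⟨_, ⟨b, rfl⟩, rfl⟩
      exact ⟨f b, (map_nsmul f p b).symm⟩
    · rintro ⟨b, rfl⟩
      obtain ⟨c, rfl⟩ := hf.2 b
      exact ⟨p • c, ⟨c, rfl⟩, map_nsmul f p c⟩
  have hidx : (nsmulAddMonoidHom p : Additive Eˣ →+ Additive Eˣ).range.index =
      (powMonoidHom p : Eˣ →* Eˣ).range.index := by
    rw [← Subgroup.index_toAddSubgroup]
    congr 1
  have hker : Nat.card (powMonoidHom p : Eˣ →* Eˣ).ker = p := by
    have : NeZero p := ⟨hp.out.ne_zero⟩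
    have hz := cycRoot_spec ⟨p, hp.out⟩
    have hzK := hK _ hz.pow_eq_one
    let z : E := ⟨placeEmb K i.1 i.2 ⟨_, hzK⟩, placeEmb_mem_locField _⟩
    have hprim : IsPrimitiveRoot z p :=
      (hz.map_of_injective (f := (emb i.1).comp (i.2 : QQbar →ₐ[ℚ] QQbar))
        ((emb i.1).injective.comp i.2.injective)).of_map_of_injective
        (f := E.val) Subtype.val_injective
    exact hprim.card_rootsOfUnity
  rw [← AddSubgroup.index_eq_card, ← e]
  refine (AddSubgroup.index_map_equiv _ (AddEquiv.ofBijective f hf)).trans ?_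
  rw [hidx, h, hker]
  by_cases hpq : (i.1 : ℕ) = p
  · rw [if_pos hpq, if_pos hpq.symm, sq]
  · rw [if_neg hpq, if_neg (Ne.symm hpq), sq]

variable (K) in
/-- The local classes of an idele at one place. -/
def locClass (i : Nat.Primes × Gam) : fixedPts K.fixingSubgroup Idele →+ LocQuot p K i :=
  (QuotientAddGroup.mk' _).comp
    (((Idele.atHom i.1 i.2).comp (AddSubgroup.subtype _)).codRestrict _
      fun x => at_mem_locField x.2)

omit [FiniteDimensional ℚ K] hp in
theorem locClass_eq_zero_iff (i : Nat.Primes × Gam) (x : fixedPts K.fixingSubgroup Idele) :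
    locClass K p i x = 0 ↔ ∃ a : LU i.1, a.val ∈ locField K i.1 i.2 ∧ p • a = x.1.at i.1 i.2 := by
  refine (QuotientAddGroup.eq_zero_iff _).trans ?_
  constructor
  · rintro ⟨a, ha⟩
    exact ⟨a, a.2, congrArg Subtype.val ha⟩
  · rintro ⟨a, ha, ha'⟩
    exact ⟨⟨a, ha⟩, Subtype.ext ha'⟩

variable (K) in
/-- The local classes at a set of places. -/
def locClasses (R : Finset (Nat.Primes × Gam)) :
    fixedPts K.fixingSubgroup Idele →+ ((i : R) → LocQuot p K i.1) :=
  AddMonoidHom.pi fun i : R => locClass K p i.1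

theorem prod_card_locQuot (hK : HasRoots p K) {S : Finset Nat.Primes}
    (hp' : (⟨p, hp.out⟩ : Nat.Primes) ∈ S) {R : Finset (Nat.Primes × Gam)}
    (hdeg : ∀ q ∈ S, ∑ i ∈ R with i.1 = q, finrank ℚ_[(i.1 : ℕ)] (locField K i.1 i.2) =
      finrank ℚ K) :
    Nat.card ((i : R) → LocQuot p K i.1) = p ^ (2 * R.card + finrank ℚ K) := by
  classical
  rw [Nat.card_pi, Finset.prod_coe_sort R fun i => Nat.card (LocQuot p K i)]
  simp only [card_locQuot p hK]
  rw [Finset.prod_mul_distrib, Finset.prod_const, Finset.prod_ite, Finset.prod_const_one, mul_one,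
    Finset.prod_pow_eq_pow_sum, ← pow_mul, ← pow_add, ← hdeg _ hp']
  congr 2
  refine Finset.sum_congr (Finset.filter_congr fun i _ => ?_) fun _ _ => rfl
  exact ⟨fun h => Subtype.ext h, fun h => congrArg Subtype.val h⟩

omit hp in
/-- An idele with trivial local classes is a `p`-th multiple up to one vanishing there. -/
theorem exists_eq_nsmul_add_of_locClasses {R : Finset (Nat.Primes × Gam)} (hR : IsPlaces K R)
    {x : fixedPts K.fixingSubgroup Idele} (h : locClasses K p R x = 0) :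
    ∃ y : fixedPts K.fixingSubgroup Idele,
      (∀ j, j ∈ covered K R → (x - p • y).1.at j.1 j.2 = 0) ∧
      ∀ j, j ∉ covered K R → y.1.at j.1 j.2 = 0 := by
  classical
  have h' : ∀ i : R, ∃ a : LU i.1.1, a.val ∈ locField K i.1.1 i.1.2 ∧
      p • a = x.1.at i.1.1 i.1.2 := fun i => (locClass_eq_zero_iff p i.1 x).1 (congrFun h i)
  choose a ha ha' using h'
  choose y hy hy1 hy2 using fun i : R => exists_pointIdele (ha i)
  obtain ⟨Y, hY⟩ : ∃ Y : fixedPts K.fixingSubgroup Idele, Y.1 = ∑ i, y i :=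
    ⟨⟨∑ i, y i, sum_mem fun i _ => hy i⟩, rfl⟩
  refine ⟨Y, fun j hj => ?_, fun j hj => ?_⟩
  · obtain ⟨i, hi, hij⟩ := mem_covered.1 hj
    obtain ⟨e, τ, n, hn, hjn⟩ := mem_cosetSet_iff.1 hij
    obtain ⟨q, γ⟩ := j
    obtain rfl : q = i.1 := e
    dsimp only at hjn ⊢
    rw [hjn, Idele.mem_fixedPts_iff.1 (x - p • Y).2 _ _ n hn, Idele.at_loc_mul]
    have hz : (x - p • Y).1.at i.1 i.2 = 0 := by
      have e1 : (x - p • Y).1.at i.1 i.2 = x.1.at i.1 i.2 - p • Y.1.at i.1 i.2 :=
        (map_sub (Idele.atHom i.1 i.2) x.1 (p • Y).1).trans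
          (congrArg _ (map_nsmul (Idele.atHom i.1 i.2) p Y.1))
      have e2 : Y.1.at i.1 i.2 = (y ⟨i, hi⟩).at i.1 i.2 := by
        rw [hY]
        refine (map_sum (Idele.atHom i.1 i.2) _ _).trans ?_
        exact Finset.sum_eq_single (a := (⟨i, hi⟩ : R)) (fun k _ hk => hy2 k i.1 i.2 fun hc =>
          hk (Subtype.ext (hR k.1 k.2 i hi hc))) fun hc => absurd (Finset.mem_univ _) hc
      rw [e1, e2, hy1 ⟨i, hi⟩, ha' ⟨i, hi⟩, sub_self]
    rw [hz, smul_zero]
  · rw [hY]
    refine (map_sum (Idele.atHom j.1 j.2) _ _).trans ?_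
    exact Finset.sum_eq_zero fun i _ => hy2 i j.1 j.2 fun hc => hj (mem_covered.2 ⟨i.1, i.2, hc⟩)

end FLTAgent.IdeleClassCohomology
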