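import Fermat.Agent.IdeleClassCohomology.KummerLayer
import Mathlib.FieldTheory.KummerExtension

/-!
# Kummer theory of a cyclic step

Over a field with the `p`-th roots of unity a cyclic step of degree `p` comes from a root
(`CyclicStep.exists_kummer`).
-/

set_option autoImplicit false

noncomputable section

namespace FLTAgent.IdeleClassCohomology

open FLTAgent.GalCoh FLTAgent.GlobalDuality Module NumberField

namespace CyclicStep

variable {p : ℕ} [hp : Fact p.Prime] (D : CyclicStep p)

/-- Kummer theory: a cyclic step over a field with the roots of unity comes from a root. -/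
theorem exists_kummer (hK : HasRoots p D.K) :
    ∃ a : fixedPts D.K.fixingSubgroup GU, a ∉ powers p D.K ∧
      ∀ g : D.K.fixingSubgroup, (g : Gam) ∈ D.top ↔ kummer hK a (Additive.ofMul g) = 0 := by
  classical
  have := D.isGalois_step
  have : FiniteDimensional D.K (IntermediateField.extendScalars D.le) :=
    FiniteDimensional.of_finrank_pos (lt_of_lt_of_eq hp.out.pos D.finrank_step.symm)
  have hcard : Nat.card Gal((IntermediateField.extendScalars D.le)/D.K) = p :=
    (IsGalois.card_aut_eq_finrank _ _).trans D.finrank_step
  have : IsCyclic Gal((IntermediateField.extendScalars D.le)/D.K) := isCyclic_of_prime_card hcard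
  have hprim :
      (primitiveRoots (finrank D.K (IntermediateField.extendScalars D.le)) D.K).Nonempty := by
    rw [D.finrank_step]
    exact ⟨⟨_, hK _ (cycRoot_spec ⟨p, hp.out⟩).pow_eq_one⟩, (mem_primitiveRoots hp.out.pos).2
      ((cycRoot_spec ⟨p, hp.out⟩).of_map_of_injective (f := D.K.val) Subtype.val_injective)⟩
  obtain ⟨α, ⟨b, hb⟩, hα⟩ :=
    exists_root_adjoin_eq_top_of_isCyclic D.K (IntermediateField.extendScalars D.le) hprim
  rw [D.finrank_step] at hb
  have hα0 : (α : QQbar) ≠ 0 := by
    intro h0
    have hα' : α = 0 := Subtype.ext h0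
    rw [hα', IntermediateField.adjoin_zero] at hα
    have h1 := congrArg (fun F : IntermediateField D.K (IntermediateField.extendScalars D.le) =>
      finrank D.K F) hα
    simp only [IntermediateField.finrank_bot, IntermediateField.finrank_top',
      D.finrank_step] at h1
    exact hp.out.ne_one h1.symm
  have hb' : (b : QQbar) = (α : QQbar) ^ p := congrArg Subtype.val hb
  let r : GU := Additive.ofMul (Units.mk0 (α : QQbar) hα0)
  let a : fixedPts D.K.fixingSubgroup GU := ⟨p • r, fun s hs => GU.ext (by
    rw [GU.val_smul, GU.val_nsmul]
    show s ((α : QQbar) ^ p) = _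
    rw [← hb']
    exact ((IntermediateField.mem_fixingSubgroup_iff _ _).1 hs _ b.2).trans hb')⟩
  have hiff : ∀ g : D.K.fixingSubgroup,
      (g : Gam) ∈ D.top ↔ kummer hK a (Additive.ofMul g) = 0 := by
    intro g
    rw [kummer_apply_eq_zero_iff hK a (r := r) rfl g]
    constructor
    · exact fun h => GU.ext ((IntermediateField.mem_fixingSubgroup_iff _ _).1 h _ α.2)
    · intro h
      rw [IntermediateField.mem_fixingSubgroup_iff]
      intro x hx
      have hx' : (⟨x, hx⟩ : IntermediateField.extendScalars D.le) ∈
          IntermediateField.adjoin D.K ({α} : Set (IntermediateField.extendScalars D.le)) := by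
        rw [hα]; exact IntermediateField.mem_top
      have key : ∀ y : IntermediateField.extendScalars D.le,
          y ∈ IntermediateField.adjoin D.K ({α} : Set (IntermediateField.extendScalars D.le)) →
            (g : Gam) (y : QQbar) = y := by
        intro y hy
        induction hy using IntermediateField.adjoin_induction with
        | mem y hy => rw [Set.mem_singleton_iff.1 hy]; exact congrArg GU.val h
        | algebraMap c => exact (IntermediateField.mem_fixingSubgroup_iff _ _).1 g.2 _ c.2
        | add x y _ _ hx hy => push_cast; rw [map_add, hx, hy]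
        | inv x _ hx => push_cast; rw [map_inv₀, hx]
        | mul x y _ _ hx hy => push_cast; rw [map_mul, hx, hy]
      exact key _ hx'
  refine ⟨a, fun ha => D.notMem ?_, hiff⟩
  exact (hiff ⟨D.g, D.mem⟩).2 (DFunLike.congr_fun ((kummer_eq_zero_iff hK a).2 ha) _)

end CyclicStep

end FLTAgent.IdeleClassCohomology
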