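import Fermat.Agent.IdeleClassCohomology.LocalUnramified
import Fermat.Agent.IdeleClassCohomology.UnitsHerbrand

/-!
# The Herbrand quotient of the unit ideles in a cyclic step is one

`part` and `upart` are the ideles and unit ideles supported on a set of places. `UTrivial` says
that both Tate groups of a unit part vanish, as they do at a split place (`UTrivial.of_split`).
-/

set_option autoImplicit false

noncomputable section

open Module

namespace FLTAgent.IdeleClassCohomology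

open FLTAgent.GalCoh FLTAgent.GlobalDuality

theorem hQuot_congr {A B : Type*} [AddCommGroup A] [AddCommGroup B] (e : A ≃+ B) {f g : A →+ A}
    {f' g' : B →+ B} (hf : ∀ a, f' (e a) = e (f a)) (hg : ∀ a, g' (e a) = e (g a)) :
    hIndex f' g' = hIndex f g ∧ hIndex g' f' = hIndex g f := by
  have key : ∀ (u v : A →+ A) (u' v' : B →+ B), (∀ a, u' (e a) = e (u a)) →
      (∀ a, v' (e a) = e (v a)) → hIndex u' v' = hIndex u v := by
    intro u v u' v' hu hv
    have h1 : v'.range = v.range.map e.toAddMonoidHom := by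
      ext b
      constructor
      · rintro ⟨c, rfl⟩
        exact ⟨v (e.symm c), ⟨_, rfl⟩, by
          show e (v (e.symm c)) = v' c
          rw [← hv, AddEquiv.apply_symm_apply]⟩
      · rintro ⟨_, ⟨a, rfl⟩, rfl⟩
        exact ⟨e a, hv a⟩
    have h2 : u'.ker = u.ker.map e.toAddMonoidHom := by
      ext b
      constructor
      · intro hb
        exact ⟨e.symm b, e.injective (by
          rw [← hu, AddEquiv.apply_symm_apply, map_zero]; exact hb), e.apply_symm_apply b⟩
      · rintro ⟨a, ha, rfl⟩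
        show u' (e a) = 0
        rw [hu, show u a = 0 from ha, map_zero]
    exact (congrArg₂ AddSubgroup.relIndex h1 h2).trans
      (AddSubgroup.relIndex_map_map_of_injective _ _ e.injective)
  exact ⟨key f g f' g' hf hg, key g f g' f' hg hf⟩

namespace CyclicStep

variable {p : ℕ} [hp : Fact p.Prime] (D : CyclicStep p)

/-- The ideles of `L` supported on `W`. -/
def part (W : Set (Nat.Primes × Gam)) (_hW : IsStableSet D.bot W) : AddSubgroup Idele where
  carrier := {x | x ∈ fixedPts D.top Idele ∧ ∀ q σ, (q, σ) ∉ W → x.at q σ = 0}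
  zero_mem' := ⟨zero_mem _, fun q σ _ => Idele.at_zero q σ⟩
  add_mem' {a b} ha hb := ⟨add_mem ha.1 hb.1, fun q σ h => by
    rw [Idele.at_add, ha.2 q σ h, hb.2 q σ h, add_zero]⟩
  neg_mem' {a} ha := ⟨neg_mem ha.1, fun q σ h => by rw [Idele.at_neg, ha.2 q σ h, neg_zero]⟩

variable {D}

omit hp in
theorem smul_mem_part {W : Set (Nat.Primes × Gam)} {hW : IsStableSet D.bot W} {x : Idele}
    (hx : x ∈ D.part W hW) : D.g • x ∈ D.part W hW := by
  refine ⟨D.smul_mem_top hx.1, fun q σ h => ?_⟩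
  rw [Idele.at_smul]
  refine hx.2 q _ fun h' => h ?_
  have := (hW.mem_iff (γ := σ) (1 : LGal q) D.mem)
  rw [map_one, one_mul] at this
  exact this.1 h'

variable (D)

/-- The generator on a part. -/
abbrev partEnd (W : Set (Nat.Primes × Gam)) (hW : IsStableSet D.bot W) :
    AddMonoid.End (D.part W hW) :=
  D.subEnd (D.part W hW) fun _ hx => smul_mem_part hx

/-- The unit ideles of `L` supported on `W`. -/
def upart (W : Set (Nat.Primes × Gam)) (hW : IsStableSet D.bot W) : AddSubgroup Idele :=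
  D.part W hW ⊓ unitIdeles

omit hp in
theorem smul_mem_upart {W : Set (Nat.Primes × Gam)} {hW : IsStableSet D.bot W} {x : Idele}
    (hx : x ∈ D.upart W hW) : D.g • x ∈ D.upart W hW :=
  ⟨smul_mem_part hx.1, smul_mem_unitIdeles _ hx.2⟩

/-- The generator on a unit part. -/
abbrev upartEnd (W : Set (Nat.Primes × Gam)) (hW : IsStableSet D.bot W) :
    AddMonoid.End (D.upart W hW) :=
  D.subEnd (D.upart W hW) fun _ hx => D.smul_mem_upart hx

omit hp in
theorem upartEnd_pow (W : Set (Nat.Primes × Gam)) (hW : IsStableSet D.bot W) :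
    D.upartEnd W hW ^ p = 1 :=
  D.subEnd_pow_eq_one fun _ hx => hx.1.1

/-- Both Tate groups of a unit part vanish. -/
def UTrivial (W : Set (Nat.Primes × Gam)) (hW : IsStableSet D.bot W) : Prop :=
  (∀ x ∈ D.upart W hW, D.g • x = x →
      ∃ y ∈ D.upart W hW, ∑ i ∈ Finset.range p, D.g ^ i • y = x) ∧
  (∀ x ∈ D.upart W hW, ∑ i ∈ Finset.range p, D.g ^ i • x = 0 →
      ∃ y ∈ D.upart W hW, D.g • y - y = x)

omit hp in
theorem UTrivial.herbrand_eq {W : Set (Nat.Primes × Gam)} {hW : IsStableSet D.bot W}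
    (h : D.UTrivial W hW) : herbrand p (D.upartEnd W hW) = 1 := by
  have h1 : hIndex (D.upartEnd W hW - 1 : AddMonoid.End _) (cycNorm p (D.upartEnd W hW)) = 1 := by
    rw [hIndex, AddSubgroup.relIndex_eq_one]
    intro x hx
    have hx' : D.upartEnd W hW x = x := sub_eq_zero.1 hx
    obtain ⟨y, hy, hy'⟩ := h.1 x.1 x.2 (congrArg Subtype.val hx')
    exact ⟨⟨y, hy⟩, Subtype.ext ((D.coe_cycNorm_subEnd _).trans hy')⟩
  have h2 : hIndex (cycNorm p (D.upartEnd W hW)) (D.upartEnd W hW - 1 : AddMonoid.End _) = 1 := by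
    rw [hIndex, AddSubgroup.relIndex_eq_one]
    intro x hx
    have hx' : cycNorm p (D.upartEnd W hW) x = 0 := hx
    obtain ⟨y, hy, hy'⟩ := h.2 x.1 x.2 ((D.coe_cycNorm_subEnd x).symm.trans
      (congrArg Subtype.val hx'))
    exact ⟨⟨y, hy⟩, Subtype.ext hy'⟩
  exact (congrArg₂ (fun a b : ℕ => (a : ℚ) / (b : ℚ)) h1 h2).trans (by simp)

omit hp in
theorem herbrand_upart_split {V W : Set (Nat.Primes × Gam)} (hV : IsStableSet D.bot V)
    (hW : IsStableSet D.bot W) (hV1 : herbrand p (D.upartEnd (V ∩ W) (hV.inter hW)) ≠ 0)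
    (hV2 : herbrand p (D.upartEnd (V ∩ Wᶜ) (hV.inter hW.compl)) ≠ 0) :
    herbrand p (D.upartEnd V hV) =
      herbrand p (D.upartEnd (V ∩ Wᶜ) (hV.inter hW.compl)) *
        herbrand p (D.upartEnd (V ∩ W) (hV.inter hW)) := by
  obtain ⟨M, hM⟩ := exists_layer_sub_le D.K
  let π : D.upart V hV →+ D.upart (V ∩ W) (hV.inter hW) :=
    ((cut hM hW).comp (D.upart V hV).subtype).codRestrict _ fun x => by
      refine ⟨⟨cut_mem_fixedPts hM hW D.top_le x.2.1.1, fun q σ h => ?_⟩, fun q σ => ?_⟩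
      · by_cases h' : (q, σ) ∈ W
        · exact (at_cut_of_mem hM hW _ h').trans (x.2.1.2 q σ fun h'' => h ⟨h'', h'⟩)
        · exact at_cut_of_notMem hM hW _ h'
      · by_cases h' : (q, σ) ∈ W
        · exact (at_cut_of_mem hM hW (x : Idele) h').symm ▸ x.2.2 q σ
        · exact (at_cut_of_notMem hM hW (x : Idele) h').symm ▸ (unitsAt q).zero_mem
  have hle : D.upart (V ∩ Wᶜ) (hV.inter hW.compl) ≤ D.upart V hV := fun x hx =>
    ⟨⟨hx.1.1, fun q σ h => hx.1.2 q σ fun h' => h h'.1⟩, hx.2⟩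
  refine herbrand_exact (i := AddSubgroup.inclusion hle) (π := π)
    (AddSubgroup.inclusion_injective hle) (fun y => ?_) ?_ (fun a => rfl) (fun b => ?_)
    (D.upartEnd_pow V hV) hV2 hV1
  · refine ⟨⟨y.1, ⟨y.2.1.1, fun q σ h => y.2.1.2 q σ fun h' => h h'.1⟩, y.2.2⟩,
      Subtype.ext (Idele.ext fun q σ => ?_)⟩
    by_cases h' : (q, σ) ∈ W
    · exact at_cut_of_mem hM hW _ h'
    · exact (at_cut_of_notMem hM hW _ h').trans (y.2.1.2 q σ fun h => h' h.2).symm
  · ext x
    constructor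
    · intro hx
      refine ⟨⟨x.1, ⟨x.2.1.1, fun q σ h => ?_⟩, x.2.2⟩, rfl⟩
      by_cases h' : (q, σ) ∈ W
      · rw [← at_cut_of_mem hM hW (x : Idele) h']
        exact congrArg (fun y : D.upart (V ∩ W) _ => (y : Idele).at q σ) hx
      · exact x.2.1.2 q σ fun h'' => h ⟨h'', h'⟩
    · rintro ⟨a, rfl⟩
      refine Subtype.ext (Idele.ext fun q σ => ?_)
      by_cases h' : (q, σ) ∈ W
      · exact (at_cut_of_mem hM hW _ h').trans (a.2.1.2 q σ fun h'' => h''.2 h')
      · exact at_cut_of_notMem hM hW _ h'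
  · exact Subtype.ext (cut_smul hM hW D.mem (b : Idele)).symm

/-! ### Split double cosets -/

theorem isLocalGen_of_mem {q : Nat.Primes} {σ : Gam}
    {i : ℕ} (h : (q, σ * D.g ^ i) ∈ cosetSet D.L q σ) (hi : ¬ p ∣ i) :
    ∃ t, D.IsLocalGen q σ t := by
  obtain ⟨-, τ, hτ⟩ := h
  obtain ⟨a, ha⟩ := Nat.exists_mul_mod_eq_one_of_coprime
    ((hp.out.coprime_iff_not_dvd.2 hi).symm) hp.out.one_lt
  have h1 : ∀ j : ℕ, (loc q (τ ^ j) * σ)⁻¹ * (σ * D.g ^ (i * j)) ∈ D.top := by
    intro j
    induction j with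
    | zero => simp [one_mem]
    | succ j ih =>
      have := mul_mem hτ (D.conj_mem (inv_mem (D.bot.pow_mem D.mem i)) ih)
      convert this using 1
      rw [Nat.mul_succ, Nat.add_comm (i * j), pow_add, pow_succ', map_mul, mul_inv_rev, mul_inv_rev]
      group
  refine ⟨τ ^ a, ?_⟩
  have h2 := h1 a
  rw [← Nat.mod_add_div (i * a) p, ha.2, pow_add, pow_one, pow_mul] at h2
  show (loc q (τ ^ a) * σ)⁻¹ * (σ * D.g) ∈ D.top
  have h3 := mul_mem h2 (inv_mem (D.top.pow_mem D.pow_mem (i * a / p)))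
  convert h3 using 1
  group

theorem UTrivial.of_split {q : Nat.Primes} {σ : Gam} (hns : ¬ ∃ t, D.IsLocalGen q σ t)
    {hW : IsStableSet D.bot (cosetSet D.K q σ)} : D.UTrivial (cosetSet D.K q σ) hW := by
  have hdis : ∀ i < p, ∀ j < p, (q, σ * D.g ^ j) ∈ cosetSet D.L q (σ * D.g ^ i) → i = j := by
    intro i hi j hj h
    by_contra hne
    have hsymm : (q, σ * D.g ^ i) ∈ cosetSet D.L q (σ * D.g ^ j) := by
      have := cosetSet_eq_of_mem h
      rw [this]; exact mem_cosetSet_self q _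
    -- move to `σ`
    have key : ∀ a b : ℕ, a < b → b < p → (q, σ * D.g ^ b) ∈ cosetSet D.L q (σ * D.g ^ a) →
        False := by
      intro a b hab hb h'
      obtain ⟨-, τ, hτ⟩ := h'
      have hmem : (q, σ * D.g ^ (b - a)) ∈ cosetSet D.L q σ := by
        refine ⟨rfl, τ, ?_⟩
        have := D.conj_mem (D.bot.pow_mem D.mem a) hτ
        convert this using 1
        rw [show D.g ^ b = D.g ^ (b - a) * D.g ^ a by rw [← pow_add, Nat.sub_add_cancel hab.le]]
        group
      exact hns (D.isLocalGen_of_mem hmem fun hd => by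
        have := Nat.eq_zero_of_dvd_of_lt hd (by omega)
        omega)
    rcases lt_or_gt_of_ne hne with h' | h'
    · exact key i j h' hj h
    · exact key j i h' hi hsymm
  have hcover : ∀ r γ, (r, γ) ∈ cosetSet D.K q σ →
      ∃ i < p, r = q ∧ (r, γ) ∈ cosetSet D.L q (σ * D.g ^ i) := by
    intro r γ h
    obtain ⟨rfl, τ, n, hn, rfl⟩ := mem_cosetSet_iff.1 h
    obtain ⟨i, hi, hm⟩ := D.exists_pow_mul hn
    exact ⟨i, hi, rfl, mem_cosetSet_iff.2 ⟨rfl, τ, _, hm, by group⟩⟩
  obtain ⟨M, hM⟩ := exists_layer_sub_le D.L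
  have hsub : ∀ i : ℕ, cosetSet D.L q (σ * D.g ^ i) ⊆ cosetSet D.K q σ := by
    rintro i ⟨r, γ⟩ h
    obtain ⟨rfl, τ, n, hn, rfl⟩ := mem_cosetSet_iff.1 h
    exact mem_cosetSet_iff.2 ⟨rfl, τ, D.g ^ i * n,
      mul_mem (D.bot.pow_mem D.mem i) (D.top_le hn), by group⟩
  -- pieces
  let P : ℕ → Idele → Idele := fun i x =>
    cut hM (isStableSet_cosetSet (K := D.L) q (σ * D.g ^ i)) x
  have hP : ∀ i x, x ∈ D.upart _ hW → P i x ∈ D.upart _ hW := by
    intro i x hx
    refine ⟨⟨cut_mem_fixedPts hM _ le_rfl hx.1.1, fun r γ h => ?_⟩, fun r γ => ?_⟩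
    · exact at_cut_of_notMem hM _ _ fun h' => h (hsub i h')
    · by_cases h' : (r, γ) ∈ cosetSet D.L q (σ * D.g ^ i)
      · exact (at_cut_of_mem hM (isStableSet_cosetSet (K := D.L) q (σ * D.g ^ i)) x h').symm ▸
        hx.2 r γ
      · exact (at_cut_of_notMem hM (isStableSet_cosetSet (K := D.L) q (σ * D.g ^ i)) x h').symm ▸
          (unitsAt r).zero_mem
  have hPsum : ∀ x ∈ D.upart _ hW, ∑ i ∈ Finset.range p, P i x = x := by
    intro x hx
    refine Idele.ext fun r γ => ?_
    rw [show (∑ i ∈ Finset.range p, P i x).at r γ = ∑ i ∈ Finset.range p, (P i x).at r γ from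
      map_sum (Idele.atHom r γ) _ _]
    by_cases h : (r, γ) ∈ cosetSet D.K q σ
    · obtain ⟨i, hi, rfl, h'⟩ := hcover r γ h
      rw [Finset.sum_eq_single i (fun j hj hne => at_cut_of_notMem hM _ _ fun h'' => ?_)
        fun hni => absurd (Finset.mem_range.2 hi) hni]
      · exact at_cut_of_mem hM _ _ h'
      · refine hne (hdis i hi j (Finset.mem_range.1 hj) ?_).symm
        have e1 := cosetSet_eq_of_mem h'
        have e2 := cosetSet_eq_of_mem h''
        rw [← e1, e2]
        exact mem_cosetSet_self _ _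
    · rw [hx.1.2 r γ h]
      exact Finset.sum_eq_zero fun i _ => at_cut_of_notMem hM _ _ fun h' => h (hsub i h')
  have hcoset : ∀ (i : ℕ) (r : Nat.Primes) (γ : Gam),
      (r, γ * D.g ^ i) ∈ cosetSet D.L q (σ * D.g ^ i) ↔ (r, γ) ∈ cosetSet D.L q σ := by
    intro i r γ
    constructor
    · intro h
      obtain ⟨rfl, τ, hτ⟩ := h
      refine ⟨rfl, τ, ?_⟩
      have := D.conj_mem (D.bot.pow_mem D.mem i) hτ
      convert this using 1
      group
    · intro h
      obtain ⟨rfl, τ, hτ⟩ := h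
      refine ⟨rfl, τ, ?_⟩
      have := D.conj_mem (inv_mem (D.bot.pow_mem D.mem i)) hτ
      convert this using 1
      group
  have hPsmul : ∀ (i : ℕ) (x : Idele), P 0 (D.g ^ i • x) = D.g ^ i • P i x := by
    intro i x
    refine Idele.ext fun r γ => ?_
    have hz : σ * D.g ^ 0 = σ := by rw [pow_zero, mul_one]
    by_cases h : (r, γ) ∈ cosetSet D.L q σ
    · rw [Idele.at_smul, at_cut_of_mem hM _ _ ((hcoset i r γ).2 h),
        at_cut_of_mem hM _ _ (by rwa [hz]), Idele.at_smul]
    · rw [Idele.at_smul, at_cut_of_notMem hM _ _ (fun h' => h ((hcoset i r γ).1 h')),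
        at_cut_of_notMem hM _ _ (by rwa [hz])]
  have hpow : ∀ (i : ℕ) (x : Idele), x ∈ D.upart _ hW → D.g ^ i • x ∈ D.upart _ hW := by
    intro i x hx
    induction i with
    | zero => rwa [pow_zero, one_smul]
    | succ i ih => rw [pow_succ', mul_smul]; exact D.smul_mem_upart ih
  refine ⟨fun x hx hfix => ⟨P 0 x, hP 0 x hx, ?_⟩, fun x hx hN => ?_⟩
  · have hpfix : ∀ i : ℕ, D.g ^ i • x = x := by
      intro i
      induction i with
      | zero => rw [pow_zero, one_smul]
      | succ i ih => rw [pow_succ, mul_smul, hfix, ih]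
    have h1 : ∀ i < p, D.g ^ i • P 0 x = D.g ^ i • (D.g ^ (p - i) • P (p - i) x) := by
      intro i _
      rw [← hPsmul, hpfix]
    have hPp : ∀ i < p, D.g ^ i • P 0 x = P (if i = 0 then 0 else p - i) x := by
      intro i hi
      by_cases h0 : i = 0
      · rw [if_pos h0, h0, pow_zero, one_smul]
      · rw [if_neg h0, h1 i hi, ← mul_smul, ← pow_add, Nat.add_sub_cancel' hi.le]
        exact (hP _ x hx).1.1 _ D.pow_mem
    rw [Finset.sum_congr rfl fun i hi => hPp i (Finset.mem_range.1 hi)]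
    refine Eq.trans ?_ (hPsum x hx)
    refine Finset.sum_nbij' (fun i => if i = 0 then 0 else p - i)
      (fun i => if i = 0 then 0 else p - i) ?_ ?_ ?_ ?_ (fun i _ => rfl)
    all_goals
      intro i hi
      simp only [Finset.mem_range] at hi ⊢
      split_ifs <;> omega
  · have hsum : ∑ i ∈ Finset.range p, D.g ^ i • P i x = 0 := by
      simp only [← hPsmul]
      exact ((map_sum (cut hM (isStableSet_cosetSet (K := D.L) q (σ * D.g ^ 0))) _ _).symm.trans
        (congrArg _ hN)).trans (map_zero _)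
    refine ⟨-∑ i ∈ Finset.range p, ∑ j ∈ Finset.range i, D.g ^ j • P i x,
      neg_mem (sum_mem fun i _ => sum_mem fun j _ => hpow j _ (hP i x hx)), ?_⟩
    have htel : ∀ (i : ℕ) (z : Idele),
        D.g • (∑ j ∈ Finset.range i, D.g ^ j • z) - ∑ j ∈ Finset.range i, D.g ^ j • z =
          D.g ^ i • z - z := by
      intro i z
      rw [Finset.smul_sum, ← Finset.sum_sub_distrib]
      refine (Finset.sum_congr rfl fun j _ => ?_).trans
        ((Finset.sum_range_sub (fun j => D.g ^ j • z) i).trans (by rw [pow_zero, one_smul]))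
      rw [← mul_smul, ← pow_succ']
    rw [smul_neg, neg_sub_neg, Finset.smul_sum, ← Finset.sum_sub_distrib]
    have hterm : ∀ i ∈ Finset.range p,
        (∑ j ∈ Finset.range i, D.g ^ j • P i x) - D.g • (∑ j ∈ Finset.range i, D.g ^ j • P i x) =
          P i x - D.g ^ i • P i x := fun i _ => by
      rw [← neg_sub, htel, neg_sub]
    rw [Finset.sum_congr rfl hterm, Finset.sum_sub_distrib, hPsum x hx, hsum, sub_zero]

end CyclicStep

end FLTAgent.IdeleClassCohomology
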