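import Fermat.Agent.IdeleClassCohomology.UnitParts

/-!
# The Herbrand quotient of all unit ideles of the top field of a cyclic step

`herbrand_allUnits`: the quotient is one, by decomposing `allUnits` into the unit parts over
double cosets.
-/

set_option autoImplicit false

noncomputable section

open Module

namespace FLTAgent.IdeleClassCohomology

open FLTAgent.GalCoh FLTAgent.GlobalDuality IsDedekindDomain WithZero

theorem herbrand_one_int (p : ℕ) [hp : Fact p.Prime] : herbrand p (1 : AddMonoid.End ℤ) = p := by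
  have h := herbrand_pow_of_free (p := p) (σ := (1 : AddMonoid.End ℤ)) (one_pow p)
  have htop : cycFixed (1 : AddMonoid.End ℤ) = ⊤ := eq_top_iff.2 fun x _ => mem_cycFixed.2 rfl
  have hr : Module.finrank ℤ (AddSubgroup.toIntSubmodule (cycFixed (1 : AddMonoid.End ℤ))) = 1 := by
    rw [htop, map_top, finrank_top, Module.finrank_self]
  rw [hr, Module.finrank_self] at h
  have hexp : (p : ℤ) * ((1 : ℕ) : ℤ) - ((1 : ℕ) : ℤ) = ((p - 1 : ℕ) : ℤ) := by
    rw [Nat.cast_sub hp.out.one_le]; push_cast; ring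
  rw [hexp, zpow_natCast] at h
  exact (pow_left_inj₀ (div_nonneg (Nat.cast_nonneg _) (Nat.cast_nonneg _)) (Nat.cast_nonneg _)
    (by have := hp.out.two_le; omega)).1 h

namespace CyclicStep

variable {p : ℕ} [hp : Fact p.Prime] (D : CyclicStep p) {q : Nat.Primes} {σ : Gam} {t : LGal q}

theorem IsLocalGen.cosetSet_eq {D : CyclicStep p} (ht : D.IsLocalGen q σ t) :
    cosetSet D.K q σ = cosetSet D.L q σ := by
  obtain ⟨n, hn, e⟩ := ht.exists_eq
  ext ⟨r, γ⟩
  constructor
  · intro h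
    obtain ⟨rfl, τ, m, hm, rfl⟩ := mem_cosetSet_iff.1 h
    obtain ⟨i, -, hi⟩ := D.exists_pow_mul hm
    have hpow : ∀ j : ℕ, ∃ n ∈ D.top, σ * D.g ^ j = loc r (t ^ j) * σ * n := by
      intro j
      induction j with
      | zero => exact ⟨1, one_mem _, by simp⟩
      | succ j ih =>
        obtain ⟨k, hk, hk'⟩ := ih
        have hk2 : D.g⁻¹ * k * D.g ∈ D.top := by
          have := D.conj_mem (inv_mem D.mem) hk
          rwa [inv_inv] at this
        refine ⟨n * (D.g⁻¹ * k * D.g), mul_mem hn hk2, ?_⟩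
        calc σ * D.g ^ (j + 1) = (σ * D.g ^ j) * D.g := by rw [pow_succ, mul_assoc]
          _ = loc r (t ^ j) * (σ * D.g) * (D.g⁻¹ * k * D.g) := by rw [hk']; group
          _ = loc r (t ^ j) * (loc r t * σ * n) * (D.g⁻¹ * k * D.g) := by rw [e]
          _ = loc r (t ^ (j + 1)) * σ * (n * (D.g⁻¹ * k * D.g)) := by
            rw [pow_succ t, map_mul]; group
    obtain ⟨k, hk, hk'⟩ := hpow i
    refine mem_cosetSet_iff.2 ⟨rfl, τ * t ^ i, k * ((D.g ^ i)⁻¹ * m), mul_mem hk hi, ?_⟩
    calc loc r τ * σ * m = loc r τ * (σ * D.g ^ i) * ((D.g ^ i)⁻¹ * m) := by group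
      _ = loc r (τ * t ^ i) * σ * (k * ((D.g ^ i)⁻¹ * m)) := by rw [hk', map_mul]; group
  · intro h
    obtain ⟨rfl, τ, m, hm, rfl⟩ := mem_cosetSet_iff.1 h
    exact mem_cosetSet_iff.2 ⟨rfl, τ, m, D.top_le hm, rfl⟩

variable (q σ) in
/-- Evaluation at the base point of a coset. -/
def evalHom : D.part (cosetSet D.K q σ) (isStableSet_cosetSet q σ) →+ localTop D q σ :=
  ((Idele.atHom q σ).comp (AddSubgroup.subtype _)).codRestrict _ fun x => at_mem_locField x.2.1

theorem IsLocalGen.evalHom_bijective {D : CyclicStep p} (ht : D.IsLocalGen q σ t) :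
    Function.Bijective (D.evalHom q σ) := by
  constructor
  · rw [injective_iff_map_eq_zero]
    intro x hx
    have h0 : (x : Idele).at q σ = 0 := congrArg Subtype.val hx
    refine Subtype.ext (Idele.ext fun r γ => ?_)
    by_cases h : (r, γ) ∈ cosetSet D.K q σ
    · rw [ht.cosetSet_eq] at h
      obtain ⟨rfl, τ, n, hn, rfl⟩ := mem_cosetSet_iff.1 h
      rw [Idele.mem_fixedPts_iff.1 x.2.1 r (loc r τ * σ) n hn, Idele.at_loc_mul, h0, smul_zero]
      rfl
    · exact x.2.2 r γ h
  · intro a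
    obtain ⟨x, hx, hxa, hsupp⟩ := exists_pointIdele (K := D.L) (a := (a : LU q)) a.2
    exact ⟨⟨x, hx, fun r γ h => hsupp r γ (by rwa [ht.cosetSet_eq] at h)⟩, Subtype.ext hxa⟩

omit hp in
theorem IsLocalGen.evalHom_smul {D : CyclicStep p} (ht : D.IsLocalGen q σ t)
    (x : D.part (cosetSet D.K q σ) (isStableSet_cosetSet q σ)) :
    localEnd ht (D.evalHom q σ x) =
      D.evalHom q σ (D.partEnd _ (isStableSet_cosetSet q σ) x) := by
  obtain ⟨n, hn, e⟩ := ht.exists_eq
  refine Subtype.ext ?_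
  show t • (x : Idele).at q σ = (D.g • (x : Idele)).at q σ
  rw [Idele.at_smul, e, Idele.mem_fixedPts_iff.1 x.2.1 q _ n hn, Idele.at_loc_mul]

theorem IsLocalGen.herbrand_part {D : CyclicStep p} (ht : D.IsLocalGen q σ t) :
    herbrand p (D.partEnd (cosetSet D.K q σ) (isStableSet_cosetSet q σ)) = p := by
  set e := AddEquiv.ofBijective _ ht.evalHom_bijective
  have h := hQuot_congr e (f := (D.partEnd (cosetSet D.K q σ) (isStableSet_cosetSet q σ) - 1 :
    AddMonoid.End _)) (g := cycNorm p (D.partEnd (cosetSet D.K q σ) (isStableSet_cosetSet q σ)))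
    (f' := (localEnd ht - 1 : AddMonoid.End _)) (g' := cycNorm p (localEnd ht))
    (fun a => by
      show localEnd ht (e a) - e a = e (_ - a)
      rw [map_sub]
      exact congrArg (· - e a) (ht.evalHom_smul a))
    (fun a => cycNorm_apply_comm p e.toAddMonoidHom ht.evalHom_smul a)
  refine (congrArg₂ (fun a b : ℕ => (a : ℚ) / (b : ℚ)) (h.1.symm.trans ht.hIndex_localEnd.1)
    (h.2.symm.trans ht.hIndex_localEnd.2)).trans (by simp)

theorem IsLocalGen.herbrand_upart {D : CyclicStep p} (ht : D.IsLocalGen q σ t) :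
    herbrand p (D.upartEnd (cosetSet D.K q σ) (isStableSet_cosetSet q σ)) = 1 := by
  set W := cosetSet D.K q σ
  have hW : IsStableSet D.bot W := isStableSet_cosetSet q σ
  let π : D.part W hW →+ ℤ := AddMonoidHom.mk'
    (fun x => ideleOrdAt D.L ⟨(x : Idele), x.2.1⟩ q σ)
    fun x y => ideleOrdAt_add D.L ⟨(x : Idele), x.2.1⟩ ⟨(y : Idele), y.2.1⟩
  have hle : D.upart W hW ≤ D.part W hW := inf_le_left
  obtain ⟨π₀, hπ₀⟩ := (placeIdeal D.L q σ).valuation_exists_uniformizer D.L
  have hπ0 : π₀ ≠ 0 := by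
    intro h; rw [h, map_zero] at hπ₀; exact exp_ne_zero hπ₀.symm
  obtain ⟨x₀, hx₀⟩ := ht.evalHom_bijective.2 ⟨Additive.ofMul (Units.mk0 (placeEmb D.L q σ π₀)
    ((map_ne_zero _).2 hπ0)), placeEmb_mem_locField π₀⟩
  have hx₀1 : π x₀ = 1 := by
    show ideleOrdAt D.L ⟨(x₀ : Idele), x₀.2.1⟩ q σ = 1
    rw [ideleOrdAt_eq D.L _ hπ0]
    · rw [placeOrd, hπ₀, log_exp, neg_neg]
    · show _ = ‖((x₀ : Idele).at q σ).val‖
      rw [show (x₀ : Idele).at q σ = _ from congrArg Subtype.val hx₀]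
      rfl
  have hsurj : Function.Surjective π := fun k => ⟨k • x₀, by rw [map_zsmul, hx₀1]; simp⟩
  have hπ : ∀ b, (1 : AddMonoid.End ℤ) (π b) = π (D.partEnd W hW b) := by
    intro b
    show π b = π (D.partEnd W hW b)
    obtain ⟨a, ha, ha'⟩ := exists_norm_at_eq (q := q) (σ := σ) b.2.1
    have e1 : π b = placeOrd D.L q σ a := ideleOrdAt_eq D.L _ ha ha'
    have e2 : π (D.partEnd W hW b) = placeOrd D.L q σ a := by
      refine ideleOrdAt_eq D.L _ ha (ha'.trans ?_)
      show _ = ‖((D.g • (b : Idele)).at q σ).val‖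
      obtain ⟨n, hn, e⟩ := ht.exists_eq
      rw [Idele.at_smul, e, Idele.mem_fixedPts_iff.1 b.2.1 q _ n hn, Idele.at_loc_mul,
        norm_smul_LU]
    rw [e1, e2]
  have hker : π.ker = (AddSubgroup.inclusion hle).range := by
    ext x
    constructor
    · intro hx
      have h1 := (ideleOrdAt_eq_zero_iff D.L ⟨(x : Idele), x.2.1⟩).1 (hx : π x = 0)
      refine ⟨⟨x, x.2, fun r γ => ?_⟩, rfl⟩
      by_cases h : (r, γ) ∈ cosetSet D.K q σ
      · rw [ht.cosetSet_eq] at h
        obtain ⟨rfl, τ, n, hn, rfl⟩ := mem_cosetSet_iff.1 h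
        rw [Idele.mem_fixedPts_iff.1 x.2.1 r (loc r τ * σ) n hn, Idele.at_loc_mul]
        exact smul_mem_unitsAt τ h1
      · rw [x.2.2 r γ h]; exact (unitsAt r).zero_mem
    · rintro ⟨a, rfl⟩
      exact (ideleOrdAt_eq_zero_iff D.L ⟨(a : Idele), a.2.1.1⟩).2 (a.2.2 q σ)
  have hord := D.subEnd_pow_eq_one (S := D.part W hW) (hS := fun _ hx => smul_mem_part hx)
    fun _ hx => hx.1
  have hpq : (p : ℚ) ≠ 0 := Nat.cast_ne_zero.2 hp.out.ne_zero
  have hB := ht.herbrand_part
  have hfA : ∀ a, (D.partEnd W hW - 1 : AddMonoid.End _) (AddSubgroup.inclusion hle a) =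
      AddSubgroup.inclusion hle ((D.upartEnd W hW - 1 : AddMonoid.End _) a) := fun a => rfl
  have hgA : ∀ a, cycNorm p (D.partEnd W hW) (AddSubgroup.inclusion hle a) =
      AddSubgroup.inclusion hle (cycNorm p (D.upartEnd W hW) a) :=
    cycNorm_apply_comm p _ fun a => rfl
  have hfC : ∀ b,
      ((1 : AddMonoid.End ℤ) - 1) (π b) = π ((D.partEnd W hW - 1 : AddMonoid.End _) b) :=
    fun b => by
      show (1 : AddMonoid.End ℤ) (π b) - π b = π (D.partEnd W hW b - b)
      rw [map_sub, hπ]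
  have hne : herbrand p (D.upartEnd W hW) ≠ 0 :=
    hQuot_ne_zero_left (AddSubgroup.inclusion_injective hle) hsurj hker hfA hgA hfC
      (cycNorm_apply_comm p π hπ)
      (fun b => DFunLike.congr_fun (sub_one_mul_cycNorm hord) b)
      (fun b => DFunLike.congr_fun (cycNorm_mul_sub_one hord) b)
      (show herbrand p (D.partEnd W hW) ≠ 0 by rw [hB]; exact hpq)
      (show herbrand p (1 : AddMonoid.End ℤ) ≠ 0 by rw [herbrand_one_int]; exact hpq)
  have h := herbrand_exact (σA := D.upartEnd W hW) (σ := D.partEnd W hW)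
    (σC := (1 : AddMonoid.End ℤ)) (AddSubgroup.inclusion_injective hle) hsurj hker
    (fun a => rfl) hπ hord hne (by rw [herbrand_one_int]; exact hpq)
  rw [hB, herbrand_one_int] at h
  exact (mul_left_eq_self₀.1 h.symm).resolve_right hpq

theorem herbrand_upart_coset (q : Nat.Primes) (σ : Gam) :
    herbrand p (D.upartEnd (cosetSet D.K q σ) (isStableSet_cosetSet q σ)) = 1 := by
  by_cases h : ∃ t, D.IsLocalGen q σ t
  · obtain ⟨t, ht⟩ := h
    exact ht.herbrand_upart
  · exact (UTrivial.of_split D h).herbrand_eq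

theorem UTrivial.of_unramified {q : Nat.Primes} {σ : Gam}
    (hunr : ∀ t, D.IsLocalGen q σ t → ∀ y ∈ localTop D q σ,
      ∃ e ∈ locField D.K q σ, e ≠ 0 ∧ ‖e‖ = ‖(y : LU q).val‖) :
    D.UTrivial (cosetSet D.K q σ) (isStableSet_cosetSet q σ) := by
  by_cases h : ∃ t, D.IsLocalGen q σ t
  swap
  · exact UTrivial.of_split D h
  obtain ⟨t, ht⟩ := h
  set W := cosetSet D.K q σ
  have hW : IsStableSet D.bot W := isStableSet_cosetSet q σ
  have h2 : ∀ x ∈ D.upart W hW, ∑ i ∈ Finset.range p, D.g ^ i • x = 0 →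
      ∃ y ∈ D.upart W hW, D.g • y - y = x := by
    intro x hx hN
    have hN' : cycNorm p (D.partEnd W hW) ⟨x, hx.1⟩ = 0 :=
      Subtype.ext ((D.coe_cycNorm_subEnd _).trans hN)
    have ha : cycNorm p (localEnd ht) (D.evalHom q σ ⟨x, hx.1⟩) = 0 := by
      rw [cycNorm_apply_comm p (D.evalHom q σ) ht.evalHom_smul]
      exact (congrArg (D.evalHom q σ) hN').trans (map_zero _)
    obtain ⟨y, hy⟩ := (AddSubgroup.relIndex_eq_one.1 ht.hIndex_localEnd.2 :
      AddMonoidHom.ker (cycNorm p (localEnd ht)) ≤ _) ha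
    obtain ⟨e, he, he0, hey⟩ := hunr t ht y y.2
    let eU : localTop D q σ := ⟨Additive.ofMul (Units.mk0 e he0), D.locField_le q σ he⟩
    have hfix : localEnd ht eU = eU := Subtype.ext (LU.ext
      ((IntermediateField.mem_fixingSubgroup_iff _ _).1 ht.mem_fix_bot e he))
    obtain ⟨z, hz⟩ := ht.evalHom_bijective.2 (y - eU)
    have hzu : (z : Idele) ∈ unitIdeles := by
      intro r γ
      by_cases hγ : (r, γ) ∈ cosetSet D.K q σ
      · rw [ht.cosetSet_eq] at hγ
        obtain ⟨rfl, τ, n, hn, rfl⟩ := mem_cosetSet_iff.1 hγ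
        rw [Idele.mem_fixedPts_iff.1 z.2.1 r (loc r τ * σ) n hn, Idele.at_loc_mul]
        refine smul_mem_unitsAt τ ?_
        rw [show (z : Idele).at r σ = ((y - eU : localTop D r σ) : LU r) from
          congrArg Subtype.val hz, mem_unitsAt_iff]
        show ‖((y : LU r).toMul / Units.mk0 e he0 : (PadicAlgCl (r : ℕ))ˣ).val‖ = 1
        rw [Units.val_div_eq_div_val, norm_div, Units.val_mk0, hey, div_self]
        exact norm_ne_zero_iff.2 (Units.ne_zero _)
      · rw [z.2.2 r γ hγ]; exact (unitsAt r).zero_mem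
    refine ⟨z, ⟨z.2, hzu⟩, ?_⟩
    have key : D.partEnd W hW z - z = ⟨x, hx.1⟩ := by
      refine ht.evalHom_bijective.1 ?_
      rw [map_sub, ← ht.evalHom_smul, hz, map_sub (localEnd ht), hfix]
      refine Eq.trans ?_ hy
      show localEnd ht y - eU - (y - eU) = localEnd ht y - y
      abel
    exact congrArg Subtype.val key
  refine ⟨fun x hx hfix => ?_, h2⟩
  have hid : hIndex (cycNorm p (D.upartEnd W hW)) (D.upartEnd W hW - 1 : AddMonoid.End _) = 1 := by
    rw [hIndex, AddSubgroup.relIndex_eq_one]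
    intro a ha
    have ha' : cycNorm p (D.upartEnd W hW) a = 0 := ha
    obtain ⟨y, hy, hy'⟩ := h2 a.1 a.2 ((D.coe_cycNorm_subEnd a).symm.trans
      (congrArg Subtype.val ha'))
    exact ⟨⟨y, hy⟩, Subtype.ext hy'⟩
  have h1 : (hIndex (D.upartEnd W hW - 1 : AddMonoid.End _) (cycNorm p (D.upartEnd W hW)) : ℚ) /
      (hIndex (cycNorm p (D.upartEnd W hW)) (D.upartEnd W hW - 1 : AddMonoid.End _) : ℕ) = 1 :=
    ht.herbrand_upart
  rw [hid, Nat.cast_one, div_one, Nat.cast_eq_one, hIndex, AddSubgroup.relIndex_eq_one] at h1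
  have hm : (D.upartEnd W hW - 1 : AddMonoid.End _) ⟨x, hx⟩ = 0 :=
    sub_eq_zero.2 (Subtype.ext hfix)
  obtain ⟨y, hy⟩ := h1 hm
  exact ⟨y, y.2, (D.coe_cycNorm_subEnd y).symm.trans (congrArg Subtype.val hy)⟩

/-- All the unit ideles of `L`. -/
def allUnits : AddSubgroup Idele := fixedPts D.top Idele ⊓ unitIdeles

omit hp in
theorem smul_mem_allUnits {x : Idele} (hx : x ∈ D.allUnits) : D.g • x ∈ D.allUnits :=
  ⟨D.smul_mem_top hx.1, smul_mem_unitIdeles _ hx.2⟩

/-- The generator on the unit ideles. -/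
abbrev allUnitsEnd : AddMonoid.End D.allUnits :=
  D.subEnd D.allUnits fun _ hx => D.smul_mem_allUnits hx

omit hp in
theorem herbrand_upart_congr {V V' : Set (Nat.Primes × Gam)} (h : V = V')
    (hV : IsStableSet D.bot V) (hV' : IsStableSet D.bot V') :
    herbrand p (D.upartEnd V hV) = herbrand p (D.upartEnd V' hV') := by
  subst h
  rfl

theorem herbrand_upart_prime (q : Nat.Primes) :
    ∀ (R : List Gam) (V : Set (Nat.Primes × Gam)) (hV : IsStableSet D.bot V),
      (∀ i ∈ V, i.1 = q ∧ ∃ σ ∈ R, i ∈ cosetSet D.K q σ) → herbrand p (D.upartEnd V hV) = 1 := by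
  intro R
  induction R with
  | nil =>
    intro V hV hcov
    have hempty : ∀ x ∈ D.upart V hV, x = 0 := fun x hx => Idele.ext fun r γ =>
      hx.1.2 r γ fun h => by obtain ⟨-, σ, hσ, -⟩ := hcov _ h; exact absurd hσ (by simp)
    refine UTrivial.herbrand_eq D ⟨fun x hx _ => ⟨x, hx, ?_⟩, fun x hx _ => ⟨x, hx, ?_⟩⟩
    · simp [hempty x hx]
    · simp [hempty x hx]
  | cons σ R ih =>
    intro V hV hcov
    have hW := isStableSet_cosetSet (K := D.K) q σ
    have h2 := ih (V ∩ (cosetSet D.K q σ)ᶜ) (hV.inter hW.compl) fun i hi => by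
      obtain ⟨h1, ρ, hρ, hρ'⟩ := hcov i hi.1
      refine ⟨h1, ρ, (List.mem_cons.1 hρ).resolve_left ?_, hρ'⟩
      rintro rfl
      exact hi.2 hρ'
    by_cases hmeet : ∃ γ, (q, γ) ∈ V ∧ (q, γ) ∈ cosetSet D.K q σ
    · have heq : V ∩ cosetSet D.K q σ = cosetSet D.K q σ := by
        refine Set.inter_eq_right.2 ?_
        rintro ⟨r, γ⟩ hγ
        obtain ⟨γ₀, hV₀, hc₀⟩ := hmeet
        rw [← cosetSet_eq_of_mem hc₀] at hγ
        obtain ⟨rfl, τ, n, hn, rfl⟩ := mem_cosetSet_iff.1 hγ
        exact hV r γ₀ τ n hn hV₀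
      have h1 : herbrand p (D.upartEnd (V ∩ cosetSet D.K q σ) (hV.inter hW)) = 1 := by
        rw [← D.herbrand_upart_coset q σ]
        exact D.herbrand_upart_congr heq _ _
      rw [D.herbrand_upart_split hV hW (by rw [h1]; exact one_ne_zero)
        (by rw [h2]; exact one_ne_zero), h1, h2, one_mul]
    · refine ih V hV fun i hi => ?_
      obtain ⟨h1, ρ, hρ, hρ'⟩ := hcov i hi
      refine ⟨h1, ρ, (List.mem_cons.1 hρ).resolve_left ?_, hρ'⟩
      rintro rfl
      obtain ⟨r, γ⟩ := i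
      obtain rfl : r = q := h1
      exact hmeet ⟨γ, hi, hρ'⟩

theorem herbrand_upart_primes : ∀ (T : List Nat.Primes) (V : Set (Nat.Primes × Gam))
    (hV : IsStableSet D.bot V), (∀ i ∈ V, i.1 ∈ T) → herbrand p (D.upartEnd V hV) = 1 := by
  intro T
  induction T with
  | nil =>
    intro V hV hcov
    exact D.herbrand_upart_prime ⟨2, Nat.prime_two⟩ [] V hV
      (fun i hi => absurd (hcov i hi) (by simp))
  | cons q T ih =>
    intro V hV hcov
    have hW := isStableSet_primes D.bot ({q} : Set Nat.Primes)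
    obtain ⟨R, hR⟩ := exists_finset_cosets D.K q
    have h1 := D.herbrand_upart_prime q R.toList _ (hV.inter hW) fun i hi => by
      obtain ⟨r, γ⟩ := i
      obtain rfl : r = q := hi.2
      obtain ⟨σ, hσ, h⟩ := hR γ
      exact ⟨rfl, σ, Finset.mem_toList.2 hσ, h⟩
    have h2 := ih _ (hV.inter hW.compl) fun i hi =>
      (List.mem_cons.1 (hcov i hi.1)).resolve_left hi.2
    rw [D.herbrand_upart_split hV hW (by rw [h1]; exact one_ne_zero)
      (by rw [h2]; exact one_ne_zero), h1, h2, one_mul]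

/-- The Herbrand quotient of the unit ideles is one. -/
theorem herbrand_allUnits : herbrand p D.allUnitsEnd = 1 := by
  classical
  obtain ⟨T, hT⟩ := exists_finset_unramified D
  have hUniv : IsStableSet D.bot Set.univ := fun _ _ _ _ _ _ => trivial
  have hW := isStableSet_primes D.bot (↑T : Set Nat.Primes)
  have h1 := D.herbrand_upart_primes T.toList _ (hUniv.inter hW) fun i hi =>
    Finset.mem_toList.2 hi.2
  have h2 : herbrand p (D.upartEnd _ (hUniv.inter hW.compl)) = 1 := by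
    refine UTrivial.herbrand_eq D ?_
    obtain ⟨M, hM⟩ := exists_layer_sub_le D.L
    have hloc : ∀ q ∉ T, ∀ σ, D.UTrivial (cosetSet D.K q σ) (isStableSet_cosetSet q σ) :=
      fun q hq σ => UTrivial.of_unramified D fun t ht => hT q hq σ t ht
    have hcut : ∀ (q : Nat.Primes) (σ : Gam),
        ∀ x ∈ D.upart _ (hUniv.inter hW.compl),
        cut (M := M) (hM.trans D.top_le) (isStableSet_cosetSet (K := D.K) q σ) x ∈
          D.upart (cosetSet D.K q σ) (isStableSet_cosetSet q σ) := by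
      intro q σ x hx
      refine ⟨⟨cut_mem_fixedPts _ _ D.top_le hx.1.1, fun r γ h => at_cut_of_notMem _ _ _ h⟩,
        fun r γ => ?_⟩
      by_cases h : (r, γ) ∈ cosetSet D.K q σ
      · exact (at_cut_of_mem (M := M) (hM.trans D.top_le)
          (isStableSet_cosetSet (K := D.K) q σ) x h).symm ▸ hx.2 r γ
      · exact (at_cut_of_notMem (M := M) (hM.trans D.top_le)
          (isStableSet_cosetSet (K := D.K) q σ) x h).symm ▸ (unitsAt r).zero_mem
    have step : ∀ (Φ : Idele →+ Idele),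
        (∀ y q σ W (hW' : IsStableSet D.bot W),
          (Φ (cut (M := M) (hM.trans D.top_le) hW' y)).at q σ =
          (cut (M := M) (hM.trans D.top_le) hW' (Φ y)).at q σ) →
        ∀ x ∈ D.upart _ (hUniv.inter hW.compl),
        (∀ q ∉ T, ∀ σ, ∃ y ∈ D.upart (cosetSet D.K q σ) (isStableSet_cosetSet q σ),
          Φ y = cut (M := M) (hM.trans D.top_le) (isStableSet_cosetSet (K := D.K) q σ) x) →
        ∃ y ∈ D.upart _ (hUniv.inter hW.compl), Φ y = x := by
      intro Φ hΦ x hx hex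
      have hex' : ∀ W : Set (Nat.Primes × Gam), ∃ y : Idele, y ∈ fixedPts D.top Idele ∧
          y ∈ unitIdeles ∧ ∀ q σ, W = cosetSet D.K q σ → (q ∈ T → y = 0) ∧ (q ∉ T →
            y ∈ D.upart (cosetSet D.K q σ) (isStableSet_cosetSet q σ) ∧
            Φ y = cut (M := M) (hM.trans D.top_le) (isStableSet_cosetSet (K := D.K) q σ) x) := by
        intro W
        by_cases hW' : ∃ q σ, q ∉ T ∧ W = cosetSet D.K q σ
        · obtain ⟨q, σ, hq, rfl⟩ := hW'
          obtain ⟨y, hy, hy'⟩ := hex q hq σ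
          refine ⟨y, hy.1.1, hy.2, fun q' σ' he => ?_⟩
          have hmem : (q', σ') ∈ cosetSet D.K q σ := he ▸ mem_cosetSet_self q' σ'
          obtain rfl : q' = q := hmem.1
          refine ⟨fun h => absurd h hq, fun _ =>
            ⟨⟨⟨hy.1.1, fun r γ h => hy.1.2 r γ (he ▸ h)⟩, hy.2⟩,
            hy'.trans (Idele.ext fun r γ => ?_)⟩⟩
          by_cases hγ : (r, γ) ∈ cosetSet D.K q' σ
          · rw [at_cut_of_mem _ _ _ hγ, at_cut_of_mem _ _ _ (by rwa [← he])]
          · rw [at_cut_of_notMem _ _ _ hγ, at_cut_of_notMem _ _ _ (by rwa [← he])]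
        · exact ⟨0, zero_mem _, zero_mem _, fun q σ he => ⟨fun _ => rfl, fun h =>
            absurd ⟨q, σ, h, he⟩ hW'⟩⟩
      choose P hPfix hPu hP using hex'
      obtain ⟨y, hy, hyu, hyat⟩ := exists_assemble (K := D.K) P D.top_le hM hPfix hPu
      refine ⟨y, ⟨⟨hy, fun q σ h => ?_⟩, hyu⟩, ?_⟩
      · rw [hyat, (hP _ q σ rfl).1 (by
          by_contra hq
          exact h ⟨trivial, hq⟩)]
        rfl
      · refine Idele.ext fun q σ => ?_
        have hcy : cut (M := M) (hM.trans D.top_le) (isStableSet_cosetSet (K := D.K) q σ) y =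
            cut (M := M) (hM.trans D.top_le) (isStableSet_cosetSet (K := D.K) q σ)
              (P (cosetSet D.K q σ)) := by
          refine Idele.ext fun r γ => ?_
          by_cases hγ : (r, γ) ∈ cosetSet D.K q σ
          · rw [at_cut_of_mem _ _ _ hγ, at_cut_of_mem _ _ _ hγ, hyat, cosetSet_eq_of_mem hγ]
          · rw [at_cut_of_notMem _ _ _ hγ, at_cut_of_notMem _ _ _ hγ]
        have h3 := hΦ y q σ _ (isStableSet_cosetSet (K := D.K) q σ)
        rw [hcy, hΦ, at_cut_of_mem _ _ _ (mem_cosetSet_self q σ),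
          at_cut_of_mem _ _ _ (mem_cosetSet_self q σ)] at h3
        rw [← h3]
        by_cases hq : q ∈ T
        · rw [(hP _ q σ rfl).1 hq, map_zero]
          exact (hx.1.2 q σ fun h => h.2 hq).symm
        · rw [((hP _ q σ rfl).2 hq).2]
          exact at_cut_of_mem _ _ _ (mem_cosetSet_self q σ)
    let Nm : Idele →+ Idele := ∑ i ∈ Finset.range p, DistribSMul.toAddMonoidHom Idele (D.g ^ i)
    have hNm : ∀ y, Nm y = ∑ i ∈ Finset.range p, D.g ^ i • y := fun y =>
      (AddMonoidHom.finsetSum_apply _ _ _).trans rfl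
    have hcutN : ∀ y W (hW' : IsStableSet D.bot W),
        Nm (cut (M := M) (hM.trans D.top_le) hW' y) =
          cut (M := M) (hM.trans D.top_le) hW' (Nm y) := by
      intro y W hW'
      rw [hNm, hNm, map_sum]
      exact Finset.sum_congr rfl fun i _ =>
        (cut_smul (hM.trans D.top_le) hW' (D.bot.pow_mem D.mem i) y).symm
    let dd : Idele →+ Idele := DistribSMul.toAddMonoidHom Idele D.g - AddMonoidHom.id Idele
    have hcutd : ∀ y W (hW' : IsStableSet D.bot W),
        dd (cut (M := M) (hM.trans D.top_le) hW' y) =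
          cut (M := M) (hM.trans D.top_le) hW' (dd y) := by
      intro y W hW'
      show D.g • _ - _ = cut _ hW' (D.g • y - y)
      rw [map_sub, cut_smul (hM.trans D.top_le) hW' D.mem]
      rfl
    constructor
    · intro x hx hfix
      obtain ⟨y, hy, hy'⟩ := step Nm (fun y q σ W hW' => by rw [hcutN]) x hx fun q hq σ => by
        obtain ⟨y, hy, hy'⟩ := (hloc q hq σ).1 _ (hcut q σ x hx) (by
          rw [← cut_smul (hM.trans D.top_le) _ D.mem, hfix])
        exact ⟨y, hy, by rw [hNm]; exact hy'⟩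
      exact ⟨y, hy, (hNm y).symm.trans hy'⟩
    · intro x hx hN
      exact step dd (fun y q σ W hW' => by rw [hcutd]) x hx fun q hq σ => by
        obtain ⟨y, hy, hy'⟩ := (hloc q hq σ).2 _ (hcut q σ x hx) (by
          rw [← hNm, hcutN, hNm, hN, map_zero])
        exact ⟨y, hy, hy'⟩
  have h3 := D.herbrand_upart_split hUniv hW (by rw [h1]; exact one_ne_zero)
    (by rw [h2]; exact one_ne_zero)
  rw [h1, h2, one_mul] at h3
  let e : D.upart Set.univ hUniv ≃+ D.allUnits :=
    { toFun := fun x => ⟨x.1, x.2.1.1, x.2.2⟩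
      invFun := fun x => ⟨x.1, ⟨x.2.1, fun q σ h => absurd trivial h⟩, x.2.2⟩
      left_inv := fun _ => rfl
      right_inv := fun _ => rfl
      map_add' := fun _ _ => rfl }
  have h := hQuot_congr e (f := (D.upartEnd Set.univ hUniv - 1 : AddMonoid.End _))
    (g := cycNorm p (D.upartEnd Set.univ hUniv)) (f' := (D.allUnitsEnd - 1 : AddMonoid.End _))
    (g' := cycNorm p D.allUnitsEnd) (fun a => rfl)
    (fun a => cycNorm_apply_comm p e.toAddMonoidHom (fun a => rfl) a)
  exact (congrArg₂ (fun a b : ℕ => (a : ℚ) / (b : ℚ)) h.1 h.2).trans h3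

end CyclicStep

end FLTAgent.IdeleClassCohomology
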